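/-
S28 (Igusa) support library: shared definitions and interface structures.
Owner: helper28.  Everything downstream imports this file.
(`GoodPair` lives in `Fermat/Agent/S28/GoodPair.lean`, owner helper27.)
-/
import Mathlib
import Fermat.Prelude.Def_ModularCurve_IgusaScheme
import Fermat.Prelude.Def_ModularCurve_X0ModL

set_option autoImplicit false

noncomputable section

namespace Fermat.Agent.S28

open ModularCurve Polynomial

section jd

variable (R : Type*) [CommRing R]

/-- `j(q^d)` with coefficients in `R` (junk value `0` for `d = 0`). -/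
def jd (d : ℕ) : LaurentSeries R :=
  if h : d = 0 then 0 else haveI : NeZero d := ⟨h⟩; qExpand R d (jqModC R)

theorem jd_eq (d : ℕ) [NeZero d] : jd R d = qExpand R d (jqModC R) := by
  unfold jd
  rw [dif_neg (NeZero.ne d)]

theorem jd_one : jd R 1 = jqModC R := by
  rw [jd_eq, qExpand_one_apply]

theorem jd_rat (d : ℕ) [NeZero d] : jd ℚ d = qExpand ℚ d jq := jd_eq ℚ d

theorem jd_rat_one : jd ℚ 1 = jq := jd_one ℚ

variable {R}

theorem coeffMap_jd {S : Type*} [CommRing S] (f : R →+* S) (d : ℕ) :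
    coeffMap f (jd R d) = jd S d := by
  unfold jd
  by_cases h : d = 0
  · rw [dif_pos h, dif_pos h, map_zero]
  · rw [dif_neg h, dif_neg h]
    haveI : NeZero d := ⟨h⟩
    rw [coeffMap_qExpand, coeffMap_jqModC]

/-- `j(q^(d*e)) = (j(q^e))(q^d)`. -/
theorem qExpand_jd (d e : ℕ) [NeZero d] [NeZero e] :
    qExpand R d (jd R e) = jd R (d * e) := by
  haveI : NeZero (d * e) := ⟨Nat.mul_ne_zero (NeZero.ne d) (NeZero.ne e)⟩
  rw [jd_eq, jd_eq, qExpand_qExpand]

end jd

section PhiAt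

variable {R : Type*} [CommRing R]

/-- Specialise the coefficient variable `Y` of `Φ ∈ ℤ[Y][X]` to `y ∈ R`. -/
def PhiAt (Φ : Polynomial (Polynomial ℤ)) (y : R) : Polynomial R :=
  Φ.map (Polynomial.eval₂RingHom (Int.castRingHom R) y)

theorem PhiAt_map {S : Type*} [CommRing S] (f : R →+* S) (Φ : Polynomial (Polynomial ℤ)) (y : R) :
    (PhiAt Φ y).map f = PhiAt Φ (f y) := by
  unfold PhiAt
  rw [Polynomial.map_map]
  congr 1
  refine Polynomial.ringHom_ext (fun a => ?_) ?_
  · simp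
  · simp

theorem PhiAt_monic {Φ : Polynomial (Polynomial ℤ)} (h : Φ.Monic) (y : R) : (PhiAt Φ y).Monic :=
  h.map _

theorem PhiAt_natDegree [Nontrivial R] {Φ : Polynomial (Polynomial ℤ)} (h : Φ.Monic) (y : R) :
    (PhiAt Φ y).natDegree = Φ.natDegree :=
  h.natDegree_map _

theorem PhiAt_derivative (Φ : Polynomial (Polynomial ℤ)) (y : R) :
    PhiAt (Polynomial.derivative Φ) y = Polynomial.derivative (PhiAt Φ y) := by
  unfold PhiAt
  rw [Polynomial.derivative_map]

/-- Ring homomorphisms commute with `PhiAt` and evaluation. -/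
theorem map_eval_PhiAt {S : Type*} [CommRing S] (f : R →+* S) (Φ : Polynomial (Polynomial ℤ))
    (y x : R) : f ((PhiAt Φ y).eval x) = (PhiAt Φ (f y)).eval (f x) := by
  rw [← PhiAt_map f, Polynomial.eval_map, Polynomial.eval₂_at_apply]

end PhiAt

section Delta

variable (R : Type*) [CommRing R]

/-- `Δ(q) = q ∏ (1 - q^n)^24` as a Laurent series over `R`. -/
def DeltaL : LaurentSeries R :=
  HahnSeries.single (1 : ℤ) 1 *
    HahnSeries.ofPowerSeries ℤ R (dedekindEtaUnit.map (Int.castRingHom R))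

/-- `Δ(q)⁻¹`. -/
def DeltaLInv : LaurentSeries R :=
  HahnSeries.single (-1 : ℤ) 1 *
    HahnSeries.ofPowerSeries ℤ R (dedekindEtaUnitInv.map (Int.castRingHom R))

/-- The modular unit `u_p(q) = Δ(q^p) / Δ(q)` (junk value `0` for `p = 0`). -/
def uL (p : ℕ) : LaurentSeries R :=
  (if h : p = 0 then 0 else haveI : NeZero p := ⟨h⟩; qExpand R p (DeltaL R)) * DeltaLInv R

end Delta

/-- Char-0 formal input for a prime `p`: the modular polynomial `Φ_p ∈ ℤ[Y][X]`, an integrality
polynomial `W` for `p^12 Δ(q^p)/Δ(q)` and a polynomial `H` expressing the modular unit through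
`j(q), j(q^p)`.  All identities are in `ℤ((q))`. -/
structure HeckeData (p : ℕ) : Type where
  /-- the modular polynomial, `X` the outer variable, `Y` the inner one -/
  Φ : Polynomial (Polynomial ℤ)
  monic : Φ.Monic
  natDegree_eq : Φ.natDegree = p + 1
  /-- `Φ(j(q^p), j(q)) = 0` -/
  root : (PhiAt Φ (jd ℤ 1)).eval (jd ℤ p) = 0
  /-- `Φ(j(q), j(q^p)) = 0` -/
  root' : (PhiAt Φ (jd ℤ p)).eval (jd ℤ 1) = 0
  W : Polynomial (Polynomial ℤ)
  W_monic : W.Monic
  /-- `p^12 u_p` is integral over `ℤ[j]` -/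
  W_root : (PhiAt W (jd ℤ 1)).eval ((p : LaurentSeries ℤ) ^ 12 * uL ℤ p) = 0
  H : Polynomial (Polynomial ℤ)
  /-- `H(j(q^p), j(q)) = p^12 u_p ⬝ (∂Φ/∂X)(j(q^p), j(q))` -/
  H_eq : (PhiAt H (jd ℤ 1)).eval (jd ℤ p) =
    (p : LaurentSeries ℤ) ^ 12 * uL ℤ p * (PhiAt (Polynomial.derivative Φ) (jd ℤ 1)).eval (jd ℤ p)

/-- `f` has no nontrivial factorisation into monic polynomials with coefficients in `E`. -/
def IrredOver {L : Type*} [CommRing L] (E : Set L) (f : Polynomial L) : Prop :=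
  ∀ a b : Polynomial L, a.Monic → b.Monic → (∀ i, a.coeff i ∈ E) → (∀ i, b.coeff i ∈ E) →
    a * b = f → a = 1 ∨ b = 1

theorem IrredOver.mono {L : Type*} [CommRing L] {E E' : Set L} {f : Polynomial L}
    (h : IrredOver E' f) (hE : E ⊆ E') : IrredOver E f :=
  fun a b ha hb hae hbe hab => h a b ha hb (fun i => hE (hae i)) (fun i => hE (hbe i)) hab

/-- The field over which the `a`-th step of the `p`-chain above level `M` is irreducible:
generated by the `j(q^d)`, `d ∣ M`, and the `j(q^(p^c))`, `c ≤ a` (coefficients mod `ℓ`). -/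
def chainField (ℓ : ℕ) [Fact ℓ.Prime] (M p a : ℕ) : Subfield (LaurentSeries (ZMod ℓ)) :=
  Subfield.closure ((modularFunctionFieldFullC (ZMod ℓ) M : Set (LaurentSeries (ZMod ℓ))) ∪
    {x | ∃ c : ℕ, c ≤ a ∧ x = jd (ZMod ℓ) (p ^ c)})

/-- The Gauss valuation ring of `ℚ(j)` at `ℓ`, i.e. `ℤ_(ℓ)[j]` localised at `(ℓ)`, as a subring
of `ℚ((q))`: generated by `j` and the inverses of the `b(j)`, `b ∈ ℤ[Y]` nonzero mod `ℓ`. -/
def R0 (ℓ : ℕ) : Subring (LaurentSeries ℚ) :=
  Subring.closure ({jq} ∪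
    {x | ∃ b : Polynomial ℤ, b.map (Int.castRingHom (ZMod ℓ)) ≠ 0 ∧
      x = (Polynomial.aeval jq b)⁻¹})

end Fermat.Agent.S28
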