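/-
S28 block [E] (construction of `HeckeData p`): shared FORMAL definitions and the pinned
interface `AnalyticInput p` between the analytic and the formal half.
Owner: helper51.  Frozen once landed.
-/
import Mathlib
import Fermat.Agent.S28.Defs

set_option autoImplicit false

noncomputable section

namespace Fermat.Agent.S28

open ModularCurve Polynomial

section formal

variable (R : Type*) [CommRing R] (p : ℕ) [NeZero p]

/-- The `r`-th section of a Laurent series: `secL R p r f = ∑ₙ f_{p n + r} qⁿ`. -/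
def secL (r : ℤ) (f : LaurentSeries R) : LaurentSeries R :=
  HahnSeries.ofSuppBddBelow (fun n : ℤ => f.coeff ((p : ℤ) * n + r))
    ⟨min 0 (f.order - r), fun m hm => by
      by_contra hlt
      rw [not_le] at hlt
      apply hm
      apply HahnSeries.coeff_eq_zero_of_lt_order
      have hp : (1 : ℤ) ≤ (p : ℤ) := by exact_mod_cast Nat.pos_of_ne_zero (NeZero.ne p)
      have h0 : m < 0 := lt_of_lt_of_le hlt (min_le_left _ _)
      have h1 : m < f.order - r := lt_of_lt_of_le hlt (min_le_right _ _)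
      nlinarith⟩

@[simp]
theorem secL_coeff (r : ℤ) (f : LaurentSeries R) (n : ℤ) :
    (secL R p r f).coeff n = f.coeff ((p : ℤ) * n + r) := by
  simp [secL]

/-- The matrix of multiplication by `f` on `R((t)) = ⊕_{i < p} tⁱ R((tᵖ))`:
`∑ᵢ tⁱ · (mulMat f i k)(tᵖ) = tᵏ · f`. -/
def mulMat (f : LaurentSeries R) : Matrix (Fin p) (Fin p) (LaurentSeries R) :=
  fun i k => secL R p ((i : ℤ) - (k : ℤ)) f

theorem mulMat_apply (f : LaurentSeries R) (i k : Fin p) :
    mulMat R p f i k = secL R p ((i : ℤ) - (k : ℤ)) f := rfl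

/-- The characteristic polynomial of multiplication by `f` (coefficients are series in `q = tᵖ`). -/
def chiL (f : LaurentSeries R) : Polynomial (LaurentSeries R) := (mulMat R p f).charpoly

/-- The Euler / Lagrange polynomial `Tr (M_y · adj (X - M_f))`. -/
def eulerL (f y : LaurentSeries R) : Polynomial (LaurentSeries R) :=
  Matrix.trace ((mulMat R p y).map Polynomial.C * (Matrix.charmatrix (mulMat R p f)).adjugate)

/-- `Δ(q) / Δ(qᵖ)`, the inverse of the modular unit `u_p`. -/
def invU : LaurentSeries R := DeltaL R * qExpand R p (DeltaLInv R)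

/-- `p¹² Δ(qᵖ) / Δ(q)`. -/
def wInf : LaurentSeries R := (p : LaurentSeries R) ^ 12 * uL R p

end formal

/-- Two-variable evaluation `P(X = x, Y = y)` of `P ∈ K[Y][X]` (`X` the outer variable) in a
`K`-algebra. -/
def ev2 {K A : Type*} [CommRing K] [CommRing A] [Algebra K A] (P : Polynomial (Polynomial K))
    (x y : A) : A :=
  (P.map ((Polynomial.aeval y : Polynomial K →ₐ[K] A) : Polynomial K →+* A)).eval x

theorem ev2_def {K A : Type*} [CommRing K] [CommRing A] [Algebra K A]
    (P : Polynomial (Polynomial K)) (x y : A) :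
    ev2 P x y =
      (P.map ((Polynomial.aeval y : Polynomial K →ₐ[K] A) : Polynomial K →+* A)).eval x := rfl

/-- The pinned interface between the analytic and the formal half of block [E]: modular
polynomials over `ℂ` with the six identities in `ℂ((q))`. -/
def AnalyticInput (p : ℕ) [NeZero p] : Prop :=
  ∃ Φc Wc Hc : Polynomial (Polynomial ℂ),
    Φc.Monic ∧ Φc.natDegree = p + 1 ∧ Wc.Monic ∧ Wc.natDegree = p + 1 ∧ Hc.natDegree ≤ p ∧
    ev2 Φc (jd ℂ p) (jd ℂ 1) = 0 ∧
    ev2 Φc (jd ℂ 1) (jd ℂ p) = 0 ∧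
    ev2 Wc (wInf ℂ p) (jd ℂ 1) = 0 ∧
    ev2 Wc (invU ℂ p) (jd ℂ p) = 0 ∧
    ev2 Hc (jd ℂ p) (jd ℂ 1) = wInf ℂ p * ev2 (Polynomial.derivative Φc) (jd ℂ p) (jd ℂ 1) ∧
    ev2 Hc (jd ℂ 1) (jd ℂ p) = invU ℂ p * ev2 (Polynomial.derivative Φc) (jd ℂ 1) (jd ℂ p)

end Fermat.Agent.S28
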