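/-
S28 block [E]: shared ANALYTIC definitions and the function-level interface `AnalyticFun p`.
Owner: helper51.  Frozen once landed.
-/
import Mathlib
import Fermat.Agent.S23.Basic
import Fermat.Agent.LevelOne.JDef
import Fermat.Agent.S28.HeckeDefs

set_option autoImplicit false

noncomputable section

namespace Fermat.Agent.S28

open UpperHalfPlane ModularForm Polynomial
open Fermat.Agent.S23 Fermat.Agent.LevelOne

/-- `p¹² Δ(p z) / Δ(z)`. -/
def hkW (p : ℕ) [NeZero p] (z : ℍ) : ℂ :=
  (p : ℂ) ^ 12 * ModularForm.discriminant (mulN p z) / ModularForm.discriminant z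

/-- `Δ(z) / Δ(p z)`. -/
def hkV (p : ℕ) [NeZero p] (z : ℍ) : ℂ :=
  ModularForm.discriminant z / ModularForm.discriminant (mulN p z)

theorem hkW_apply (p : ℕ) [NeZero p] (z : ℍ) :
    hkW p z = (p : ℂ) ^ 12 * ModularForm.discriminant (mulN p z) / ModularForm.discriminant z :=
  rfl

theorem hkV_apply (p : ℕ) [NeZero p] (z : ℍ) :
    hkV p z = ModularForm.discriminant z / ModularForm.discriminant (mulN p z) := rfl

/-- The function-level interface of block [E]: modular polynomials over `ℂ` with the six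
identities as identities of functions on the upper half plane. -/
def AnalyticFun (p : ℕ) [NeZero p] : Prop :=
  ∃ Φc Wc Hc : Polynomial (Polynomial ℂ),
    Φc.Monic ∧ Φc.natDegree = p + 1 ∧ Wc.Monic ∧ Wc.natDegree = p + 1 ∧ Hc.natDegree ≤ p ∧
    ∀ z : ℍ,
      ev2 Φc (jFun (mulN p z)) (jFun z) = 0 ∧
      ev2 Φc (jFun z) (jFun (mulN p z)) = 0 ∧
      ev2 Wc (hkW p z) (jFun z) = 0 ∧
      ev2 Wc (hkV p z) (jFun (mulN p z)) = 0 ∧
      ev2 Hc (jFun (mulN p z)) (jFun z) =
        hkW p z * ev2 (Polynomial.derivative Φc) (jFun (mulN p z)) (jFun z) ∧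
      ev2 Hc (jFun z) (jFun (mulN p z)) =
        hkV p z * ev2 (Polynomial.derivative Φc) (jFun z) (jFun (mulN p z))

end Fermat.Agent.S28
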