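/-
S28 block [E], analytic half, coset route (T2): the two distinguished cosets of `SL(2, ℤ) ⧸ Γ₀(p)`.
Owner: helper94.

* `ECosetPts.card_QN`: `Nat.card (S24.QN p) = p + 1` for `p` prime.
* `ECosetPts.trans_hkW_of_mem_Gamma0`: `hkW p` is `Γ₀(p)`-invariant.
* `ECosetPts.cjt_jAt_one`, `ECosetPts.cjt_hkW_one`: the values of the coset families at the
  coset of `1` are `j (p z)` and `hkW p z`.
* `ECosetPts.cjt_jAt_S`, `ECosetPts.cjt_hkW_S`: the values of the coset families at the coset of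
  `S`, evaluated at `p z`, are `j z` and `hkV p z`.
-/
import Mathlib
import Fermat.Agent.S20.Cosets
import Fermat.Agent.S24.NormPoly
import Fermat.Agent.S24.AnDistinct
import Fermat.Agent.S28.HeckeAnDefs

set_option autoImplicit false

namespace Fermat.Agent.S28.ECosetPts

open UpperHalfPlane ModularForm
open scoped MatrixGroups ModularForm
open Fermat.Agent.S23 Fermat.Agent.LevelOne Fermat.Agent.S24

/-- The Dedekind `ψ` function of a prime. -/
theorem dedekindPsi_prime {p : ℕ} (hp : p.Prime) : ModularCurve.dedekindPsi p = p + 1 := by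
  have h := Fermat.Agent.S20.CosetModel.dedekindPsi_prime_mul_of_not_dvd p 1 hp one_ne_zero
    (fun h1 => hp.one_lt.ne' (Nat.dvd_one.mp h1))
  rwa [mul_one, ModularCurve.dedekindPsi_one, mul_one] at h

/-- `[SL(2, ℤ) : Γ₀(p)] = p + 1` for `p` prime. -/
theorem card_QN (p : ℕ) [NeZero p] (hp : p.Prime) : Nat.card (S24.QN p) = p + 1 := by
  rw [← dedekindPsi_prime hp]
  exact Fermat.Agent.S20.card_Q p

/-- `S⁻¹` acts as `S`. -/
theorem S_inv_smul (w : ℍ) : (ModularGroup.S)⁻¹ • w = ModularGroup.S • w := by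
  have h : ModularGroup.S • (ModularGroup.S • w) = w := by
    apply UpperHalfPlane.ext
    rw [UpperHalfPlane.modular_S_smul, UpperHalfPlane.modular_S_smul]
    simp
  calc (ModularGroup.S)⁻¹ • w
      = (ModularGroup.S)⁻¹ • (ModularGroup.S • (ModularGroup.S • w)) := by rw [h]
    _ = ModularGroup.S • w := inv_smul_smul _ _

/-- `p · S (p z) = S z`. -/
theorem mulN_S_smul_mulN (p : ℕ) [NeZero p] (z : ℍ) :
    mulN p (ModularGroup.S • mulN p z) = ModularGroup.S • z := by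
  apply UpperHalfPlane.ext
  rw [coe_mulN, UpperHalfPlane.modular_S_smul, UpperHalfPlane.modular_S_smul]
  have hp : (p : ℂ) ≠ 0 := Nat.cast_ne_zero.mpr (NeZero.ne p)
  have hz : (z : ℂ) ≠ 0 := UpperHalfPlane.ne_zero z
  show (p : ℂ) * (-((mulN p z : ℍ) : ℂ))⁻¹ = (-(z : ℂ))⁻¹
  rw [coe_mulN]
  field_simp

/-- The translate of `j (p ·)` by `S`, evaluated at `p z`, is `j z`. -/
theorem trans_S_jAt (p : ℕ) [NeZero p] (z : ℍ) :
    S24.trans ModularGroup.S (S24.jAt p) (mulN p z) = jFun z := by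
  rw [S24.trans_apply, S24.jAt_apply, S_inv_smul, mulN_S_smul_mulN, jFun_smul]

/-- The translate of `hkW p` by `S`, evaluated at `p z`, is `hkV p z`. -/
theorem trans_S_hkW (p : ℕ) [NeZero p] (z : ℍ) :
    S24.trans ModularGroup.S (hkW p) (mulN p z) = hkV p z := by
  rw [S24.trans_apply, hkW_apply, hkV_apply, S_inv_smul, mulN_S_smul_mulN,
    discriminant_apply_smul, discriminant_apply_smul, ModularGroup.denom_S, ModularGroup.denom_S,
    coe_mulN]
  have hp : (p : ℂ) ≠ 0 := Nat.cast_ne_zero.mpr (NeZero.ne p)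
  have hz : (z : ℂ) ≠ 0 := UpperHalfPlane.ne_zero z
  have h1 := ModularForm.discriminant_ne_zero z
  have h2 := ModularForm.discriminant_ne_zero (mulN p z)
  have e1 : (z : ℂ) ^ (12 : ℤ) = (z : ℂ) ^ (12 : ℕ) := by norm_cast
  have e2 : ((p : ℂ) * (z : ℂ)) ^ (12 : ℤ) = ((p : ℂ) * (z : ℂ)) ^ (12 : ℕ) := by norm_cast
  rw [e1, e2]
  field_simp

/-- For `δ` with `d ∣ δ 1 0`: `d (δ z) = δ' (d z)` with `δ' ∈ SL(2, ℤ)` having the same
automorphy factor. -/
theorem exists_mulN_smul_eq_denom (d : ℕ) [NeZero d] (δ : SL(2, ℤ)) (hδ : (d : ℤ) ∣ δ 1 0) :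
    ∃ δ' : SL(2, ℤ), ∀ z : ℍ, mulN d (δ • z) = δ' • mulN d z ∧
      denom δ' (mulN d z) = denom δ z := by
  obtain ⟨c', hc'⟩ := hδ
  have hdet : δ 0 0 * δ 1 1 - δ 0 1 * δ 1 0 = 1 := by
    have := δ.det_coe
    rwa [Matrix.det_fin_two] at this
  have hdet' : Matrix.det !![δ 0 0, (d : ℤ) * δ 0 1; c', δ 1 1] = 1 := by
    rw [Matrix.det_fin_two_of]
    rw [hc'] at hdet
    linarith
  refine ⟨⟨!![δ 0 0, (d : ℤ) * δ 0 1; c', δ 1 1], hdet'⟩, fun z => ?_⟩
  have hc'' : ((δ 1 0 : ℤ) : ℂ) = (d : ℂ) * (c' : ℂ) := by exact_mod_cast hc'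
  set δ' : SL(2, ℤ) := ⟨!![δ 0 0, (d : ℤ) * δ 0 1; c', δ 1 1], hdet'⟩ with hδ'
  have e00 : (δ' 0 0 : ℤ) = δ 0 0 := rfl
  have e01 : (δ' 0 1 : ℤ) = (d : ℤ) * δ 0 1 := rfl
  have e10 : (δ' 1 0 : ℤ) = c' := rfl
  have e11 : (δ' 1 1 : ℤ) = δ 1 1 := rfl
  have hden : denom δ' (mulN d z) = denom δ z := by
    rw [ModularGroup.denom_apply, ModularGroup.denom_apply, e10, e11, coe_mulN, hc'']
    ring
  refine ⟨?_, hden⟩
  have hden0 : denom δ z ≠ 0 := denom_ne_zero _ _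
  have hden1 : denom δ' (mulN d z) ≠ 0 := denom_ne_zero _ _
  rw [ModularGroup.denom_apply] at hden0 hden1
  apply UpperHalfPlane.ext
  rw [coe_mulN, UpperHalfPlane.coe_specialLinearGroup_apply,
    UpperHalfPlane.coe_specialLinearGroup_apply]
  simp only [algebraMap_int_eq, Int.coe_castRingHom, Complex.ofReal_intCast]
  rw [e10, e11] at hden1
  rw [e00, e01, e10, e11, coe_mulN]
  rw [coe_mulN] at hden1
  rw [hc''] at hden0 ⊢
  rw [mul_div_assoc', div_eq_div_iff hden0 hden1]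
  push_cast
  ring

/-- `hkW p (g z) = hkW p z` for `g` with `p ∣ g 1 0`. -/
theorem hkW_smul (p : ℕ) [NeZero p] (g : SL(2, ℤ)) (hg : (p : ℤ) ∣ g 1 0) (z : ℍ) :
    hkW p (g • z) = hkW p z := by
  obtain ⟨δ', hδ'⟩ := exists_mulN_smul_eq_denom p g hg
  obtain ⟨h1, h2⟩ := hδ' z
  rw [hkW_apply, hkW_apply, h1, discriminant_apply_smul, discriminant_apply_smul, h2]
  have hd : denom g z ≠ 0 := denom_ne_zero _ _
  have hΔ1 := ModularForm.discriminant_ne_zero z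
  have e1 : denom g z ^ (12 : ℤ) = denom g z ^ (12 : ℕ) := by norm_cast
  rw [e1]
  field_simp

/-- `hkW p` is invariant under `Γ₀(p)`. -/
theorem trans_hkW_of_mem_Gamma0 (p : ℕ) [NeZero p] {γ : SL(2, ℤ)}
    (hγ : γ ∈ CongruenceSubgroup.Gamma0 p) : S24.trans γ (hkW p) = hkW p := by
  funext z
  have hγ' : γ⁻¹ ∈ CongruenceSubgroup.Gamma0 p := inv_mem hγ
  rw [CongruenceSubgroup.Gamma0_mem] at hγ'
  have hdvd : (p : ℤ) ∣ (γ⁻¹ : SL(2, ℤ)) 1 0 :=
    (ZMod.intCast_zmod_eq_zero_iff_dvd _ _).mp hγ'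
  rw [S24.trans_apply]
  exact hkW_smul p γ⁻¹ hdvd z

/-- `j (p ·)` is invariant under `Γ₀(p)`. -/
theorem trans_jAt_of_mem_Gamma0 (p : ℕ) [NeZero p] {γ : SL(2, ℤ)}
    (hγ : γ ∈ CongruenceSubgroup.Gamma0 p) : S24.trans γ (S24.jAt p) = S24.jAt p :=
  S24.trans_jAt_of_mem_Gamma0 p p dvd_rfl hγ

/-- The member of a coset family at the coset of `1` is the function itself. -/
theorem cjt_one {N : ℕ} {φ : ℍ → ℂ}
    (hinv : ∀ γ ∈ CongruenceSubgroup.Gamma0 N, S24.trans γ φ = φ) :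
    S24.NormPoly.cjt N φ (QuotientGroup.mk (1 : SL(2, ℤ))) = φ := by
  rw [S24.NormPoly.cjt_mk hinv, S24.trans_one]

/-- The member of a coset family at the coset of `g` is the translate by `g`. -/
theorem cjt_mk_apply {N : ℕ} {φ : ℍ → ℂ}
    (hinv : ∀ γ ∈ CongruenceSubgroup.Gamma0 N, S24.trans γ φ = φ) (g : SL(2, ℤ)) (z : ℍ) :
    S24.NormPoly.cjt N φ (QuotientGroup.mk g) z = φ (g⁻¹ • z) := by
  rw [S24.NormPoly.cjt_mk hinv, S24.trans_apply]

/-- Value of the `j`-family at the coset of `1`. -/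
theorem cjt_jAt_one (p : ℕ) [NeZero p] (z : ℍ) :
    S24.NormPoly.cjt p (S24.jAt p) (QuotientGroup.mk (1 : SL(2, ℤ))) z = jFun (mulN p z) := by
  rw [cjt_one (fun γ hγ => trans_jAt_of_mem_Gamma0 p hγ), S24.jAt_apply]

/-- Value of the `hkW`-family at the coset of `1`. -/
theorem cjt_hkW_one (p : ℕ) [NeZero p] (z : ℍ) :
    S24.NormPoly.cjt p (hkW p) (QuotientGroup.mk (1 : SL(2, ℤ))) z = hkW p z := by
  rw [cjt_one (fun γ hγ => trans_hkW_of_mem_Gamma0 p hγ)]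

/-- Value of the `j`-family at the coset of `S`, at the point `p z`. -/
theorem cjt_jAt_S (p : ℕ) [NeZero p] (z : ℍ) :
    S24.NormPoly.cjt p (S24.jAt p) (QuotientGroup.mk ModularGroup.S) (mulN p z) = jFun z := by
  rw [S24.NormPoly.cjt_mk (fun γ hγ => trans_jAt_of_mem_Gamma0 p hγ), trans_S_jAt]

/-- Value of the `hkW`-family at the coset of `S`, at the point `p z`. -/
theorem cjt_hkW_S (p : ℕ) [NeZero p] (z : ℍ) :
    S24.NormPoly.cjt p (hkW p) (QuotientGroup.mk ModularGroup.S) (mulN p z) = hkV p z := by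
  rw [S24.NormPoly.cjt_mk (fun γ hγ => trans_hkW_of_mem_Gamma0 p hγ), trans_S_hkW]

end Fermat.Agent.S28.ECosetPts
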