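/-
S28 (Igusa), block [L]: generic extension of embeddings along an irreducible polynomial, and
algebraicity of the full modular function field over its level-one part.
Owner: helper40.
-/
import Fermat.Agent.S28.Defs

set_option autoImplicit false

noncomputable section

namespace Fermat.Agent.S28

open ModularCurve Polynomial

section Extension

variable {F0 T0 Ω : Type*} [Field F0] [Field T0] [Algebra F0 T0] [Field Ω] [IsAlgClosed Ω]

/-- **Generic extension lemma.**  Let `K1 ≤ L` be intermediate fields of `T0 / F0` with `L`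
algebraic over `K1`, `θ : T0 →+* Ω` a ring homomorphism into an algebraically closed field,
`f` a monic polynomial with coefficients in `K1`, irreducible over `K1` (in the sense of
`IrredOver`), `α ∈ L` a root of `f` and `y ∈ Ω` a root of `θ(f)`.  Then there is a ring
homomorphism `Ψ : L →+* Ω` which agrees with `θ` on `K1` and sends `α` to `y`. -/
theorem exists_ringHom_of_irredOver (K1 L : IntermediateField F0 T0) (hKL : K1 ≤ L)
    (halg : ∀ x ∈ L, IsAlgebraic ↥K1 x) (θ : T0 →+* Ω) (f : Polynomial T0) (hf : f.Monic)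
    (hfK : ∀ i, f.coeff i ∈ K1) (hirr : IrredOver (K1 : Set T0) f) (hdeg : f.natDegree ≠ 0)
    (α : T0) (hαL : α ∈ L) (hα : f.eval α = 0) (y : Ω) (hy : (f.map θ).eval y = 0) :
    ∃ Ψ : ↥L →+* Ω, (∀ x : ↥L, (x : T0) ∈ K1 → Ψ x = θ x) ∧
      ∀ x : ↥L, (x : T0) = α → Ψ x = y := by
  classical
  -- lift `f` to `K1[X]`
  have hlift : f ∈ Polynomial.lifts (algebraMap ↥K1 T0) := by
    rw [Polynomial.lifts_iff_coeff_lifts]
    intro n
    exact ⟨⟨f.coeff n, hfK n⟩, rfl⟩
  obtain ⟨f₀, hf₀, -, hf₀mon⟩ := Polynomial.lifts_and_natDegree_eq_and_monic hlift hf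
  have hinjK : Function.Injective (algebraMap ↥K1 T0) := (algebraMap ↥K1 T0).injective
  -- `α` is integral over `K1`, with minimal polynomial `f₀`
  have hαroot : Polynomial.aeval α f₀ = 0 := by
    rw [Polynomial.aeval_def, ← Polynomial.eval_map, hf₀]
    exact hα
  have hαint : IsIntegral ↥K1 α := ⟨f₀, hf₀mon, hαroot⟩
  have hmin : minpoly ↥K1 α = f₀ := by
    obtain ⟨b, hb⟩ := minpoly.dvd ↥K1 α hαroot
    have hmmon : (minpoly ↥K1 α).Monic := minpoly.monic hαint
    have hbmon : b.Monic := by
      have h1 : (minpoly ↥K1 α * b).Monic := hb ▸ hf₀mon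
      exact hmmon.of_mul_monic_left h1
    have hprod : (minpoly ↥K1 α).map (algebraMap ↥K1 T0) * b.map (algebraMap ↥K1 T0) = f := by
      rw [← Polynomial.map_mul, ← hb, hf₀]
    rcases hirr _ _ (hmmon.map _) (hbmon.map _)
        (fun i => by rw [Polynomial.coeff_map]; exact ((minpoly ↥K1 α).coeff i).2)
        (fun i => by rw [Polynomial.coeff_map]; exact (b.coeff i).2) hprod with h1 | h1
    · exfalso
      have h2 : minpoly ↥K1 α = 1 :=
        Polynomial.map_injective _ hinjK (by rw [h1, Polynomial.map_one])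
      exact minpoly.ne_one ↥K1 α h2
    · have h2 : b = 1 := Polynomial.map_injective _ hinjK (by rw [h1, Polynomial.map_one])
      rw [hb, h2, mul_one]
  -- algebra structures
  let algKL : Algebra ↥K1 ↥L := (IntermediateField.inclusion hKL).toRingHom.toAlgebra
  have towKL : IsScalarTower ↥K1 ↥L T0 := IsScalarTower.of_algebraMap_eq fun _ => rfl
  let algKΩ : Algebra ↥K1 Ω := (θ.comp (algebraMap ↥K1 T0)).toAlgebra
  have hminL : minpoly ↥K1 (⟨α, hαL⟩ : ↥L) = minpoly ↥K1 α :=
    (minpoly.algebraMap_eq (algebraMap ↥L T0).injective (⟨α, hαL⟩ : ↥L)).symm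
  have hyroot : Polynomial.aeval y (minpoly ↥K1 (⟨α, hαL⟩ : ↥L)) = 0 := by
    rw [hminL, hmin, Polynomial.aeval_def]
    have h1 : algebraMap ↥K1 Ω = θ.comp (algebraMap ↥K1 T0) := rfl
    rw [h1, ← Polynomial.eval_map, ← Polynomial.map_map, hf₀]
    exact hy
  have hK' : ∀ s : ↥L, IsIntegral ↥K1 s ∧
      ((minpoly ↥K1 s).map (algebraMap ↥K1 Ω)).Splits := by
    intro s
    refine ⟨?_, IsAlgClosed.splits _⟩
    have h1 : IsAlgebraic ↥K1 ((algebraMap ↥L T0) s) := halg s s.2
    have h2 : IsAlgebraic ↥K1 s :=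
      (isAlgebraic_algebraMap_iff (algebraMap ↥L T0).injective).mp h1
    exact h2.isIntegral
  obtain ⟨φ, hφ⟩ := IntermediateField.exists_algHom_of_splits_of_aeval hK' hyroot
  refine ⟨φ.toRingHom, ?_, ?_⟩
  · intro x hx
    have h1 : x = algebraMap ↥K1 ↥L ⟨(x : T0), hx⟩ := Subtype.ext rfl
    have h2 : φ x = algebraMap ↥K1 Ω ⟨(x : T0), hx⟩ := by
      conv_lhs => rw [h1]
      exact φ.commutes _
    exact h2
  · intro x hx
    have h1 : x = ⟨α, hαL⟩ := Subtype.ext hx
    rw [h1]
    exact hφ

end Extension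

section Algebraic

/-- `Φ_r(j(q^(e r)), j(q^e)) = 0` over any coefficient ring. -/
theorem fieldEmb_root_jd {r : ℕ} (hd : HeckeData r) (R : Type*) [CommRing R] (hr : r ≠ 0)
    (e : ℕ) (he : e ≠ 0) : (PhiAt hd.Φ (jd R e)).eval (jd R (e * r)) = 0 := by
  have : NeZero r := ⟨hr⟩
  have : NeZero e := ⟨he⟩
  have h0 : (PhiAt hd.Φ (jd R 1)).eval (jd R r) = 0 := by
    have h := congrArg (coeffMap (Int.castRingHom R)) hd.root
    rwa [map_eval_PhiAt, coeffMap_jd, coeffMap_jd, map_zero] at h
  have h := congrArg (qExpand R e) h0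
  rwa [map_eval_PhiAt, qExpand_jd, qExpand_jd, mul_one, map_zero] at h

variable (K : Type*) [Field K]

/-- Every `j(q^d)` is algebraic over `K(j)`. -/
theorem isAlgebraic_jd (hE : ∀ r : ℕ, r.Prime → Nonempty (HeckeData r)) (d : ℕ) (hd : d ≠ 0) :
    IsAlgebraic ↥(modularFunctionFieldFullC K 1) (jd K d) := by
  induction d using Nat.strong_induction_on with
  | _ d ih =>
    rcases eq_or_ne d 1 with rfl | hd1
    · have hmem : jd K 1 ∈ modularFunctionFieldFullC K 1 := by
        rw [jd_one]
        exact jqModC_mem_full K 1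
      exact isAlgebraic_algebraMap (⟨jd K 1, hmem⟩ : ↥(modularFunctionFieldFullC K 1))
    · -- `d = d' * r` with `r` prime
      have hr : (Nat.minFac d).Prime := Nat.minFac_prime hd1
      obtain ⟨d', hd'⟩ := Nat.minFac_dvd d
      have hd'0 : d' ≠ 0 := by
        rintro rfl
        exact hd (by rw [hd', mul_zero])
      have hd'lt : d' < d := by
        have h2 : 2 ≤ Nat.minFac d := hr.two_le
        have hpos : 0 < d' := Nat.pos_of_ne_zero hd'0
        calc d' = 1 * d' := (one_mul d').symm
          _ < Nat.minFac d * d' := Nat.mul_lt_mul_of_pos_right (by omega) hpos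
          _ = d := hd'.symm
      obtain ⟨hdat⟩ := hE _ hr
      have hroot : (PhiAt hdat.Φ (jd K d')).eval (jd K d) = 0 := by
        have := fieldEmb_root_jd hdat K hr.ne_zero d' hd'0
        rwa [mul_comm d' (Nat.minFac d), ← hd'] at this
      have ih' : IsAlgebraic ↥(modularFunctionFieldFullC K 1) (jd K d') := ih d' hd'lt hd'0
      -- the relative algebraic closure of `K(j)` in the Laurent series field
      let A := algebraicClosure ↥(modularFunctionFieldFullC K 1) (LaurentSeries K)
      have hyA : jd K d' ∈ A := (mem_algebraicClosure_iff).mpr ih'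
      have hcoeff : ∀ q : Polynomial ℤ,
          Polynomial.eval₂ (Int.castRingHom (LaurentSeries K)) (jd K d') q ∈ A := by
        intro q
        rw [Polynomial.eval₂_eq_sum_range]
        refine sum_mem fun i _ => mul_mem ?_ (pow_mem hyA i)
        rw [eq_intCast]
        exact intCast_mem A _
      have hlift : PhiAt hdat.Φ (jd K d') ∈ Polynomial.lifts (algebraMap ↥A (LaurentSeries K)) := by
        rw [Polynomial.lifts_iff_coeff_lifts]
        intro n
        refine ⟨⟨(PhiAt hdat.Φ (jd K d')).coeff n, ?_⟩, rfl⟩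
        unfold PhiAt
        rw [Polynomial.coeff_map]
        exact hcoeff _
      obtain ⟨P₀, hP₀, -, hP₀mon⟩ := Polynomial.lifts_and_natDegree_eq_and_monic hlift
        (PhiAt_monic hdat.monic _)
      have hint : IsIntegral ↥A (jd K d) := by
        refine ⟨P₀, hP₀mon, ?_⟩
        rw [← Polynomial.eval_map, hP₀]
        exact hroot
      have hAalg : Algebra.IsAlgebraic ↥(modularFunctionFieldFullC K 1) ↥A :=
        algebraicClosure.isAlgebraic _ _
      have hAint : Algebra.IsIntegral ↥(modularFunctionFieldFullC K 1) ↥A :=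
        Algebra.IsAlgebraic.isIntegral
      exact (isIntegral_trans (R := ↥(modularFunctionFieldFullC K 1)) (jd K d) hint).isAlgebraic

/-- The full modular function field of level `D` (coefficients in `K`) is algebraic over the
level-one field `K(j)`. -/
theorem isAlgebraic_fullC (hE : ∀ r : ℕ, r.Prime → Nonempty (HeckeData r)) (D : ℕ) :
    ∀ x ∈ modularFunctionFieldFullC K D, IsAlgebraic ↥(modularFunctionFieldFullC K 1) x := by
  have hle : modularFunctionFieldFullC K D ≤
      (algebraicClosure ↥(modularFunctionFieldFullC K 1) (LaurentSeries K)).restrictScalars K := by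
    unfold modularFunctionFieldFullC
    rw [IntermediateField.adjoin_le_iff]
    rintro x ⟨d, hne, -, rfl⟩
    have hx : IsAlgebraic ↥(modularFunctionFieldFullC K 1) (jd K d) :=
      isAlgebraic_jd K hE d (NeZero.ne d)
    rw [jd_eq] at hx
    exact (mem_algebraicClosure_iff).mpr hx
  intro x hx
  exact (mem_algebraicClosure_iff).mp (hle hx)

/-- Algebraicity in the shape used by the char-`ℓ` block. -/
theorem isAlgebraic_full (ℓ : ℕ) [Fact ℓ.Prime] (hE : ∀ r : ℕ, r.Prime → Nonempty (HeckeData r))
    (D : ℕ) [NeZero D] (hℓD : ¬ ℓ ∣ D) :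
    ∀ x ∈ modularFunctionFieldFullC (ZMod ℓ) D,
      IsAlgebraic ↥(modularFunctionFieldFullC (ZMod ℓ) 1) x :=
  isAlgebraic_fullC (ZMod ℓ) hE D

end Algebraic

end Fermat.Agent.S28
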