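/-
S28 block [E], analytic half (owner: helper49): the product-form core of the coset route,
WITHOUT Newton identities.

For `x w ∈ S24.NormPoly.goodSub N` the polynomials
`∏_q (X - x_q)`, `∏_q (X - w_q)` and `∑_q w_q ∏_{q' ≠ q} (X - x_{q'})`
(`x_q = cjt N x q` the translate attached to the coset `q ∈ SL(2, ℤ) ⧸ Γ₀(N)`) have coefficients
which are polynomials in `j`: they are holomorphic, `SL(2, ℤ)`-invariant (the translates are
permuted) and meromorphic at `i∞`.
-/
import Mathlib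
import Fermat.Agent.S24.NormPoly
import Fermat.Agent.LevelOne.PolyInJ
import Fermat.Agent.S28.HeckeAnDefs

set_option autoImplicit false

namespace Fermat.Agent.S28.ECosetProd

open UpperHalfPlane Filter Topology Polynomial
open scoped MatrixGroups Manifold ModularForm
open Fermat.Agent.S24 Fermat.Agent.LevelOne Fermat.Agent.S23

local notation "Δ" => ModularForm.discriminant

/-! ### The algebra of holomorphic functions which are meromorphic at `i∞` -/

/-- Holomorphic functions on `ℍ` which become bounded at `i∞` after multiplication by a power of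
`Δ`. -/
def tameSub : Subalgebra ℂ (ℍ → ℂ) where
  carrier := {f | MDiff f ∧ ∃ m : ℕ, IsBoundedAtImInfty (fun z => Δ z ^ m * f z)}
  mul_mem' := by
    rintro f₁ f₂ ⟨h1, m1, hm1⟩ ⟨h2, m2, hm2⟩
    refine ⟨h1.mul h2, m1 + m2, ?_⟩
    have e : (fun z => Δ z ^ (m1 + m2) * (f₁ * f₂) z) =
        (fun z => Δ z ^ m1 * f₁ z) * (fun z => Δ z ^ m2 * f₂ z) := by
      funext z
      simp only [Pi.mul_apply, pow_add]
      ring
    rw [e]
    exact hm1.mul hm2
  add_mem' := by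
    rintro f₁ f₂ ⟨h1, m1, hm1⟩ ⟨h2, m2, hm2⟩
    refine ⟨h1.add h2, m1 + m2, ?_⟩
    have hΔ : ∀ m : ℕ, IsBoundedAtImInfty (fun z : ℍ => Δ z ^ m) := fun m =>
      (boundedFilterSubalgebra ℂ atImInfty).pow_mem NormPoly.bdd_discriminant m
    have e : (fun z => Δ z ^ (m1 + m2) * (f₁ + f₂) z) =
        (fun z : ℍ => Δ z ^ m2) * (fun z => Δ z ^ m1 * f₁ z) +
          (fun z : ℍ => Δ z ^ m1) * (fun z => Δ z ^ m2 * f₂ z) := by
      funext z
      simp only [Pi.mul_apply, Pi.add_apply, pow_add]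
      ring
    rw [e]
    exact ((hΔ m2).mul hm1).add ((hΔ m1).mul hm2)
  algebraMap_mem' := by
    intro c
    refine ⟨mdifferentiable_const, 0, ?_⟩
    have e : (fun z : ℍ => Δ z ^ 0 * (algebraMap ℂ (ℍ → ℂ) c) z) = fun _ => c := by
      funext z
      simp
    rw [e]
    exact const_boundedAtFilter atImInfty c

theorem mem_tameSub {f : ℍ → ℂ} :
    f ∈ tameSub ↔ MDiff f ∧ ∃ m : ℕ, IsBoundedAtImInfty (fun z => Δ z ^ m * f z) := Iff.rfl

theorem cjt_mem_tameSub {N : ℕ} {φ : ℍ → ℂ} (hφ : φ ∈ NormPoly.goodSub N) (q : QN N) :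
    NormPoly.cjt N φ q ∈ tameSub := by
  obtain ⟨hol, -, hmer⟩ := hφ
  exact ⟨NormPoly.mdiff_trans hol _, hmer _⟩

/-! ### Polynomials over the ring of functions -/

/-- Evaluation at a point, as a ring homomorphism. -/
noncomputable abbrev evz (z : ℍ) : (ℍ → ℂ) →+* ℂ := Pi.evalRingHom (fun _ : ℍ => ℂ) z

/-- A polynomial over `ℍ → ℂ` whose coefficients are tame and whose specialisations at `z` and
`γ • z` agree for all `γ ∈ SL(2, ℤ)` has coefficients which are polynomials in `j`. -/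
theorem exists_poly_coeff (F : Polynomial (ℍ → ℂ)) (hF : ∀ k, F.coeff k ∈ tameSub)
    (hinv : ∀ (γ : SL(2, ℤ)) (z : ℍ), F.map (evz (γ • z)) = F.map (evz z)) (k : ℕ) :
    ∃ Q : Polynomial ℂ, ∀ z : ℍ, (F.map (evz z)).coeff k = Q.eval (jFun z) := by
  obtain ⟨hol, m, hm⟩ := hF k
  have hi : ∀ (γ : SL(2, ℤ)) (z : ℍ), F.coeff k (γ • z) = F.coeff k z := by
    intro γ z
    have h := congrArg (fun P : Polynomial ℂ => P.coeff k) (hinv γ z)
    simpa [Polynomial.coeff_map] using h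
  obtain ⟨Q, -, hQ⟩ := exists_polynomial_of_invariant hol hi m hm
  exact ⟨Q, fun z => by rw [Polynomial.coeff_map]; exact hQ z⟩

/-- Coefficients of a polynomial built from tame functions are tame. -/
theorem coeff_mem_of_mem_lifts {F : Polynomial (ℍ → ℂ)}
    (hF : F ∈ Polynomial.liftsRing (tameSub.val : tameSub →+* (ℍ → ℂ))) (k : ℕ) :
    F.coeff k ∈ tameSub := by
  have h : F ∈ Polynomial.lifts (tameSub.val : tameSub →+* (ℍ → ℂ)) := hF
  obtain ⟨a, ha⟩ := (Polynomial.lifts_iff_coeff_lifts F).mp h k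
  rw [← ha]
  exact a.2

theorem X_sub_C_mem_lifts {f : ℍ → ℂ} (hf : f ∈ tameSub) :
    (X - C f : Polynomial (ℍ → ℂ)) ∈ Polynomial.liftsRing (tameSub.val : tameSub →+* (ℍ → ℂ)) :=
  Subring.sub_mem _ (Polynomial.X_mem_lifts _)
    (Polynomial.C_mem_lifts (tameSub.val : tameSub →+* (ℍ → ℂ)) (⟨f, hf⟩ : tameSub))

theorem C_mem_lifts' {f : ℍ → ℂ} (hf : f ∈ tameSub) :
    (C f : Polynomial (ℍ → ℂ)) ∈ Polynomial.liftsRing (tameSub.val : tameSub →+* (ℍ → ℂ)) :=
  Polynomial.C_mem_lifts (tameSub.val : tameSub →+* (ℍ → ℂ)) (⟨f, hf⟩ : tameSub)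

/-! ### Packaging pointwise polynomials with coefficients in `ℂ[J]` -/

theorem package_monic {J : ℍ → ℂ} {n : ℕ} (F : ℍ → Polynomial ℂ) (hmonic : ∀ z, (F z).Monic)
    (hdeg : ∀ z, (F z).natDegree = n)
    (hc : ∀ k : ℕ, ∃ Q : Polynomial ℂ, ∀ z, (F z).coeff k = Q.eval (J z)) :
    ∃ Φ₀ : Polynomial (Polynomial ℂ), Φ₀.Monic ∧ Φ₀.natDegree = n ∧
      ∀ z, Φ₀.map (Polynomial.evalRingHom (J z)) = F z := by
  choose Q hQ using hc
  have hlt : (∑ i : Fin n, C (Q i) * X ^ (i : ℕ) : Polynomial (Polynomial ℂ)).degree < n :=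
    degree_sum_fin_lt (fun i : Fin n => Q i)
  refine ⟨X ^ n + ∑ i : Fin n, C (Q i) * X ^ (i : ℕ), monic_X_pow_add hlt, ?_, fun z => ?_⟩
  · rw [add_comm]
    have h := natDegree_add_eq_right_of_degree_lt (p := ∑ i : Fin n, C (Q i) * X ^ (i : ℕ))
      (q := (X ^ n : Polynomial (Polynomial ℂ))) (by rwa [degree_X_pow])
    rw [h, natDegree_X_pow]
  · have h1 := (hmonic z).as_sum
    rw [hdeg z] at h1
    refine Eq.trans ?_ h1.symm
    simp only [Polynomial.map_add, Polynomial.map_pow, Polynomial.map_X, Polynomial.map_sum,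
      Polynomial.map_mul, Polynomial.map_C, coe_evalRingHom]
    rw [Fin.sum_univ_eq_sum_range (fun i => C ((Q i).eval (J z)) * X ^ i) n]
    congr 1
    refine Finset.sum_congr rfl fun i _ => ?_
    rw [hQ i z]

theorem package_lt {J : ℍ → ℂ} {n : ℕ} (F : ℍ → Polynomial ℂ)
    (hdeg : ∀ z, (F z).natDegree < n)
    (hc : ∀ k : ℕ, ∃ Q : Polynomial ℂ, ∀ z, (F z).coeff k = Q.eval (J z)) :
    ∃ H₀ : Polynomial (Polynomial ℂ), H₀.natDegree ≤ n - 1 ∧
      ∀ z, H₀.map (Polynomial.evalRingHom (J z)) = F z := by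
  choose Q hQ using hc
  refine ⟨∑ i : Fin n, C (Q i) * X ^ (i : ℕ), ?_, fun z => ?_⟩
  · refine natDegree_sum_le_of_forall_le _ _ fun i _ => ?_
    refine (natDegree_C_mul_le _ _).trans ?_
    rw [natDegree_X_pow]
    have := i.2
    omega
  · have h1 := (F z).as_sum_range' n (hdeg z)
    refine Eq.trans ?_ h1.symm
    simp only [Polynomial.map_sum, Polynomial.map_mul, Polynomial.map_C, Polynomial.map_pow,
      Polynomial.map_X, coe_evalRingHom]
    rw [Fin.sum_univ_eq_sum_range (fun i => C ((Q i).eval (J z)) * X ^ i) n]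
    refine Finset.sum_congr rfl fun i _ => ?_
    rw [hQ i z, C_mul_X_pow_eq_monomial]

/-! ### The three polynomials attached to a pair of functions -/

section Main

variable (N : ℕ) [Fintype (QN N)] [DecidableEq (QN N)]

/-- `∏_q (X - x_q)` over the ring of functions. -/
noncomputable def PhiF (x : ℍ → ℂ) : Polynomial (ℍ → ℂ) :=
  ∏ q : QN N, (X - C (NormPoly.cjt N x q))

/-- `∑_q w_q ∏_{q' ≠ q} (X - x_{q'})` over the ring of functions. -/
noncomputable def HF (x w : ℍ → ℂ) : Polynomial (ℍ → ℂ) :=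
  ∑ q : QN N, C (NormPoly.cjt N w q) *
    ∏ q' ∈ Finset.univ.erase q, (X - C (NormPoly.cjt N x q'))

omit [DecidableEq (QN N)] in
theorem PhiF_map (x : ℍ → ℂ) (z : ℍ) :
    (PhiF N x).map (evz z) = ∏ q : QN N, (X - C (NormPoly.cjt N x q z)) := by
  simp [PhiF, Polynomial.map_prod]

theorem HF_map (x w : ℍ → ℂ) (z : ℍ) :
    (HF N x w).map (evz z) = ∑ q : QN N, C (NormPoly.cjt N w q z) *
      ∏ q' ∈ Finset.univ.erase q, (X - C (NormPoly.cjt N x q' z)) := by
  simp [HF, Polynomial.map_sum, Polynomial.map_prod]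

variable {N}

omit [DecidableEq (QN N)] in
theorem PhiF_coeff_mem {x : ℍ → ℂ} (hx : x ∈ NormPoly.goodSub N) (k : ℕ) :
    (PhiF N x).coeff k ∈ tameSub :=
  coeff_mem_of_mem_lifts
    (Subring.prod_mem _ fun q _ => X_sub_C_mem_lifts (cjt_mem_tameSub hx q)) k

theorem HF_coeff_mem {x w : ℍ → ℂ} (hx : x ∈ NormPoly.goodSub N) (hw : w ∈ NormPoly.goodSub N)
    (k : ℕ) : (HF N x w).coeff k ∈ tameSub :=
  coeff_mem_of_mem_lifts
    (Subring.sum_mem _ fun q _ => Subring.mul_mem _ (C_mem_lifts' (cjt_mem_tameSub hw q))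
      (Subring.prod_mem _ fun q' _ => X_sub_C_mem_lifts (cjt_mem_tameSub hx q'))) k

omit [DecidableEq (QN N)] in
theorem PhiF_inv {x : ℍ → ℂ} (hx : x ∈ NormPoly.goodSub N) (γ : SL(2, ℤ)) (z : ℍ) :
    (PhiF N x).map (evz (γ • z)) = (PhiF N x).map (evz z) := by
  rw [PhiF_map, PhiF_map]
  have hinv := hx.2.1
  simp_rw [NormPoly.cjt_smul hinv]
  exact Equiv.prod_comp (MulAction.toPerm (γ⁻¹ : SL(2, ℤ)))
    (fun q : QN N => (X - C (NormPoly.cjt N x q z) : Polynomial ℂ))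

theorem HF_inv {x w : ℍ → ℂ} (hx : x ∈ NormPoly.goodSub N) (hw : w ∈ NormPoly.goodSub N)
    (γ : SL(2, ℤ)) (z : ℍ) :
    (HF N x w).map (evz (γ • z)) = (HF N x w).map (evz z) := by
  rw [HF_map, HF_map]
  have hinvx := hx.2.1
  have hinvw := hw.2.1
  let σ : Equiv.Perm (QN N) := MulAction.toPerm (γ⁻¹ : SL(2, ℤ))
  let G : QN N → Polynomial ℂ := fun q => C (NormPoly.cjt N w q z) *
    ∏ q' ∈ Finset.univ.erase q, (X - C (NormPoly.cjt N x q' z) : Polynomial ℂ)
  have hterm : ∀ q : QN N, C (NormPoly.cjt N w q (γ • z)) *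
      ∏ q' ∈ Finset.univ.erase q, (X - C (NormPoly.cjt N x q' (γ • z)) : Polynomial ℂ) =
        G (σ q) := by
    intro q
    have h1 : NormPoly.cjt N w q (γ • z) = NormPoly.cjt N w (σ q) z :=
      NormPoly.cjt_smul hinvw γ q z
    have h2 : ∏ q' ∈ Finset.univ.erase q, (X - C (NormPoly.cjt N x q' (γ • z)) : Polynomial ℂ) =
        ∏ q'' ∈ Finset.univ.erase (σ q), (X - C (NormPoly.cjt N x q'' z) : Polynomial ℂ) := by
      refine Finset.prod_equiv σ (fun i => ?_) (fun i _ => ?_)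
      · simp only [Finset.mem_erase, Finset.mem_univ, and_true, ne_eq,
          EmbeddingLike.apply_eq_iff_eq]
      · rw [NormPoly.cjt_smul hinvx γ i z]
        rfl
    rw [h1, h2]
  rw [Finset.sum_congr rfl fun q _ => hterm q]
  exact Equiv.sum_comp σ G

/-- **Product forms.** For `x w ∈ goodSub N` the polynomials `∏_q (X - x_q)`, `∏_q (X - w_q)`
and `∑_q w_q ∏_{q' ≠ q} (X - x_{q'})` are specialisations at `Y = j` of polynomials in
`ℂ[Y][X]`. -/
theorem exists_prodForm [NeZero N] {x w : ℍ → ℂ} (hx : x ∈ NormPoly.goodSub N)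
    (hw : w ∈ NormPoly.goodSub N) :
    ∃ Φ₀ W₀ H₀ : Polynomial (Polynomial ℂ),
      Φ₀.Monic ∧ Φ₀.natDegree = Fintype.card (QN N) ∧
      W₀.Monic ∧ W₀.natDegree = Fintype.card (QN N) ∧
      H₀.natDegree ≤ Fintype.card (QN N) - 1 ∧
      ∀ z : ℍ,
        Φ₀.map (Polynomial.evalRingHom (jFun z)) =
          ∏ q : QN N, (X - C (NormPoly.cjt N x q z)) ∧
        W₀.map (Polynomial.evalRingHom (jFun z)) =
          ∏ q : QN N, (X - C (NormPoly.cjt N w q z)) ∧
        H₀.map (Polynomial.evalRingHom (jFun z)) =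
          ∑ q : QN N, C (NormPoly.cjt N w q z) *
            ∏ q' ∈ Finset.univ.erase q, (X - C (NormPoly.cjt N x q' z)) := by
  have hmonic : ∀ (y : ℍ → ℂ) (z : ℍ), ((PhiF N y).map (evz z)).Monic := fun y z => by
    rw [PhiF_map]
    exact monic_prod_X_sub_C _ _
  have hdeg : ∀ (y : ℍ → ℂ) (z : ℍ),
      ((PhiF N y).map (evz z)).natDegree = Fintype.card (QN N) := fun y z => by
    rw [PhiF_map, natDegree_prod_of_monic _ _ (fun q _ => monic_X_sub_C _)]
    simp
  obtain ⟨Φ₀, hΦm, hΦd, hΦ⟩ := package_monic (J := jFun) (fun z => (PhiF N x).map (evz z))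
    (hmonic x) (hdeg x) (fun k => exists_poly_coeff _ (PhiF_coeff_mem hx) (PhiF_inv hx) k)
  obtain ⟨W₀, hWm, hWd, hW⟩ := package_monic (J := jFun) (fun z => (PhiF N w).map (evz z))
    (hmonic w) (hdeg w) (fun k => exists_poly_coeff _ (PhiF_coeff_mem hw) (PhiF_inv hw) k)
  have hcard : 0 < Fintype.card (QN N) := Fintype.card_pos
  have hHdeg : ∀ z : ℍ, ((HF N x w).map (evz z)).natDegree < Fintype.card (QN N) := fun z => by
    rw [HF_map]
    refine lt_of_le_of_lt (natDegree_sum_le_of_forall_le _ _ (n := Fintype.card (QN N) - 1)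
      fun q _ => ?_) (by omega)
    refine (natDegree_C_mul_le _ _).trans ?_
    refine (natDegree_prod_le _ _).trans ?_
    refine (Finset.sum_le_card_nsmul _ _ 1 fun q' _ => natDegree_X_sub_C_le _).trans ?_
    simp [Finset.card_erase_of_mem]
  obtain ⟨H₀, hHd, hH⟩ := package_lt (J := jFun) (fun z => (HF N x w).map (evz z)) hHdeg
    (fun k => exists_poly_coeff _ (HF_coeff_mem hx hw) (HF_inv hx hw) k)
  refine ⟨Φ₀, W₀, H₀, hΦm, hΦd, hWm, hWd, hHd, fun z => ⟨?_, ?_, ?_⟩⟩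
  · rw [hΦ z, PhiF_map]
  · rw [hW z, PhiF_map]
  · rw [hH z, HF_map]

end Main

/-! ### Pointwise algebra: roots and the Euler/Lagrange identity -/

section Alg

variable {R : Type*} [CommRing R] {ι : Type*} [Fintype ι] [DecidableEq ι]

omit [DecidableEq ι] in
theorem eval_prod_X_sub_C_self (x : ι → R) (i₀ : ι) :
    (∏ i : ι, (X - C (x i))).eval (x i₀) = 0 := by
  rw [Polynomial.eval_prod]
  exact Finset.prod_eq_zero (Finset.mem_univ i₀) (by simp)

theorem eval_lagrange_self (x v : ι → R) (i₀ : ι) :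
    (∑ i : ι, C (v i) * ∏ k ∈ Finset.univ.erase i, (X - C (x k))).eval (x i₀) =
      v i₀ * (derivative (∏ i : ι, (X - C (x i)))).eval (x i₀) := by
  have hzero : ∀ i : ι, i ≠ i₀ →
      (∏ k ∈ Finset.univ.erase i, (X - C (x k))).eval (x i₀) = 0 := by
    intro i hi
    rw [Polynomial.eval_prod]
    exact Finset.prod_eq_zero (Finset.mem_erase.mpr ⟨hi.symm, Finset.mem_univ i₀⟩) (by simp)
  rw [Polynomial.eval_finsetSum, Finset.sum_eq_single i₀
    (fun i _ hi => by rw [Polynomial.eval_mul, hzero i hi, mul_zero])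
    (fun h => absurd (Finset.mem_univ i₀) h)]
  rw [Polynomial.derivative_prod_finset, Polynomial.eval_finsetSum, Finset.sum_eq_single i₀
    (fun i _ hi => by rw [Polynomial.eval_mul, hzero i hi, zero_mul])
    (fun h => absurd (Finset.mem_univ i₀) h)]
  simp

end Alg

theorem ev2_complex (P : Polynomial (Polynomial ℂ)) (x y : ℂ) :
    ev2 P x y = (P.map (Polynomial.evalRingHom y)).eval x := by
  rw [ev2_def]
  congr 2

theorem ev2_derivative_complex (P : Polynomial (Polynomial ℂ)) (x y : ℂ) :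
    ev2 (derivative P) x y = (derivative (P.map (Polynomial.evalRingHom y))).eval x := by
  rw [ev2_complex, Polynomial.derivative_map]

/-! ### The conjugate polynomials -/

/-- For `x w ∈ goodSub N` there are `Φc Wc Hc ∈ ℂ[Y][X]` with `Φc(trans g x, j) = 0`,
`Wc(trans g w, j) = 0` and `Hc(trans g x, j) = trans g w · ∂_X Φc(trans g x, j)` for all
`g ∈ SL(2, ℤ)`. -/
theorem exists_conj_polys (N : ℕ) [NeZero N] {n : ℕ} (hn : Nat.card (QN N) = n) {x w : ℍ → ℂ}
    (hx : x ∈ NormPoly.goodSub N) (hw : w ∈ NormPoly.goodSub N) :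
    ∃ Φc Wc Hc : Polynomial (Polynomial ℂ),
      Φc.Monic ∧ Φc.natDegree = n ∧ Wc.Monic ∧ Wc.natDegree = n ∧ Hc.natDegree ≤ n - 1 ∧
      ∀ (g : SL(2, ℤ)) (z : ℍ),
        ev2 Φc (trans g x z) (jFun z) = 0 ∧
        ev2 Wc (trans g w z) (jFun z) = 0 ∧
        ev2 Hc (trans g x z) (jFun z) =
          trans g w z * ev2 (derivative Φc) (trans g x z) (jFun z) := by
  classical
  let _ : Fintype (QN N) := Fintype.ofFinite (QN N)
  have hcard : Fintype.card (QN N) = n := by rw [← hn, Nat.card_eq_fintype_card]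
  obtain ⟨Φc, Wc, Hc, hΦm, hΦd, hWm, hWd, hHd, h⟩ := exists_prodForm (N := N) hx hw
  refine ⟨Φc, Wc, Hc, hΦm, hΦd.trans hcard, hWm, hWd.trans hcard, hcard ▸ hHd, fun g z => ?_⟩
  obtain ⟨h1, h2, h3⟩ := h z
  have hxg : NormPoly.cjt N x (g : QN N) z = trans g x z := by
    rw [NormPoly.cjt_mk hx.2.1]
  have hwg : NormPoly.cjt N w (g : QN N) z = trans g w z := by
    rw [NormPoly.cjt_mk hw.2.1]
  refine ⟨?_, ?_, ?_⟩
  · rw [ev2_complex, h1, ← hxg]
    exact eval_prod_X_sub_C_self (fun q : QN N => NormPoly.cjt N x q z) (g : QN N)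
  · rw [ev2_complex, h2, ← hwg]
    exact eval_prod_X_sub_C_self (fun q : QN N => NormPoly.cjt N w q z) (g : QN N)
  · rw [ev2_complex, ev2_derivative_complex, h3, h1, ← hxg, ← hwg]
    exact eval_lagrange_self (fun q : QN N => NormPoly.cjt N x q z)
      (fun q : QN N => NormPoly.cjt N w q z) (g : QN N)

/-- The function-level interface `AnalyticFun p` from the `goodSub` memberships of `j(pz)` and
`p¹² Δ(pz)/Δ(z)`, their `S`-translates and the index `[SL(2, ℤ) : Γ₀(p)] = p + 1`. -/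
theorem analyticFun_of_goodSub (p : ℕ) [NeZero p] (hcard : Nat.card (QN p) = p + 1)
    (hj : jAt p ∈ NormPoly.goodSub p) (hW : hkW p ∈ NormPoly.goodSub p)
    (hSj : ∀ z : ℍ, trans ModularGroup.S (jAt p) (mulN p z) = jFun z)
    (hSW : ∀ z : ℍ, trans ModularGroup.S (hkW p) (mulN p z) = hkV p z) :
    AnalyticFun p := by
  obtain ⟨Φc, Wc, Hc, hΦm, hΦd, hWm, hWd, hHd, h⟩ := exists_conj_polys p hcard hj hW
  rw [Nat.add_sub_cancel] at hHd
  refine ⟨Φc, Wc, Hc, hΦm, hΦd, hWm, hWd, hHd, fun z => ?_⟩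
  obtain ⟨a1, a2, a3⟩ := h 1 z
  obtain ⟨b1, b2, b3⟩ := h ModularGroup.S (mulN p z)
  rw [trans_one, jAt_apply] at a1
  rw [trans_one] at a2
  rw [trans_one, trans_one, jAt_apply] at a3
  rw [hSj z] at b1
  rw [hSW z] at b2
  rw [hSj z, hSW z] at b3
  exact ⟨a1, b1, a2, b2, a3, b3⟩

end Fermat.Agent.S28.ECosetProd
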