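/-
S28 block [E], analytic half (T2 sub-block; owner: helper9).

Membership of `hkW p` (`z ↦ p¹² Δ(p z) / Δ(z)`) and `jAt p` (`z ↦ j(p z)`) in the algebra
`S24.NormPoly.goodSub p` of holomorphic `Γ₀(p)`-invariant functions all of whose
`SL(2, ℤ)`-translates are meromorphic at `i∞`.
-/
import Mathlib
import Fermat.Agent.S24.NormPolyMain
import Fermat.Agent.S23.LevelN
import Fermat.Agent.S23.Distinct
import Fermat.Agent.S28.HeckeAnDefs

set_option autoImplicit false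

namespace Fermat.Agent.S28

open UpperHalfPlane ModularForm
open scoped MatrixGroups Manifold ModularForm

/-- `z ↦ j(p z)` lies in `goodSub p`. -/
theorem jAt_mem_goodSub (p : ℕ) [NeZero p] : S24.jAt p ∈ S24.NormPoly.goodSub p := by
  refine ⟨?_, fun γ hγ => ?_, fun g => ?_⟩
  · have h := (S24.trans_jAt_mem_merSub_unfolded p p dvd_rfl 1).1
    rwa [S24.trans_one] at h
  · exact S24.trans_jAt_of_mem_Gamma0 p p dvd_rfl hγ
  · exact (S24.trans_jAt_mem_merSub_unfolded p p dvd_rfl g).2.2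

/-- The translate of `hkW p` by `g` in terms of the slash action on `Δ(p ·)`. -/
theorem EHkW_trans_apply (p : ℕ) [NeZero p] (g : SL(2, ℤ)) (z : ℍ) :
    S24.trans g (hkW p) z =
      (p : ℂ) ^ 12 * ((S23.uFun p) ∣[(12 : ℤ)] g⁻¹) z / ModularForm.discriminant z := by
  have hden : denom (g⁻¹ : SL(2, ℤ)) z ≠ 0 := denom_ne_zero _ _
  have h1 : ((S23.uFun p) ∣[(12 : ℤ)] g⁻¹) z =
      S23.uFun p (g⁻¹ • z) * denom (g⁻¹ : SL(2, ℤ)) z ^ (-(12 : ℤ)) :=
    ModularForm.SL_slash_apply _ _ _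
  have h2 : ModularForm.discriminant ((g⁻¹ : SL(2, ℤ)) • z) =
      ModularForm.discriminant z * denom (g⁻¹ : SL(2, ℤ)) z ^ (12 : ℤ) :=
    S23.discriminant_smul_eq _ _
  have hΔ := ModularForm.discriminant_ne_zero z
  have hz : denom (g⁻¹ : SL(2, ℤ)) z ^ (12 : ℤ) ≠ 0 := zpow_ne_zero _ hden
  rw [S24.trans_apply, hkW_apply, h1, h2, zpow_neg]
  show _ * S23.uFun p (g⁻¹ • z) / _ = _
  field_simp

/-- `hkW p` in terms of the weight-12 form `uN p` on `Γ₀(p)`. -/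
theorem EHkW_eq (p : ℕ) [NeZero p] :
    hkW p = fun z => (p : ℂ) ^ 12 * S23.uN p z / ModularForm.discriminant z := by
  funext z
  rw [hkW_apply, S23.coe_uN]
  rfl

/-- `z ↦ p¹² Δ(p z) / Δ(z)` is holomorphic. -/
theorem EHkW_mdiff (p : ℕ) [NeZero p] : MDiff (hkW p) := by
  rw [EHkW_eq]
  have h1 : MDiff (⇑(S23.uN p)) := ModularFormClass.holo (S23.uN p)
  have hΔ : MDiff (ModularForm.discriminant) := ModularFormClass.holo CuspForm.discriminant
  have h2 : MDiff (fun z : ℍ => (p : ℂ) ^ 12 * S23.uN p z) := mdifferentiable_const.mul h1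
  exact h2.div hΔ ModularForm.discriminant_ne_zero

/-- `z ↦ p¹² Δ(p z) / Δ(z)` lies in `goodSub p`. -/
theorem hkW_mem_goodSub (p : ℕ) [NeZero p] : hkW p ∈ S24.NormPoly.goodSub p := by
  refine ⟨EHkW_mdiff p, fun γ hγ => ?_, fun g => ⟨1, ?_⟩⟩
  · funext z
    rw [EHkW_trans_apply, ← S23.coe_uN]
    have hγ' : γ⁻¹ ∈ CongruenceSubgroup.Gamma0 p := inv_mem hγ
    have hsl : (⇑(S23.uN p)) ∣[(12 : ℤ)] γ⁻¹ = ⇑(S23.uN p) :=
      SlashInvariantForm.slash_action_eqn (S23.uN p) _ (Subgroup.mem_map_of_mem _ hγ')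
    rw [hsl, hkW_apply, S23.coe_uN]
    rfl
  · have e : (fun z : ℍ => ModularForm.discriminant z ^ 1 * S24.trans g (hkW p) z) =
        fun z : ℍ => (p : ℂ) ^ 12 * ((⇑(S23.uN p)) ∣[(12 : ℤ)] g⁻¹) z := by
      funext z
      rw [EHkW_trans_apply, S23.coe_uN, pow_one]
      have hΔ := ModularForm.discriminant_ne_zero z
      field_simp
    rw [e]
    have hb : IsBoundedAtImInfty ((⇑(S23.uN p)) ∣[(12 : ℤ)] g⁻¹) :=
      ModularFormClass.bdd_at_infty_slash (S23.uN p) g⁻¹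
    exact (Filter.const_boundedAtFilter _ ((p : ℂ) ^ 12)).mul hb

end Fermat.Agent.S28
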