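/-
S28 block [E], formal half F1 (owner: helper62).

`LaurentSeries R` is free of rank `p` over the image of `σ = qExpand R p` (`q ↦ q ^ p`) with basis
`1, q, …, q ^ (p - 1)`; `mulMat R p f` is the matrix of multiplication by `f`, `chiL R p f` its
characteristic polynomial and `eulerL R p f y = tr (M_y · adj (X - M_f))`.

Main results (any commutative ring `R`):
* `chiL_eval_self` (Cayley–Hamilton): `((chiL R p f).map σ).eval f = 0`;
* `eulerL_eval_self`: `((eulerL R p f y).map σ).eval f = y * (derivative ((chiL R p f).map σ)).eval f`;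
* base change along `coeffMap φ`.
-/
import Mathlib
import Fermat.Agent.S28.HeckeDefs

set_option autoImplicit false

noncomputable section

namespace Fermat.Agent.S28

open ModularCurve Polynomial

section

variable (R : Type*) [CommRing R] (p : ℕ) [NeZero p]

/-! ### Sections -/

theorem secL_add (r : ℤ) (f g : LaurentSeries R) :
    secL R p r (f + g) = secL R p r f + secL R p r g := by
  ext n
  simp

theorem secL_zero (r : ℤ) : secL R p r (0 : LaurentSeries R) = 0 := by
  ext n
  simp

theorem secL_sum {ι : Type*} (s : Finset ι) (r : ℤ) (f : ι → LaurentSeries R) :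
    secL R p r (∑ i ∈ s, f i) = ∑ i ∈ s, secL R p r (f i) := by
  classical
  induction s using Finset.induction_on with
  | empty => simp [secL_zero]
  | insert a s ha ih => rw [Finset.sum_insert ha, Finset.sum_insert ha, secL_add, ih]

theorem secL_single_mul_self (i : ℤ) (a : LaurentSeries R) :
    secL R p i (HahnSeries.single i (1 : R) * qExpand R p a) = a := by
  ext n
  rw [secL_coeff, HahnSeries.coeff_single_mul, one_mul, add_sub_cancel_right, qExpand_coeff_mul]

theorem secL_single_mul_of_not_dvd {r i : ℤ} (h : ¬ (p : ℤ) ∣ r - i) (a : LaurentSeries R) :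
    secL R p r (HahnSeries.single i (1 : R) * qExpand R p a) = 0 := by
  ext n
  rw [secL_coeff, HahnSeries.coeff_single_mul, one_mul, HahnSeries.coeff_zero]
  refine qExpand_coeff_of_not_dvd p a ?_
  intro hd
  apply h
  have : (p : ℤ) * n + r - i = (p : ℤ) * n + (r - i) := by ring
  rw [this] at hd
  exact (Int.dvd_add_right (dvd_mul_right _ _)).mp hd

theorem FormalNorm.not_dvd_sub {i k : Fin p} (h : i ≠ k) : ¬ (p : ℤ) ∣ ((i : ℕ) : ℤ) - ((k : ℕ) : ℤ) := by
  intro hd
  apply h
  have h1 : ((i : ℕ) : ℤ) - ((k : ℕ) : ℤ) = 0 := by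
    apply Int.eq_zero_of_abs_lt_dvd hd
    have hi := i.2
    have hk := k.2
    rw [abs_lt]
    constructor <;> omega
  apply Fin.ext
  omega

/-! ### Gluing -/

/-- `glueL v = ∑ᵢ qⁱ · σ (v i)`. -/
def glueL (v : Fin p → LaurentSeries R) : LaurentSeries R :=
  ∑ i : Fin p, HahnSeries.single ((i : ℕ) : ℤ) (1 : R) * qExpand R p (v i)

theorem secL_glueL (v : Fin p → LaurentSeries R) (k : Fin p) :
    secL R p ((k : ℕ) : ℤ) (glueL R p v) = v k := by
  rw [glueL, secL_sum, Finset.sum_eq_single k]
  · exact secL_single_mul_self R p _ _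
  · intro i _ hik
    exact secL_single_mul_of_not_dvd R p (FormalNorm.not_dvd_sub p (Ne.symm hik)) _
  · intro h
    exact absurd (Finset.mem_univ k) h

theorem glueL_injective : Function.Injective (glueL R p) := by
  intro v w h
  funext k
  rw [← secL_glueL R p v k, ← secL_glueL R p w k, h]

theorem glueL_add (v w : Fin p → LaurentSeries R) :
    glueL R p (v + w) = glueL R p v + glueL R p w := by
  simp [glueL, mul_add, Finset.sum_add_distrib]

theorem glueL_secL (f : LaurentSeries R) :
    glueL R p (fun i => secL R p ((i : ℕ) : ℤ) f) = f := by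
  have hp : (0 : ℤ) < (p : ℤ) := by exact_mod_cast Nat.pos_of_ne_zero (NeZero.ne p)
  ext m
  rw [glueL, HahnSeries.coeff_sum]
  have hm0 : 0 ≤ m % (p : ℤ) := Int.emod_nonneg _ hp.ne'
  have hm1 : m % (p : ℤ) < p := Int.emod_lt_of_pos _ hp
  have hlt : (m % (p : ℤ)).toNat < p := by omega
  set i₀ : Fin p := ⟨(m % (p : ℤ)).toNat, hlt⟩ with hi₀
  have hi₀v : ((i₀ : ℕ) : ℤ) = m % (p : ℤ) := by
    rw [hi₀]
    simp only []
    omega
  rw [Finset.sum_eq_single i₀]
  · rw [HahnSeries.coeff_single_mul, one_mul, hi₀v]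
    have h1 : m - m % (p : ℤ) = (p : ℤ) * (m / (p : ℤ)) := by
      have := Int.emod_add_mul_ediv m (p : ℤ)
      omega
    rw [h1, qExpand_coeff_mul, secL_coeff]
    congr 1
    have := Int.emod_add_mul_ediv m (p : ℤ)
    omega
  · intro i _ hi
    rw [HahnSeries.coeff_single_mul, one_mul]
    refine qExpand_coeff_of_not_dvd p _ ?_
    intro hd
    apply hi
    apply Fin.ext
    have h2 : (m - ((i : ℕ) : ℤ)) % (p : ℤ) = 0 := Int.emod_eq_zero_of_dvd hd
    have h3 : m % (p : ℤ) = ((i : ℕ) : ℤ) % (p : ℤ) := by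
      have := Int.emod_emod_of_dvd m (dvd_refl (p : ℤ))
      exact Int.emod_eq_emod_iff_emod_sub_eq_zero.mpr h2
    have h4 : ((i : ℕ) : ℤ) % (p : ℤ) = ((i : ℕ) : ℤ) :=
      Int.emod_eq_of_lt (by positivity) (by exact_mod_cast i.2)
    have : ((i₀ : ℕ) : ℤ) = ((i : ℕ) : ℤ) := by rw [hi₀v, h3, h4]
    exact_mod_cast this.symm
  · intro h
    exact absurd (Finset.mem_univ i₀) h


/-! ### The matrix of multiplication -/

theorem secL_mul_single (r k : ℤ) (f : LaurentSeries R) :
    secL R p r (f * HahnSeries.single k (1 : R)) = secL R p (r - k) f := by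
  ext n
  rw [secL_coeff, secL_coeff, HahnSeries.coeff_mul_single, mul_one]
  congr 1
  ring

/-- Column `k` of `mulMat f` glues to `f * q ^ k`. -/
theorem glueL_mulMat_col (f : LaurentSeries R) (k : Fin p) :
    glueL R p (fun i => mulMat R p f i k) = f * HahnSeries.single ((k : ℕ) : ℤ) (1 : R) := by
  have h := glueL_secL R p (f * HahnSeries.single ((k : ℕ) : ℤ) (1 : R))
  rw [← h]
  congr 1
  funext i
  rw [secL_mul_single, mulMat_apply]

theorem mul_glueL (f : LaurentSeries R) (v : Fin p → LaurentSeries R) :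
    f * glueL R p v = glueL R p ((mulMat R p f).mulVec v) := by
  have h1 : f * glueL R p v =
      ∑ k : Fin p, glueL R p (fun i => mulMat R p f i k) * qExpand R p (v k) := by
    rw [glueL, Finset.mul_sum]
    refine Finset.sum_congr rfl fun k _ => ?_
    rw [glueL_mulMat_col, mul_assoc]
  rw [h1]
  simp only [glueL, Finset.sum_mul]
  rw [Finset.sum_comm]
  refine Finset.sum_congr rfl fun i _ => ?_
  rw [Matrix.mulVec, dotProduct, map_sum, Finset.mul_sum]
  refine Finset.sum_congr rfl fun k _ => ?_
  rw [map_mul, mul_assoc]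

theorem FormalNorm.mulMat_eq_of_mul_glueL (f : LaurentSeries R)
    (A : Matrix (Fin p) (Fin p) (LaurentSeries R))
    (h : ∀ v, f * glueL R p v = glueL R p (A.mulVec v)) : mulMat R p f = A := by
  refine Matrix.ext fun i k => ?_
  have h1 := h (Pi.single k 1)
  rw [mul_glueL] at h1
  have h2 := congrFun (glueL_injective R p h1) i
  rw [Matrix.mulVec_single_one, Matrix.mulVec_single_one] at h2
  exact h2

theorem mulMat_one : mulMat R p (1 : LaurentSeries R) = 1 :=
  FormalNorm.mulMat_eq_of_mul_glueL R p 1 1 fun v => by rw [one_mul, Matrix.one_mulVec]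

theorem mulMat_add (f g : LaurentSeries R) :
    mulMat R p (f + g) = mulMat R p f + mulMat R p g :=
  FormalNorm.mulMat_eq_of_mul_glueL R p _ _ fun v => by
    rw [add_mul, mul_glueL, mul_glueL, Matrix.add_mulVec, glueL_add]

theorem mulMat_mul (f g : LaurentSeries R) :
    mulMat R p (f * g) = mulMat R p f * mulMat R p g :=
  FormalNorm.mulMat_eq_of_mul_glueL R p _ _ fun v => by
    rw [mul_assoc, mul_glueL, mul_glueL, Matrix.mulVec_mulVec]

theorem mulMat_qExpand (b : LaurentSeries R) :
    mulMat R p (qExpand R p b) = Matrix.scalar (Fin p) b :=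
  FormalNorm.mulMat_eq_of_mul_glueL R p _ _ fun v => by
    rw [glueL, glueL, Finset.mul_sum]
    refine Finset.sum_congr rfl fun i _ => ?_
    rw [Matrix.scalar_apply, Matrix.mulVec_diagonal, map_mul]
    ring

theorem chiL_monic [Nontrivial R] (f : LaurentSeries R) : (chiL R p f).Monic :=
  Matrix.charpoly_monic _

theorem chiL_natDegree [Nontrivial R] (f : LaurentSeries R) : (chiL R p f).natDegree = p := by
  rw [chiL, Matrix.charpoly_natDegree_eq_dim, Fintype.card_fin]

/-! ### Base change -/

theorem coeffMap_secL {S : Type*} [CommRing S] (φ : R →+* S) (r : ℤ) (f : LaurentSeries R) :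
    coeffMap φ (secL R p r f) = secL S p r (coeffMap φ f) := by
  ext n
  simp

theorem mulMat_coeffMap {S : Type*} [CommRing S] (φ : R →+* S) (f : LaurentSeries R) :
    mulMat S p (coeffMap φ f) = (mulMat R p f).map (coeffMap φ) := by
  ext i k
  rw [Matrix.map_apply, mulMat_apply, mulMat_apply, coeffMap_secL]

theorem chiL_coeffMap {S : Type*} [CommRing S] (φ : R →+* S) (f : LaurentSeries R) :
    chiL S p (coeffMap φ f) = (chiL R p f).map (coeffMap φ) := by
  rw [chiL, chiL, mulMat_coeffMap, Matrix.charpoly_map]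

theorem eulerL_coeffMap {S : Type*} [CommRing S] (φ : R →+* S) (f y : LaurentSeries R) :
    eulerL S p (coeffMap φ f) (coeffMap φ y) = (eulerL R p f y).map (coeffMap φ) := by
  have h1 : (eulerL R p f y).map (coeffMap φ) =
      Polynomial.mapRingHom (coeffMap φ) (eulerL R p f y) := rfl
  rw [h1, eulerL, eulerL, AddMonoidHom.map_trace, mulMat_coeffMap, mulMat_coeffMap,
    Matrix.charmatrix_map]
  congr 1
  have h2 : ∀ A : Matrix (Fin p) (Fin p) (Polynomial (LaurentSeries R)),
      A.map (Polynomial.mapRingHom (coeffMap φ)) = (Polynomial.mapRingHom (coeffMap φ)).mapMatrix A :=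
    fun A => rfl
  rw [h2, map_mul, RingHom.map_adjugate]
  congr 1
  ext i k
  simp

/-! ### A general lemma on adjugates -/

theorem FormalNorm.adjugate_eq_mul_of_vecMul_eq_zero {n A : Type*} [Fintype n] [DecidableEq n]
    [CommRing A] (T : Matrix n n A) (v : n → A) (i₀ : n) (hv : v i₀ = 1)
    (hT : Matrix.vecMul v T = 0) (i k : n) :
    T.adjugate i k = T.adjugate i i₀ * v k := by
  set E : Matrix n n A := (1 : Matrix n n A).updateRow i₀ v with hE
  have hdet : E.det = 1 := by
    rw [hE, ← Matrix.cramer_transpose_apply, Matrix.transpose_one, Matrix.cramer_one]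
    simpa using hv
  have hET : E * T = T.updateRow i₀ 0 := by
    ext a b
    by_cases ha : a = i₀
    · subst ha
      rw [Matrix.updateRow_self, Pi.zero_apply, Matrix.mul_apply]
      have h := congrFun hT b
      simp only [Matrix.vecMul, dotProduct, Pi.zero_apply] at h
      simpa [hE, Matrix.updateRow_self] using h
    · rw [Matrix.updateRow_ne ha, Matrix.mul_apply]
      simp [hE, Matrix.updateRow_ne ha, Matrix.one_apply]
  have hadj : ∀ a b, b ≠ i₀ → (T.updateRow i₀ 0).adjugate a b = 0 := by
    intro a b hb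
    rw [Matrix.adjugate_apply]
    refine Matrix.det_eq_zero_of_row_eq_zero i₀ fun c => ?_
    rw [Matrix.updateRow_ne (Ne.symm hb), Matrix.updateRow_self, Pi.zero_apply]
  have h1 : T.adjugate = (T.updateRow i₀ 0).adjugate * E := by
    calc T.adjugate = T.adjugate * (E.adjugate * E) := by
          rw [Matrix.adjugate_mul, hdet, one_smul, mul_one]
      _ = (T.adjugate * E.adjugate) * E := by rw [mul_assoc]
      _ = (E * T).adjugate * E := by rw [Matrix.adjugate_mul_distrib]
      _ = _ := by rw [hET]
  have h2 : ∀ a b, T.adjugate a b = (T.updateRow i₀ 0).adjugate a i₀ * v b := by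
    intro a b
    rw [h1, Matrix.mul_apply, Finset.sum_eq_single i₀]
    · rw [hE, Matrix.updateRow_self]
    · intro c _ hc
      rw [hadj a c hc, zero_mul]
    · intro h
      exact absurd (Finset.mem_univ i₀) h
  rw [h2 i k, h2 i i₀, hv, mul_one]


/-! ### The eigenvector `(qⁱ)ᵢ`, Cayley–Hamilton and the Euler identity -/

/-- The vector `(qⁱ)ᵢ`. -/
def FormalNorm.qvec : Fin p → LaurentSeries R :=
  fun i => HahnSeries.single ((i : ℕ) : ℤ) (1 : R)

theorem FormalNorm.qvec_zero : FormalNorm.qvec R p 0 = 1 := by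
  simp [FormalNorm.qvec]

theorem FormalNorm.qvec_vecMul (f : LaurentSeries R) :
    Matrix.vecMul (FormalNorm.qvec R p) ((mulMat R p f).map (qExpand R p)) =
      f • FormalNorm.qvec R p := by
  funext k
  have h := glueL_mulMat_col R p f k
  rw [glueL] at h
  simpa [Matrix.vecMul, dotProduct, FormalNorm.qvec] using h

/-- The characteristic matrix of `σ(M_f)` evaluated at `X = f`. -/
def FormalNorm.Tmat (f : LaurentSeries R) : Matrix (Fin p) (Fin p) (LaurentSeries R) :=
  (Polynomial.evalRingHom f).mapMatrix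
    (Matrix.charmatrix ((mulMat R p f).map (qExpand R p)))

theorem FormalNorm.vecMul_C_charmatrix (f : LaurentSeries R) :
    Matrix.vecMul (fun i => C (FormalNorm.qvec R p i))
        (Matrix.charmatrix ((mulMat R p f).map (qExpand R p))) =
      (X - C f) • (fun i => C (FormalNorm.qvec R p i)) := by
  funext k
  have h := congrFun (FormalNorm.qvec_vecMul R p f) k
  simp only [Matrix.vecMul, dotProduct, Pi.smul_apply, smul_eq_mul] at h
  simp only [Matrix.vecMul, dotProduct, Matrix.charmatrix_apply, mul_sub, Finset.sum_sub_distrib,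
    Matrix.diagonal_apply, mul_ite, mul_zero, Finset.sum_ite_eq', Finset.mem_univ, if_true,
    Pi.smul_apply, smul_eq_mul]
  have h2 : ∑ i : Fin p, C (FormalNorm.qvec R p i) *
      C (((mulMat R p f).map (qExpand R p)) i k) = C (f * FormalNorm.qvec R p k) := by
    rw [← h, map_sum]
    refine Finset.sum_congr rfl fun i _ => ?_
    rw [map_mul]
  rw [h2, map_mul]
  ring

theorem FormalNorm.vecMul_Tmat (f : LaurentSeries R) :
    Matrix.vecMul (FormalNorm.qvec R p) (FormalNorm.Tmat R p f) = 0 := by
  funext k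
  have h := congrArg (Polynomial.eval f) (congrFun (FormalNorm.vecMul_C_charmatrix R p f) k)
  simp only [Matrix.vecMul, dotProduct, Pi.smul_apply, smul_eq_mul, Polynomial.eval_finsetSum,
    Polynomial.eval_mul, Polynomial.eval_C, Polynomial.eval_sub, Polynomial.eval_X, sub_self,
    zero_mul] at h
  simpa [Matrix.vecMul, dotProduct, FormalNorm.Tmat] using h

/-- `χ^σ = (X - f) · W` with `W(f) = ∑ᵢ qⁱ · adj(T)ᵢ₀`. -/
theorem FormalNorm.exists_cofactor (f : LaurentSeries R) :
    ∃ W : Polynomial (LaurentSeries R),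
      (chiL R p f).map (qExpand R p) = (X - C f) * W ∧
      W.eval f = ∑ i : Fin p, FormalNorm.qvec R p i * (FormalNorm.Tmat R p f).adjugate i 0 := by
  set 𝒯 := Matrix.charmatrix ((mulMat R p f).map (qExpand R p)) with h𝒯
  set vC : Fin p → Polynomial (LaurentSeries R) := fun i => C (FormalNorm.qvec R p i) with hvC
  have hdet : 𝒯.det = (chiL R p f).map (qExpand R p) := by
    rw [chiL, ← Matrix.charpoly_map]
    rfl
  have key : 𝒯.det • vC = (X - C f) • Matrix.vecMul vC 𝒯.adjugate := by
    calc 𝒯.det • vC = Matrix.vecMul vC (𝒯.det • (1 : Matrix (Fin p) (Fin p) _)) := by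
          rw [Matrix.vecMul_smul, Matrix.vecMul_one]
      _ = Matrix.vecMul vC (𝒯 * 𝒯.adjugate) := by rw [Matrix.mul_adjugate]
      _ = Matrix.vecMul (Matrix.vecMul vC 𝒯) 𝒯.adjugate := by rw [Matrix.vecMul_vecMul]
      _ = Matrix.vecMul ((X - C f) • vC) 𝒯.adjugate := by
          rw [FormalNorm.vecMul_C_charmatrix R p f]
      _ = (X - C f) • Matrix.vecMul vC 𝒯.adjugate := by rw [Matrix.smul_vecMul]
  refine ⟨Matrix.vecMul vC 𝒯.adjugate 0, ?_, ?_⟩
  · have h0 := congrFun key 0
    simp only [Pi.smul_apply, smul_eq_mul] at h0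
    rw [← hdet, ← h0, hvC]
    simp [FormalNorm.qvec_zero]
  · have hadj : ∀ i, (𝒯.adjugate i 0).eval f = (FormalNorm.Tmat R p f).adjugate i 0 := by
      intro i
      have h := RingHom.map_adjugate (Polynomial.evalRingHom f) 𝒯
      have h' := congrFun (congrFun h i) 0
      simpa [FormalNorm.Tmat] using h'
    simp only [Matrix.vecMul, dotProduct, Polynomial.eval_finsetSum, Polynomial.eval_mul, hvC,
      Polynomial.eval_C, hadj]

/-- **Cayley–Hamilton** for multiplication by `f`. -/
theorem chiL_eval_self (f : LaurentSeries R) :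
    ((chiL R p f).map (qExpand R p)).eval f = 0 := by
  obtain ⟨W, hW, -⟩ := FormalNorm.exists_cofactor R p f
  rw [hW]
  simp

/-- **Euler's formula**: `Tr(M_y · adj(X - M_f))` evaluated at `f` is `y · χ'(f)`. Valid over any
commutative ring. -/
theorem eulerL_eval_self (f y : LaurentSeries R) :
    ((eulerL R p f y).map (qExpand R p)).eval f =
      y * (Polynomial.derivative ((chiL R p f).map (qExpand R p))).eval f := by
  obtain ⟨W, hW, hWf⟩ := FormalNorm.exists_cofactor R p f
  have hder : (Polynomial.derivative ((chiL R p f).map (qExpand R p))).eval f = W.eval f := by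
    rw [hW]
    simp
  rw [hder, hWf]
  -- the evaluation ring hom
  set ev : Polynomial (LaurentSeries R) →+* LaurentSeries R :=
    (Polynomial.evalRingHom f).comp (Polynomial.mapRingHom (qExpand R p)) with hev
  have h1 : ((eulerL R p f y).map (qExpand R p)).eval f = ev (eulerL R p f y) := rfl
  have h2 : ∀ A : Matrix (Fin p) (Fin p) (Polynomial (LaurentSeries R)),
      A.map ev = ev.mapMatrix A := fun A => rfl
  have h3 : ev.mapMatrix ((mulMat R p y).map C) = (mulMat R p y).map (qExpand R p) := by
    ext i k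
    simp [hev]
  have h4 : ev.mapMatrix (Matrix.charmatrix (mulMat R p f)) = FormalNorm.Tmat R p f := by
    rw [FormalNorm.Tmat, Matrix.charmatrix_map]
    ext i k
    simp [hev]
  rw [h1, eulerL, AddMonoidHom.map_trace, h2, map_mul, RingHom.map_adjugate, h3, h4]
  have hy := FormalNorm.qvec_vecMul R p y
  have hrow : ∀ i k, (FormalNorm.Tmat R p f).adjugate i k =
      (FormalNorm.Tmat R p f).adjugate i 0 * FormalNorm.qvec R p k :=
    FormalNorm.adjugate_eq_mul_of_vecMul_eq_zero _ _ 0 (FormalNorm.qvec_zero R p)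
      (FormalNorm.vecMul_Tmat R p f)
  rw [Matrix.trace]
  simp only [Matrix.diag_apply, Matrix.mul_apply]
  calc ∑ k : Fin p, ∑ i : Fin p, ((mulMat R p y).map (qExpand R p)) k i *
        (FormalNorm.Tmat R p f).adjugate i k
      = ∑ k : Fin p, ∑ i : Fin p, (FormalNorm.Tmat R p f).adjugate i 0 *
          (FormalNorm.qvec R p k * ((mulMat R p y).map (qExpand R p)) k i) := by
        refine Finset.sum_congr rfl fun k _ => Finset.sum_congr rfl fun i _ => ?_
        rw [hrow i k]
        ring
    _ = ∑ i : Fin p, (FormalNorm.Tmat R p f).adjugate i 0 *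
          ∑ k : Fin p, FormalNorm.qvec R p k * ((mulMat R p y).map (qExpand R p)) k i := by
        rw [Finset.sum_comm]
        refine Finset.sum_congr rfl fun i _ => ?_
        rw [Finset.mul_sum]
    _ = ∑ i : Fin p, (FormalNorm.Tmat R p f).adjugate i 0 * (y * FormalNorm.qvec R p i) := by
        refine Finset.sum_congr rfl fun i _ => ?_
        have h := congrFun hy i
        simp only [Matrix.vecMul, dotProduct, Pi.smul_apply, smul_eq_mul] at h
        rw [h]
    _ = y * ∑ i : Fin p, FormalNorm.qvec R p i * (FormalNorm.Tmat R p f).adjugate i 0 := by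
        rw [Finset.mul_sum]
        refine Finset.sum_congr rfl fun i _ => ?_
        ring

end

end Fermat.Agent.S28
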