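/-
S28 (Igusa) support library, block [E], formal half F2 (owner: helper64).

The pinned uniqueness statements for the formal norm polynomial `chiL` and the Euler polynomial
`eulerL` over a field `K`:
* `poly_eq_zero_of_eval` (U1) is in `FormalUniqueCore.lean`;
* `eq_linear_mul_chiL` (U2): a monic `Ψ` of degree `p + 1` with `Ψ(a) = 0` and `Ψ^σ(f) = 0` is
  `(X - a) * chiL f`;
* `eq_euler_form` (E3): the interpolation statement identifying
  `C w * chiL f + (X - C a) * (eulerL f y %ₘ chiL f)`.
-/
import Fermat.Agent.S28.FormalUniqueCore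
import Fermat.Agent.S28.FormalNorm

set_option autoImplicit false

noncomputable section

namespace Fermat.Agent.S28

open ModularCurve Polynomial

variable (K : Type*) [Field K] (p : ℕ) [NeZero p]

/-- **(U2)** A monic polynomial `Ψ` of degree `p + 1` over `K((q))` with `Ψ(a) = 0` and
`Ψ^σ(f) = 0` (`σ : q ↦ q^p`, `f ≠ 0` of order prime to `p`, `f ≠ a(q^p)`) is `(X - a) * chiL f`. -/
theorem eq_linear_mul_chiL (f a : LaurentSeries K) (hf : f ≠ 0)
    (hord : IsCoprime f.order (p : ℤ)) (hne : f ≠ qExpand K p a)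
    (Ψ : Polynomial (LaurentSeries K)) (hΨ : Ψ.Monic) (hdeg : Ψ.natDegree = p + 1)
    (h1 : Ψ.eval a = 0) (h2 : (Ψ.map (qExpand K p)).eval f = 0) :
    Ψ = (X - C a) * chiL K p f :=
  eq_linear_mul_of_monic K p f a hf hord hne (chiL K p f) (Matrix.charpoly_monic _)
    (by rw [chiL, Matrix.charpoly_natDegree_eq_dim, Fintype.card_fin])
    (chiL_eval_self K p f) Ψ hΨ hdeg h1 h2

/-- **(E3)** Interpolation: a polynomial `Θ` of degree `≤ p` over `K((q))` with
`Θ(a) = w * chiL f (a)` and `Θ^σ(f) = y * (f - a(q^p)) * (chiL f ^σ)'(f)` equals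
`C w * chiL f + (X - C a) * (eulerL f y %ₘ chiL f)`. -/
theorem eq_euler_form (f a y w : LaurentSeries K) (hf : f ≠ 0)
    (hord : IsCoprime f.order (p : ℤ)) (hne : f ≠ qExpand K p a)
    (Θ : Polynomial (LaurentSeries K)) (hdeg : Θ.natDegree ≤ p)
    (h1 : Θ.eval a = w * (chiL K p f).eval a)
    (h2 : (Θ.map (qExpand K p)).eval f =
      y * (f - qExpand K p a) *
        (Polynomial.derivative ((chiL K p f).map (qExpand K p))).eval f) :
    Θ = C w * chiL K p f + (X - C a) * (eulerL K p f y %ₘ chiL K p f) :=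
  eq_euler_form_of_monic K p f a y w hf hord hne (chiL K p f) (Matrix.charpoly_monic _)
    (by rw [chiL, Matrix.charpoly_natDegree_eq_dim, Fintype.card_fin])
    (chiL_eval_self K p f) (eulerL K p f y) (eulerL_eval_self K p f y) Θ hdeg h1 h2

end Fermat.Agent.S28
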