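/-
S28 (Igusa) support library, block [E], formal half F2 (owner: helper64).

Uniqueness over a field `K`: with `σ := qExpand K p` (the substitution `q ↦ q^p`), a Laurent series
`f ≠ 0` whose order is prime to `p` satisfies no nonzero polynomial relation of degree `< p` with
coefficients in the image of `σ`.  Consequences: a monic polynomial of degree `p + 1` over
`K((q))` killing `a` and (after `σ`) `f` is `(X - a) * χ` for any monic `χ` of degree `p` killing
`f`, and the Euler-form interpolation statement.

Everything here is Mathlib + the prelude's `qExpand`; the polynomials `χ`, `E` are abstract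
(instantiate with `chiL K p f`, `eulerL K p f y`).
-/
import Mathlib
import Fermat.Prelude.Def_ModularCurve_X0

set_option autoImplicit false

noncomputable section

namespace Fermat.Agent.S28

open ModularCurve Polynomial

namespace FormalUnique

/-- A finite sum of Hahn series whose nonzero terms have pairwise distinct orders vanishes only
if all terms vanish. -/
theorem sum_eq_zero_of_order_injOn {Γ R ι : Type*} [LinearOrder Γ] [Zero Γ] [AddCommMonoid R]
    (s : Finset ι) (x : ι → HahnSeries Γ R)
    (hinj : ∀ i ∈ s, ∀ j ∈ s, x i ≠ 0 → x j ≠ 0 → (x i).order = (x j).order → i = j)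
    (h : ∑ i ∈ s, x i = 0) : ∀ i ∈ s, x i = 0 := by
  classical
  by_contra hcon
  simp only [not_forall] at hcon
  obtain ⟨i₁, hi₁, hx₁⟩ := hcon
  set s' := s.filter (fun i => x i ≠ 0) with hs'
  have hne : s'.Nonempty := ⟨i₁, Finset.mem_filter.mpr ⟨hi₁, hx₁⟩⟩
  obtain ⟨i₀, hi₀, hmin⟩ := Finset.exists_min_image s' (fun i => (x i).order) hne
  have hi₀s : i₀ ∈ s := (Finset.mem_filter.mp hi₀).1
  have hx₀ : x i₀ ≠ 0 := (Finset.mem_filter.mp hi₀).2
  have hcoeff := congrArg (fun y => y.coeff (x i₀).order) h
  simp only [HahnSeries.coeff_sum, HahnSeries.coeff_zero] at hcoeff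
  rw [Finset.sum_eq_single i₀] at hcoeff
  · exact hx₀ (HahnSeries.coeff_order_eq_zero.mp hcoeff)
  · intro j hj hji
    by_cases hxj : x j = 0
    · rw [hxj, HahnSeries.coeff_zero]
    · have hj' : j ∈ s' := Finset.mem_filter.mpr ⟨hj, hxj⟩
      have hle := hmin j hj'
      have hlt : (x i₀).order < (x j).order :=
        lt_of_le_of_ne hle (fun he => hji (hinj j hj i₀ hi₀s hxj hx₀ he.symm))
      exact HahnSeries.coeff_eq_zero_of_lt_order hlt
  · intro hn
    exact absurd hi₀s hn

section Order

variable (K : Type*) [Field K] (p : ℕ) [NeZero p]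

/-- The order of `a(q^p)` is divisible by `p`. -/
theorem dvd_order_qExpand (a : LaurentSeries K) : (p : ℤ) ∣ (qExpand K p a).order := by
  by_cases ha : qExpand K p a = 0
  · rw [ha, HahnSeries.order_zero]
    exact dvd_zero _
  · by_contra hnd
    exact HahnSeries.coeff_order_eq_zero.not.mpr ha (qExpand_coeff_of_not_dvd p a hnd)

end Order

end FormalUnique

section Main

variable (K : Type*) [Field K] (p : ℕ) [NeZero p]

/-- **(U1)** A nonzero Laurent series `f` whose order is prime to `p` satisfies no nonzero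
polynomial relation of degree `< p` over the image of `q ↦ q^p`. -/
theorem poly_eq_zero_of_eval (f : LaurentSeries K) (hf : f ≠ 0)
    (hord : IsCoprime f.order (p : ℤ)) (g : Polynomial (LaurentSeries K))
    (hg : g.natDegree < p) (h : (g.map (qExpand K p)).eval f = 0) : g = 0 := by
  classical
  have hsum : ∑ k ∈ Finset.range p, qExpand K p (g.coeff k) * f ^ k = 0 := by
    rw [← h, Polynomial.eval_eq_sum_range' (lt_of_le_of_lt Polynomial.natDegree_map_le hg)]
    refine Finset.sum_congr rfl fun k _ => ?_
    rw [Polynomial.coeff_map]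
  have hterm : ∀ k ∈ Finset.range p, qExpand K p (g.coeff k) * f ^ k = 0 := by
    apply FormalUnique.sum_eq_zero_of_order_injOn
    · intro i hi j hj hxi hxj hij
      have hai : qExpand K p (g.coeff i) ≠ 0 := left_ne_zero_of_mul hxi
      have haj : qExpand K p (g.coeff j) ≠ 0 := left_ne_zero_of_mul hxj
      rw [HahnSeries.order_mul hai (pow_ne_zero _ hf), HahnSeries.order_mul haj (pow_ne_zero _ hf),
        HahnSeries.order_pow, HahnSeries.order_pow] at hij
      obtain ⟨m, hm⟩ := FormalUnique.dvd_order_qExpand K p (g.coeff i)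
      obtain ⟨m', hm'⟩ := FormalUnique.dvd_order_qExpand K p (g.coeff j)
      rw [hm, hm'] at hij
      simp only [nsmul_eq_mul] at hij
      have hdvd : (p : ℤ) ∣ ((i : ℤ) - (j : ℤ)) * f.order :=
        ⟨m' - m, by linear_combination hij⟩
      have hdvd' : (p : ℤ) ∣ (i : ℤ) - (j : ℤ) := hord.symm.dvd_of_dvd_mul_right hdvd
      have hi' : i < p := Finset.mem_range.mp hi
      have hj' : j < p := Finset.mem_range.mp hj
      obtain ⟨c, hc⟩ := hdvd'
      have hc0 : c = 0 := by
        by_contra hc0
        have hp : (0 : ℤ) < p := by exact_mod_cast Nat.pos_of_ne_zero (NeZero.ne p)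
        rcases lt_or_gt_of_ne hc0 with hneg | hpos
        · have : (p : ℤ) * c ≤ -(p : ℤ) := by nlinarith
          omega
        · have : (p : ℤ) ≤ (p : ℤ) * c := by nlinarith
          omega
      rw [hc0, mul_zero] at hc
      omega
    · exact hsum
  refine Polynomial.ext fun k => ?_
  rw [Polynomial.coeff_zero]
  by_cases hk : k < p
  · have := hterm k (Finset.mem_range.mpr hk)
    rcases mul_eq_zero.mp this with h0 | h0
    · exact qExpand_injective p (by rw [h0, map_zero])
    · exact absurd h0 (pow_ne_zero _ hf)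
  · exact Polynomial.coeff_eq_zero_of_natDegree_lt (lt_of_lt_of_le hg (not_lt.mp hk))

/-- A monic polynomial `χ` of degree `p` killing `f` (after `q ↦ q^p`) has no root `a` in the
base, as soon as `f ≠ a(q^p)`. -/
theorem eval_ne_zero_of_monic (f a : LaurentSeries K) (hf : f ≠ 0)
    (hord : IsCoprime f.order (p : ℤ)) (hne : f ≠ qExpand K p a)
    (χ : Polynomial (LaurentSeries K)) (hχ : χ.Monic) (hχdeg : χ.natDegree = p)
    (hχf : (χ.map (qExpand K p)).eval f = 0) : χ.eval a ≠ 0 := by
  intro hχa
  have hdvd : (X - C a) ∣ χ := Polynomial.dvd_iff_isRoot.mpr hχa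
  obtain ⟨G, hG⟩ := hdvd
  have hG0 : G ≠ 0 := by
    rintro rfl
    rw [mul_zero] at hG
    exact hχ.ne_zero hG
  have hGdeg : G.natDegree < p := by
    have := congrArg Polynomial.natDegree hG
    rw [hχdeg, Polynomial.natDegree_mul (Polynomial.X_sub_C_ne_zero a) hG0,
      Polynomial.natDegree_X_sub_C] at this
    omega
  have hev : (f - qExpand K p a) * (G.map (qExpand K p)).eval f = 0 := by
    rw [hG, Polynomial.map_mul, Polynomial.eval_mul, Polynomial.map_sub, Polynomial.map_X,
      Polynomial.map_C, Polynomial.eval_sub, Polynomial.eval_X, Polynomial.eval_C] at hχf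
    exact hχf
  rcases mul_eq_zero.mp hev with h0 | h0
  · exact hne (sub_eq_zero.mp h0)
  · exact hG0 (poly_eq_zero_of_eval K p f hf hord G hGdeg h0)

/-- **(U2), abstract form.** A monic `Ψ` of degree `p + 1` with `Ψ(a) = 0` and `Ψ^σ(f) = 0` equals
`(X - a) * χ` for every monic `χ` of degree `p` with `χ^σ(f) = 0`. -/
theorem eq_linear_mul_of_monic (f a : LaurentSeries K) (hf : f ≠ 0)
    (hord : IsCoprime f.order (p : ℤ)) (hne : f ≠ qExpand K p a)
    (χ : Polynomial (LaurentSeries K)) (hχ : χ.Monic) (hχdeg : χ.natDegree = p)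
    (hχf : (χ.map (qExpand K p)).eval f = 0)
    (Ψ : Polynomial (LaurentSeries K)) (hΨ : Ψ.Monic) (hdeg : Ψ.natDegree = p + 1)
    (h1 : Ψ.eval a = 0) (h2 : (Ψ.map (qExpand K p)).eval f = 0) :
    Ψ = (X - C a) * χ := by
  have hdiv := Polynomial.modByMonic_add_div Ψ χ
  have hrdeg : (Ψ %ₘ χ).natDegree < p := by
    rcases Nat.eq_zero_or_pos p with hp0 | hp0
    · exact absurd hp0 (NeZero.ne p)
    · have hχ1 : χ ≠ 1 := by
        intro h
        rw [h, Polynomial.natDegree_one] at hχdeg
        omega
      rw [← hχdeg]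
      exact Polynomial.natDegree_modByMonic_lt Ψ hχ hχ1
  have hrem : Ψ %ₘ χ = 0 := by
    apply poly_eq_zero_of_eval K p f hf hord _ hrdeg
    have := congrArg (fun P => (P.map (qExpand K p)).eval f) hdiv
    simp only [Polynomial.map_add, Polynomial.map_mul, Polynomial.eval_add, Polynomial.eval_mul,
      hχf, zero_mul, add_zero, h2] at this
    exact this
  rw [hrem, zero_add] at hdiv
  set Q := Ψ /ₘ χ with hQ
  have hQmonic : Q.Monic := by
    have h := hΨ
    rw [← hdiv] at h
    exact hχ.of_mul_monic_left h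
  have hQdeg : Q.natDegree = 1 := by
    have := congrArg Polynomial.natDegree hdiv
    rw [hχ.natDegree_mul hQmonic, hχdeg, hdeg] at this
    omega
  have hQa : Q.eval a = 0 := by
    have := congrArg (fun P => P.eval a) hdiv
    simp only [Polynomial.eval_mul, h1] at this
    rcases mul_eq_zero.mp this with h0 | h0
    · exact absurd h0 (eval_ne_zero_of_monic K p f a hf hord hne χ hχ hχdeg hχf)
    · exact h0
  have hQeq : Q = X - C a := by
    have hdvd : (X - C a) ∣ Q := Polynomial.dvd_iff_isRoot.mpr hQa
    exact Polynomial.eq_of_monic_of_dvd_of_natDegree_le (Polynomial.monic_X_sub_C a) hQmonic hdvd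
      (by rw [hQdeg, Polynomial.natDegree_X_sub_C])
  rw [← hdiv, hQeq, mul_comm]

/-- **(E3), abstract form.** Let `χ` be monic of degree `p` with `χ^σ(f) = 0` and let `E` satisfy the
Euler identity `E^σ(f) = y * (χ^σ)'(f)`.  A polynomial `Θ` of degree `≤ p` with
`Θ(a) = w * χ(a)` and `Θ^σ(f) = y * (f - a(q^p)) * (χ^σ)'(f)` equals
`C w * χ + (X - C a) * (E %ₘ χ)`. -/
theorem eq_euler_form_of_monic (f a y w : LaurentSeries K) (hf : f ≠ 0)
    (hord : IsCoprime f.order (p : ℤ)) (hne : f ≠ qExpand K p a)
    (χ : Polynomial (LaurentSeries K)) (hχ : χ.Monic) (hχdeg : χ.natDegree = p)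
    (hχf : (χ.map (qExpand K p)).eval f = 0)
    (E : Polynomial (LaurentSeries K))
    (hE : (E.map (qExpand K p)).eval f =
      y * (Polynomial.derivative (χ.map (qExpand K p))).eval f)
    (Θ : Polynomial (LaurentSeries K)) (hdeg : Θ.natDegree ≤ p)
    (h1 : Θ.eval a = w * χ.eval a)
    (h2 : (Θ.map (qExpand K p)).eval f =
      y * (f - qExpand K p a) * (Polynomial.derivative (χ.map (qExpand K p))).eval f) :
    Θ = C w * χ + (X - C a) * (E %ₘ χ) := by
  have hp0 : 0 < p := Nat.pos_of_ne_zero (NeZero.ne p)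
  have hχ1 : χ ≠ 1 := by
    intro h
    rw [h, Polynomial.natDegree_one] at hχdeg
    omega
  have hrdeg : (E %ₘ χ).natDegree < p := by
    rw [← hχdeg]
    exact Polynomial.natDegree_modByMonic_lt E hχ hχ1
  -- the value of the remainder at `f`
  have hrf : ((E %ₘ χ).map (qExpand K p)).eval f =
      y * (Polynomial.derivative (χ.map (qExpand K p))).eval f := by
    have hdiv := Polynomial.modByMonic_add_div E χ
    have := congrArg (fun P => (P.map (qExpand K p)).eval f) hdiv
    simp only [Polynomial.map_add, Polynomial.map_mul, Polynomial.eval_add, Polynomial.eval_mul,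
      hχf, zero_mul, add_zero] at this
    rw [this, hE]
  set Θ₀ := C w * χ + (X - C a) * (E %ₘ χ) with hΘ₀
  set D := Θ - Θ₀ with hD
  have hDa : D.eval a = 0 := by
    rw [hD, hΘ₀]
    simp only [Polynomial.eval_sub, Polynomial.eval_add, Polynomial.eval_mul, Polynomial.eval_C,
      Polynomial.eval_X, h1]
    ring
  obtain ⟨D', hD'⟩ : (X - C a) ∣ D := Polynomial.dvd_iff_isRoot.mpr hDa
  have hΘ₀deg : Θ₀.natDegree ≤ p := by
    rw [hΘ₀]
    refine (Polynomial.natDegree_add_le _ _).trans (max_le ?_ ?_)
    · exact (Polynomial.natDegree_C_mul_le _ _).trans hχdeg.le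
    · refine (Polynomial.natDegree_mul_le).trans ?_
      rw [Polynomial.natDegree_X_sub_C]
      omega
  have hDdeg : D.natDegree ≤ p := (Polynomial.natDegree_sub_le _ _).trans (max_le hdeg hΘ₀deg)
  have hD'0 : D' = 0 := by
    by_contra hD'ne
    have hD'deg : D'.natDegree < p := by
      have := congrArg Polynomial.natDegree hD'
      rw [Polynomial.natDegree_mul (Polynomial.X_sub_C_ne_zero a) hD'ne,
        Polynomial.natDegree_X_sub_C] at this
      omega
    apply hD'ne
    apply poly_eq_zero_of_eval K p f hf hord D' hD'deg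
    have hDf : (D.map (qExpand K p)).eval f = 0 := by
      rw [hD, hΘ₀]
      simp only [Polynomial.map_sub, Polynomial.map_add, Polynomial.map_mul, Polynomial.map_C,
        Polynomial.map_X, Polynomial.eval_sub, Polynomial.eval_add, Polynomial.eval_mul,
        Polynomial.eval_C, Polynomial.eval_X, h2, hχf, hrf]
      ring
    rw [hD', Polynomial.map_mul, Polynomial.eval_mul, Polynomial.map_sub, Polynomial.map_X,
      Polynomial.map_C, Polynomial.eval_sub, Polynomial.eval_X, Polynomial.eval_C] at hDf
    rcases mul_eq_zero.mp hDf with h0 | h0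
    · exact absurd (sub_eq_zero.mp h0) hne
    · exact h0
  rw [hD'0, mul_zero] at hD'
  exact sub_eq_zero.mp hD'

end Main

end Fermat.Agent.S28
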