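/-
S28 block [L] L0 (owner: helper59): twist and substitution ring homomorphisms on Laurent series,
`f(q) ↦ f(c q)` and `f(q) ↦ f(c q ^ e)`, and the series `J c e = j(c q ^ e)`.
-/
import Fermat.Agent.S28.Defs

set_option autoImplicit false

noncomputable section

namespace Fermat.Agent.S28

open ModularCurve HahnSeries

section Twist

variable {R : Type*} [CommRing R]

/-- The underlying function of `twist`: multiply the `n`-th coefficient by `c ^ n`. -/
def twistFun (c : Rˣ) (f : LaurentSeries R) : LaurentSeries R where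
  coeff n := ((c ^ n : Rˣ) : R) * f.coeff n
  isPWO_support' := f.isPWO_support.mono (fun n hn h => hn (by
    show ((c ^ n : Rˣ) : R) * f.coeff n = 0
    rw [show f.coeff n = 0 from h, mul_zero]))

theorem twistFun_coeff (c : Rˣ) (f : LaurentSeries R) (n : ℤ) :
    (twistFun c f).coeff n = ((c ^ n : Rˣ) : R) * f.coeff n := rfl

theorem twistFun_support (c : Rˣ) (f : LaurentSeries R) :
    (twistFun c f).support = f.support := by
  ext n
  simp only [HahnSeries.mem_support, twistFun_coeff, ne_eq, Units.mul_right_eq_zero]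

/-- The twist `f(q) ↦ f(c q)` by a unit `c`, as a ring homomorphism of Laurent series. -/
def twist (c : Rˣ) : LaurentSeries R →+* LaurentSeries R where
  toFun := twistFun c
  map_zero' := by
    ext n
    simp [twistFun_coeff]
  map_one' := by
    ext n
    rw [twistFun_coeff, HahnSeries.coeff_one]
    split_ifs with h
    · subst h; simp
    · simp
  map_add' f g := by
    ext n
    simp [twistFun_coeff, mul_add]
  map_mul' f g := by
    ext n
    rw [twistFun_coeff, HahnSeries.coeff_mul, HahnSeries.coeff_mul, Finset.mul_sum]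
    have hset : Finset.antidiagonal (twistFun c f).isPWO_support (twistFun c g).isPWO_support n =
        Finset.antidiagonal f.isPWO_support g.isPWO_support n := by
      ext ij
      simp only [Finset.mem_antidiagonal, twistFun_support]
    rw [hset]
    refine Finset.sum_congr rfl fun ij hij => ?_
    have hn : ij.1 + ij.2 = n := (Finset.mem_antidiagonal.mp hij).2.2
    rw [twistFun_coeff, twistFun_coeff, ← hn, zpow_add, Units.val_mul]
    ring

@[simp]
theorem twist_coeff (c : Rˣ) (f : LaurentSeries R) (n : ℤ) :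
    (twist c f).coeff n = ((c ^ n : Rˣ) : R) * f.coeff n := rfl

theorem twist_one : twist (1 : Rˣ) = RingHom.id (LaurentSeries R) := by
  ext f n
  simp

theorem twist_twist (c d : Rˣ) (f : LaurentSeries R) : twist c (twist d f) = twist (c * d) f := by
  ext n
  rw [twist_coeff, twist_coeff, twist_coeff, mul_zpow, Units.val_mul, mul_assoc]

theorem twist_injective (c : Rˣ) : Function.Injective (twist c : LaurentSeries R → _) := by
  intro f g h
  have h' := congrArg (twist c⁻¹) h
  rwa [twist_twist, twist_twist, inv_mul_cancel, twist_one] at h'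

@[simp]
theorem twist_single (c : Rˣ) (n : ℤ) (a : R) :
    twist c (HahnSeries.single n a) = HahnSeries.single n (((c ^ n : Rˣ) : R) * a) := by
  ext m
  rw [twist_coeff]
  by_cases h : m = n
  · subst h
    rw [HahnSeries.coeff_single_same, HahnSeries.coeff_single_same]
  · rw [HahnSeries.coeff_single_of_ne h, HahnSeries.coeff_single_of_ne h, mul_zero]

@[simp]
theorem twist_C (c : Rˣ) (a : R) : twist c (HahnSeries.C a) = HahnSeries.C a := by
  rw [HahnSeries.C_apply, twist_single, zpow_zero, Units.val_one, one_mul]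

/-- `f((c q) ^ d) = f(c ^ d q ^ d)`. -/
theorem twist_qExpand (c : Rˣ) (d : ℕ) [NeZero d] (f : LaurentSeries R) :
    twist c (qExpand R d f) = qExpand R d (twist (c ^ d) f) := by
  ext n
  by_cases hn : (d : ℤ) ∣ n
  · obtain ⟨m, rfl⟩ := hn
    rw [twist_coeff, qExpand_coeff_mul, qExpand_coeff_mul, twist_coeff, zpow_mul, zpow_natCast]
  · rw [twist_coeff, qExpand_coeff_of_not_dvd d _ hn, qExpand_coeff_of_not_dvd d _ hn, mul_zero]

theorem coeffMap_twist {S : Type*} [CommRing S] (φ : R →+* S) (c : Rˣ) (f : LaurentSeries R) :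
    coeffMap φ (twist c f) = twist (Units.map (φ : R →* S) c) (coeffMap φ f) := by
  ext n
  rw [coeffMap_coeff, twist_coeff, twist_coeff, coeffMap_coeff, map_mul, ← map_zpow]
  rfl

/-- The image of `qExpand R p` consists of the series supported on multiples of `p`. -/
theorem mem_range_qExpand_iff (p : ℕ) [NeZero p] (f : LaurentSeries R) :
    f ∈ Set.range (qExpand R p) ↔ ∀ n : ℤ, ¬ (p : ℤ) ∣ n → f.coeff n = 0 := by
  constructor
  · rintro ⟨g, rfl⟩ n hn
    exact qExpand_coeff_of_not_dvd p g hn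
  · intro h
    have hp : (0 : ℤ) < (p : ℤ) := by exact_mod_cast Nat.pos_of_ne_zero (NeZero.ne p)
    have hbdd : BddBelow (Function.support fun m : ℤ => f.coeff ((p : ℤ) * m)) := by
      refine ⟨min f.order 0, fun m hm => ?_⟩
      have h1 : f.order ≤ (p : ℤ) * m := HahnSeries.order_le_of_coeff_ne_zero hm
      rcases le_or_gt 0 m with hm0 | hm0
      · exact le_trans (min_le_right _ _) hm0
      · refine le_trans (min_le_left _ _) (le_trans h1 ?_)
        nlinarith
    refine ⟨HahnSeries.ofSuppBddBelow (fun m : ℤ => f.coeff ((p : ℤ) * m)) hbdd, ?_⟩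
    ext n
    by_cases hn : (p : ℤ) ∣ n
    · obtain ⟨m, rfl⟩ := hn
      rw [qExpand_coeff_mul]
      rfl
    · rw [qExpand_coeff_of_not_dvd p _ hn, h n hn]

end Twist

section Subst

variable {k : Type*} [Field k]

open Classical in
/-- The substitution `f(q) ↦ f(c q ^ e)` (junk value: the identity, if `c = 0` or `e = 0`). -/
def subst (c : k) (e : ℕ) : LaurentSeries k →+* LaurentSeries k :=
  if h : c ≠ 0 ∧ e ≠ 0 then
    haveI : NeZero e := ⟨h.2⟩
    (qExpand k e).comp (twist (Units.mk0 c h.1))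
  else RingHom.id _

theorem subst_eq {c : k} (hc : c ≠ 0) (e : ℕ) [NeZero e] :
    subst c e = (qExpand k e).comp (twist (Units.mk0 c hc)) := by
  unfold subst
  rw [dif_pos ⟨hc, NeZero.ne e⟩]

theorem subst_of_not {c : k} {e : ℕ} (h : ¬ (c ≠ 0 ∧ e ≠ 0)) :
    subst c e = RingHom.id (LaurentSeries k) := by
  unfold subst
  rw [dif_neg h]

theorem subst_coeff_mul {c : k} (hc : c ≠ 0) {e : ℕ} (he : e ≠ 0) (f : LaurentSeries k) (n : ℤ) :
    (subst c e f).coeff ((e : ℤ) * n) = c ^ n * f.coeff n := by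
  haveI : NeZero e := ⟨he⟩
  rw [subst_eq hc e, RingHom.comp_apply, qExpand_coeff_mul, twist_coeff,
    Units.val_zpow_eq_zpow_val, Units.val_mk0]

theorem subst_coeff_of_not_dvd {c : k} (hc : c ≠ 0) {e : ℕ} (he : e ≠ 0) (f : LaurentSeries k)
    {m : ℤ} (hm : ¬ (e : ℤ) ∣ m) : (subst c e f).coeff m = 0 := by
  haveI : NeZero e := ⟨he⟩
  rw [subst_eq hc e, RingHom.comp_apply, qExpand_coeff_of_not_dvd e _ hm]

theorem subst_one_coeff {c : k} (hc : c ≠ 0) (f : LaurentSeries k) (m : ℤ) :
    (subst c 1 f).coeff m = c ^ m * f.coeff m := by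
  have h := subst_coeff_mul hc one_ne_zero f m
  rwa [Nat.cast_one, one_mul] at h

@[simp]
theorem subst_C (c : k) (e : ℕ) (a : k) : subst c e (HahnSeries.C a) = HahnSeries.C a := by
  unfold subst
  split_ifs with h
  · haveI : NeZero e := ⟨h.2⟩
    rw [RingHom.comp_apply, twist_C, qExpand_C]
  · rfl

theorem subst_one_left (d : ℕ) [NeZero d] : subst (1 : k) d = qExpand k d := by
  rw [subst_eq one_ne_zero d]
  ext f n
  have h1 : Units.mk0 (1 : k) one_ne_zero = 1 := Units.ext rfl
  rw [RingHom.comp_apply, h1, twist_one, RingHom.id_apply]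

theorem subst_injective (c : k) (e : ℕ) : Function.Injective (subst c e) :=
  (subst c e).injective

/-- `f ↦ f(c' q ^ e')` followed by `q ↦ c q ^ e` is `f ↦ f(c' c ^ e' q ^ (e e'))`. -/
theorem subst_subst {c c' : k} (hc : c ≠ 0) (hc' : c' ≠ 0) {e e' : ℕ} (he : e ≠ 0) (he' : e' ≠ 0)
    (f : LaurentSeries k) : subst c e (subst c' e' f) = subst (c' * c ^ e') (e * e') f := by
  have hcc : c' * c ^ e' ≠ 0 := mul_ne_zero hc' (pow_ne_zero _ hc)
  have hee : e * e' ≠ 0 := Nat.mul_ne_zero he he'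
  ext m
  by_cases hm : ((e * e' : ℕ) : ℤ) ∣ m
  · obtain ⟨n, rfl⟩ := hm
    rw [subst_coeff_mul hcc hee,
      show ((e * e' : ℕ) : ℤ) * n = (e : ℤ) * ((e' : ℤ) * n) by push_cast; ring,
      subst_coeff_mul hc he, subst_coeff_mul hc' he', mul_zpow, ← zpow_natCast c e', ← zpow_mul]
    ring
  · rw [subst_coeff_of_not_dvd hcc hee _ hm]
    by_cases hm' : (e : ℤ) ∣ m
    · obtain ⟨n, rfl⟩ := hm'
      have hn : ¬ (e' : ℤ) ∣ n := by
        rintro ⟨j, rfl⟩
        exact hm ⟨j, by push_cast; ring⟩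
      rw [subst_coeff_mul hc he, subst_coeff_of_not_dvd hc' he' _ hn, mul_zero]
    · rw [subst_coeff_of_not_dvd hc he _ hm']

/-- `J c e = j(c q ^ e)`. -/
def J (c : k) (e : ℕ) : LaurentSeries k := subst c e (jqModC k)

theorem J_one (d : ℕ) [NeZero d] : J (1 : k) d = jd k d := by
  rw [J, subst_one_left, jd_eq]

/-- `j(q ^ d)` evaluated at `c q ^ e` is `j(c ^ d q ^ (e d))`. -/
theorem subst_jd {c : k} (hc : c ≠ 0) {e : ℕ} (he : e ≠ 0) (d : ℕ) [NeZero d] :
    subst c e (jd k d) = J (c ^ d) (e * d) := by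
  rw [← J_one d, J, subst_subst hc one_ne_zero he (NeZero.ne d), one_mul, J]

theorem subst_J {c c' : k} (hc : c ≠ 0) (hc' : c' ≠ 0) {e e' : ℕ} (he : e ≠ 0) (he' : e' ≠ 0) :
    subst c e (J c' e') = J (c' * c ^ e') (e * e') :=
  subst_subst hc hc' he he' _

theorem J_coeff_neg {c : k} (hc : c ≠ 0) {e : ℕ} (he : e ≠ 0) :
    (J c e).coeff (-(e : ℤ)) = c⁻¹ := by
  have h := subst_coeff_mul hc he (jqModC k) (-1)
  rw [mul_neg_one, coeff_jqModC_neg_one, mul_one, zpow_neg_one] at h
  exact h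

theorem J_coeff_of_lt {c : k} (hc : c ≠ 0) {e : ℕ} (he : e ≠ 0) {m : ℤ} (hm : m < -(e : ℤ)) :
    (J c e).coeff m = 0 := by
  by_cases hd : (e : ℤ) ∣ m
  · obtain ⟨n, rfl⟩ := hd
    have he0 : (0 : ℤ) < (e : ℤ) := by exact_mod_cast Nat.pos_of_ne_zero he
    have hn : n < -1 := by
      by_contra hcon
      have : -1 ≤ n := not_lt.mp hcon
      nlinarith
    rw [J, subst_coeff_mul hc he, coeff_jqModC_of_lt k hn, mul_zero]
  · exact subst_coeff_of_not_dvd hc he _ hd

theorem J_ne_zero {c : k} (hc : c ≠ 0) {e : ℕ} (he : e ≠ 0) : J c e ≠ 0 := by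
  refine HahnSeries.ne_zero_of_coeff_ne_zero (g := -(e : ℤ)) ?_
  rw [J_coeff_neg hc he]
  exact inv_ne_zero hc

theorem J_order {c : k} (hc : c ≠ 0) {e : ℕ} (he : e ≠ 0) : (J c e).order = -(e : ℤ) := by
  refine le_antisymm (HahnSeries.order_le_of_coeff_ne_zero ?_) ?_
  · rw [J_coeff_neg hc he]
    exact inv_ne_zero hc
  · by_contra hcon
    exact J_ne_zero hc he
      (HahnSeries.coeff_order_eq_zero.mp (J_coeff_of_lt hc he (not_le.mp hcon)))

/-- `J c e` determines `c` and `e`. -/
theorem J_inj {c c' : k} (hc : c ≠ 0) (hc' : c' ≠ 0) {e e' : ℕ} (he : e ≠ 0) (he' : e' ≠ 0)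
    (h : J c e = J c' e') : c = c' ∧ e = e' := by
  have he_eq : e = e' := by
    have h1 := J_order hc he
    rw [h, J_order hc' he'] at h1
    exact_mod_cast neg_injective h1.symm
  subst he_eq
  refine ⟨?_, rfl⟩
  have h2 := J_coeff_neg hc he
  rw [h, J_coeff_neg hc' he] at h2
  exact (inv_injective h2).symm

theorem J_injective_left {c c' : k} (hc : c ≠ 0) (hc' : c' ≠ 0) {e : ℕ} (he : e ≠ 0)
    (h : J c e = J c' e) : c = c' :=
  (J_inj hc hc' he he h).1

theorem J_mem_range_qExpand {c : k} (hc : c ≠ 0) {e : ℕ} (he : e ≠ 0) (p : ℕ) [NeZero p]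
    (h : p ∣ e) : J c e ∈ Set.range (qExpand k p) := by
  rw [mem_range_qExpand_iff]
  intro n hn
  refine subst_coeff_of_not_dvd hc he _ fun hen => hn ?_
  exact (Int.natCast_dvd_natCast.mpr h).trans hen

theorem J_not_mem_range_qExpand {c : k} (hc : c ≠ 0) {e : ℕ} (he : e ≠ 0) (p : ℕ) [NeZero p]
    (h : ¬ p ∣ e) : J c e ∉ Set.range (qExpand k p) := by
  rw [mem_range_qExpand_iff]
  intro hcon
  have h1 : ¬ (p : ℤ) ∣ -(e : ℤ) := by
    rw [Int.dvd_neg, Int.natCast_dvd_natCast]
    exact h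
  have h2 := hcon _ h1
  rw [J_coeff_neg hc he] at h2
  exact inv_ne_zero hc h2

/-- `subst` commutes with `PhiAt` and evaluation. -/
theorem subst_eval_PhiAt (c : k) (e : ℕ) (Φ : Polynomial (Polynomial ℤ)) (y x : LaurentSeries k) :
    subst c e ((PhiAt Φ y).eval x) = (PhiAt Φ (subst c e y)).eval (subst c e x) :=
  map_eval_PhiAt (subst c e) Φ y x

/-- The twist by an `n`-th root of unity fixes the image of `qExpand k n`. -/
theorem subst_root_qExpand {ζ : k} {n : ℕ} [NeZero n] (hζ : ζ ^ n = 1) (f : LaurentSeries k) :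
    subst ζ 1 (qExpand k n f) = qExpand k n f := by
  have hζ0 : ζ ≠ 0 := by
    rintro rfl
    rw [zero_pow (NeZero.ne n)] at hζ
    exact zero_ne_one hζ
  ext m
  rw [subst_one_coeff hζ0]
  by_cases hm : (n : ℤ) ∣ m
  · obtain ⟨j, rfl⟩ := hm
    rw [zpow_mul, zpow_natCast, hζ, one_zpow, one_mul]
  · rw [qExpand_coeff_of_not_dvd n _ hm, mul_zero]

/-- The fixed points of the twist by a primitive `p`-th root of unity are exactly the series in
`q ^ p`. -/
theorem subst_primitiveRoot_eq_self_iff {ζ : k} {p : ℕ} [NeZero p] (hζ : IsPrimitiveRoot ζ p)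
    (f : LaurentSeries k) : subst ζ 1 f = f ↔ f ∈ Set.range (qExpand k p) := by
  have hζ0 : ζ ≠ 0 := hζ.ne_zero (NeZero.ne p)
  constructor
  · intro h
    rw [mem_range_qExpand_iff]
    intro m hm
    have h1 : ζ ^ m * f.coeff m = f.coeff m := by
      rw [← subst_one_coeff hζ0, h]
    have h2 : ζ ^ m ≠ 1 := fun h3 => hm ((hζ.zpow_eq_one_iff_dvd m).mp h3)
    have h3 : (ζ ^ m - 1) * f.coeff m = 0 := by rw [sub_mul, h1, one_mul, sub_self]
    rcases mul_eq_zero.mp h3 with h4 | h4
    · exact absurd (sub_eq_zero.mp h4) h2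
    · exact h4
  · rintro ⟨g, rfl⟩
    exact subst_root_qExpand hζ.pow_eq_one g

/-- Field homomorphisms on coefficients commute with substitution. -/
theorem coeffMap_subst {k' : Type*} [Field k'] (φ : k →+* k') (c : k) (e : ℕ)
    (f : LaurentSeries k) : coeffMap φ (subst c e f) = subst (φ c) e (coeffMap φ f) := by
  by_cases h : c ≠ 0 ∧ e ≠ 0
  · obtain ⟨hc, he⟩ := h
    have hφc : φ c ≠ 0 := (map_ne_zero φ).mpr hc
    ext m
    rw [coeffMap_coeff]
    by_cases hm : (e : ℤ) ∣ m
    · obtain ⟨n, rfl⟩ := hm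
      rw [subst_coeff_mul hc he, subst_coeff_mul hφc he, coeffMap_coeff, map_mul, map_zpow₀]
    · rw [subst_coeff_of_not_dvd hc he _ hm, subst_coeff_of_not_dvd hφc he _ hm, map_zero]
  · have h' : ¬ (φ c ≠ 0 ∧ e ≠ 0) := fun h2 => h ⟨(map_ne_zero φ).mp h2.1, h2.2⟩
    rw [subst_of_not h, subst_of_not h']
    rfl

theorem coeffMap_J {k' : Type*} [Field k'] (φ : k →+* k') (c : k) (e : ℕ) :
    coeffMap φ (J c e) = J (φ c) e := by
  rw [J, coeffMap_subst, coeffMap_jqModC, J]

end Subst

end Fermat.Agent.S28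

end
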