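/-
S28 (Igusa) support library, block [E], formal half F5 — independent hedge of `HeckeOrders.lean`
(owner of this file: helper64).  Same statements, namespace `Fermat.Agent.S28.OrdersB`.

Base change of `invU`, `wInf` along coefficient maps, and the orders of `j(q)` and
`Δ(q)/Δ(q^p)` over `ℂ`.
-/
import Mathlib
import Fermat.Agent.S28.HeckeDefs
import Fermat.Agent.S28.Twist
import Fermat.Agent.S28.FormalUniqueCore

set_option autoImplicit false

noncomputable section

namespace Fermat.Agent.S28.OrdersB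

open ModularCurve Polynomial

section BaseChange

variable {R S : Type*} [CommRing R] [CommRing S]

theorem coeffMap_ofPS_intMap (φ : R →+* S) (u : PowerSeries ℤ) :
    coeffMap φ (HahnSeries.ofPowerSeries ℤ R (u.map (Int.castRingHom R))) =
      HahnSeries.ofPowerSeries ℤ S (u.map (Int.castRingHom S)) := by
  rw [coeffMap_ofPowerSeries,
    ← RingHom.comp_apply (PowerSeries.map φ) (PowerSeries.map (Int.castRingHom R)),
    ← PowerSeries.map_comp, RingHom.ext_int (φ.comp (Int.castRingHom R)) (Int.castRingHom S)]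

theorem coeffMap_DeltaL (φ : R →+* S) : coeffMap φ (DeltaL R) = DeltaL S := by
  rw [DeltaL, DeltaL, map_mul, coeffMap_single, map_one, coeffMap_ofPS_intMap]

theorem coeffMap_DeltaLInv (φ : R →+* S) : coeffMap φ (DeltaLInv R) = DeltaLInv S := by
  rw [DeltaLInv, DeltaLInv, map_mul, coeffMap_single, map_one, coeffMap_ofPS_intMap]

theorem coeffMap_uL (φ : R →+* S) (p : ℕ) [NeZero p] : coeffMap φ (uL R p) = uL S p := by
  unfold uL
  rw [dif_neg (NeZero.ne p), dif_neg (NeZero.ne p), map_mul, coeffMap_qExpand, coeffMap_DeltaL,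
    coeffMap_DeltaLInv]

theorem coeffMap_invU (φ : R →+* S) (p : ℕ) [NeZero p] : coeffMap φ (invU R p) = invU S p := by
  rw [invU, invU, map_mul, coeffMap_qExpand, coeffMap_DeltaL, coeffMap_DeltaLInv]

theorem coeffMap_wInf (φ : R →+* S) (p : ℕ) [NeZero p] : coeffMap φ (wInf R p) = wInf S p := by
  rw [wInf, wInf, map_mul, map_pow, map_natCast, coeffMap_uL]

end BaseChange

theorem jd_eq_qExpand (R : Type*) [CommRing R] (p : ℕ) [NeZero p] :
    jd R p = qExpand R p (jd R 1) := by
  rw [jd_eq, jd_one]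

section Orders

variable (K : Type*) [Field K]

/-- A power series with constant coefficient `1`, viewed as a Laurent series, has order `0`. -/
theorem order_ofPS {u : PowerSeries K} (hu : PowerSeries.constantCoeff u = 1) :
    HahnSeries.ofPowerSeries ℤ K u ≠ 0 ∧ (HahnSeries.ofPowerSeries ℤ K u).order = 0 := by
  have hcoeff0 : (HahnSeries.ofPowerSeries ℤ K u).coeff (0 : ℤ) = 1 := by
    rw [show (0 : ℤ) = ((0 : ℕ) : ℤ) from rfl, HahnSeries.ofPowerSeries_apply_coeff,
      PowerSeries.coeff_zero_eq_constantCoeff_apply, hu]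
  have hne0 : (HahnSeries.ofPowerSeries ℤ K u).coeff (0 : ℤ) ≠ 0 := by
    rw [hcoeff0]; exact one_ne_zero
  have hne : HahnSeries.ofPowerSeries ℤ K u ≠ 0 := HahnSeries.ne_zero_of_coeff_ne_zero hne0
  refine ⟨hne, le_antisymm (HahnSeries.order_le_of_coeff_ne_zero hne0) ?_⟩
  by_contra hcon
  exact hne (HahnSeries.coeff_order_eq_zero.mp (ofPowerSeries_coeff_of_neg u (not_le.mp hcon)))

theorem constantCoeff_intMap {u : PowerSeries ℤ} (hu : PowerSeries.constantCoeff u = 1) :
    PowerSeries.constantCoeff (u.map (Int.castRingHom K)) = 1 := by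
  rw [← PowerSeries.coeff_zero_eq_constantCoeff_apply, PowerSeries.coeff_map,
    PowerSeries.coeff_zero_eq_constantCoeff_apply, hu]
  simp

theorem DeltaL_ne_zero : DeltaL K ≠ 0 := by
  rw [DeltaL]
  exact mul_ne_zero (HahnSeries.single_ne_zero one_ne_zero)
    (order_ofPS K (constantCoeff_intMap K constantCoeff_dedekindEtaUnit)).1

theorem order_DeltaL : (DeltaL K).order = 1 := by
  have h := order_ofPS K (constantCoeff_intMap K constantCoeff_dedekindEtaUnit)
  rw [DeltaL, HahnSeries.order_mul (HahnSeries.single_ne_zero one_ne_zero) h.1,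
    HahnSeries.order_single one_ne_zero, h.2, add_zero]

theorem DeltaLInv_ne_zero : DeltaLInv K ≠ 0 := by
  rw [DeltaLInv]
  exact mul_ne_zero (HahnSeries.single_ne_zero one_ne_zero)
    (order_ofPS K (constantCoeff_intMap K constantCoeff_dedekindEtaUnitInv)).1

theorem order_DeltaLInv : (DeltaLInv K).order = -1 := by
  have h := order_ofPS K (constantCoeff_intMap K constantCoeff_dedekindEtaUnitInv)
  rw [DeltaLInv, HahnSeries.order_mul (HahnSeries.single_ne_zero one_ne_zero) h.1,
    HahnSeries.order_single one_ne_zero, h.2, add_zero]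

/-- The order of `x(q^p)` is `p` times the order of `x`. -/
theorem order_qExpand (p : ℕ) [NeZero p] {x : LaurentSeries K} (hx : x ≠ 0) :
    (qExpand K p x).order = (p : ℤ) * x.order := by
  have hp : (0 : ℤ) < p := by exact_mod_cast Nat.pos_of_ne_zero (NeZero.ne p)
  have hne : qExpand K p x ≠ 0 := fun h => hx (qExpand_injective p (by rw [h, map_zero]))
  refine le_antisymm (HahnSeries.order_le_of_coeff_ne_zero ?_) ?_
  · rw [qExpand_coeff_mul]
    exact HahnSeries.coeff_order_eq_zero.not.mpr hx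
  · obtain ⟨n, hn⟩ := FormalUnique.dvd_order_qExpand K p x
    have hcoeff : (qExpand K p x).coeff ((p : ℤ) * n) ≠ 0 := by
      rw [← hn]
      exact HahnSeries.coeff_order_eq_zero.not.mpr hne
    rw [qExpand_coeff_mul] at hcoeff
    have hle : x.order ≤ n := HahnSeries.order_le_of_coeff_ne_zero hcoeff
    rw [hn]
    exact mul_le_mul_of_nonneg_left hle hp.le

theorem invU_ne_zero' (p : ℕ) [NeZero p] : invU K p ≠ 0 := by
  rw [invU]
  exact mul_ne_zero (DeltaL_ne_zero K)
    (fun h => DeltaLInv_ne_zero K (qExpand_injective p (by rw [h, map_zero])))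

theorem order_invU' (p : ℕ) [NeZero p] : (invU K p).order = 1 - (p : ℤ) := by
  have h2 : qExpand K p (DeltaLInv K) ≠ 0 :=
    fun h => DeltaLInv_ne_zero K (qExpand_injective p (by rw [h, map_zero]))
  rw [invU, HahnSeries.order_mul (DeltaL_ne_zero K) h2, order_DeltaL,
    order_qExpand K p (DeltaLInv_ne_zero K), order_DeltaLInv]
  ring

theorem jd_one_ne_zero' : jd K 1 ≠ 0 := by
  rw [← J_one]
  exact J_ne_zero one_ne_zero one_ne_zero

theorem order_jd_one' : (jd K 1).order = -1 := by
  rw [← J_one, J_order one_ne_zero one_ne_zero]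
  simp

theorem jd_one_ne' (p : ℕ) [NeZero p] (hp : 2 ≤ p) (a : LaurentSeries K) :
    jd K 1 ≠ qExpand K p a := by
  intro h
  have hdvd := FormalUnique.dvd_order_qExpand K p a
  rw [← h, order_jd_one'] at hdvd
  have h1 : (p : ℤ) ∣ 1 := (dvd_neg.mp hdvd)
  have h2 : (p : ℤ) ≤ 1 := Int.le_of_dvd one_pos h1
  omega

theorem invU_ne' (p : ℕ) [NeZero p] (hp : 2 ≤ p) (a : LaurentSeries K) :
    invU K p ≠ qExpand K p a := by
  intro h
  have hdvd := FormalUnique.dvd_order_qExpand K p a
  rw [← h, order_invU'] at hdvd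
  have h1 : (p : ℤ) ∣ 1 := by
    have := dvd_add hdvd (dvd_refl (p : ℤ))
    simpa using this
  have h2 : (p : ℤ) ≤ 1 := Int.le_of_dvd one_pos h1
  omega

end Orders

theorem jd_one_ne_zero : jd ℂ 1 ≠ 0 := jd_one_ne_zero' ℂ

theorem order_jd_one : (jd ℂ 1).order = -1 := order_jd_one' ℂ

theorem invU_ne_zero (p : ℕ) [NeZero p] : invU ℂ p ≠ 0 := invU_ne_zero' ℂ p

theorem order_invU (p : ℕ) [NeZero p] : (invU ℂ p).order = 1 - (p : ℤ) := order_invU' ℂ p

theorem jd_one_ne (p : ℕ) [NeZero p] (hp : 2 ≤ p) : jd ℂ 1 ≠ qExpand ℂ p (jd ℂ p) :=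
  jd_one_ne' ℂ p hp _

theorem invU_ne (p : ℕ) [NeZero p] (hp : 2 ≤ p) : invU ℂ p ≠ qExpand ℂ p (wInf ℂ p) :=
  invU_ne' ℂ p hp _

end Fermat.Agent.S28.OrdersB
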