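/-
S28 (Igusa) support library, block [E], formal algebra (owner: helper64).

Triangularity of `ℂ[j] ⊆ ℂ((q))`: a polynomial `P` with coefficients in a commutative ring `K`
such that all coefficients of `P(j(q))` lie in a subring `A ⊆ K` has all its coefficients in `A`.
In particular a polynomial over a ring of characteristic zero whose value at `j(q)` has integer
coefficients is the image of a polynomial over `ℤ`.
-/
import Mathlib
import Fermat.Agent.S28.Defs
import Fermat.Prelude.Thm_ModularCurve_coeff_jqModC_pow_self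
import Fermat.Prelude.Thm_ModularCurve_coeff_jqModC_pow_of_lt

set_option autoImplicit false

noncomputable section

namespace Fermat.Agent.S28

open ModularCurve Polynomial

section Triangular

variable {K : Type*} [CommRing K]

/-- The scalar action of `K` on `K((q))` coming from the algebra structure acts coefficientwise. -/
theorem tri_coeff_algebraMap_mul (c : K) (x : LaurentSeries K) (m : ℤ) :
    (algebraMap K (LaurentSeries K) c * x).coeff m = c * x.coeff m := by
  have h1 : algebraMap K (PowerSeries K) c = PowerSeries.C c := by simp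
  rw [HahnSeries.algebraMap_apply', h1, HahnSeries.ofPowerSeries_C,
    HahnSeries.C_mul_eq_smul, HahnSeries.coeff_smul, smul_eq_mul]

/-- Every coefficient of a power of `j(q)` is an integer. -/
theorem tri_coeff_jq_pow_mem (A : Subring K) (n : ℕ) (m : ℤ) :
    ((jqModC K) ^ n).coeff m ∈ A := by
  have h : (jqModC K) ^ n = coeffMap (Int.castRingHom K) ((jqModC ℤ) ^ n) := by
    rw [map_pow, coeffMap_jqModC]
  rw [h, coeffMap_coeff]
  exact intCast_mem A _

/-- The coefficient of `q^(-n)` in `P(j(q))` is the `n`-th coefficient of `P` when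
`natDegree P ≤ n`. -/
theorem tri_coeff_aeval_neg (P : Polynomial K) (n : ℕ) (hn : P.natDegree ≤ n) :
    (Polynomial.aeval (jqModC K) P).coeff (-(n : ℤ)) = P.coeff n := by
  rw [Polynomial.aeval_eq_sum_range' (Nat.lt_succ_of_le hn), HahnSeries.coeff_sum]
  rw [Finset.sum_eq_single n]
  · rw [Algebra.smul_def, tri_coeff_algebraMap_mul, coeff_jqModC_pow_self, mul_one]
  · intro i hi hne
    have hlt : i < n := lt_of_le_of_ne (Nat.lt_succ_iff.mp (Finset.mem_range.mp hi)) hne
    have hlt' : -(n : ℤ) < -(i : ℤ) := neg_lt_neg (by exact_mod_cast hlt)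
    rw [Algebra.smul_def, tri_coeff_algebraMap_mul, coeff_jqModC_pow_of_lt K hlt', mul_zero]
  · intro h
    exact absurd (Finset.mem_range.mpr (Nat.lt_succ_self n)) h

/-- **Triangularity.** If all coefficients of `P(j(q))` lie in the subring `A`, then so do all
coefficients of `P`. -/
theorem tri_coeff_mem_of_aeval_jq (A : Subring K) :
    ∀ (n : ℕ) (P : Polynomial K), P.natDegree ≤ n →
      (∀ m : ℤ, (Polynomial.aeval (jqModC K) P).coeff m ∈ A) → ∀ i, P.coeff i ∈ A := by
  intro n
  induction n with
  | zero =>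
    intro P hP h i
    rcases Nat.eq_zero_or_pos i with rfl | hi
    · have := h (-(0 : ℕ))
      rwa [tri_coeff_aeval_neg P 0 hP] at this
    · rw [Polynomial.coeff_eq_zero_of_natDegree_lt (lt_of_le_of_lt hP hi)]
      exact A.zero_mem
  | succ n ih =>
    intro P hP h i
    have hlead : P.coeff (n + 1) ∈ A := by
      have := h (-((n + 1 : ℕ) : ℤ))
      rwa [tri_coeff_aeval_neg P (n + 1) hP] at this
    set Q : Polynomial K := P - Polynomial.C (P.coeff (n + 1)) * Polynomial.X ^ (n + 1) with hQ
    have hQdeg : Q.natDegree ≤ n := by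
      rw [Polynomial.natDegree_le_iff_coeff_eq_zero]
      intro N hN
      rw [hQ, Polynomial.coeff_sub, Polynomial.coeff_C_mul, Polynomial.coeff_X_pow]
      rcases Nat.lt_or_ge (n + 1) N with h1 | h1
      · rw [Polynomial.coeff_eq_zero_of_natDegree_lt (lt_of_le_of_lt hP h1), if_neg (by omega)]
        ring
      · have : N = n + 1 := by omega
        subst this
        simp
    have hQA : ∀ m : ℤ, (Polynomial.aeval (jqModC K) Q).coeff m ∈ A := by
      intro m
      rw [hQ, map_sub, map_mul, Polynomial.aeval_C, map_pow, Polynomial.aeval_X,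
        HahnSeries.coeff_sub', Pi.sub_apply, tri_coeff_algebraMap_mul]
      exact A.sub_mem (h m) (A.mul_mem hlead (tri_coeff_jq_pow_mem A _ _))
    have hQi := ih Q hQdeg hQA i
    have : P.coeff i = Q.coeff i + (Polynomial.C (P.coeff (n + 1)) * Polynomial.X ^ (n + 1)).coeff i := by
      rw [hQ, Polynomial.coeff_sub]; ring
    rw [this, Polynomial.coeff_C_mul, Polynomial.coeff_X_pow]
    refine A.add_mem hQi (A.mul_mem hlead ?_)
    split_ifs
    · exact A.one_mem
    · exact A.zero_mem

/-- Integral version: a polynomial over a commutative ring `K` whose value at `j(q)` has integer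
coefficients is the image of a polynomial with integer coefficients. -/
theorem tri_exists_int_of_aeval_jq (P : Polynomial K)
    (h : ∀ m : ℤ, ∃ c : ℤ, (Polynomial.aeval (jqModC K) P).coeff m = (c : K)) :
    ∃ P' : Polynomial ℤ, P'.map (Int.castRingHom K) = P := by
  have hA : ∀ i, P.coeff i ∈ (Int.castRingHom K).range :=
    tri_coeff_mem_of_aeval_jq (Int.castRingHom K).range P.natDegree P le_rfl (fun m => by
      obtain ⟨c, hc⟩ := h m
      exact ⟨c, by rw [hc]; rfl⟩)
  have hmem : P ∈ Polynomial.lifts (Int.castRingHom K) := by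
    rw [Polynomial.lifts_iff_coeff_lifts]
    intro i
    exact hA i
  obtain ⟨P', hP'⟩ := hmem
  exact ⟨P', hP'⟩

/-- Two-variable integral version, for `Φ ∈ K[Y][X]`: if for every `i` the value at `j(q)` of the
`X^i`-coefficient of `Φ` has integer coefficients, then `Φ` comes from `ℤ[Y][X]`. -/
theorem tri_exists_int_of_aeval_jq₂ (Φ : Polynomial (Polynomial K))
    (h : ∀ (i : ℕ) (m : ℤ), ∃ c : ℤ,
      (Polynomial.aeval (jqModC K) (Φ.coeff i)).coeff m = (c : K)) :
    ∃ Φ' : Polynomial (Polynomial ℤ),
      Φ'.map (Polynomial.mapRingHom (Int.castRingHom K)) = Φ := by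
  have hmem : Φ ∈ Polynomial.lifts (Polynomial.mapRingHom (Int.castRingHom K)) := by
    rw [Polynomial.lifts_iff_coeff_lifts]
    intro i
    obtain ⟨P', hP'⟩ := tri_exists_int_of_aeval_jq (Φ.coeff i) (h i)
    exact ⟨P', by rw [Polynomial.coe_mapRingHom]; exact hP'⟩
  obtain ⟨Φ', hΦ'⟩ := hmem
  exact ⟨Φ', hΦ'⟩

/-- `j(q)` is transcendental: evaluation at `j(q)` is injective on polynomials. -/
theorem tri_aeval_jq_injective :
    Function.Injective (Polynomial.aeval (jqModC K) : Polynomial K → LaurentSeries K) := by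
  rw [injective_iff_map_eq_zero]
  intro P hP
  have h := tri_coeff_aeval_neg P P.natDegree le_rfl
  rw [hP, HahnSeries.coeff_zero] at h
  exact Polynomial.leadingCoeff_eq_zero.mp h.symm

/-- The specialisation map `ℤ[Y] → ℤ((q))`, `Y ↦ j(q)`, in the form used by `PhiAt`. -/
theorem tri_eval₂RingHom_injective :
    Function.Injective (Polynomial.eval₂RingHom (Int.castRingHom (LaurentSeries ℤ)) (jd ℤ 1)) := by
  intro P Q hPQ
  apply tri_aeval_jq_injective (K := ℤ)
  rw [jd_one] at hPQ
  have e : algebraMap ℤ (LaurentSeries ℤ) = Int.castRingHom (LaurentSeries ℤ) :=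
    RingHom.ext_int _ _
  rw [Polynomial.aeval_def, Polynomial.aeval_def, e]
  exact hPQ

/-- Compatibility of evaluation at `j(q)` with the coefficient map `ℤ → K`. -/
theorem tri_coeffMap_aeval (P : Polynomial ℤ) :
    coeffMap (Int.castRingHom K) (Polynomial.aeval (jd ℤ 1) P) =
      Polynomial.aeval (jd K 1) (P.map (Int.castRingHom K)) := by
  rw [Polynomial.aeval_def, Polynomial.aeval_def, Polynomial.eval₂_map, Polynomial.hom_eval₂,
    coeffMap_jd]
  congr 1
  exact RingHom.ext_int _ _

/-- **Triangular lemma, one variable.**  If `f ∈ ℤ((q))` becomes a polynomial `Q(j(q))` with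
coefficients in a ring `K` of characteristic zero, then `Q` has integer coefficients and
`f = P(j(q))` already over `ℤ`. -/
theorem tri_exists_int [CharZero K] (f : LaurentSeries ℤ) (Q : Polynomial K)
    (h : coeffMap (Int.castRingHom K) f = Polynomial.aeval (jd K 1) Q) :
    ∃ P : Polynomial ℤ, P.map (Int.castRingHom K) = Q ∧ f = Polynomial.aeval (jd ℤ 1) P := by
  obtain ⟨P, hP⟩ := tri_exists_int_of_aeval_jq Q (fun m => ⟨f.coeff m, by
    rw [← jd_one, ← h, coeffMap_coeff]; rfl⟩)
  refine ⟨P, hP, ?_⟩
  have hinj : Function.Injective (coeffMap (Int.castRingHom K)) := by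
    intro x y hxy
    ext m
    have := congrArg (fun z => z.coeff m) hxy
    simp only [coeffMap_coeff] at this
    exact Int.cast_injective this
  apply hinj
  rw [h, tri_coeffMap_aeval, hP]

/-- **Triangular lemma, two variables.**  If `F ∈ ℤ((q))[X]` becomes `Φ₀(X, j(q))` for some
`Φ₀ ∈ K[Y][X]`, `K` of characteristic zero, then `Φ₀` comes from a unique `Φ ∈ ℤ[Y][X]` with
`PhiAt Φ (j(q)) = F`; degree and monicity transfer. -/
theorem tri_exists_int₂ [CharZero K] (F : Polynomial (LaurentSeries ℤ))
    (Φ₀ : Polynomial (Polynomial K))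
    (h : F.map (coeffMap (Int.castRingHom K)) =
      Φ₀.map (Polynomial.aeval (jd K 1) : Polynomial K →ₐ[K] LaurentSeries K).toRingHom) :
    ∃ Φ : Polynomial (Polynomial ℤ), PhiAt Φ (jd ℤ 1) = F ∧
      Φ.map (Polynomial.mapRingHom (Int.castRingHom K)) = Φ₀ ∧
      Φ.natDegree = F.natDegree ∧ (F.Monic → Φ.Monic) := by
  have hc : ∀ i, ∃ P : Polynomial ℤ, P.map (Int.castRingHom K) = Φ₀.coeff i ∧
      F.coeff i = Polynomial.aeval (jd ℤ 1) P := by
    intro i
    apply tri_exists_int
    have := congrArg (fun G => G.coeff i) h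
    simpa [Polynomial.coeff_map] using this
  choose P hP1 hP2 using hc
  set φ := Polynomial.eval₂RingHom (Int.castRingHom (LaurentSeries ℤ)) (jd ℤ 1) with hφ
  have hφP : ∀ Q : Polynomial ℤ, φ Q = Polynomial.aeval (jd ℤ 1) Q := by
    intro Q
    have e : algebraMap ℤ (LaurentSeries ℤ) = Int.castRingHom (LaurentSeries ℤ) :=
      RingHom.ext_int _ _
    rw [hφ, Polynomial.aeval_def, e]
    rfl
  have hmem : F ∈ Polynomial.lifts φ := by
    rw [Polynomial.lifts_iff_coeff_lifts]
    intro i
    exact ⟨P i, by rw [hφP, hP2]⟩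
  obtain ⟨Φ, hΦ⟩ := hmem
  rw [Polynomial.coe_mapRingHom] at hΦ
  have hcoeff : ∀ i, Φ.coeff i = P i := by
    intro i
    apply tri_eval₂RingHom_injective
    have h1 : φ (Φ.coeff i) = F.coeff i := by rw [← hΦ, Polynomial.coeff_map]
    rw [← hφ, h1, hφP, hP2]
  refine ⟨Φ, hΦ, ?_, ?_, ?_⟩
  · ext i : 1
    rw [Polynomial.coeff_map, Polynomial.coe_mapRingHom, hcoeff, hP1]
  · rw [← hΦ]
    exact (Polynomial.natDegree_map_eq_of_injective tri_eval₂RingHom_injective Φ).symm
  · intro hF
    rw [← hΦ] at hF
    exact Polynomial.monic_of_injective tri_eval₂RingHom_injective hF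

end Triangular

end Fermat.Agent.S28
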