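/-
S28 block [E], formal half, final assembly (owner: helper51):
`AnalyticInput p → Nonempty (HeckeData p)`.

The integral candidates are
  `Φ♭ = (X - j(q^p)) · χ_j`,  `W♭ = (X - p¹² u_p) · χ_{1/u_p}`,
  `H♭ = p¹² u_p · χ_j + (X - j(q^p)) · (Euler polynomial mod χ_j)`
(`χ_f` the characteristic polynomial of multiplication by `f` on `ℤ((t))` over `ℤ((tᵖ))`).
Over `ℂ` they coincide with the analytic polynomials by uniqueness, and the triangular lemma
brings their coefficients back to `ℤ[j]`.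
-/
import Mathlib
import Fermat.Agent.S28.HeckeDefs
import Fermat.Agent.S28.Triangular
import Fermat.Agent.S28.FormalNorm
import Fermat.Agent.S28.FormalUnique
import Fermat.Agent.S28.HeckeOrdersB

set_option autoImplicit false

noncomputable section

namespace Fermat.Agent.S28

open ModularCurve Polynomial OrdersB FormalUnique

namespace HeckeFormal

/-- The algebra map `ℂ → ℂ((q))` is the constant-series embedding. -/
theorem algebraMap_eq_C (c : ℂ) : algebraMap ℂ (LaurentSeries ℂ) c = HahnSeries.C c := by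
  have h1 : algebraMap ℂ (PowerSeries ℂ) c = PowerSeries.C c := by simp
  rw [HahnSeries.algebraMap_apply', h1, HahnSeries.ofPowerSeries_C]

/-- `qExpand` commutes with evaluation of complex polynomials. -/
theorem qExpand_comp_aeval (p : ℕ) [NeZero p] (y : LaurentSeries ℂ) :
    (qExpand ℂ p).comp ((Polynomial.aeval y : Polynomial ℂ →ₐ[ℂ] LaurentSeries ℂ) :
        Polynomial ℂ →+* LaurentSeries ℂ) =
      ((Polynomial.aeval (qExpand ℂ p y) : Polynomial ℂ →ₐ[ℂ] LaurentSeries ℂ) :
        Polynomial ℂ →+* LaurentSeries ℂ) := by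
  refine Polynomial.ringHom_ext (fun c => ?_) ?_
  · simp only [RingHom.comp_apply, AlgHom.coe_toRingHom, Polynomial.aeval_C]
    rw [algebraMap_eq_C, qExpand_C]
  · simp only [RingHom.comp_apply, AlgHom.coe_toRingHom, Polynomial.aeval_X]

/-- `ev2 P x (σ y)` as the evaluation of the `σ`-image of `P(·, y)`. -/
theorem ev2_qExpand (p : ℕ) [NeZero p] (P : Polynomial (Polynomial ℂ)) (x y : LaurentSeries ℂ) :
    ev2 P x (qExpand ℂ p y) =
      ((P.map ((Polynomial.aeval y : Polynomial ℂ →ₐ[ℂ] LaurentSeries ℂ) :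
        Polynomial ℂ →+* LaurentSeries ℂ)).map (qExpand ℂ p)).eval x := by
  rw [ev2_def, Polynomial.map_map, qExpand_comp_aeval]

/-- `ev2` of a derivative. -/
theorem ev2_derivative (P : Polynomial (Polynomial ℂ)) (x y : LaurentSeries ℂ) :
    ev2 (Polynomial.derivative P) x y =
      (Polynomial.derivative (P.map ((Polynomial.aeval y :
        Polynomial ℂ →ₐ[ℂ] LaurentSeries ℂ) : Polynomial ℂ →+* LaurentSeries ℂ))).eval x := by
  rw [ev2_def, Polynomial.derivative_map]

/-- Derivative of `(X - a) χ` at `a`. -/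
theorem derivative_linear_mul_eval_self {A : Type*} [CommRing A] (a : A) (χ : Polynomial A) :
    (Polynomial.derivative ((X - C a) * χ)).eval a = χ.eval a := by
  simp [Polynomial.derivative_mul]

/-- Derivative of `(X - b) χ` at a root `f` of `χ`. -/
theorem derivative_linear_mul_eval_root {A : Type*} [CommRing A] (b f : A) (χ : Polynomial A)
    (h : χ.eval f = 0) :
    (Polynomial.derivative ((X - C b) * χ)).eval f =
      (f - b) * (Polynomial.derivative χ).eval f := by
  simp [Polynomial.derivative_mul, h]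

theorem isCoprime_neg_one (p : ℕ) : IsCoprime (-1 : ℤ) (p : ℤ) :=
  ⟨-1, 0, by ring⟩

theorem isCoprime_one_sub (p : ℕ) : IsCoprime (1 - (p : ℤ)) (p : ℤ) :=
  ⟨1, 1, by ring⟩

theorem monic_candidate (p : ℕ) [NeZero p] (a f : LaurentSeries ℤ) :
    ((X - C a) * chiL ℤ p f).Monic :=
  (Polynomial.monic_X_sub_C a).mul (chiL_monic ℤ p f)

theorem natDegree_candidate (p : ℕ) [NeZero p] (a f : LaurentSeries ℤ) :
    ((X - C a) * chiL ℤ p f).natDegree = p + 1 := by
  rw [(Polynomial.monic_X_sub_C a).natDegree_mul (chiL_monic ℤ p f), Polynomial.natDegree_X_sub_C,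
    chiL_natDegree, add_comm]

end HeckeFormal

open HeckeFormal

/-- **Formal half of block [E]**: the analytic input over `ℂ` yields `HeckeData p`. -/
theorem heckeData_of_analyticInput (p : ℕ) [NeZero p] (hp : p.Prime) (h : AnalyticInput p) :
    Nonempty (HeckeData p) := by
  obtain ⟨Φc, Wc, Hc, hΦm, hΦd, hWm, hWd, hHd, hΦ1, hΦ2, hW1, hW2, hH1, hH2⟩ := h
  have h2 : 2 ≤ p := hp.two_le
  -- abbreviations
  set cm : LaurentSeries ℤ →+* LaurentSeries ℂ := coeffMap (Int.castRingHom ℂ) with hcm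
  set ev : Polynomial ℂ →+* LaurentSeries ℂ :=
    ((Polynomial.aeval (jd ℂ 1) : Polynomial ℂ →ₐ[ℂ] LaurentSeries ℂ) :
      Polynomial ℂ →+* LaurentSeries ℂ) with hev
  have hjp : jd ℂ p = qExpand ℂ p (jd ℂ 1) := jd_eq_qExpand ℂ p
  have hjpZ : jd ℤ p = qExpand ℤ p (jd ℤ 1) := jd_eq_qExpand ℤ p
  have hcj1 : cm (jd ℤ 1) = jd ℂ 1 := coeffMap_jd _ 1
  have hcjp : cm (jd ℤ p) = jd ℂ p := coeffMap_jd _ p
  have hcw : cm (wInf ℤ p) = wInf ℂ p := coeffMap_wInf _ p
  have hcu : cm (invU ℤ p) = invU ℂ p := coeffMap_invU _ p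
  have hord1 : IsCoprime (jd ℂ 1).order (p : ℤ) := by
    rw [order_jd_one]; exact isCoprime_neg_one p
  have hord2 : IsCoprime (invU ℂ p).order (p : ℤ) := by
    rw [order_invU]; exact isCoprime_one_sub p
  ----------------------------------------------------------------------------------------------
  -- Φ
  have hΦeq : Φc.map ev = (X - C (jd ℂ p)) * chiL ℂ p (jd ℂ 1) := by
    refine eq_linear_mul_chiL ℂ p (jd ℂ 1) (jd ℂ p) jd_one_ne_zero hord1 (jd_one_ne p h2)
      (Φc.map ev) (hΦm.map _) ?_ hΦ1 ?_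
    · rw [hΦm.natDegree_map, hΦd]
    · have := hΦ2
      rw [hjp, ev2_qExpand] at this
      exact this
  have hFΦ : ((X - C (jd ℤ p)) * chiL ℤ p (jd ℤ 1)).map cm = Φc.map ev := by
    rw [hΦeq, Polynomial.map_mul, Polynomial.map_sub, Polynomial.map_X, Polynomial.map_C,
      hcjp, ← chiL_coeffMap, hcj1]
  obtain ⟨Φ, hΦF, -, hΦnd, hΦmon⟩ :=
    tri_exists_int₂ ((X - C (jd ℤ p)) * chiL ℤ p (jd ℤ 1)) Φc hFΦ
  ----------------------------------------------------------------------------------------------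
  -- W
  have hWeq : Wc.map ev = (X - C (wInf ℂ p)) * chiL ℂ p (invU ℂ p) := by
    refine eq_linear_mul_chiL ℂ p (invU ℂ p) (wInf ℂ p) (invU_ne_zero p) hord2 (invU_ne p h2)
      (Wc.map ev) (hWm.map _) ?_ hW1 ?_
    · rw [hWm.natDegree_map, hWd]
    · have := hW2
      rw [hjp, ev2_qExpand] at this
      exact this
  have hFW : ((X - C (wInf ℤ p)) * chiL ℤ p (invU ℤ p)).map cm = Wc.map ev := by
    rw [hWeq, Polynomial.map_mul, Polynomial.map_sub, Polynomial.map_X, Polynomial.map_C,
      hcw, ← chiL_coeffMap, hcu]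
  obtain ⟨W, hWF, -, -, hWmon⟩ :=
    tri_exists_int₂ ((X - C (wInf ℤ p)) * chiL ℤ p (invU ℤ p)) Wc hFW
  ----------------------------------------------------------------------------------------------
  -- H
  have hχroot : ((chiL ℂ p (jd ℂ 1)).map (qExpand ℂ p)).eval (jd ℂ 1) = 0 :=
    chiL_eval_self ℂ p (jd ℂ 1)
  have hHeq : Hc.map ev = C (wInf ℂ p) * chiL ℂ p (jd ℂ 1) +
      (X - C (jd ℂ p)) * (eulerL ℂ p (jd ℂ 1) (invU ℂ p) %ₘ chiL ℂ p (jd ℂ 1)) := by
    refine eq_euler_form ℂ p (jd ℂ 1) (jd ℂ p) (invU ℂ p) (wInf ℂ p) jd_one_ne_zero hord1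
      (jd_one_ne p h2) (Hc.map ev) ((Polynomial.natDegree_map_le).trans hHd) ?_ ?_
    · have := hH1
      rw [ev2_derivative, ← hev, hΦeq, derivative_linear_mul_eval_self] at this
      exact this
    · have := hH2
      rw [hjp, ev2_qExpand, ev2_derivative, ← qExpand_comp_aeval, ← Polynomial.map_map, ← hev,
        hΦeq, Polynomial.map_mul, Polynomial.map_sub, Polynomial.map_X, Polynomial.map_C,
        derivative_linear_mul_eval_root _ _ _ hχroot, ← mul_assoc] at this
      exact this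
  have hFH : (C (wInf ℤ p) * chiL ℤ p (jd ℤ 1) +
      (X - C (jd ℤ p)) * (eulerL ℤ p (jd ℤ 1) (invU ℤ p) %ₘ chiL ℤ p (jd ℤ 1))).map cm =
      Hc.map ev := by
    rw [hHeq, Polynomial.map_add, Polynomial.map_mul, Polynomial.map_mul, Polynomial.map_sub,
      Polynomial.map_X, Polynomial.map_C, Polynomial.map_C,
      Polynomial.map_modByMonic _ (chiL_monic ℤ p (jd ℤ 1)), hcjp, hcw, ← chiL_coeffMap,
      ← eulerL_coeffMap, hcj1, hcu]
  obtain ⟨H, hHF, -, -, -⟩ :=
    tri_exists_int₂ (C (wInf ℤ p) * chiL ℤ p (jd ℤ 1) +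
      (X - C (jd ℤ p)) * (eulerL ℤ p (jd ℤ 1) (invU ℤ p) %ₘ chiL ℤ p (jd ℤ 1))) Hc hFH
  ----------------------------------------------------------------------------------------------
  refine ⟨{
    Φ := Φ
    monic := hΦmon (monic_candidate p _ _)
    natDegree_eq := by rw [hΦnd, natDegree_candidate]
    root := by rw [hΦF]; simp
    root' := by
      rw [hjpZ, ← PhiAt_map (qExpand ℤ p) Φ (jd ℤ 1), hΦF, Polynomial.map_mul,
        Polynomial.eval_mul, chiL_eval_self, mul_zero]
    W := W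
    W_monic := hWmon (monic_candidate p _ _)
    W_root := by
      show (PhiAt W (jd ℤ 1)).eval (wInf ℤ p) = 0
      rw [hWF]; simp
    H := H
    H_eq := by
      show (PhiAt H (jd ℤ 1)).eval (jd ℤ p) =
        wInf ℤ p * (PhiAt (Polynomial.derivative Φ) (jd ℤ 1)).eval (jd ℤ p)
      rw [hHF, PhiAt_derivative, hΦF, derivative_linear_mul_eval_self]
      simp }⟩

end Fermat.Agent.S28
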