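/-
S28 block [E], FINAL EXPORT (owner: helper51): `exists_heckeData`.

Assembly:
* `ECosetProd.analyticFun_of_goodSub` (helper49) with `ECosetPts.card_QN`, `ECosetPts.trans_S_jAt`,
  `ECosetPts.trans_S_hkW` (helper94) and `jAt_mem_goodSub`, `hkW_mem_goodSub` (helper9) gives the
  function-level interface `AnalyticFun p`;
* `analyticInput_of_fun` (helper16 / helper58) moves it to Laurent series: `AnalyticInput p`;
* `heckeData_of_analyticInput` (formal half) produces `HeckeData p`.
-/
import Mathlib
import Fermat.Agent.S28.HeckeFormal
import Fermat.Agent.S28.AnExpandMain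
import Fermat.Agent.S28.ECosetProd
import Fermat.Agent.S28.ECosetPts
import Fermat.Agent.S28.EHkW

set_option autoImplicit false

namespace Fermat.Agent.S28

/-- The function-level modular polynomials at a prime level. -/
theorem HeckeMain.analyticFun (p : ℕ) [NeZero p] (hp : p.Prime) : AnalyticFun p :=
  ECosetProd.analyticFun_of_goodSub p (ECosetPts.card_QN p hp) (jAt_mem_goodSub p)
    (hkW_mem_goodSub p) (ECosetPts.trans_S_jAt p) (ECosetPts.trans_S_hkW p)

/-- The Laurent-series modular polynomials over `ℂ` at a prime level. -/
theorem HeckeMain.analyticInput (p : ℕ) [NeZero p] (hp : p.Prime) : AnalyticInput p :=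
  analyticInput_of_fun p (HeckeMain.analyticFun p hp)

/-- **Block [E]**: the integral modular polynomials `Φ_p`, `W_p`, `H_p` exist for every prime `p`. -/
theorem exists_heckeData (p : ℕ) (hp : p.Prime) : Nonempty (HeckeData p) := by
  haveI : NeZero p := ⟨hp.ne_zero⟩
  exact heckeData_of_analyticInput p hp (HeckeMain.analyticInput p hp)

end Fermat.Agent.S28
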