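/-
S28 (Igusa) -- block [T1]-abstract: "good pairs" and the step lemma of the tower.
Owner: helper27.  Everything lives in `namespace Fermat.Agent.S28`.  Mathlib-only imports.

A *good pair* `(S, ρ)` (relative to a prime number `ℓ`) is a subring `S` of a field `Ω` together
with a ring homomorphism `ρ : S → L` to a field `L` such that `ker ρ = ℓ S`, every element not
killed by `ρ` is a unit, and every nonzero element is `ℓ ^ n * unit`
(i.e. `S` is a discrete valuation ring with uniformiser `ℓ` and `ρ` is its residue map followed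
by an embedding of the residue field into `L`).

STEP LEMMA (`GoodPair.adjoin_root`): if `g ∈ S[X]` is monic with a root `x ∈ Ω`, its reduction
`g.map ρ` has the root `xbar ∈ L` and admits no nontrivial monic factorisation with coefficients
in `ρ(S)`, then `(S[x], ρ')` is again a good pair, where `ρ'` extends `ρ` and sends `x ↦ xbar`.

MIXED LEMMA (`GoodPair.mem_of_bezout`): a common root `y ∈ Ω` of two monic `g₁ g₂ ∈ S[X]` whose
reductions satisfy a Bezout identity `A * g₁.map ρ + B * g₂.map ρ = X - C ybar` lies in `S`, and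
`ρ y = ybar`.
-/
import Mathlib

set_option autoImplicit false

noncomputable section

namespace Fermat.Agent.S28

open Polynomial

variable {Ω L : Type*} [Field Ω] [Field L]

/-- A good pair `(S, ρ)` relative to `ℓ`. -/
structure GoodPair (ℓ : ℕ) (S : Subring Ω) (ρ : ↥S →+* L) : Prop where
  /-- `ℓ` is nonzero in the ambient field. -/
  ell_ne_zero : (ℓ : Ω) ≠ 0
  /-- the kernel of `ρ` is generated by `ℓ`. -/
  ker_eq : RingHom.ker ρ = Ideal.span {(ℓ : ↥S)}
  /-- elements not killed by `ρ` are units. -/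
  isUnit_of_map_ne_zero : ∀ s : ↥S, ρ s ≠ 0 → IsUnit s
  /-- every nonzero element is a power of `ℓ` times a unit. -/
  exists_eq_pow_mul : ∀ s : ↥S, s ≠ 0 → ∃ (n : ℕ) (u : ↥S), IsUnit u ∧ s = (ℓ : ↥S) ^ n * u

/-! ### The subring `S[x]` -/

/-- The subring `S[x]` of `Ω` generated by `S` and `x`. -/
def adjoinElt (S : Subring Ω) (x : Ω) : Subring Ω := Subring.closure ((S : Set Ω) ∪ {x})

theorem le_adjoinElt (S : Subring Ω) (x : Ω) : S ≤ adjoinElt S x := fun _ hs =>
  Subring.subset_closure (Or.inl hs)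

theorem mem_adjoinElt_self (S : Subring Ω) (x : Ω) : x ∈ adjoinElt S x :=
  Subring.subset_closure (Or.inr rfl)

theorem adjoinElt_le {S T : Subring Ω} {x : Ω} (hST : S ≤ T) (hx : x ∈ T) : adjoinElt S x ≤ T :=
  Subring.closure_le.mpr (Set.union_subset hST (Set.singleton_subset_iff.mpr hx))

/-- A polynomial expression with coefficients in `S`, evaluated at a point of a subring
`T ≥ S`, lies in `T`. -/
theorem eval₂_subtype_mem {S T : Subring Ω} (hST : S ≤ T) {y : Ω} (hy : y ∈ T)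
    (p : Polynomial ↥S) : p.eval₂ S.subtype y ∈ T := by
  rw [Polynomial.eval₂_eq_sum_range]
  exact Subring.sum_mem _ fun i _ => Subring.mul_mem _ (hST (p.coeff i).2)
    (Subring.pow_mem _ hy i)

/-- Polynomial expressions in `x` with coefficients in `S` lie in `S[x]`. -/
theorem eval₂_mem_adjoinElt (S : Subring Ω) (x : Ω) (p : Polynomial ↥S) :
    p.eval₂ S.subtype x ∈ adjoinElt S x :=
  eval₂_subtype_mem (le_adjoinElt S x) (mem_adjoinElt_self S x) p

/-- Every element of `S[x]` is a polynomial expression in `x` with coefficients in `S`. -/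
theorem exists_eval₂_eq_of_mem_adjoinElt {S : Subring Ω} {x y : Ω} (hy : y ∈ adjoinElt S x) :
    ∃ p : Polynomial ↥S, p.eval₂ S.subtype x = y := by
  induction hy using Subring.closure_induction with
  | mem z hz =>
    rcases hz with hz | hz
    · exact ⟨C ⟨z, hz⟩, by simp⟩
    · rw [Set.mem_singleton_iff] at hz
      exact ⟨X, by simp [hz]⟩
  | zero => exact ⟨0, by simp⟩
  | one => exact ⟨1, by simp⟩
  | add a b _ _ ha hb =>
    obtain ⟨p, rfl⟩ := ha
    obtain ⟨q, rfl⟩ := hb
    exact ⟨p + q, Polynomial.eval₂_add _ _⟩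
  | neg a _ ha =>
    obtain ⟨p, rfl⟩ := ha
    exact ⟨-p, Polynomial.eval₂_neg _⟩
  | mul a b _ _ ha hb =>
    obtain ⟨p, rfl⟩ := ha
    obtain ⟨q, rfl⟩ := hb
    exact ⟨p * q, Polynomial.eval₂_mul _ _⟩

/-! ### Integrality -/

/-- Elements of `S[x]` are integral over `S` when `x` is. -/
theorem isIntegral_of_mem_adjoinElt {S : Subring Ω} {x y : Ω} (hx : IsIntegral ↥S x)
    (hy : y ∈ adjoinElt S x) : IsIntegral ↥S y := by
  have hle : adjoinElt S x ≤ (integralClosure ↥S Ω).toSubring :=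
    adjoinElt_le (fun s hs => isIntegral_algebraMap (x := (⟨s, hs⟩ : ↥S))) hx
  exact hle hy

/-- Integrality over a base subring `R₀ ≤ S` propagates from `S` to `S[x]`. -/
theorem isIntegral_base_of_mem_adjoinElt {R₀ S : Subring Ω} (hle : R₀ ≤ S)
    (hS : ∀ s ∈ S, IsIntegral ↥R₀ s) {x y : Ω} (hx : IsIntegral ↥S x)
    (hy : y ∈ adjoinElt S x) : IsIntegral ↥R₀ y := by
  letI : Algebra ↥R₀ ↥S := (Subring.inclusion hle).toAlgebra
  haveI : IsScalarTower ↥R₀ ↥S Ω := IsScalarTower.of_algebraMap_eq fun _ => rfl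
  haveI : Algebra.IsIntegral ↥R₀ ↥S := ⟨fun s =>
    (isIntegral_algHom_iff (IsScalarTower.toAlgHom ↥R₀ ↥S Ω) Subtype.val_injective).mp
      (hS s s.2)⟩
  have hx' : IsIntegral ↥R₀ x := isIntegral_trans x hx
  have hle' : adjoinElt S x ≤ (integralClosure ↥R₀ Ω).toSubring := adjoinElt_le hS hx'
  exact hle' hy

/-- If `y` is integral over the subring `S` and `y⁻¹ ∈ S`, then `y ∈ S`. -/
theorem mem_of_isIntegral_of_inv_mem {S : Subring Ω} {y : Ω} (hint : IsIntegral ↥S y)
    (hinv : y⁻¹ ∈ S) : y ∈ S := by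
  obtain ⟨p, hp, hroot⟩ := hint
  rcases eq_or_ne y 0 with rfl | hy0
  · exact S.zero_mem
  set n := p.natDegree with hn
  have hn0 : n ≠ 0 := by
    intro h0
    have : p = 1 := Polynomial.eq_one_of_monic_natDegree_zero hp (hn ▸ h0)
    rw [this] at hroot
    simp at hroot
  have h1 : ∑ i ∈ Finset.range n, ((p.coeff i : ↥S) : Ω) * y ^ i + y ^ n = 0 := by
    have h2 : p.eval₂ S.subtype y = 0 := hroot
    rw [Polynomial.eval₂_eq_sum_range, Finset.sum_range_succ, ← hn, hp.coeff_natDegree] at h2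
    simpa using h2
  have h3 : y = -∑ i ∈ Finset.range n, ((p.coeff i : ↥S) : Ω) * y⁻¹ ^ (n - 1 - i) := by
    have h4 : (∑ i ∈ Finset.range n, ((p.coeff i : ↥S) : Ω) * y ^ i) * y⁻¹ ^ (n - 1) =
        ∑ i ∈ Finset.range n, ((p.coeff i : ↥S) : Ω) * y⁻¹ ^ (n - 1 - i) := by
      rw [Finset.sum_mul]
      refine Finset.sum_congr rfl fun i hi => ?_
      have hi' : i ≤ n - 1 := by have := Finset.mem_range.mp hi; omega
      have h5 : y⁻¹ ^ (n - 1) = y⁻¹ ^ (n - 1 - i) * y⁻¹ ^ i := by
        rw [← pow_add]; congr 1; omega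
      rw [h5, mul_assoc, mul_comm (y ^ i), mul_assoc, ← mul_pow, inv_mul_cancel₀ hy0, one_pow,
        mul_one]
    have h6 : y ^ n * y⁻¹ ^ (n - 1) = y := by
      have : y ^ n = y * y ^ (n - 1) := by rw [← pow_succ']; congr 1; omega
      rw [this, mul_assoc, ← mul_pow, mul_inv_cancel₀ hy0, one_pow, mul_one]
    have h7 := congrArg (· * y⁻¹ ^ (n - 1)) h1
    simp only [add_mul, zero_mul, h4, h6] at h7
    linear_combination h7
  rw [h3]
  exact S.neg_mem (S.sum_mem fun i _ => S.mul_mem (p.coeff i).2 (S.pow_mem hinv _))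

/-! ### Basic consequences of the definition -/

section Basic

variable {ℓ : ℕ} {S : Subring Ω} {ρ : ↥S →+* L}

namespace GoodPair

theorem map_ell (h : GoodPair ℓ S ρ) : ρ (ℓ : ↥S) = 0 := by
  have : (ℓ : ↥S) ∈ RingHom.ker ρ := by
    rw [h.ker_eq]; exact Ideal.subset_span rfl
  exact this

/-- In a good pair, `ρ s = 0` iff `s` is divisible by `ℓ`. -/
theorem map_eq_zero_iff (h : GoodPair ℓ S ρ) (s : ↥S) :
    ρ s = 0 ↔ ∃ t : ↥S, s = (ℓ : ↥S) * t := by
  have : ρ s = 0 ↔ s ∈ RingHom.ker ρ := Iff.rfl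
  rw [this, h.ker_eq, Ideal.mem_span_singleton]
  exact ⟨fun ⟨t, ht⟩ => ⟨t, ht⟩, fun ⟨t, ht⟩ => ⟨t, ht⟩⟩

theorem isLocalHom (h : GoodPair ℓ S ρ) : IsLocalHom ρ :=
  ⟨fun s hs => h.isUnit_of_map_ne_zero s hs.ne_zero⟩

/-- The ring of a good pair is local. -/
theorem isLocalRing (h : GoodPair ℓ S ρ) : IsLocalRing ↥S :=
  haveI := h.isLocalHom
  ρ.domain_isLocalRing

theorem not_isUnit_ell (h : GoodPair ℓ S ρ) : ¬ IsUnit (ℓ : ↥S) := fun hu => by
  have := hu.map ρ
  rw [h.map_ell] at this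
  exact not_isUnit_zero this

/-- The nonunits of a good pair are exactly the elements killed by `ρ`. -/
theorem map_eq_zero_iff_not_isUnit (h : GoodPair ℓ S ρ) (s : ↥S) : ρ s = 0 ↔ ¬ IsUnit s :=
  ⟨fun hs hu => by
    have := hu.map ρ
    rw [hs] at this
    exact not_isUnit_zero this, fun hs => by
    by_contra hne
    exact hs (h.isUnit_of_map_ne_zero s hne)⟩

/-- The ring of a good pair is a valuation ring. -/
theorem valuationRing (h : GoodPair ℓ S ρ) : ValuationRing ↥S := by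
  rw [ValuationRing.iff_dvd_total]
  refine ⟨fun a b => ?_⟩
  rcases eq_or_ne a 0 with rfl | ha
  · exact Or.inr (dvd_zero b)
  rcases eq_or_ne b 0 with rfl | hb
  · exact Or.inl (dvd_zero a)
  obtain ⟨n, u, hu, rfl⟩ := h.exists_eq_pow_mul a ha
  obtain ⟨m, v, hv, rfl⟩ := h.exists_eq_pow_mul b hb
  rcases le_total n m with hnm | hnm
  · left
    exact mul_dvd_mul (pow_dvd_pow _ hnm) (hu.dvd)
  · right
    exact mul_dvd_mul (pow_dvd_pow _ hnm) (hv.dvd)

/-- The ring of a good pair is integrally closed. -/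
theorem isIntegrallyClosed (h : GoodPair ℓ S ρ) : IsIntegrallyClosed ↥S :=
  haveI := h.valuationRing
  inferInstance

/-- A good pair is integrally closed in its fraction field (inside `Ω`): a quotient `a / b` of
elements of `S` which is integral over `S` lies in `S`. -/
theorem div_mem_of_isIntegral (h : GoodPair ℓ S ρ) {a b : ↥S} (hb : b ≠ 0)
    (hint : IsIntegral ↥S ((a : Ω) / (b : Ω))) : (a : Ω) / (b : Ω) ∈ S := by
  haveI := h.valuationRing
  have hb' : (b : Ω) ≠ 0 := fun h0 => hb (Subtype.ext h0)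
  rcases eq_or_ne a 0 with rfl | ha
  · simp
  have ha' : (a : Ω) ≠ 0 := fun h0 => ha (Subtype.ext h0)
  rcases ValuationRing.dvd_total a b with ⟨c, hc⟩ | ⟨c, hc⟩
  · -- `b = a * c`, so `(a / b)⁻¹ = c ∈ S`
    apply mem_of_isIntegral_of_inv_mem hint
    have : ((a : Ω) / (b : Ω))⁻¹ = (c : Ω) := by
      rw [hc]; push_cast; field_simp
    rw [this]; exact c.2
  · have : (a : Ω) / (b : Ω) = (c : Ω) := by
      rw [hc]; push_cast; field_simp
    rw [this]; exact c.2

/-- A polynomial over `S` all of whose coefficients are killed by `ρ` is divisible by `ℓ`. -/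
theorem exists_eq_C_mul_of_map_eq_zero (h : GoodPair ℓ S ρ) {q : Polynomial ↥S}
    (hq : q.map ρ = 0) : ∃ c : Polynomial ↥S, q = C (ℓ : ↥S) * c := by
  have : C (ℓ : ↥S) ∣ q := by
    rw [Polynomial.C_dvd_iff_dvd_coeff]
    intro i
    have hi : ρ (q.coeff i) = 0 := by
      have := congrArg (fun r => r.coeff i) hq
      simpa [Polynomial.coeff_map] using this
    obtain ⟨t, ht⟩ := (h.map_eq_zero_iff _).mp hi
    exact ⟨t, ht⟩
  exact this

/-- **Dichotomy** for polynomials over a good pair, relative to a monic `g` whose reduction is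
"irreducible over `ρ(S)`" and has a root `xbar`: every `p` is either `≡ g * t` or invertible
modulo `(g, ℓ)`. -/
theorem dichotomy (h : GoodPair ℓ S ρ) {g : Polynomial ↥S} (hg : g.Monic) {xbar : L}
    (hxbar : g.eval₂ ρ xbar = 0)
    (hirr : ∀ a b : Polynomial ↥S, a.Monic → b.Monic → (a * b).map ρ = g.map ρ →
      a.natDegree = 0 ∨ b.natDegree = 0) (p : Polynomial ↥S) :
    (∃ t c : Polynomial ↥S, p = g * t + C (ℓ : ↥S) * c) ∨
      (∃ a b c : Polynomial ↥S, a * g + b * p = 1 + C (ℓ : ↥S) * c) := by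
  classical
  haveI := h.isLocalRing
  set res := IsLocalRing.residue ↥S with hres_def
  have hres : Function.Surjective res := IsLocalRing.residue_surjective
  -- polynomials killed by `res` are divisible by `ℓ`
  have hker : ∀ q : Polynomial ↥S, q.map res = 0 → ∃ c : Polynomial ↥S, q = C (ℓ : ↥S) * c := by
    intro q hq
    apply h.exists_eq_C_mul_of_map_eq_zero
    ext i
    rw [Polynomial.coeff_map, Polynomial.coeff_zero]
    have hi : res (q.coeff i) = 0 := by
      have := congrArg (fun r => r.coeff i) hq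
      simpa [Polynomial.coeff_map] using this
    rw [hres_def, IsLocalRing.residue_eq_zero_iff, IsLocalRing.mem_maximalIdeal,
      mem_nonunits_iff] at hi
    exact (h.map_eq_zero_iff_not_isUnit _).mpr hi
  have hgbar : (g.map res).Monic := hg.map res
  -- the reduction of `g` is irreducible over the residue field
  have hirr' : Irreducible (g.map res) := by
    rw [hgbar.irreducible_iff_natDegree]
    refine ⟨?_, ?_⟩
    · intro h1
      have h2 : (g - 1).map res = 0 := by rw [Polynomial.map_sub, h1, Polynomial.map_one, sub_self]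
      obtain ⟨c, hc⟩ := hker _ h2
      have h3 : g = 1 + C (ℓ : ↥S) * c := by rw [← hc]; ring
      rw [h3, Polynomial.eval₂_add, Polynomial.eval₂_one, Polynomial.eval₂_mul,
        Polynomial.eval₂_C, h.map_ell, zero_mul, add_zero] at hxbar
      exact one_ne_zero hxbar
    · intro f f' hf hf' hff'
      obtain ⟨a, ha, hadeg, hamonic⟩ := Polynomial.lifts_and_natDegree_eq_and_monic
        ((Polynomial.mem_lifts f).mpr (Polynomial.map_surjective res hres f)) hf
      obtain ⟨b, hb, hbdeg, hbmonic⟩ := Polynomial.lifts_and_natDegree_eq_and_monic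
        ((Polynomial.mem_lifts f').mpr (Polynomial.map_surjective res hres f')) hf'
      have hab : (a * b).map ρ = g.map ρ := by
        have h2 : (a * b - g).map res = 0 := by
          rw [Polynomial.map_sub, Polynomial.map_mul, ha, hb, hff', sub_self]
        obtain ⟨c, hc⟩ := hker _ h2
        have h3 : a * b = g + C (ℓ : ↥S) * c := by rw [← hc]; ring
        rw [h3, Polynomial.map_add, Polynomial.map_mul, Polynomial.map_C, h.map_ell, map_zero,
          zero_mul, add_zero]
      rcases hirr a b hamonic hbmonic hab with h0 | h0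
      · left; rw [← hadeg]; exact h0
      · right; rw [← hbdeg]; exact h0
  by_cases hdvd : g.map res ∣ p.map res
  · left
    obtain ⟨tbar, ht⟩ := hdvd
    obtain ⟨t, rfl⟩ := Polynomial.map_surjective res hres tbar
    have h2 : (p - g * t).map res = 0 := by
      rw [Polynomial.map_sub, Polynomial.map_mul, ht, sub_self]
    obtain ⟨c, hc⟩ := hker _ h2
    exact ⟨t, c, by rw [← hc]; ring⟩
  · right
    have hcop : IsCoprime (g.map res) (p.map res) := (hirr'.coprime_iff_not_dvd).mpr hdvd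
    obtain ⟨abar, bbar, hab⟩ := hcop
    obtain ⟨a, rfl⟩ := Polynomial.map_surjective res hres abar
    obtain ⟨b, rfl⟩ := Polynomial.map_surjective res hres bbar
    have h2 : (a * g + b * p - 1).map res = 0 := by
      rw [Polynomial.map_sub, Polynomial.map_add, Polynomial.map_mul, Polynomial.map_mul, hab,
        Polynomial.map_one, sub_self]
    obtain ⟨c, hc⟩ := hker _ h2
    exact ⟨a, b, c, by rw [← hc]; ring⟩

/-- **Step lemma.**  Let `(S, ρ)` be a good pair, `g ∈ S[X]` monic with a root `x ∈ Ω`, such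
that the reduction `g.map ρ` has the root `xbar ∈ L` and no nontrivial monic factorisation with
coefficients in `ρ(S)`.  Then `ρ` extends to `ρ' : S[x] → L` with `ρ' x = xbar`
(more precisely `ρ' (P(x)) = (P.map ρ)(xbar)` for all `P ∈ S[X]`), and `(S[x], ρ')` is a good
pair. -/
theorem adjoin_root (h : GoodPair ℓ S ρ) {g : Polynomial ↥S} (hg : g.Monic) {x : Ω}
    (hx : g.eval₂ S.subtype x = 0) {xbar : L} (hxbar : g.eval₂ ρ xbar = 0)
    (hirr : ∀ a b : Polynomial ↥S, a.Monic → b.Monic → (a * b).map ρ = g.map ρ →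
      a.natDegree = 0 ∨ b.natDegree = 0) :
    ∃ ρ' : ↥(adjoinElt S x) →+* L,
      (∀ p : Polynomial ↥S,
        ρ' ⟨p.eval₂ S.subtype x, eval₂_mem_adjoinElt S x p⟩ = p.eval₂ ρ xbar) ∧
      (∀ s : ↥S, ρ' (Subring.inclusion (le_adjoinElt S x) s) = ρ s) ∧
      ρ' ⟨x, mem_adjoinElt_self S x⟩ = xbar ∧
      GoodPair ℓ (adjoinElt S x) ρ' := by
  classical
  haveI := h.isLocalRing
  have hle : S ≤ adjoinElt S x := le_adjoinElt S x
  -- the two evaluation maps
  let φ₀ : Polynomial ↥S →+* Ω := Polynomial.eval₂RingHom S.subtype x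
  let φ : Polynomial ↥S →+* ↥(adjoinElt S x) :=
    φ₀.codRestrict (adjoinElt S x) (fun p => eval₂_mem_adjoinElt S x p)
  have hφcoe : ∀ p, ((φ p : ↥(adjoinElt S x)) : Ω) = p.eval₂ S.subtype x := fun p => rfl
  have hφsurj : Function.Surjective φ := by
    rintro ⟨y, hy⟩
    obtain ⟨p, hp⟩ := exists_eval₂_eq_of_mem_adjoinElt hy
    exact ⟨p, Subtype.ext hp⟩
  let ψ : Polynomial ↥S →+* L := Polynomial.eval₂RingHom ρ xbar
  have hψg : ψ g = 0 := hxbar
  have hφg : φ g = 0 := Subtype.ext hx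
  have hψℓ : ψ (C (ℓ : ↥S)) = 0 := by
    show Polynomial.eval₂ ρ xbar (C (ℓ : ↥S)) = 0
    rw [Polynomial.eval₂_C, h.map_ell]
  have hφℓ : φ (C (ℓ : ↥S)) = (ℓ : ↥(adjoinElt S x)) := by
    apply Subtype.ext
    rw [hφcoe, Polynomial.eval₂_C]
    simp
  -- integrality and going up: `ℓ` lies in every maximal ideal of `S[x]`
  have hxint : IsIntegral ↥S x := ⟨g, hg, hx⟩
  letI : Algebra ↥S ↥(adjoinElt S x) := (Subring.inclusion hle).toAlgebra
  haveI : Algebra.IsIntegral ↥S ↥(adjoinElt S x) := ⟨fun y => by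
    obtain ⟨p, hp, hroot⟩ := isIntegral_of_mem_adjoinElt hxint y.2
    refine ⟨p, hp, ?_⟩
    apply Subtype.ext
    have h1 := Polynomial.hom_eval₂ p (algebraMap ↥S ↥(adjoinElt S x)) (adjoinElt S x).subtype y
    have h2 : (adjoinElt S x).subtype
        (Polynomial.eval₂ (algebraMap ↥S ↥(adjoinElt S x)) y p) = 0 := by
      rw [h1]; exact hroot
    exact h2⟩
  have hℓmax : ∀ M : Ideal ↥(adjoinElt S x), M.IsMaximal → (ℓ : ↥(adjoinElt S x)) ∈ M := by
    intro M hM
    have hmax := Ideal.isMaximal_comap_of_isIntegral_of_isMaximal (R := ↥S) M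
    have heq := IsLocalRing.eq_maximalIdeal hmax
    have hmem : (ℓ : ↥S) ∈ IsLocalRing.maximalIdeal ↥S := by
      rw [IsLocalRing.mem_maximalIdeal, mem_nonunits_iff]
      exact h.not_isUnit_ell
    rw [← heq, Ideal.mem_comap] at hmem
    have h3 : algebraMap ↥S ↥(adjoinElt S x) (ℓ : ↥S) = (ℓ : ↥(adjoinElt S x)) :=
      map_natCast _ _
    rwa [h3] at hmem
  have hℓnotunit : ¬ IsUnit (ℓ : ↥(adjoinElt S x)) := by
    intro hu
    obtain ⟨M, hM⟩ := Ideal.exists_maximal ↥(adjoinElt S x)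
    exact hM.ne_top (Ideal.eq_top_of_isUnit_mem _ (hℓmax M hM) hu)
  -- the dichotomy, transported along `ψ`
  have hdich := fun p => h.dichotomy hg hxbar hirr p
  have hψ_left : ∀ p t c : Polynomial ↥S, p = g * t + C (ℓ : ↥S) * c → ψ p = 0 := by
    intro p t c hp
    rw [hp, map_add, map_mul, map_mul, hψg, hψℓ, zero_mul, zero_mul, add_zero]
  have hψ_right : ∀ p a b c : Polynomial ↥S, a * g + b * p = 1 + C (ℓ : ↥S) * c → ψ p ≠ 0 := by
    intro p a b c hp hp0
    have h1 := congrArg ψ hp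
    rw [map_add, map_mul, map_mul, hψg, hp0, mul_zero, mul_zero, add_zero, map_add, map_one,
      map_mul, hψℓ, zero_mul, add_zero] at h1
    exact zero_ne_one h1
  -- `ψ` factors through `φ`
  have hker : RingHom.ker φ ≤ RingHom.ker ψ := by
    intro p hp
    have hp0 : φ p = 0 := hp
    rcases hdich p with ⟨t, c, hpe⟩ | ⟨a, b, c, hpe⟩
    · exact hψ_left p t c hpe
    · exfalso
      have h1 := congrArg φ hpe
      rw [map_add, map_mul, map_mul, hφg, hp0, mul_zero, mul_zero, add_zero, map_add, map_one,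
        map_mul, hφℓ] at h1
      apply hℓnotunit
      exact IsUnit.of_mul_eq_one (-(φ c)) (by linear_combination h1)
  let ρ' : ↥(adjoinElt S x) →+* L := φ.liftOfSurjective hφsurj ⟨ψ, hker⟩
  have hρ'φ : ∀ p, ρ' (φ p) = ψ p := fun p =>
    RingHom.liftOfSurjective_comp_apply φ hφsurj ⟨ψ, hker⟩ p
  have hρ'ℓ : ρ' (ℓ : ↥(adjoinElt S x)) = 0 := by rw [← hφℓ, hρ'φ, hψℓ]
  -- kernel of `ρ'`
  have hker' : RingHom.ker ρ' = Ideal.span {(ℓ : ↥(adjoinElt S x))} := by
    ext s'
    obtain ⟨p, rfl⟩ := hφsurj s'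
    rw [RingHom.mem_ker, hρ'φ, Ideal.mem_span_singleton]
    constructor
    · intro hp
      rcases hdich p with ⟨t, c, hpe⟩ | ⟨a, b, c, hpe⟩
      · refine ⟨φ c, ?_⟩
        rw [hpe, map_add, map_mul, map_mul, hφg, zero_mul, zero_add, hφℓ]
      · exact absurd hp (hψ_right p a b c hpe)
    · rintro ⟨t', ht'⟩
      rw [← hρ'φ, ht', map_mul, hρ'ℓ, zero_mul]
  -- units
  have hunit' : ∀ s' : ↥(adjoinElt S x), ρ' s' ≠ 0 → IsUnit s' := by
    intro s' hs'
    obtain ⟨p, rfl⟩ := hφsurj s'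
    rw [hρ'φ] at hs'
    rcases hdich p with ⟨t, c, hpe⟩ | ⟨a, b, c, hpe⟩
    · exact absurd (hψ_left p t c hpe) hs'
    · by_contra hnu
      obtain ⟨M, hM, hpM⟩ := exists_max_ideal_of_mem_nonunits hnu
      have h1 := congrArg φ hpe
      rw [map_add, map_mul, map_mul, hφg, mul_zero, zero_add, map_add, map_one, map_mul,
        hφℓ] at h1
      have h2 : (1 : ↥(adjoinElt S x)) = φ b * φ p - (ℓ : ↥(adjoinElt S x)) * φ c := by
        rw [h1]; ring
      have h3 : (1 : ↥(adjoinElt S x)) ∈ M := by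
        rw [h2]
        exact M.sub_mem (M.mul_mem_left _ hpM) (M.mul_mem_right _ (hℓmax M hM))
      exact hM.ne_top ((Ideal.eq_top_iff_one M).mpr h3)
  -- `ℓ`-adic factorisation
  have hpow' : ∀ s' : ↥(adjoinElt S x), s' ≠ 0 →
      ∃ (n : ℕ) (u : ↥(adjoinElt S x)), IsUnit u ∧ s' = (ℓ : ↥(adjoinElt S x)) ^ n * u := by
    intro s' hs'
    have hy0 : (s' : Ω) ≠ 0 := fun h0 => hs' (Subtype.ext h0)
    have hfin : FiniteMultiplicity (ℓ : ↥(adjoinElt S x)) s' := by
      -- a monic equation for `s'` with nonzero constant term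
      obtain ⟨p, hp, hroot⟩ := isIntegral_of_mem_adjoinElt hxint s'.2
      have hroot' : p.eval₂ S.subtype (s' : Ω) = 0 := hroot
      obtain ⟨q, hpq, hq⟩ :=
        Polynomial.exists_eq_pow_rootMultiplicity_mul_and_not_dvd p hp.ne_zero 0
      rw [map_zero, sub_zero] at hpq hq
      have hq0 : q.coeff 0 ≠ 0 := fun h0 => hq (Polynomial.X_dvd_iff.mpr h0)
      have hqroot : q.eval₂ S.subtype (s' : Ω) = 0 := by
        rw [hpq, Polynomial.eval₂_mul, Polynomial.eval₂_pow, Polynomial.eval₂_X] at hroot'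
        exact (mul_eq_zero.mp hroot').resolve_left (pow_ne_zero _ hy0)
      -- `q.coeff 0 = -w * s'` with `w ∈ S[x]`
      set w : Ω := q.divX.eval₂ S.subtype (s' : Ω) with hw
      have hwmem : w ∈ adjoinElt S x := eval₂_subtype_mem hle s'.2 _
      have hqw : w * (s' : Ω) + ((q.coeff 0 : ↥S) : Ω) = 0 := by
        have h1 : q.divX * X + C (q.coeff 0) = q := Polynomial.divX_mul_X_add q
        rw [← h1, Polynomial.eval₂_add, Polynomial.eval₂_mul, Polynomial.eval₂_X,
          Polynomial.eval₂_C] at hqroot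
        exact hqroot
      obtain ⟨m, u₀, hu₀, ha₀⟩ := h.exists_eq_pow_mul (q.coeff 0) hq0
      obtain ⟨v, hv⟩ := hu₀.exists_right_inv
      refine ⟨m, fun ⟨t', ht'⟩ => hℓnotunit ?_⟩
      have ht'' : (s' : Ω) = (ℓ : Ω) ^ (m + 1) * (t' : Ω) := by
        have := congrArg (Subtype.val) ht'
        simpa using this
      have ha₀' : ((q.coeff 0 : ↥S) : Ω) = (ℓ : Ω) ^ m * (u₀ : Ω) := by
        have := congrArg (Subtype.val) ha₀
        simpa using this
      have hv' : (u₀ : Ω) * (v : Ω) = 1 := by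
        have := congrArg (Subtype.val) hv
        simpa using this
      have key : (ℓ : Ω) ^ m * ((u₀ : Ω) + w * (ℓ : Ω) * (t' : Ω)) = 0 := by
        rw [ht'', ha₀'] at hqw
        linear_combination hqw
      have key' : (u₀ : Ω) + w * (ℓ : Ω) * (t' : Ω) = 0 :=
        (mul_eq_zero.mp key).resolve_left (pow_ne_zero _ h.ell_ne_zero)
      refine IsUnit.of_mul_eq_one
        (-((⟨w, hwmem⟩ : ↥(adjoinElt S x)) * t' * Subring.inclusion hle v)) ?_
      apply Subtype.ext
      have hgoal : (ℓ : Ω) * (-(w * (t' : Ω) * (v : Ω))) = 1 := by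
        linear_combination (-(v : Ω)) * key' + hv'
      simpa using hgoal
    obtain ⟨c, hc, hndvd⟩ := hfin.exists_eq_pow_mul_and_not_dvd
    refine ⟨_, c, hunit' c ?_, hc⟩
    intro hc0
    have hmem : c ∈ RingHom.ker ρ' := hc0
    rw [hker', Ideal.mem_span_singleton] at hmem
    exact hndvd hmem
  refine ⟨ρ', fun p => hρ'φ p, ?_, ?_, ⟨h.ell_ne_zero, hker', hunit', hpow'⟩⟩
  · intro s
    have h1 : Subring.inclusion hle s = φ (C s) := by
      apply Subtype.ext
      rw [hφcoe, Polynomial.eval₂_C]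
      rfl
    rw [h1, hρ'φ]
    show Polynomial.eval₂ ρ xbar (C s) = ρ s
    rw [Polynomial.eval₂_C]
  · have h1 : (⟨x, mem_adjoinElt_self S x⟩ : ↥(adjoinElt S x)) = φ X := by
      apply Subtype.ext
      rw [hφcoe, Polynomial.eval₂_X]
    rw [h1, hρ'φ]
    show Polynomial.eval₂ ρ xbar X = xbar
    rw [Polynomial.eval₂_X]

/-- **Mixed lemma.**  A common root `y ∈ Ω` of two monic polynomials over `S` whose reductions
satisfy a Bezout identity `A * g₁.map ρ + B * g₂.map ρ = X - C ybar` lies in `S`, and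
`ρ y = ybar`. -/
theorem mem_of_bezout (h : GoodPair ℓ S ρ) {g₁ g₂ : Polynomial ↥S} (h₁ : g₁.Monic)
    (_h₂ : g₂.Monic) {y : Ω} (hy₁ : g₁.eval₂ S.subtype y = 0) (hy₂ : g₂.eval₂ S.subtype y = 0)
    {ybar : L} (hbez : ∃ A B : Polynomial L, A * g₁.map ρ + B * g₂.map ρ = X - C ybar) :
    ∃ hy : y ∈ S, ρ ⟨y, hy⟩ = ybar := by
  haveI := h.isIntegrallyClosed
  have hint : IsIntegral ↥S y := ⟨g₁, h₁, hy₁⟩
  set m := minpoly ↥S y with hm_def
  have hm : m.Monic := minpoly.monic hint
  have hd₁ : m ∣ g₁ := minpoly.isIntegrallyClosed_dvd hint hy₁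
  have hd₂ : m ∣ g₂ := minpoly.isIntegrallyClosed_dvd hint hy₂
  obtain ⟨A, B, hAB⟩ := hbez
  have hdvd : m.map ρ ∣ X - C ybar := by
    rw [← hAB]
    exact dvd_add (Dvd.dvd.mul_left (Polynomial.map_dvd ρ hd₁) A)
      (Dvd.dvd.mul_left (Polynomial.map_dvd ρ hd₂) B)
  have hdeg : m.natDegree ≤ 1 := by
    have h1 := Polynomial.natDegree_le_of_dvd hdvd (Polynomial.X_sub_C_ne_zero ybar)
    rwa [hm.natDegree_map, Polynomial.natDegree_X_sub_C] at h1
  have hdeg1 : m.natDegree = 1 := le_antisymm hdeg (minpoly.natDegree_pos hint)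
  have hmeq : m = X + C (m.coeff 0) := hm.eq_X_add_C hdeg1
  have hyeq : y = -((m.coeff 0 : ↥S) : Ω) := by
    have h1 : Polynomial.eval₂ S.subtype y m = 0 := minpoly.aeval ↥S y
    rw [hmeq, Polynomial.eval₂_add, Polynomial.eval₂_X, Polynomial.eval₂_C] at h1
    have h2 : y + ((m.coeff 0 : ↥S) : Ω) = 0 := h1
    linear_combination h2
  have hyS : y ∈ S := hyeq ▸ S.neg_mem (m.coeff 0).2
  refine ⟨hyS, ?_⟩
  have heq : X - C ybar = m.map ρ :=
    Polynomial.eq_of_monic_of_dvd_of_natDegree_le (hm.map ρ) (Polynomial.monic_X_sub_C ybar) hdvd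
      (by rw [hm.natDegree_map, Polynomial.natDegree_X_sub_C, hdeg1])
  have hc := congrArg (fun r => r.coeff 0) heq
  simp only [Polynomial.coeff_sub, Polynomial.coeff_X_zero, Polynomial.coeff_C_zero, zero_sub,
    Polynomial.coeff_map] at hc
  have hy' : (⟨y, hyS⟩ : ↥S) = -(m.coeff 0) := Subtype.ext hyeq
  rw [hy', map_neg, ← hc, neg_neg]

end GoodPair

end Basic

end Fermat.Agent.S28

end
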