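/-
S28 (Igusa) support library: the interface between the char-`ℓ` block [L] and the tower block [T].
Owner: helper28.  Frozen once landed.

Final exports of the blocks (each in its own file, proved by its owner):
* block [E] (`Fermat/Agent/S28/HeckeDataExists.lean`):
    `theorem exists_heckeData (p : ℕ) (hp : p.Prime) : Nonempty (HeckeData p)`
* block [L] (`Fermat/Agent/S28/CharL.lean`):
    `theorem charLInputs (ℓ : ℕ) [Fact ℓ.Prime] : CharLInputs ℓ`
* block [T] (`Fermat/Agent/S28/Tower.lean`):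
    `theorem exists_rho_charts (N : ℕ) [NeZero N] (ℓ : ℕ) [Fact ℓ.Prime] (hℓN : ¬ ℓ ∣ N)
        (hd : ∀ p : ℕ, p.Prime → p ∣ N → HeckeData p) (hL : CharLInputs ℓ) : RhoCharts N ℓ`
-/
import Fermat.Agent.S28.Defs

set_option autoImplicit false

noncomputable section

namespace Fermat.Agent.S28

open ModularCurve ModularCurve.IgusaScheme Polynomial

/-- Output of the char-`ℓ` block: irreducibility of the step polynomials of the tower over the
residue fields, and the common-root (Bezout) statement for mixed divisors. -/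
structure CharLInputs (ℓ : ℕ) [Fact ℓ.Prime] : Prop where
  /-- first step of a `p`-chain over level `M`, `p ∤ M`: `Φ_p(X, j)` is irreducible over
  `𝔽_ℓ(j(q^d) : d ∣ M)` -/
  irred_one : ∀ (p M : ℕ) [NeZero M], p.Prime → ¬ p ∣ M → ¬ ℓ ∣ p * M → ∀ hd : HeckeData p,
    IrredOver (modularFunctionFieldFullC (ZMod ℓ) M : Set (LaurentSeries (ZMod ℓ)))
      (PhiAt hd.Φ (jd (ZMod ℓ) 1))
  /-- `a`-th step (`a ≥ 2`) of the `p`-chain: `Φ_p(X, j(q^(p^(a-1)))) / (X - j(q^(p^(a-2))))` is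
  irreducible over `chainField ℓ M p (a - 1)` -/
  irred_chain : ∀ (p M a : ℕ) [NeZero M], p.Prime → ¬ p ∣ M → ¬ ℓ ∣ p * M → 2 ≤ a →
    ∀ hd : HeckeData p,
    IrredOver (chainField ℓ M p (a - 1) : Set (LaurentSeries (ZMod ℓ)))
      (PhiAt hd.Φ (jd (ZMod ℓ) (p ^ (a - 1))) /ₘ (X - C (jd (ZMod ℓ) (p ^ (a - 2)))))
  /-- mixed divisors: `j(q^d)` is the only common root of `Φ_p(X, j(q^(d/p)))` and
  `Φ_r(X, j(q^(d/r)))`, and it is a simple root (Bezout form) -/
  bezout_mixed : ∀ (p r d : ℕ), p.Prime → r.Prime → p ≠ r → p ∣ d → r ∣ d → ¬ ℓ ∣ d →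
    ∀ (hp : HeckeData p) (hr : HeckeData r),
    ∃ A B : Polynomial (LaurentSeries (ZMod ℓ)),
      A * PhiAt hp.Φ (jd (ZMod ℓ) (d / p)) + B * PhiAt hr.Φ (jd (ZMod ℓ) (d / r)) =
        X - C (jd (ZMod ℓ) d)

/-- Output of the tower block: reduction maps on the three chart algebras with kernel `ℓ`. -/
structure RhoCharts (N : ℕ) [NeZero N] (ℓ : ℕ) [Fact ℓ.Prime] : Prop where
  fin : ∃ ρ : ↥(chartAlgFin N ℓ) →+* LaurentSeries (ZMod ℓ),
    ∀ a, ρ a = 0 → ∃ b, a = (ℓ : ↥(chartAlgFin N ℓ)) * b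
  inf : ∃ ρ : ↥(chartAlgInf N ℓ) →+* LaurentSeries (ZMod ℓ),
    ∀ a, ρ a = 0 → ∃ b, a = (ℓ : ↥(chartAlgInf N ℓ)) * b
  mid : Nonempty (↥(chartAlgMid N ℓ) →+* LaurentSeries (ZMod ℓ))

end Fermat.Agent.S28
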