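/-
S28 (Igusa) -- block [T] (tower): shared invariant `TowerState` and generic lemmas used by the
chain / mixed / outer-induction files.
Owner: helper53.  Namespace `Fermat.Agent.S28`.
-/
import Fermat.Agent.S28.Interface
import Fermat.Agent.S28.GoodPair

set_option autoImplicit false

noncomputable section

namespace Fermat.Agent.S28

open ModularCurve Polynomial

/-- State of the tower: a good pair `(S, ρ)` inside `ℚ((q))` containing `R0 ℓ`, integral over it,
containing the `j(q^d)`, `d ∈ D`, with the expected reductions, and whose residue image lies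
in `E`. -/
def TowerState (ℓ : ℕ) [Fact ℓ.Prime] (D : Set ℕ) (E : Set (LaurentSeries (ZMod ℓ))) : Prop :=
  ∃ (S : Subring (LaurentSeries ℚ)) (ρ : ↥S →+* LaurentSeries (ZMod ℓ)),
    GoodPair ℓ S ρ ∧ R0 ℓ ≤ S ∧ (∀ s ∈ S, IsIntegral ↥(R0 ℓ) s) ∧
    (∀ d ∈ D, ∃ h : jd ℚ d ∈ S, ρ ⟨jd ℚ d, h⟩ = jd (ZMod ℓ) d) ∧
    Set.range ρ ⊆ E

theorem TowerState.mono {ℓ : ℕ} [Fact ℓ.Prime] {D D' : Set ℕ} {E E' : Set (LaurentSeries (ZMod ℓ))}
    (h : TowerState ℓ D E) (hD : D' ⊆ D) (hE : E ⊆ E') : TowerState ℓ D' E' := by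
  obtain ⟨S, ρ, hg, h0, hint, hj, hr⟩ := h
  exact ⟨S, ρ, hg, h0, hint, fun d hd => hj d (hD hd), hr.trans hE⟩

section roots

variable {p : ℕ} (hd : HeckeData p) (R : Type*) [CommRing R]

/-- `Φ_p(j(q^p), j(q)) = 0` over any coefficient ring. -/
theorem HeckeData.root_coeff : (PhiAt hd.Φ (jd R 1)).eval (jd R p) = 0 := by
  have h := congrArg (coeffMap (Int.castRingHom R)) hd.root
  rwa [map_eval_PhiAt, coeffMap_jd, coeffMap_jd, map_zero] at h

/-- `Φ_p(j(q), j(q^p)) = 0` over any coefficient ring. -/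
theorem HeckeData.root'_coeff : (PhiAt hd.Φ (jd R p)).eval (jd R 1) = 0 := by
  have h := congrArg (coeffMap (Int.castRingHom R)) hd.root'
  rwa [map_eval_PhiAt, coeffMap_jd, coeffMap_jd, map_zero] at h

/-- `Φ_p(j(q^(e p)), j(q^e)) = 0` over any coefficient ring. -/
theorem HeckeData.root_jd (hp : p ≠ 0) (e : ℕ) (he : e ≠ 0) :
    (PhiAt hd.Φ (jd R e)).eval (jd R (e * p)) = 0 := by
  have : NeZero p := ⟨hp⟩
  have : NeZero e := ⟨he⟩
  have h := congrArg (qExpand R e) (hd.root_coeff R)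
  rwa [map_eval_PhiAt, qExpand_jd, qExpand_jd, mul_one, map_zero] at h

/-- `Φ_p(j(q^e), j(q^(e p))) = 0` over any coefficient ring. -/
theorem HeckeData.root'_jd (hp : p ≠ 0) (e : ℕ) (he : e ≠ 0) :
    (PhiAt hd.Φ (jd R (e * p))).eval (jd R e) = 0 := by
  have : NeZero p := ⟨hp⟩
  have : NeZero e := ⟨he⟩
  have h := congrArg (qExpand R e) (hd.root'_coeff R)
  rwa [map_eval_PhiAt, qExpand_jd, qExpand_jd, mul_one, map_zero] at h

end roots

section distinct

variable (R : Type*) [CommRing R]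

theorem jd_coeff_neg_self (d : ℕ) (hd : d ≠ 0) : (jd R d).coeff (-(d : ℤ)) = 1 := by
  have : NeZero d := ⟨hd⟩
  rw [jd_eq, show (-(d : ℤ)) = (d : ℤ) * (-1) by ring, qExpand_coeff_mul, coeff_jqModC_neg_one]

theorem jd_coeff_neg_of_ne (d d' : ℕ) (hd : d ≠ 0) (hd' : d' ≠ 0) (hne : d ≠ d') :
    (jd R d').coeff (-(d : ℤ)) = 0 := by
  have : NeZero d' := ⟨hd'⟩
  rw [jd_eq]
  by_cases hdvd : (d' : ℤ) ∣ -(d : ℤ)
  · obtain ⟨k, hk⟩ := hdvd
    rw [hk, qExpand_coeff_mul]
    refine coeff_jqModC_of_lt R ?_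
    have hd'pos : (0 : ℤ) < d' := by exact_mod_cast Nat.pos_of_ne_zero hd'
    have hdpos : (0 : ℤ) < d := by exact_mod_cast Nat.pos_of_ne_zero hd
    have hkneg : k < 0 := by
      by_contra hk0
      rw [not_lt] at hk0
      have : (0 : ℤ) ≤ (d' : ℤ) * k := mul_nonneg hd'pos.le hk0
      omega
    have hk1 : k ≠ -1 := by
      rintro rfl
      apply hne
      have : (d : ℤ) = d' := by linarith
      exact_mod_cast this
    omega
  · exact qExpand_coeff_of_not_dvd d' _ hdvd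

/-- The `j(q^d)` are pairwise distinct. -/
theorem jd_ne_jd [Nontrivial R] (d d' : ℕ) (hd : d ≠ 0) (hd' : d' ≠ 0) (hne : d ≠ d') :
    jd R d ≠ jd R d' := by
  intro h
  have h1 := jd_coeff_neg_self R d hd
  rw [h, jd_coeff_neg_of_ne R d d' hd hd' hne] at h1
  exact zero_ne_one h1

end distinct

section fields

variable (ℓ : ℕ) [Fact ℓ.Prime]

theorem subset_chainField (M p a : ℕ) :
    (modularFunctionFieldFullC (ZMod ℓ) M : Set (LaurentSeries (ZMod ℓ))) ⊆
      (chainField ℓ M p a : Set (LaurentSeries (ZMod ℓ))) := fun _ hx =>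
  Subfield.subset_closure (Or.inl hx)

theorem jd_mem_chainField (M p a c : ℕ) (hc : c ≤ a) :
    jd (ZMod ℓ) (p ^ c) ∈ chainField ℓ M p a :=
  Subfield.subset_closure (Or.inr ⟨c, hc, rfl⟩)

theorem chainField_mono (M p : ℕ) {a b : ℕ} (hab : a ≤ b) :
    chainField ℓ M p a ≤ chainField ℓ M p b := by
  refine Subfield.closure_mono (Set.union_subset_union_right _ ?_)
  rintro x ⟨c, hc, rfl⟩
  exact ⟨c, hc.trans hab, rfl⟩

theorem jd_mem_full (N d : ℕ) (hd0 : d ≠ 0) (hd : d ∣ N) :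
    jd (ZMod ℓ) d ∈ modularFunctionFieldFullC (ZMod ℓ) N := by
  have : NeZero d := ⟨hd0⟩
  rw [jd_eq]
  exact jqModCd_mem_full (ZMod ℓ) N hd

/-- The chain field of level `(M, p, a)` lies inside the full residue field of level `M p^a`. -/
theorem chainField_subset_full (M p a : ℕ) (hM : M ≠ 0) (hp : p ≠ 0) :
    (chainField ℓ M p a : Set (LaurentSeries (ZMod ℓ))) ⊆
      (modularFunctionFieldFullC (ZMod ℓ) (M * p ^ a) : Set (LaurentSeries (ZMod ℓ))) := by
  have : NeZero M := ⟨hM⟩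
  have : NeZero (M * p ^ a) := ⟨Nat.mul_ne_zero hM (pow_ne_zero a hp)⟩
  have hle : chainField ℓ M p a ≤ (modularFunctionFieldFullC (ZMod ℓ) (M * p ^ a)).toSubfield := by
    refine Subfield.closure_le.mpr (Set.union_subset ?_ ?_)
    · intro x hx
      exact full_degeneracyC_le (ZMod ℓ) (Dvd.intro _ rfl) hx
    · rintro x ⟨c, hc, rfl⟩
      exact jd_mem_full ℓ (M * p ^ a) (p ^ c) (pow_ne_zero c hp)
        ((pow_dvd_pow p hc).trans (Dvd.intro_left _ rfl))
  exact fun x hx => hle hx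

end fields

section irred

variable {L : Type*} [Field L] {Ω : Type*} [Field Ω]

/-- Bridge from `IrredOver` (Defs) to the hypothesis shape of `GoodPair.adjoin_root`. -/
theorem hirr_of_irredOver {S : Subring Ω} {ρ : ↥S →+* L} {E : Set L} (hE : Set.range ρ ⊆ E)
    {g : Polynomial ↥S} (h : IrredOver E (g.map ρ)) :
    ∀ a b : Polynomial ↥S, a.Monic → b.Monic → (a * b).map ρ = g.map ρ →
      a.natDegree = 0 ∨ b.natDegree = 0 := by
  intro a b ha hb hab
  rw [Polynomial.map_mul] at hab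
  have hcoeff : ∀ (c : Polynomial ↥S) (i : ℕ), (c.map ρ).coeff i ∈ E := fun c i => by
    rw [Polynomial.coeff_map]
    exact hE ⟨_, rfl⟩
  rcases h (a.map ρ) (b.map ρ) (ha.map ρ) (hb.map ρ) (hcoeff a) (hcoeff b) hab with h1 | h1
  · left
    rw [← ha.natDegree_map ρ, h1, natDegree_one]
  · right
    rw [← hb.natDegree_map ρ, h1, natDegree_one]

end irred

end Fermat.Agent.S28

end
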