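/-
S28 (Igusa) -- block [T1]-BASE: the base good pair `(R0 ℓ, ρ0)`.
Owner: helper57.  Everything lives in `namespace Fermat.Agent.S28`.

`R0 ℓ ⊂ ℚ((q))` is the localisation of `ℤ[j]` at the prime `(ℓ)` (Gauss valuation ring of `ℚ(j)`).
We realise it as the image of `Localization.AtPrime (ℓ) → ℚ((q))` and transport the structure.
-/
import Mathlib
import Fermat.Agent.S28.Defs
import Fermat.Agent.S28.GoodPair
import Fermat.Agent.S28.TowerDefs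

set_option autoImplicit false

noncomputable section

namespace Fermat.Agent.S28

open ModularCurve Polynomial

namespace BasePair

/-- The coefficient of `q^(-deg p)` in `p(j)` is the leading coefficient of `p`. -/
theorem coeff_eval₂_C_jqModC (R : Type*) [CommRing R] (p : R[X]) :
    (p.eval₂ HahnSeries.C (jqModC R)).coeff (-(p.natDegree : ℤ)) = p.leadingCoeff := by
  rw [eval₂_eq_sum_range, HahnSeries.coeff_sum]
  rw [Finset.sum_eq_single p.natDegree]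
  · rw [HahnSeries.C_mul_eq_smul, HahnSeries.coeff_smul, coeff_jqModC_pow_self, smul_eq_mul,
      mul_one]; rfl
  · intro i hi hne
    have hlt : i < p.natDegree := lt_of_le_of_ne (Nat.lt_succ_iff.mp (Finset.mem_range.mp hi)) hne
    rw [HahnSeries.C_mul_eq_smul, HahnSeries.coeff_smul, coeff_jqModC_pow_of_lt R (by omega),
      smul_zero]
  · intro h
    exact absurd (Finset.mem_range.mpr (Nat.lt_succ_self _)) h

/-- `j` (with coefficients in `R`) is "transcendental mod `R`" for integer polynomials. -/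
theorem eval₂_intCast_jqModC_ne_zero (R : Type*) [CommRing R] {p : ℤ[X]}
    (hp : p.map (Int.castRingHom R) ≠ 0) :
    p.eval₂ (Int.castRingHom (LaurentSeries R)) (jqModC R) ≠ 0 := by
  have h1 : p.eval₂ (Int.castRingHom (LaurentSeries R)) (jqModC R) =
      (p.map (Int.castRingHom R)).eval₂ HahnSeries.C (jqModC R) := by
    rw [eval₂_map]
    congr 1
  rw [h1]
  intro h
  have := coeff_eval₂_C_jqModC R (p.map (Int.castRingHom R))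
  rw [h, HahnSeries.coeff_zero] at this
  exact hp (leadingCoeff_eq_zero.mp this.symm)

/-- `aeval` for integer polynomials, in `eval₂` form (independent of the `ℤ`-algebra instance). -/
theorem aeval_eq_eval₂_intCast (t : LaurentSeries ℚ) (p : ℤ[X]) :
    aeval t p = p.eval₂ (Int.castRingHom (LaurentSeries ℚ)) t := by
  rw [aeval_def]
  congr 1
  exact RingHom.ext_int _ _

/-- evaluation at `jq`, as a ring hom `ℤ[X] → ℚ((q))`. -/
def evΩ : ℤ[X] →+* LaurentSeries ℚ := eval₂RingHom (Int.castRingHom (LaurentSeries ℚ)) jq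

theorem evΩ_apply (p : ℤ[X]) : evΩ p = aeval jq p := (aeval_eq_eval₂_intCast jq p).symm

theorem evΩ_ne_zero {p : ℤ[X]} (hp : p ≠ 0) : evΩ p ≠ 0 := by
  have := eval₂_intCast_jqModC_ne_zero ℚ (p := p)
    (by rwa [Ne, Polynomial.map_eq_zero_iff (RingHom.injective_int (Int.castRingHom ℚ))])
  rwa [jqModC_rat] at this

theorem evΩ_injective : Function.Injective evΩ := by
  rw [injective_iff_map_eq_zero]
  intro p hp
  by_contra h
  exact evΩ_ne_zero h hp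

variable (ℓ : ℕ)

/-- evaluation at `j mod ℓ`, as a ring hom `ℤ[X] → 𝔽_ℓ((q))`. -/
def evL : ℤ[X] →+* LaurentSeries (ZMod ℓ) :=
  eval₂RingHom (Int.castRingHom (LaurentSeries (ZMod ℓ))) (jqModC (ZMod ℓ))

/-- the prime ideal `(ℓ)` of `ℤ[X]`. -/
def P : Ideal ℤ[X] := RingHom.ker (Polynomial.mapRingHom (Int.castRingHom (ZMod ℓ)))

theorem mem_P_iff {b : ℤ[X]} : b ∈ P ℓ ↔ b.map (Int.castRingHom (ZMod ℓ)) = 0 := by
  rw [P, RingHom.mem_ker, coe_mapRingHom]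

theorem mem_P_iff_dvd {b : ℤ[X]} : b ∈ P ℓ ↔ C (ℓ : ℤ) ∣ b := by
  rw [mem_P_iff, C_dvd_iff_dvd_coeff, Polynomial.ext_iff]
  refine forall_congr' fun i => ?_
  rw [coeff_map, coeff_zero, eq_intCast, ZMod.intCast_zmod_eq_zero_iff_dvd]

theorem evL_eq_zero_iff {b : ℤ[X]} : evL ℓ b = 0 ↔ b ∈ P ℓ := by
  rw [mem_P_iff]
  constructor
  · intro h
    by_contra hb
    exact eval₂_intCast_jqModC_ne_zero (ZMod ℓ) hb h
  · intro h
    have h1 : evL ℓ b = (b.map (Int.castRingHom (ZMod ℓ))).eval₂ HahnSeries.C (jqModC (ZMod ℓ)) := by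
      rw [eval₂_map]
      show b.eval₂ _ _ = _
      congr 1
    rw [h1, h, eval₂_zero]

variable [Fact ℓ.Prime]

instance P_isPrime : (P ℓ).IsPrime := RingHom.ker_isPrime _

theorem prime_C_ell : Prime (C (ℓ : ℤ) : ℤ[X]) :=
  Polynomial.prime_C_iff.mpr (Nat.prime_iff_prime_int.mp (Fact.out : ℓ.Prime))

/-- the abstract localisation. -/
abbrev Loc : Type := Localization.AtPrime (P ℓ)

theorem isUnit_evΩ (y : (P ℓ).primeCompl) : IsUnit (evΩ (y : ℤ[X])) := by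
  refine IsUnit.mk0 _ (evΩ_ne_zero ?_)
  rintro h
  exact y.2 (by rw [h]; exact zero_mem _)

theorem isUnit_evL (y : (P ℓ).primeCompl) : IsUnit (evL ℓ (y : ℤ[X])) := by
  refine IsUnit.mk0 _ ?_
  rw [Ne, evL_eq_zero_iff]
  exact y.2

/-- `Loc → ℚ((q))`. -/
def ιΩ : Loc ℓ →+* LaurentSeries ℚ := IsLocalization.lift (isUnit_evΩ ℓ)

/-- `Loc → 𝔽_ℓ((q))`. -/
def ρL : Loc ℓ →+* LaurentSeries (ZMod ℓ) := IsLocalization.lift (isUnit_evL ℓ)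

theorem ιΩ_algebraMap (a : ℤ[X]) : ιΩ ℓ (algebraMap ℤ[X] (Loc ℓ) a) = evΩ a :=
  IsLocalization.lift_eq _ _

theorem ρL_algebraMap (a : ℤ[X]) : ρL ℓ (algebraMap ℤ[X] (Loc ℓ) a) = evL ℓ a :=
  IsLocalization.lift_eq _ _

theorem ιΩ_mk' (a : ℤ[X]) (b : (P ℓ).primeCompl) :
    ιΩ ℓ (IsLocalization.mk' (Loc ℓ) a b) * evΩ (b : ℤ[X]) = evΩ a := by
  rw [← ιΩ_algebraMap ℓ, ← map_mul, IsLocalization.mk'_spec, ιΩ_algebraMap]

theorem ρL_mk' (a : ℤ[X]) (b : (P ℓ).primeCompl) :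
    ρL ℓ (IsLocalization.mk' (Loc ℓ) a b) * evL ℓ (b : ℤ[X]) = evL ℓ a := by
  rw [← ρL_algebraMap ℓ, ← map_mul, IsLocalization.mk'_spec, ρL_algebraMap]

theorem ιΩ_injective : Function.Injective (ιΩ ℓ) := by
  rw [injective_iff_map_eq_zero]
  intro z hz
  obtain ⟨a, b, rfl⟩ := IsLocalization.exists_mk'_eq (P ℓ).primeCompl z
  have h := ιΩ_mk' ℓ a b
  rw [hz, zero_mul] at h
  have ha : a = 0 := by
    by_contra ha
    exact evΩ_ne_zero ha h.symm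
  rw [ha, IsLocalization.mk'_zero]

theorem ιΩ_mk'_eq (a : ℤ[X]) (b : (P ℓ).primeCompl) :
    ιΩ ℓ (IsLocalization.mk' (Loc ℓ) a b) = evΩ a * (evΩ (b : ℤ[X]))⁻¹ := by
  rw [← ιΩ_mk' ℓ a b, mul_assoc, mul_inv_cancel₀ (isUnit_evΩ ℓ b).ne_zero, mul_one]

theorem ρL_mk'_eq (a : ℤ[X]) (b : (P ℓ).primeCompl) :
    ρL ℓ (IsLocalization.mk' (Loc ℓ) a b) = evL ℓ a * (evL ℓ (b : ℤ[X]))⁻¹ := by
  rw [← ρL_mk' ℓ a b, mul_assoc, mul_inv_cancel₀ (isUnit_evL ℓ b).ne_zero, mul_one]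

omit [Fact ℓ.Prime] in
theorem evΩ_mem_R0 (a : ℤ[X]) : evΩ a ∈ R0 ℓ := by
  have hj : jq ∈ R0 ℓ := Subring.subset_closure (Or.inl rfl)
  show a.eval₂ (Int.castRingHom (LaurentSeries ℚ)) jq ∈ R0 ℓ
  rw [eval₂_eq_sum_range]
  exact Subring.sum_mem _ fun i _ => Subring.mul_mem _ (by
    rw [eq_intCast]; exact intCast_mem _ _) (Subring.pow_mem _ hj i)

omit [Fact ℓ.Prime] in
theorem inv_evΩ_mem_R0 {b : ℤ[X]} (hb : b ∉ P ℓ) : (evΩ b)⁻¹ ∈ R0 ℓ :=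
  Subring.subset_closure (Or.inr ⟨b, by rwa [mem_P_iff] at hb, by rw [evΩ_apply]⟩)

theorem ιΩ_mem_R0 (z : Loc ℓ) : ιΩ ℓ z ∈ R0 ℓ := by
  obtain ⟨a, b, rfl⟩ := IsLocalization.exists_mk'_eq (P ℓ).primeCompl z
  rw [ιΩ_mk'_eq]
  exact Subring.mul_mem _ (evΩ_mem_R0 ℓ a) (inv_evΩ_mem_R0 ℓ b.2)

theorem R0_le_range : R0 ℓ ≤ (ιΩ ℓ).range := by
  refine Subring.closure_le.mpr ?_
  rintro x (hx | ⟨b, hb, rfl⟩)
  · rw [Set.mem_singleton_iff] at hx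
    subst hx
    exact ⟨algebraMap ℤ[X] (Loc ℓ) X, by rw [ιΩ_algebraMap]; simp [evΩ]⟩
  · have hb' : b ∈ (P ℓ).primeCompl := by
      show b ∉ P ℓ
      rwa [mem_P_iff]
    refine ⟨IsLocalization.mk' (Loc ℓ) 1 ⟨b, hb'⟩, ?_⟩
    rw [ιΩ_mk'_eq, map_one, one_mul, evΩ_apply]

/-- `Loc → R0`. -/
def toR0 : Loc ℓ →+* ↥(R0 ℓ) := (ιΩ ℓ).codRestrict (R0 ℓ) (ιΩ_mem_R0 ℓ)

theorem coe_toR0 (z : Loc ℓ) : ((toR0 ℓ z : ↥(R0 ℓ)) : LaurentSeries ℚ) = ιΩ ℓ z := rfl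

theorem toR0_bijective : Function.Bijective (toR0 ℓ) := by
  constructor
  · intro x y h
    exact ιΩ_injective ℓ (by rw [← coe_toR0, ← coe_toR0, h])
  · rintro ⟨x, hx⟩
    obtain ⟨z, rfl⟩ := R0_le_range ℓ hx
    exact ⟨z, rfl⟩

/-- `Loc ≃ R0`. -/
def equivR0 : Loc ℓ ≃+* ↥(R0 ℓ) := RingEquiv.ofBijective (toR0 ℓ) (toR0_bijective ℓ)

theorem coe_equivR0 (z : Loc ℓ) : ((equivR0 ℓ z : ↥(R0 ℓ)) : LaurentSeries ℚ) = ιΩ ℓ z := rfl

/-- the residue map of the base pair. -/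
def ρ0 : ↥(R0 ℓ) →+* LaurentSeries (ZMod ℓ) := (ρL ℓ).comp (equivR0 ℓ).symm.toRingHom

theorem ρ0_equivR0 (z : Loc ℓ) : ρ0 ℓ (equivR0 ℓ z) = ρL ℓ z := by
  simp [ρ0]

/-! ### Good-pair facts on the abstract localisation -/

theorem natCast_eq_algebraMap : ((ℓ : ℕ) : Loc ℓ) = algebraMap ℤ[X] (Loc ℓ) (C (ℓ : ℤ)) := by
  rw [show (C (ℓ : ℤ) : ℤ[X]) = ((ℓ : ℕ) : ℤ[X]) by simp, map_natCast]

theorem ρL_eq_zero_iff (z : Loc ℓ) : ρL ℓ z = 0 ↔ ∃ z' : Loc ℓ, z = (ℓ : Loc ℓ) * z' := by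
  constructor
  · intro hz
    obtain ⟨a, b, rfl⟩ := IsLocalization.exists_mk'_eq (P ℓ).primeCompl z
    have h := ρL_mk' ℓ a b
    rw [hz, zero_mul] at h
    obtain ⟨a', rfl⟩ := (mem_P_iff_dvd ℓ).mp ((evL_eq_zero_iff ℓ).mp h.symm)
    refine ⟨IsLocalization.mk' (Loc ℓ) a' b, ?_⟩
    rw [natCast_eq_algebraMap, ← IsLocalization.mk'_one (M := (P ℓ).primeCompl) (Loc ℓ) (C (ℓ : ℤ)),
      ← IsLocalization.mk'_mul, one_mul]
  · rintro ⟨z', rfl⟩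
    rw [map_mul, map_natCast]
    have : ((ℓ : ℕ) : LaurentSeries (ZMod ℓ)) = 0 := by
      rw [← map_natCast (HahnSeries.C : ZMod ℓ →+* LaurentSeries (ZMod ℓ)), ZMod.natCast_self,
        map_zero]
    rw [this, zero_mul]

theorem isUnit_of_ρL_ne_zero (z : Loc ℓ) (hz : ρL ℓ z ≠ 0) : IsUnit z := by
  obtain ⟨a, b, rfl⟩ := IsLocalization.exists_mk'_eq (P ℓ).primeCompl z
  rw [IsLocalization.AtPrime.isUnit_mk'_iff (Loc ℓ) (P ℓ)]
  show a ∉ P ℓ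
  intro ha
  apply hz
  rw [ρL_mk'_eq, (evL_eq_zero_iff ℓ).mpr ha, zero_mul]

theorem exists_eq_pow_mul (z : Loc ℓ) (hz : z ≠ 0) :
    ∃ (n : ℕ) (u : Loc ℓ), IsUnit u ∧ z = (ℓ : Loc ℓ) ^ n * u := by
  obtain ⟨a, b, rfl⟩ := IsLocalization.exists_mk'_eq (P ℓ).primeCompl z
  have ha : a ≠ 0 := by
    rintro rfl
    exact hz (IsLocalization.mk'_zero _)
  obtain ⟨n, a', hdvd, rfl⟩ := WfDvdMonoid.max_power_factor ha (prime_C_ell ℓ).irreducible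
  refine ⟨n, IsLocalization.mk' (Loc ℓ) a' b, ?_, ?_⟩
  · rw [IsLocalization.AtPrime.isUnit_mk'_iff (Loc ℓ) (P ℓ)]
    show a' ∉ P ℓ
    rwa [mem_P_iff_dvd]
  · rw [natCast_eq_algebraMap, ← map_pow (algebraMap ℤ[X] (Loc ℓ)),
      ← IsLocalization.mk'_one (M := (P ℓ).primeCompl) (Loc ℓ) (C (ℓ : ℤ) ^ n),
      ← IsLocalization.mk'_mul, one_mul]

theorem natCast_L_eq_zero : ((ℓ : ℕ) : LaurentSeries (ZMod ℓ)) = 0 := by
  rw [← map_natCast (HahnSeries.C : ZMod ℓ →+* LaurentSeries (ZMod ℓ)), ZMod.natCast_self,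
    map_zero]

end BasePair

open BasePair

variable (ℓ : ℕ) [Fact ℓ.Prime]

/-- **Base good pair**: `(R0 ℓ, ρ0)`. -/
theorem goodPair_R0 : GoodPair ℓ (R0 ℓ) (BasePair.ρ0 ℓ) where
  ell_ne_zero := by
    rw [← map_natCast (HahnSeries.C : ℚ →+* LaurentSeries ℚ), Ne,
      map_eq_zero_iff _ HahnSeries.C_injective]
    exact Nat.cast_ne_zero.mpr (Fact.out : ℓ.Prime).ne_zero
  ker_eq := by
    ext s
    obtain ⟨z, rfl⟩ := (equivR0 ℓ).surjective s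
    rw [RingHom.mem_ker, ρ0_equivR0, Ideal.mem_span_singleton, ρL_eq_zero_iff]
    constructor
    · rintro ⟨z', rfl⟩
      exact ⟨equivR0 ℓ z', by rw [map_mul, map_natCast]⟩
    · rintro ⟨c, hc⟩
      obtain ⟨z', rfl⟩ := (equivR0 ℓ).surjective c
      refine ⟨z', (equivR0 ℓ).injective ?_⟩
      rw [hc, map_mul, map_natCast]
  isUnit_of_map_ne_zero := by
    intro s hs
    obtain ⟨z, rfl⟩ := (equivR0 ℓ).surjective s
    rw [ρ0_equivR0] at hs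
    exact (isUnit_of_ρL_ne_zero ℓ z hs).map (equivR0 ℓ)
  exists_eq_pow_mul := by
    intro s hs
    obtain ⟨z, rfl⟩ := (equivR0 ℓ).surjective s
    have hz : z ≠ 0 := by
      rintro rfl
      exact hs (map_zero _)
    obtain ⟨n, u, hu, rfl⟩ := BasePair.exists_eq_pow_mul ℓ z hz
    exact ⟨n, equivR0 ℓ u, hu.map (equivR0 ℓ), by rw [map_mul, map_pow, map_natCast]⟩

omit [Fact ℓ.Prime] in
theorem jq_mem_R0 : jq ∈ R0 ℓ := Subring.subset_closure (Or.inl rfl)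

omit [Fact ℓ.Prime] in
/-- polynomial expressions in `j` with integer coefficients lie in `R0`. -/
theorem aeval_jq_mem_R0 (a : ℤ[X]) : aeval jq a ∈ R0 ℓ := by
  rw [← evΩ_apply]
  exact evΩ_mem_R0 ℓ a

/-- inverses of polynomial expressions in `j` which are nonzero mod `ℓ` lie in `R0`. -/
theorem inv_aeval_jq_mem_R0 {b : ℤ[X]} (hb : b.map (Int.castRingHom (ZMod ℓ)) ≠ 0) :
    (aeval jq b)⁻¹ ∈ R0 ℓ :=
  Subring.subset_closure (Or.inr ⟨b, hb, rfl⟩)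

theorem jq_inv_mem_R0 : jq⁻¹ ∈ R0 ℓ := by
  have h := inv_aeval_jq_mem_R0 ℓ (b := X) (by
    rw [Polynomial.map_X]; exact X_ne_zero)
  rwa [aeval_X] at h

theorem natCast_inv_mem_R0 {m : ℕ} (hm : m.Coprime ℓ) : ((m : LaurentSeries ℚ))⁻¹ ∈ R0 ℓ := by
  have h := inv_aeval_jq_mem_R0 ℓ (b := C (m : ℤ)) (by
    rw [Polynomial.map_C, Ne, C_eq_zero, eq_intCast, Int.cast_natCast,
      ZMod.natCast_eq_zero_iff]
    intro hdvd
    exact (Fact.out : ℓ.Prime).one_lt.ne' (Nat.eq_one_of_dvd_coprimes hm.symm dvd_rfl hdvd |>.symm ▸ rfl))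
  rwa [aeval_C, eq_intCast, Int.cast_natCast] at h

/-- `ρ0 j = j mod ℓ`. -/
theorem ρ0_jq : BasePair.ρ0 ℓ ⟨jq, jq_mem_R0 ℓ⟩ = jqModC (ZMod ℓ) := by
  have h : (⟨jq, jq_mem_R0 ℓ⟩ : ↥(R0 ℓ)) = equivR0 ℓ (algebraMap ℤ[X] (Loc ℓ) X) := by
    apply Subtype.ext
    rw [coe_equivR0, ιΩ_algebraMap]
    simp [evΩ]
  rw [h, ρ0_equivR0, ρL_algebraMap]
  simp [evL]

/-- the residue image of the base pair lies in `𝔽_ℓ(j)`. -/
theorem range_ρ0_subset :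
    Set.range (BasePair.ρ0 ℓ) ⊆
      (modularFunctionFieldFullC (ZMod ℓ) 1 : Set (LaurentSeries (ZMod ℓ))) := by
  rintro _ ⟨s, rfl⟩
  obtain ⟨z, rfl⟩ := (equivR0 ℓ).surjective s
  rw [ρ0_equivR0]
  obtain ⟨a, b, rfl⟩ := IsLocalization.exists_mk'_eq (P ℓ).primeCompl z
  rw [ρL_mk'_eq]
  have hmem : ∀ c : ℤ[X], evL ℓ c ∈ modularFunctionFieldFullC (ZMod ℓ) 1 := by
    intro c
    show c.eval₂ (Int.castRingHom (LaurentSeries (ZMod ℓ))) (jqModC (ZMod ℓ)) ∈ _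
    rw [eval₂_eq_sum_range]
    exact sum_mem fun i _ => mul_mem (by rw [eq_intCast]; exact intCast_mem _ _)
      (pow_mem (jqModC_mem_full (ZMod ℓ) 1) i)
  exact mul_mem (hmem a) (inv_mem (hmem b))

/-- elements of `R0` are fractions `a(j)/b(j)` with `b ≠ 0 mod ℓ`. -/
theorem R0_fraction {x : LaurentSeries ℚ} (hx : x ∈ R0 ℓ) :
    ∃ a b : ℤ[X], b.map (Int.castRingHom (ZMod ℓ)) ≠ 0 ∧ x * aeval jq b = aeval jq a := by
  obtain ⟨z, rfl⟩ := R0_le_range ℓ hx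
  obtain ⟨a, b, rfl⟩ := IsLocalization.exists_mk'_eq (P ℓ).primeCompl z
  refine ⟨a, b, ?_, ?_⟩
  · rw [Ne, ← mem_P_iff]
    exact b.2
  · rw [← evΩ_apply, ← evΩ_apply]
    exact ιΩ_mk' ℓ a b

omit [Fact ℓ.Prime] in
/-- elements of `R0` are integral over `R0`. -/
theorem isIntegral_R0_of_mem {s : LaurentSeries ℚ} (hs : s ∈ R0 ℓ) : IsIntegral ↥(R0 ℓ) s :=
  isIntegral_algebraMap (x := (⟨s, hs⟩ : ↥(R0 ℓ)))

/-- **Base of the tower.** -/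
theorem towerState_base :
    TowerState ℓ {1} (modularFunctionFieldFullC (ZMod ℓ) 1 : Set (LaurentSeries (ZMod ℓ))) := by
  refine ⟨R0 ℓ, BasePair.ρ0 ℓ, goodPair_R0 ℓ, le_rfl, fun s hs => isIntegral_R0_of_mem ℓ hs, ?_,
    range_ρ0_subset ℓ⟩
  intro d hd
  rw [Set.mem_singleton_iff] at hd
  subst hd
  have hmem : jd ℚ 1 ∈ R0 ℓ := by rw [jd_rat_one]; exact jq_mem_R0 ℓ
  refine ⟨hmem, ?_⟩
  have h : (⟨jd ℚ 1, hmem⟩ : ↥(R0 ℓ)) = ⟨jq, jq_mem_R0 ℓ⟩ := Subtype.ext jd_rat_one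
  rw [h, ρ0_jq, jd_one (ZMod ℓ)]

end Fermat.Agent.S28
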