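/-
S28 (Igusa) -- block [T] END, auxiliary bridge (C2)+(C3): integrality over `ℤ_(ℓ)[t]` inside the
function field `F = modularFunctionFieldFull N` versus integrality over `ℤ[t]` inside `ℚ((q))`
after clearing a denominator prime to `ℓ`.
Owner: helper57.  Namespace `Fermat.Agent.S28`.
-/
import Mathlib
import Fermat.Agent.S28.Defs

set_option autoImplicit false

noncomputable section

namespace Fermat.Agent.S28

open ModularCurve ModularCurve.IgusaScheme Polynomial

/-- evaluation of integer polynomials at `t ∈ ℚ((q))`. -/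
def evZ (t : LaurentSeries ℚ) : Polynomial ℤ →+* LaurentSeries ℚ :=
  Polynomial.eval₂RingHom (Int.castRingHom (LaurentSeries ℚ)) t

namespace KerEllAux

variable (ℓ : ℕ) [Fact ℓ.Prime]

/-- the inverse of an integer prime to `ℓ`, as an element of `ℤ_(ℓ)`. -/
theorem exists_inv_natCast {m : ℕ} (hm : m.Coprime ℓ) :
    ∃ u : ↥(GaloisRep.ratLocalizedAt ℓ), u * (m : ↥(GaloisRep.ratLocalizedAt ℓ)) = 1 := by
  have hm0 : m ≠ 0 := by
    rintro rfl
    rw [Nat.coprime_zero_left] at hm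
    exact (Fact.out : ℓ.Prime).one_lt.ne' hm
  have hmem : (m : ℚ)⁻¹ ∈ GaloisRep.ratLocalizedAt ℓ := by
    show ((m : ℚ)⁻¹).den.Coprime ℓ
    have : ((m : ℚ)⁻¹).den = m := by
      rw [Rat.inv_natCast_den]
      simp [hm0]
    rwa [this]
  refine ⟨⟨(m : ℚ)⁻¹, hmem⟩, ?_⟩
  apply Subtype.ext
  simp [hm0]

omit [Fact ℓ.Prime] in
/-- clearing denominators of a polynomial over `ℤ_(ℓ)`. -/
theorem exists_clear_denom (P : Polynomial ↥(GaloisRep.ratLocalizedAt ℓ)) :
    ∃ (m : ℕ) (Q : Polynomial ℤ), m.Coprime ℓ ∧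
      C (m : ↥(GaloisRep.ratLocalizedAt ℓ)) * P =
        Q.map (Int.castRingHom ↥(GaloisRep.ratLocalizedAt ℓ)) := by
  induction P using Polynomial.induction_on' with
  | add P₁ P₂ h₁ h₂ =>
    obtain ⟨m₁, Q₁, hm₁, e₁⟩ := h₁
    obtain ⟨m₂, Q₂, hm₂, e₂⟩ := h₂
    refine ⟨m₁ * m₂, C (m₂ : ℤ) * Q₁ + C (m₁ : ℤ) * Q₂, Nat.Coprime.mul_left hm₁ hm₂, ?_⟩
    rw [Polynomial.map_add, Polynomial.map_mul, Polynomial.map_mul, ← e₁, ← e₂, map_C, map_C]
    simp only [eq_intCast, Int.cast_natCast, Nat.cast_mul, C_mul]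
    ring
  | monomial n a =>
    obtain ⟨a, ha⟩ := a
    refine ⟨a.den, monomial n a.num, ha, ?_⟩
    rw [map_monomial, C_mul_monomial]
    congr 1
    apply Subtype.ext
    simp only [Subring.coe_mul, Subring.coe_natCast, eq_intCast, Subring.coe_intCast]
    exact Rat.den_mul_eq_num a

variable (N : ℕ) [NeZero N]

/-- `ℤ_(ℓ)[t] ⊂ F`. -/
abbrev adj (tF : ↥(modularFunctionFieldFull N)) :
    Subalgebra ↥(GaloisRep.ratLocalizedAt ℓ) ↥(modularFunctionFieldFull N) :=
  Algebra.adjoin ↥(GaloisRep.ratLocalizedAt ℓ) {tF}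

/-- the inclusion `F → ℚ((q))` as a ring hom. -/
abbrev inc : ↥(modularFunctionFieldFull N) →+* LaurentSeries ℚ :=
  SubringClass.subtype (modularFunctionFieldFull N)

/-- evaluation of integer polynomials at the generator, landing in `ℤ_(ℓ)[t] ⊂ F`. -/
def ψ (tF : ↥(modularFunctionFieldFull N)) : Polynomial ℤ →+* ↥(adj ℓ N tF) :=
  Polynomial.eval₂RingHom (Int.castRingHom _) ⟨tF, Algebra.subset_adjoin rfl⟩

omit [Fact ℓ.Prime] [NeZero N] in
theorem coe_ψ (tF : ↥(modularFunctionFieldFull N)) (Q : Polynomial ℤ) :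
    inc N (algebraMap ↥(adj ℓ N tF) ↥(modularFunctionFieldFull N) (ψ ℓ N tF Q)) =
      evZ (tF : LaurentSeries ℚ) Q := by
  have h : ((inc N).comp ((algebraMap ↥(adj ℓ N tF) ↥(modularFunctionFieldFull N)).comp
      (ψ ℓ N tF))) = evZ (tF : LaurentSeries ℚ) := by
    apply Polynomial.ringHom_ext
    · intro a
      simp [evZ]
    · simp only [RingHom.comp_apply, ψ, evZ, Polynomial.coe_eval₂RingHom, Polynomial.eval₂_X]
      rfl
  exact congrArg (fun f => f Q) h

omit [Fact ℓ.Prime] in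
theorem coe_eval₂_ψ (tF z : ↥(modularFunctionFieldFull N)) (P : Polynomial (Polynomial ℤ)) :
    inc N ((P.map (ψ ℓ N tF)).eval₂
      (algebraMap ↥(adj ℓ N tF) ↥(modularFunctionFieldFull N)) z) =
      P.eval₂ (evZ (tF : LaurentSeries ℚ)) (z : LaurentSeries ℚ) := by
  rw [Polynomial.eval₂_map]
  have h := Polynomial.hom_eval₂ P
    ((algebraMap ↥(adj ℓ N tF) ↥(modularFunctionFieldFull N)).comp (ψ ℓ N tF)) (inc N) z
  refine h.trans ?_
  congr 1
  ext : 1
  · exact RingHom.ext_int _ _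
  · exact coe_ψ ℓ N tF X

/-- every element of `ℤ_(ℓ)[t]` becomes an integer polynomial in `t` after multiplication by an
integer prime to `ℓ`. -/
theorem exists_mul_eq_ψ (tF : ↥(modularFunctionFieldFull N)) (c : ↥(adj ℓ N tF)) :
    ∃ (m : ℕ) (Q : Polynomial ℤ), m.Coprime ℓ ∧ ((m : ℕ) : ↥(adj ℓ N tF)) * c = ψ ℓ N tF Q := by
  obtain ⟨c, hc⟩ := c
  have hc' := hc
  rw [adj, Algebra.adjoin_singleton_eq_range_aeval] at hc'
  obtain ⟨P, rfl⟩ := hc'
  obtain ⟨m, Q, hm, e⟩ := exists_clear_denom ℓ P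
  refine ⟨m, Q, hm, ?_⟩
  apply Subtype.ext
  have h := congrArg (Polynomial.aeval tF) e
  rw [map_mul, Polynomial.aeval_C, map_natCast] at h
  have h2 : ((ψ ℓ N tF Q : ↥(adj ℓ N tF)) : ↥(modularFunctionFieldFull N)) =
      Q.eval₂ (Int.castRingHom ↥(modularFunctionFieldFull N)) tF := by
    have := Polynomial.hom_eval₂ Q (Int.castRingHom _) (adj ℓ N tF).val.toRingHom
      ⟨tF, Algebra.subset_adjoin rfl⟩
    refine this.trans ?_
    congr 1
  rw [h2]
  have h3 : (((m : ℕ) : ↥(adj ℓ N tF)) * ⟨(Polynomial.aeval tF) P, hc⟩ : ↥(adj ℓ N tF)).1 =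
      (m : ↥(modularFunctionFieldFull N)) * (Polynomial.aeval tF) P := by
    simp
  refine h3.trans (h.trans ?_)
  rw [Polynomial.aeval_def, Polynomial.eval₂_map]
  congr 1

end KerEllAux

open KerEllAux in
/-- **Bridge (C2)+(C3)**: `y ∈ F` is integral over `ℤ_(ℓ)[t]` iff some multiple `m y`, with `m`
prime to `ℓ`, is integral over `ℤ[t]` (inside `ℚ((q))`). -/
theorem isIntegral_adjoin_iff (N : ℕ) [NeZero N] (ℓ : ℕ) [Fact ℓ.Prime]
    (tF y : ↥(modularFunctionFieldFull N)) :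
    IsIntegral ↥(Algebra.adjoin ↥(GaloisRep.ratLocalizedAt ℓ) {tF}) y ↔
      ∃ m : ℕ, m.Coprime ℓ ∧
        (evZ (tF : LaurentSeries ℚ)).IsIntegralElem ((m : LaurentSeries ℚ) * (y : LaurentSeries ℚ)) := by
  have hcoe : ∀ m : ℕ, inc N ((m : ↥(modularFunctionFieldFull N)) * y) =
      (m : LaurentSeries ℚ) * (y : LaurentSeries ℚ) := by
    intro m
    rw [map_mul, map_natCast]
    rfl
  constructor
  · rintro ⟨p, hp, hroot⟩
    choose mi Qi hmi hQi using fun i => exists_mul_eq_ψ ℓ N tF (p.coeff i)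
    set n := p.natDegree with hn
    set m : ℕ := ∏ i ∈ Finset.range n, mi i with hm
    have hmcop : m.Coprime ℓ := Nat.Coprime.prod_left fun i _ => hmi i
    set s : ↥(adj ℓ N tF) := ((m : ℕ) : ↥(adj ℓ N tF)) with hs
    have hψC : ∀ k : ℕ, ψ ℓ N tF (C (k : ℤ)) = ((k : ℕ) : ↥(adj ℓ N tF)) := by
      intro k
      simp [ψ]
    have hlifts : scaleRoots p s ∈ Polynomial.lifts (ψ ℓ N tF) := by
      rw [Polynomial.lifts_iff_coeff_lifts]
      intro i
      rw [coeff_scaleRoots, ← hn]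
      rcases lt_trichotomy i n with hi | hi | hi
      · obtain ⟨k, hk⟩ : mi i ∣ m := Finset.dvd_prod_of_mem mi (Finset.mem_range.mpr hi)
        refine ⟨Qi i * C (k : ℤ) * C (m : ℤ) ^ (n - i - 1), ?_⟩
        rw [map_mul, map_mul, map_pow, hψC, hψC, ← hQi i]
        have h1 : s ^ (n - i) = s * s ^ (n - i - 1) := by
          rw [← pow_succ']
          congr 1
          omega
        have h2 : s = ((mi i : ℕ) : ↥(adj ℓ N tF)) * ((k : ℕ) : ↥(adj ℓ N tF)) := by
          rw [hs, hk, Nat.cast_mul]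
        rw [h1]
        nth_rewrite 1 [h2]
        ring
      · subst hi
        refine ⟨1, ?_⟩
        rw [map_one, hn, hp.coeff_natDegree, Nat.sub_self, pow_zero, mul_one]
      · refine ⟨0, ?_⟩
        rw [map_zero, coeff_eq_zero_of_natDegree_lt (hn ▸ hi), zero_mul]
    have hmonic : (scaleRoots p s).Monic := (monic_scaleRoots_iff s).mpr hp
    obtain ⟨q, hq, -, hqmonic⟩ := Polynomial.lifts_and_natDegree_eq_and_monic hlifts hmonic
    refine ⟨m, hmcop, q, hqmonic, ?_⟩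
    have h := coe_eval₂_ψ ℓ N tF ((m : ↥(modularFunctionFieldFull N)) * y) q
    rw [hq] at h
    have hroot' : (scaleRoots p s).eval₂
        (algebraMap ↥(adj ℓ N tF) ↥(modularFunctionFieldFull N))
        ((m : ↥(modularFunctionFieldFull N)) * y) = 0 := by
      have := scaleRoots_eval₂_mul (p := p)
        (algebraMap ↥(adj ℓ N tF) ↥(modularFunctionFieldFull N)) y s
      rw [hroot, mul_zero, hs, map_natCast] at this
      exact this
    rw [hroot', map_zero] at h
    rw [← hcoe m]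
    exact h.symm
  · rintro ⟨m, hm, P, hP, hroot⟩
    have hint : IsIntegral ↥(adj ℓ N tF) ((m : ↥(modularFunctionFieldFull N)) * y) := by
      refine ⟨P.map (ψ ℓ N tF), hP.map _, ?_⟩
      apply Subtype.ext
      have h := coe_eval₂_ψ ℓ N tF ((m : ↥(modularFunctionFieldFull N)) * y) P
      rw [← hcoe m] at hroot
      exact h.trans hroot
    obtain ⟨u, hu⟩ := exists_inv_natCast ℓ hm
    have hy : y = algebraMap ↥(adj ℓ N tF) ↥(modularFunctionFieldFull N)
        (algebraMap ↥(GaloisRep.ratLocalizedAt ℓ) _ u) * ((m : ↥(modularFunctionFieldFull N)) * y) := by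
      rw [← IsScalarTower.algebraMap_apply, ← mul_assoc,
        ← map_natCast (algebraMap ↥(GaloisRep.ratLocalizedAt ℓ) ↥(modularFunctionFieldFull N)) m,
        ← map_mul, hu, map_one, one_mul]
    rw [hy]
    exact IsIntegral.mul isIntegral_algebraMap hint

end Fermat.Agent.S28
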