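/-
S28 (Igusa) -- block [T] END, inclusion part: the chart algebras lie inside the top good pair.
Owner: helper53.  Namespace `Fermat.Agent.S28`.
-/
import Fermat.Agent.S28.TowerDefs
import Fermat.Agent.S28.BasePair

set_option autoImplicit false

noncomputable section

namespace Fermat.Agent.S28

open ModularCurve ModularCurve.IgusaScheme Polynomial

/-- Rational numbers with denominator prime to `ℓ` lie in `R0 ℓ`. -/
theorem ratCast_mem_R0 (ℓ : ℕ) [Fact ℓ.Prime] (r : ↥(GaloisRep.ratLocalizedAt ℓ)) :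
    algebraMap ℚ (LaurentSeries ℚ) (r : ℚ) ∈ R0 ℓ := by
  have hden : (r : ℚ).den.Coprime ℓ := r.2
  have h1 : algebraMap ℚ (LaurentSeries ℚ) (r : ℚ) =
      ((r : ℚ).num : LaurentSeries ℚ) * (((r : ℚ).den : ℕ) : LaurentSeries ℚ)⁻¹ := by
    conv_lhs => rw [← Rat.num_div_den (r : ℚ)]
    rw [map_div₀, map_intCast, map_natCast, div_eq_mul_inv]
  rw [h1]
  exact Subring.mul_mem _ (intCast_mem _ _) (natCast_inv_mem_R0 ℓ hden)

/-- Every element of the full modular function field is a quotient of elements of a subring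
containing all `j(q^d)`, `d ∣ N`. -/
theorem full_le_frac (N : ℕ) [NeZero N] {S : Subring (LaurentSeries ℚ)}
    (hj : ∀ d : ℕ, d ∣ N → jd ℚ d ∈ S) (x : ↥(modularFunctionFieldFull N)) :
    ∃ a b : ↥S, b ≠ 0 ∧ (x : LaurentSeries ℚ) = (a : LaurentSeries ℚ) / (b : LaurentSeries ℚ) := by
  have hle : (modularFunctionFieldFull N).toSubfield ≤
      Subfield.closure (S : Set (LaurentSeries ℚ)) := by
    rw [modularFunctionFieldFull, IntermediateField.adjoin_toSubfield]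
    refine Subfield.closure_le.mpr (Set.union_subset ?_ ?_)
    · rintro _ ⟨q, rfl⟩
      rw [eq_ratCast]
      exact SubfieldClass.ratCast_mem _ q
    · rintro _ ⟨d, hne, hd, rfl⟩
      have := hne
      rw [← jd_rat]
      exact Subfield.subset_closure (hj d hd)
  have hx : (x : LaurentSeries ℚ) ∈ Subfield.closure (S : Set (LaurentSeries ℚ)) := hle x.2
  obtain ⟨y, hy, z, hz, hyz⟩ := Subfield.mem_closure_iff.mp hx
  rw [Subring.closure_eq] at hy hz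
  by_cases hz0 : z = 0
  · refine ⟨0, 1, one_ne_zero, ?_⟩
    rw [← hyz, hz0, div_zero]
    simp
  · exact ⟨⟨y, hy⟩, ⟨z, hz⟩, fun h => hz0 (congrArg Subtype.val h), hyz.symm⟩

/-- The elements of the `ℤ_(ℓ)`-algebra generated by a set `T ⊆ S` lie in `S`. -/
theorem coe_mem_of_mem_adjoin (N : ℕ) [NeZero N] (ℓ : ℕ) [Fact ℓ.Prime]
    {S : Subring (LaurentSeries ℚ)} (h0 : R0 ℓ ≤ S)
    (T : Set ↥(modularFunctionFieldFull N))
    (hT : ∀ t ∈ T, ((t : ↥(modularFunctionFieldFull N)) : LaurentSeries ℚ) ∈ S)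
    (y : ↥(modularFunctionFieldFull N))
    (hy : y ∈ Algebra.adjoin ↥(GaloisRep.ratLocalizedAt ℓ) T) : (y : LaurentSeries ℚ) ∈ S := by
  induction hy using Algebra.adjoin_induction with
  | mem t ht => exact hT t ht
  | algebraMap r =>
    have h := h0 (ratCast_mem_R0 ℓ r)
    have h1 : (algebraMap ↥(GaloisRep.ratLocalizedAt ℓ) ℚ) r = (r : ℚ) := rfl
    rw [IsScalarTower.algebraMap_apply ↥(GaloisRep.ratLocalizedAt ℓ) ℚ
      ↥(modularFunctionFieldFull N), h1, eq_ratCast (algebraMap ℚ ↥(modularFunctionFieldFull N))]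
    rw [eq_ratCast (algebraMap ℚ (LaurentSeries ℚ))] at h
    exact h
  | add a b _ _ ha hb => exact Subring.add_mem _ ha hb
  | mul a b _ _ ha hb => exact Subring.mul_mem _ ha hb

/-- A chart algebra `chartAlg N ℓ T` with `T ⊆ S` lies inside the top good pair `S`. -/
theorem mem_of_mem_chartAlg (N : ℕ) [NeZero N] (ℓ : ℕ) [Fact ℓ.Prime]
    {S : Subring (LaurentSeries ℚ)} {ρ : ↥S →+* LaurentSeries (ZMod ℓ)} (hg : GoodPair ℓ S ρ)
    (h0 : R0 ℓ ≤ S) (hj : ∀ d : ℕ, d ∣ N → jd ℚ d ∈ S)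
    (T : Set ↥(modularFunctionFieldFull N))
    (hT : ∀ t ∈ T, ((t : ↥(modularFunctionFieldFull N)) : LaurentSeries ℚ) ∈ S)
    (x : ↥(modularFunctionFieldFull N)) (hx : x ∈ chartAlg N ℓ T) :
    (x : LaurentSeries ℚ) ∈ S := by
  obtain ⟨a, b, hb, hab⟩ := full_le_frac N hj x
  rw [hab]
  refine hg.div_mem_of_isIntegral hb ?_
  rw [← hab]
  have hx' : IsIntegral ↥(Algebra.adjoin ↥(GaloisRep.ratLocalizedAt ℓ) T) x :=
    (mem_chartAlg_iff N ℓ).mp hx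
  let ψ : ↥(modularFunctionFieldFull N) →+* LaurentSeries ℚ :=
    (modularFunctionFieldFull N).toSubfield.subtype
  let φ : ↥(Algebra.adjoin ↥(GaloisRep.ratLocalizedAt ℓ) T) →+* ↥S :=
    (ψ.comp (Algebra.adjoin ↥(GaloisRep.ratLocalizedAt ℓ) T).toSubring.subtype).codRestrict S
      (fun y => coe_mem_of_mem_adjoin N ℓ h0 T hT y.1 y.2)
  exact hx'.map_of_comp_eq φ ψ (RingHom.ext fun y => rfl)

theorem jFull_coe_mem (N : ℕ) [NeZero N] (ℓ : ℕ) [Fact ℓ.Prime]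
    {S : Subring (LaurentSeries ℚ)} (h0 : R0 ℓ ≤ S) :
    ((jFull N : ↥(modularFunctionFieldFull N)) : LaurentSeries ℚ) ∈ S :=
  h0 (jq_mem_R0 ℓ)

theorem jFull_inv_coe_mem (N : ℕ) [NeZero N] (ℓ : ℕ) [Fact ℓ.Prime]
    {S : Subring (LaurentSeries ℚ)} (h0 : R0 ℓ ≤ S) :
    (((jFull N)⁻¹ : ↥(modularFunctionFieldFull N)) : LaurentSeries ℚ) ∈ S :=
  h0 (jq_inv_mem_R0 ℓ)

theorem chartAlgFin_subset (N : ℕ) [NeZero N] (ℓ : ℕ) [Fact ℓ.Prime]
    {S : Subring (LaurentSeries ℚ)} {ρ : ↥S →+* LaurentSeries (ZMod ℓ)} (hg : GoodPair ℓ S ρ)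
    (h0 : R0 ℓ ≤ S) (hj : ∀ d : ℕ, d ∣ N → jd ℚ d ∈ S)
    (x : ↥(modularFunctionFieldFull N)) (hx : x ∈ chartAlgFin N ℓ) :
    (x : LaurentSeries ℚ) ∈ S := by
  refine mem_of_mem_chartAlg N ℓ hg h0 hj _ ?_ x hx
  rintro t rfl
  exact jFull_coe_mem N ℓ h0

theorem chartAlgInf_subset (N : ℕ) [NeZero N] (ℓ : ℕ) [Fact ℓ.Prime]
    {S : Subring (LaurentSeries ℚ)} {ρ : ↥S →+* LaurentSeries (ZMod ℓ)} (hg : GoodPair ℓ S ρ)
    (h0 : R0 ℓ ≤ S) (hj : ∀ d : ℕ, d ∣ N → jd ℚ d ∈ S)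
    (x : ↥(modularFunctionFieldFull N)) (hx : x ∈ chartAlgInf N ℓ) :
    (x : LaurentSeries ℚ) ∈ S := by
  refine mem_of_mem_chartAlg N ℓ hg h0 hj _ ?_ x hx
  rintro t rfl
  exact jFull_inv_coe_mem N ℓ h0

theorem chartAlgMid_subset (N : ℕ) [NeZero N] (ℓ : ℕ) [Fact ℓ.Prime]
    {S : Subring (LaurentSeries ℚ)} {ρ : ↥S →+* LaurentSeries (ZMod ℓ)} (hg : GoodPair ℓ S ρ)
    (h0 : R0 ℓ ≤ S) (hj : ∀ d : ℕ, d ∣ N → jd ℚ d ∈ S)
    (x : ↥(modularFunctionFieldFull N)) (hx : x ∈ chartAlgMid N ℓ) :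
    (x : LaurentSeries ℚ) ∈ S := by
  refine mem_of_mem_chartAlg N ℓ hg h0 hj _ ?_ x hx
  rintro t (rfl | rfl)
  · exact jFull_coe_mem N ℓ h0
  · exact jFull_inv_coe_mem N ℓ h0

end Fermat.Agent.S28

end
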