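/-
S28 (Igusa) -- block [T] END step: from the top tower state to the reduction maps on the chart
algebras with kernel `ℓ` (`RhoCharts`).
Owner: helper89.  Namespace `Fermat.Agent.S28`.
-/
import Fermat.Agent.S28.TowerDefs
import Fermat.Agent.S28.KerEllAux
import Fermat.Agent.S28.KerEllIncl

set_option autoImplicit false
set_option linter.style.haveILetI false

noncomputable section

namespace Fermat.Agent.S28

open ModularCurve ModularCurve.IgusaScheme Polynomial

/-- Evaluation of integer polynomials at `t` (as a ring homomorphism, independent of the choice of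
a `ℤ`-algebra instance). -/
abbrev kerEllEv {Ω : Type*} [CommRing Ω] (t : Ω) : Polynomial ℤ →+* Ω :=
  Polynomial.eval₂RingHom (Int.castRingHom Ω) t

theorem kerEllEv_apply {Ω : Type*} [CommRing Ω] (t : Ω) (a : Polynomial ℤ) :
    kerEllEv t a = a.eval₂ (Int.castRingHom Ω) t := rfl

theorem kerEllEv_X {Ω : Type*} [CommRing Ω] (t : Ω) : kerEllEv t X = t := by
  rw [kerEllEv_apply, eval₂_X]

theorem kerEll_aeval_eq {Ω : Type*} [CommRing Ω] [Algebra ℤ Ω] (t : Ω) (a : Polynomial ℤ) :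
    Polynomial.aeval t a = kerEllEv t a := by
  rw [aeval_def, kerEllEv_apply]
  congr 1
  exact Subsingleton.elim _ _

section AbstractA

variable {R K Ω : Type*} [CommRing R] [IsDomain R] [IsIntegrallyClosed R] [Field K] [Algebra R K]
  [IsFractionRing R K] [Field Ω] [Algebra R Ω] [Algebra K Ω] [IsScalarTower R K Ω]

/-- Abstract core of the END step: if `ℓ x` is integral over the integrally closed domain `R`,
`x` is integral over a subring `V` of `K = Frac R` which is integrally closed in `K` and satisfies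
`V ∩ R[1/ℓ] ⊆ R`, then `x` is integral over `R`. -/
theorem kerEll_isIntegral_of_mul (V : Subring K) (ℓ : R) (hℓ : ℓ ≠ 0)
    (hV2 : ∀ k : K, IsIntegral ↥V k → k ∈ V)
    (hV3 : ∀ k ∈ V, ∀ (n : ℕ) (r : R), algebraMap R K r = algebraMap R K ℓ ^ n * k →
      ∃ r' : R, algebraMap R K r' = k)
    (x : Ω) (h1 : IsIntegral R (algebraMap R Ω ℓ * x)) (h2 : IsIntegral ↥V x) :
    IsIntegral R x := by
  have hℓK : algebraMap R K ℓ ≠ 0 := by
    intro h
    exact hℓ ((map_eq_zero_iff _ (IsFractionRing.injective R K)).mp h)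
  set lK := algebraMap R K ℓ with hlK
  have hℓΩ : algebraMap R Ω ℓ = algebraMap K Ω lK := IsScalarTower.algebraMap_apply R K Ω ℓ
  have hinv : algebraMap K Ω lK⁻¹ * (algebraMap R Ω ℓ * x) = x := by
    rw [hℓΩ, ← mul_assoc, ← map_mul, inv_mul_cancel₀ hℓK, map_one, one_mul]
  -- `x` is integral over `K`
  have hxK : IsIntegral K x := by
    have h1K : IsIntegral K (algebraMap R Ω ℓ * x) := h1.tower_top
    rw [← hinv]
    exact IsIntegral.mul isIntegral_algebraMap h1K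
  set m := minpoly K x with hm
  have hm_monic : m.Monic := minpoly.monic hxK
  -- the coefficients of `m` lie in `V`
  have hmV : ∀ i, m.coeff i ∈ V := by
    obtain ⟨f, hf, hfx⟩ := h2
    have hdvd : m ∣ f.map (algebraMap ↥V K) := by
      apply minpoly.dvd
      rw [aeval_def, eval₂_map]
      exact hfx
    have hl := integralClosure.mem_lifts_of_monic_of_dvd_map K hf hm_monic hdvd
    intro i
    rw [lifts_iff_coeff_lifts] at hl
    obtain ⟨c, hc⟩ := hl i
    rw [← hc]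
    exact hV2 _ c.2
  -- the minimal polynomial of `ℓ x`
  have hm' : minpoly K (algebraMap R Ω ℓ * x) =
      (minpoly R (algebraMap R Ω ℓ * x)).map (algebraMap R K) :=
    minpoly.isIntegrallyClosed_eq_field_fractions' K h1
  have hscale : scaleRoots m lK = minpoly K (algebraMap R Ω ℓ * x) := by
    apply minpoly.unique
    · exact (monic_scaleRoots_iff _).mpr hm_monic
    · have := scaleRoots_aeval_eq_zero (r := lK) (minpoly.aeval K x)
      rwa [← hℓΩ] at this
    · intro q hq hq0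
      rw [degree_scaleRoots]
      have h3 : aeval x (scaleRoots q lK⁻¹) = 0 := by
        have := scaleRoots_aeval_eq_zero (r := lK⁻¹) hq0
        rwa [hinv] at this
      have h4 := minpoly.min K x ((monic_scaleRoots_iff _).mpr hq) h3
      rwa [degree_scaleRoots] at h4
  -- the coefficients of `m` lie in `R`
  have hmR : ∀ i, ∃ r : R, algebraMap R K r = m.coeff i := by
    intro i
    have hc : (scaleRoots m lK).coeff i = m.coeff i * lK ^ (m.natDegree - i) :=
      coeff_scaleRoots m lK i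
    have h5 : (scaleRoots m lK).coeff i =
        algebraMap R K ((minpoly R (algebraMap R Ω ℓ * x)).coeff i) := by
      rw [hscale, hm', coeff_map]
    exact hV3 _ (hmV i) (m.natDegree - i) _ (by rw [← h5, hc, mul_comm])
  have hlifts : m ∈ lifts (algebraMap R K) := (lifts_iff_coeff_lifts m).mpr fun i => hmR i
  obtain ⟨q, hq, -, hqm⟩ := lifts_and_natDegree_eq_and_monic hlifts hm_monic
  refine ⟨q, hqm, ?_⟩
  have h6 : aeval x m = 0 := minpoly.aeval K x
  rw [← hq, aeval_def, eval₂_map, ← IsScalarTower.algebraMap_eq] at h6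
  exact h6

end AbstractA

section ValRing

variable {K : Type*} [Field K]

/-- A subring of a field containing `k` or `k⁻¹` for every `k` is integrally closed in it. -/
theorem kerEll_mem_of_isIntegral_of_mem_or_inv_mem (V : Subring K)
    (hV : ∀ k : K, k ∈ V ∨ k⁻¹ ∈ V) (k : K) (hk : IsIntegral ↥V k) : k ∈ V := by
  rcases hV k with h | h
  · exact h
  by_cases hk0 : k = 0
  · rw [hk0]; exact V.zero_mem
  obtain ⟨f, hf, hfk⟩ := hk
  have hn : f.natDegree ≠ 0 := by
    intro h0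
    have : f = 1 := by
      rw [Polynomial.eq_C_of_natDegree_eq_zero h0] 
      have h1 : f.coeff 0 = 1 := by
        have := hf.coeff_natDegree
        rwa [h0] at this
      rw [h1, map_one]
    rw [this, eval₂_one] at hfk
    exact one_ne_zero hfk
  obtain ⟨n, hn'⟩ := Nat.exists_eq_succ_of_ne_zero hn
  rw [eval₂_eq_sum_range, hn', Finset.sum_range_succ] at hfk
  have hlead : f.coeff (n + 1) = 1 := by
    have := hf.coeff_natDegree
    rwa [hn'] at this
  rw [hlead, map_one, one_mul] at hfk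
  -- k = - ∑ c_i (k⁻¹)^(n - i)
  have hkey : k = - ∑ i ∈ Finset.range (n + 1),
      (algebraMap ↥V K (f.coeff i)) * k⁻¹ ^ (n - i) := by
    have h2 : (∑ i ∈ Finset.range (n + 1), (algebraMap ↥V K (f.coeff i)) * k ^ i) * k⁻¹ ^ n
        + k ^ (n + 1) * k⁻¹ ^ n = 0 := by
      rw [← add_mul, hfk, zero_mul]
    have h3 : k ^ (n + 1) * k⁻¹ ^ n = k := by
      rw [pow_succ, mul_comm (k ^ n) k, mul_assoc, ← mul_pow, mul_inv_cancel₀ hk0, one_pow,
        mul_one]
    rw [h3, Finset.sum_mul] at h2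
    have h4 : ∀ i ∈ Finset.range (n + 1),
        (algebraMap ↥V K (f.coeff i)) * k ^ i * k⁻¹ ^ n =
          (algebraMap ↥V K (f.coeff i)) * k⁻¹ ^ (n - i) := by
      intro i hi
      have hi' : i ≤ n := Nat.lt_succ_iff.mp (Finset.mem_range.mp hi)
      have h5 : k⁻¹ ^ n = k⁻¹ ^ (n - i) * k⁻¹ ^ i := by
        rw [← pow_add, Nat.sub_add_cancel hi']
      rw [h5, mul_assoc, ← mul_assoc (k ^ i), mul_comm (k ^ i), mul_assoc (k⁻¹ ^ (n - i)),
        ← mul_pow, mul_inv_cancel₀ hk0, one_pow, mul_one]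
    rw [Finset.sum_congr rfl h4] at h2
    exact eq_neg_of_add_eq_zero_right h2
  rw [hkey]
  refine V.neg_mem (V.sum_mem fun i _ => V.mul_mem (f.coeff i).2 (V.pow_mem h _))

end ValRing

section LemmaB

variable {Ω : Type*} [Field Ω]

/-- Hypotheses on a subring `V` of `Ω` relative to `t`: it is the localisation of `ℤ[t]` at the
polynomials which are nonzero mod `ℓ`. -/
structure KerEllBase (ℓ : ℕ) (t : Ω) (V : Subring Ω) : Prop where
  inj : Function.Injective (kerEllEv t)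
  aeval_mem : ∀ a : Polynomial ℤ, kerEllEv t a ∈ V
  inv_mem : ∀ b : Polynomial ℤ, b.map (Int.castRingHom (ZMod ℓ)) ≠ 0 → (kerEllEv t b)⁻¹ ∈ V
  frac : ∀ x ∈ V, ∃ a b : Polynomial ℤ, b.map (Int.castRingHom (ZMod ℓ)) ≠ 0 ∧
    x * kerEllEv t b = kerEllEv t a

theorem kerEll_prime_natCast (ℓ : ℕ) [Fact ℓ.Prime] : Prime ((ℓ : ℕ) : Polynomial ℤ) := by
  have h : ((ℓ : ℕ) : Polynomial ℤ) = C ((ℓ : ℕ) : ℤ) := by simp
  rw [h, Polynomial.prime_C_iff]
  exact Nat.prime_iff_prime_int.mp Fact.out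

theorem kerEll_map_ne_zero_iff (ℓ : ℕ) [Fact ℓ.Prime] (b : Polynomial ℤ) :
    b.map (Int.castRingHom (ZMod ℓ)) ≠ 0 ↔ ¬ ((ℓ : ℕ) : Polynomial ℤ) ∣ b := by
  have h : ((ℓ : ℕ) : Polynomial ℤ) = C ((ℓ : ℕ) : ℤ) := by simp
  rw [not_iff_not, h, Polynomial.C_dvd_iff_dvd_coeff]
  constructor
  · intro hzero i
    have h1 := congrArg (fun p => p.coeff i) hzero
    simp only [coeff_map, coeff_zero, eq_intCast] at h1
    exact (ZMod.intCast_zmod_eq_zero_iff_dvd _ _).mp h1
  · intro hdvd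
    ext i
    simp only [coeff_map, coeff_zero, eq_intCast]
    exact (ZMod.intCast_zmod_eq_zero_iff_dvd _ _).mpr (hdvd i)

theorem KerEllBase.isIntegralElem (ℓ : ℕ) [Fact ℓ.Prime] {t : Ω} {V : Subring Ω}
    (hB : KerEllBase ℓ t V) (x : Ω)
    (h1 : (kerEllEv t).IsIntegralElem ((ℓ : Ω) * x)) (h2 : IsIntegral ↥V x) :
    (kerEllEv t).IsIntegralElem x := by
  classical
  let f0 : Polynomial ℤ →+* Ω := kerEllEv t
  have hinj : Function.Injective f0 := hB.inj
  letI : Algebra (Polynomial ℤ) Ω := f0.toAlgebra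
  let φ : FractionRing (Polynomial ℤ) →+* Ω := IsFractionRing.lift hinj
  letI : Algebra (FractionRing (Polynomial ℤ)) Ω := φ.toAlgebra
  have hφ : ∀ r : Polynomial ℤ, φ (algebraMap (Polynomial ℤ) (FractionRing (Polynomial ℤ)) r) = f0 r :=
    IsFractionRing.lift_algebraMap hinj
  haveI : IsScalarTower (Polynomial ℤ) (FractionRing (Polynomial ℤ)) Ω :=
    IsScalarTower.of_algebraMap_eq (fun r => (hφ r).symm)
  have hφinj : Function.Injective φ := φ.injective
  have hℓprime := kerEll_prime_natCast ℓ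
  have hf0ℓ : f0 ((ℓ : ℕ) : Polynomial ℤ) = (ℓ : Ω) := map_natCast f0 ℓ
  have hf0ne : ∀ b : Polynomial ℤ, b ≠ 0 → f0 b ≠ 0 := fun b hb h =>
    hb (hinj (by rw [h, map_zero]))
  have hmapne : ∀ b : Polynomial ℤ, b.map (Int.castRingHom (ZMod ℓ)) ≠ 0 → b ≠ 0 := by
    rintro b hb rfl
    exact hb (Polynomial.map_zero _)
  let VK : Subring (FractionRing (Polynomial ℤ)) := V.comap φ
  -- factor out the power of `ℓ`
  have hfactor : ∀ a : Polynomial ℤ, a ≠ 0 → ∃ (n : ℕ) (b : Polynomial ℤ),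
      b.map (Int.castRingHom (ZMod ℓ)) ≠ 0 ∧ a = ((ℓ : ℕ) : Polynomial ℤ) ^ n * b := by
    intro a ha
    obtain ⟨n, b, hb, hab⟩ := WfDvdMonoid.max_power_factor ha hℓprime.irreducible
    exact ⟨n, b, (kerEll_map_ne_zero_iff ℓ b).mpr hb, hab⟩
  have hquot : ∀ (n : ℕ) (a b : Polynomial ℤ), b.map (Int.castRingHom (ZMod ℓ)) ≠ 0 →
      (ℓ : Ω) ^ n * f0 a * (f0 b)⁻¹ ∈ V := fun n a b hb =>
    V.mul_mem (V.mul_mem (V.pow_mem (by rw [← hf0ℓ]; exact hB.aeval_mem _) n) (hB.aeval_mem a))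
      (hB.inv_mem b hb)
  -- `VK` is a valuation ring
  have hVK : ∀ k : FractionRing (Polynomial ℤ), k ∈ VK ∨ k⁻¹ ∈ VK := by
    intro k
    by_cases hk0 : k = 0
    · left; rw [hk0]; exact VK.zero_mem
    obtain ⟨a, b, hb, rfl⟩ := IsFractionRing.div_surjective (A := Polynomial ℤ) k
    have hb0 : b ≠ 0 := nonZeroDivisors.ne_zero hb
    have ha0 : a ≠ 0 := by
      rintro rfl
      simp at hk0
    obtain ⟨n, a', ha', rfl⟩ := hfactor a ha0
    obtain ⟨m, b', hb', rfl⟩ := hfactor b hb0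
    have hℓΩ : (ℓ : Ω) ≠ 0 := by
      rw [← hf0ℓ]; exact hf0ne _ hℓprime.ne_zero
    rcases le_total m n with hmn | hmn
    · left
      show φ _ ∈ V
      have : φ (algebraMap _ _ (((ℓ : ℕ) : Polynomial ℤ) ^ n * a') /
          algebraMap _ _ (((ℓ : ℕ) : Polynomial ℤ) ^ m * b')) =
          (ℓ : Ω) ^ (n - m) * f0 a' * (f0 b')⁻¹ := by
        rw [map_div₀, hφ, hφ, map_mul, map_mul, map_pow, map_pow, hf0ℓ]
        have hb'0 : f0 b' ≠ 0 := hf0ne _ (hmapne _ hb')
        obtain ⟨d, rfl⟩ := Nat.exists_eq_add_of_le hmn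
        rw [Nat.add_sub_cancel_left, pow_add]
        field_simp
      rw [this]
      exact hquot _ _ _ hb'
    · right
      show φ _ ∈ V
      have : φ (algebraMap _ _ (((ℓ : ℕ) : Polynomial ℤ) ^ n * a') /
          algebraMap _ _ (((ℓ : ℕ) : Polynomial ℤ) ^ m * b'))⁻¹ =
          (ℓ : Ω) ^ (m - n) * f0 b' * (f0 a')⁻¹ := by
        rw [map_inv₀, map_div₀, hφ, hφ, map_mul, map_mul, map_pow, map_pow, hf0ℓ]
        have ha'0 : f0 a' ≠ 0 := hf0ne _ (hmapne _ ha')
        have hb'0 : f0 b' ≠ 0 := hf0ne _ (hmapne _ hb')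
        obtain ⟨d, rfl⟩ := Nat.exists_eq_add_of_le hmn
        rw [Nat.add_sub_cancel_left, pow_add]
        field_simp
      rw [this]
      exact hquot _ _ _ ha'
  have hV2 := kerEll_mem_of_isIntegral_of_mem_or_inv_mem VK hVK
  have hV3 : ∀ k ∈ VK, ∀ (n : ℕ) (r : Polynomial ℤ),
      algebraMap (Polynomial ℤ) (FractionRing (Polynomial ℤ)) r =
        algebraMap (Polynomial ℤ) (FractionRing (Polynomial ℤ)) ((ℓ : ℕ) : Polynomial ℤ) ^ n * k →
      ∃ r' : Polynomial ℤ, algebraMap (Polynomial ℤ) (FractionRing (Polynomial ℤ)) r' = k := by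
    intro k hk n r hr
    obtain ⟨a, b, hb, hab⟩ := hB.frac (φ k) hk
    have hK : k * algebraMap (Polynomial ℤ) (FractionRing (Polynomial ℤ)) b =
        algebraMap (Polynomial ℤ) (FractionRing (Polynomial ℤ)) a :=
      hφinj (by rw [map_mul, hφ, hφ]; exact hab)
    have h3 : algebraMap (Polynomial ℤ) (FractionRing (Polynomial ℤ)) (r * b) =
        algebraMap (Polynomial ℤ) (FractionRing (Polynomial ℤ)) (((ℓ : ℕ) : Polynomial ℤ) ^ n * a) := by
      rw [map_mul, hr, map_mul, map_pow, mul_assoc, hK]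
    have h4 : r * b = ((ℓ : ℕ) : Polynomial ℤ) ^ n * a := IsFractionRing.injective _ _ h3
    have h5 : ((ℓ : ℕ) : Polynomial ℤ) ^ n ∣ r :=
      hℓprime.pow_dvd_of_dvd_mul_right n ((kerEll_map_ne_zero_iff ℓ b).mp hb) (Dvd.intro _ h4.symm)
    obtain ⟨r', rfl⟩ := h5
    refine ⟨r', ?_⟩
    have hl0 : algebraMap (Polynomial ℤ) (FractionRing (Polynomial ℤ)) ((ℓ : ℕ) : Polynomial ℤ) ^ n
        ≠ 0 := by
      apply pow_ne_zero
      rw [Ne, map_eq_zero_iff _ (IsFractionRing.injective _ _)]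
      exact hℓprime.ne_zero
    rw [map_mul, map_pow] at hr
    exact mul_left_cancel₀ hl0 hr
  -- `x` is integral over `VK`
  have h2' : IsIntegral ↥VK x := by
    obtain ⟨f, hf, hfx⟩ := h2
    let ψ : ↥VK →+* ↥V := (φ.comp VK.subtype).codRestrict V (fun k => k.2)
    have hψ : Function.Surjective ψ := by
      intro v
      obtain ⟨a, b, hb, hab⟩ := hB.frac v v.2
      have hb0 : f0 b ≠ 0 := hf0ne _ (hmapne _ hb)
      have hval : φ (algebraMap _ _ a / algebraMap _ _ b) = v := by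
        rw [map_div₀, hφ, hφ]
        exact (eq_div_of_mul_eq hb0 hab).symm
      exact ⟨⟨algebraMap _ _ a / algebraMap _ _ b, by show φ _ ∈ V; rw [hval]; exact v.2⟩,
        Subtype.ext hval⟩
    have hlifts : f ∈ lifts ψ := (lifts_iff_coeff_lifts f).mpr fun i => hψ (f.coeff i)
    obtain ⟨g, hg, -, hgm⟩ := lifts_and_natDegree_eq_and_monic hlifts hf
    refine ⟨g, hgm, ?_⟩
    rw [← hg, eval₂_map] at hfx
    exact hfx
  have h1' : IsIntegral (Polynomial ℤ) (algebraMap (Polynomial ℤ) Ω ((ℓ : ℕ) : Polynomial ℤ) * x) := by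
    have : algebraMap (Polynomial ℤ) Ω ((ℓ : ℕ) : Polynomial ℤ) = (ℓ : Ω) := hf0ℓ
    rw [this]; exact h1
  exact kerEll_isIntegral_of_mul VK ((ℓ : ℕ) : Polynomial ℤ) hℓprime.ne_zero hV2 hV3 x h1' h2'

end LemmaB

section Inv

variable {Ω : Type*} [Field Ω]

theorem kerEll_ev_mem (V : Subring Ω) {t : Ω} (ht : t ∈ V) (a : Polynomial ℤ) :
    kerEllEv t a ∈ V := by
  rw [kerEllEv_apply, Polynomial.eval₂_eq_sum_range]
  exact V.sum_mem fun i _ => V.mul_mem (by
    rw [eq_intCast]; exact intCast_mem V _) (V.pow_mem ht i)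

/-- `a(t) = a^rev(t⁻¹) * t^N` for `N ≥ deg a`. -/
theorem kerEll_ev_reflect {t : Ω} (ht : t ≠ 0) (N : ℕ) (a : Polynomial ℤ)
    (ha : a.natDegree ≤ N) : kerEllEv t⁻¹ (a.reflect N) * t ^ N = kerEllEv t a := by
  letI : Invertible t := invertibleOfNonzero ht
  have h := eval₂_reflect_mul_pow (Int.castRingHom Ω) t N a ha
  rw [invOf_eq_inv] at h
  exact h

theorem kerEll_map_reflect_ne_zero (ℓ : ℕ) (N : ℕ) (b : Polynomial ℤ)
    (hb : b.map (Int.castRingHom (ZMod ℓ)) ≠ 0) :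
    (b.reflect N).map (Int.castRingHom (ZMod ℓ)) ≠ 0 := by
  rw [← reflect_map]
  exact fun h => hb (reflect_eq_zero_iff.mp h)

theorem KerEllBase.inv {ℓ : ℕ} [Fact ℓ.Prime] {t : Ω} {V : Subring Ω} (hB : KerEllBase ℓ t V) :
    KerEllBase ℓ t⁻¹ V := by
  have ht : t ≠ 0 := by
    intro h
    have h1 : kerEllEv t (X : Polynomial ℤ) = kerEllEv t (0 : Polynomial ℤ) := by
      rw [kerEllEv_X, map_zero, h]
    exact X_ne_zero (hB.inj h1)
  have hti : t⁻¹ ≠ 0 := inv_ne_zero ht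
  have hX : (X : Polynomial ℤ).map (Int.castRingHom (ZMod ℓ)) ≠ 0 := by
    rw [Polynomial.map_X]; exact X_ne_zero
  have htV : t⁻¹ ∈ V := by
    have := hB.inv_mem X hX
    rwa [kerEllEv_X] at this
  have htV' : t ∈ V := by
    have := hB.aeval_mem X
    rwa [kerEllEv_X] at this
  refine ⟨?_, fun a => kerEll_ev_mem V htV a, ?_, ?_⟩
  · rw [injective_iff_map_eq_zero]
    intro a ha
    have h1 := kerEll_ev_reflect hti a.natDegree a le_rfl
    rw [inv_inv] at h1
    have h2 : kerEllEv t (a.reflect a.natDegree) = 0 := by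
      have h3 : kerEllEv t (a.reflect a.natDegree) * t⁻¹ ^ a.natDegree = 0 := by
        rw [h1]; exact ha
      exact (mul_eq_zero.mp h3).resolve_right (pow_ne_zero _ hti)
    have h4 : a.reflect a.natDegree = 0 := hB.inj (by rw [h2, map_zero])
    exact reflect_eq_zero_iff.mp h4
  · intro b hb
    have h1 := kerEll_ev_reflect hti b.natDegree b le_rfl
    rw [inv_inv] at h1
    rw [← h1, mul_inv, ← inv_pow, inv_inv]
    exact V.mul_mem (hB.inv_mem _ (kerEll_map_reflect_ne_zero ℓ _ b hb)) (V.pow_mem htV' _)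
  · intro x hx
    obtain ⟨a, b, hb, hab⟩ := hB.frac x hx
    refine ⟨a.reflect (max a.natDegree b.natDegree), b.reflect (max a.natDegree b.natDegree),
      kerEll_map_reflect_ne_zero ℓ _ b hb, ?_⟩
    have ha' := kerEll_ev_reflect ht (max a.natDegree b.natDegree) a (le_max_left _ _)
    have hb' := kerEll_ev_reflect ht (max a.natDegree b.natDegree) b (le_max_right _ _)
    rw [← ha', ← hb', ← mul_assoc] at hab
    exact mul_right_cancel₀ (pow_ne_zero _ ht) hab

end Inv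

section R0Facts

variable (ℓ : ℕ) [Fact ℓ.Prime]

theorem kerEll_ev_jq_injective : Function.Injective (kerEllEv jq) := by
  rw [injective_iff_map_eq_zero]
  intro a ha
  by_contra hne
  have hterm : ∀ i : ℕ, ((Int.castRingHom (LaurentSeries ℚ)) (a.coeff i) * jq ^ i).coeff
      (-(a.natDegree : ℤ)) = (a.coeff i : ℚ) * (jq ^ i).coeff (-(a.natDegree : ℤ)) := by
    intro i
    have h0 : (Int.castRingHom (LaurentSeries ℚ)) (a.coeff i) = HahnSeries.C ((a.coeff i : ℤ) : ℚ) := by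
      rw [eq_intCast, map_intCast]
    rw [h0, HahnSeries.C_mul_eq_smul, HahnSeries.coeff_smul, smul_eq_mul]
  have h1 : (kerEllEv jq a).coeff (-(a.natDegree : ℤ)) = (a.leadingCoeff : ℚ) := by
    rw [kerEllEv_apply, Polynomial.eval₂_eq_sum_range, HahnSeries.coeff_sum, Finset.sum_range_succ]
    have h2 : ∀ i ∈ Finset.range a.natDegree,
        ((Int.castRingHom (LaurentSeries ℚ)) (a.coeff i) * jq ^ i).coeff (-(a.natDegree : ℤ)) = 0 := by
      intro i hi
      rw [hterm, coeff_jq_pow_of_lt, mul_zero]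
      have := Finset.mem_range.mp hi
      omega
    rw [Finset.sum_eq_zero h2, zero_add, hterm, coeff_jq_pow_self, mul_one]
    rfl
  rw [ha, HahnSeries.coeff_zero] at h1
  have h3 : a.leadingCoeff = 0 := by exact_mod_cast h1.symm
  exact hne (leadingCoeff_eq_zero.mp h3)

theorem kerEllBase_jq : KerEllBase ℓ jq (R0 ℓ) := by
  have hjq : jq ∈ R0 ℓ := Subring.subset_closure (Or.inl rfl)
  have h1 : (1 : Polynomial ℤ).map (Int.castRingHom (ZMod ℓ)) ≠ 0 := by
    rw [Polynomial.map_one]; exact one_ne_zero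
  refine ⟨kerEll_ev_jq_injective, fun a => kerEll_ev_mem _ hjq a,
    fun b hb => Subring.subset_closure (Or.inr ⟨b, hb, by rw [kerEll_aeval_eq]⟩), ?_⟩
  intro x hx
  induction hx using Subring.closure_induction with
  | mem x hx =>
    rcases hx with rfl | ⟨b, hb, rfl⟩
    · exact ⟨X, 1, h1, by rw [kerEllEv_X, map_one, mul_one]⟩
    · refine ⟨1, b, hb, ?_⟩
      have hb0 : kerEllEv jq b ≠ 0 := by
        intro h
        have : b = 0 := kerEll_ev_jq_injective (by rw [h, map_zero])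
        rw [this, Polynomial.map_zero] at hb
        exact hb rfl
      rw [kerEll_aeval_eq, inv_mul_cancel₀ hb0, map_one]
  | zero => exact ⟨0, 1, h1, by simp⟩
  | one => exact ⟨1, 1, h1, by simp⟩
  | add x y _ _ hx hy =>
    obtain ⟨a₁, b₁, hb₁, h₁⟩ := hx
    obtain ⟨a₂, b₂, hb₂, h₂⟩ := hy
    refine ⟨a₁ * b₂ + a₂ * b₁, b₁ * b₂, ?_, ?_⟩
    · rw [Polynomial.map_mul]; exact mul_ne_zero hb₁ hb₂
    · rw [map_mul, map_add, map_mul, map_mul, ← h₁, ← h₂]; ring
  | neg x _ hx =>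
    obtain ⟨a, b, hb, h⟩ := hx
    exact ⟨-a, b, hb, by rw [map_neg, ← h]; ring⟩
  | mul x y _ _ hx hy =>
    obtain ⟨a₁, b₁, hb₁, h₁⟩ := hx
    obtain ⟨a₂, b₂, hb₂, h₂⟩ := hy
    refine ⟨a₁ * a₂, b₁ * b₂, ?_, ?_⟩
    · rw [Polynomial.map_mul]; exact mul_ne_zero hb₁ hb₂
    · rw [map_mul, map_mul, ← h₁, ← h₂]; ring

theorem kerEllBase_jq_inv : KerEllBase ℓ jq⁻¹ (R0 ℓ) := (kerEllBase_jq ℓ).inv

end R0Facts

section Assembly

variable (N : ℕ) [NeZero N] (ℓ : ℕ) [Fact ℓ.Prime]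

/-- The kernel step for a chart `chartAlg N ℓ {tF}` contained in `S`: the composite
`chart → S → 𝔽_ℓ((q))` has kernel generated by `ℓ`. -/
theorem kerEll_kernel {S : Subring (LaurentSeries ℚ)} {ρ : ↥S →+* LaurentSeries (ZMod ℓ)}
    (hg : GoodPair ℓ S ρ) (hint : ∀ s ∈ S, IsIntegral ↥(R0 ℓ) s)
    (tF : ↥(modularFunctionFieldFull N))
    (hB : KerEllBase ℓ (tF : LaurentSeries ℚ) (R0 ℓ))
    (hsub : ∀ x : ↥(modularFunctionFieldFull N), x ∈ chartAlg N ℓ {tF} →
      (x : LaurentSeries ℚ) ∈ S) :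
    ∃ ρ' : ↥(chartAlg N ℓ {tF}) →+* LaurentSeries (ZMod ℓ),
      ∀ a, ρ' a = 0 → ∃ b, a = (ℓ : ↥(chartAlg N ℓ {tF})) * b := by
  classical
  let ι : ↥(chartAlg N ℓ {tF}) →+* ↥S :=
    (((modularFunctionFieldFull N).val : ↥(modularFunctionFieldFull N) →+* LaurentSeries ℚ).comp
      ((chartAlg N ℓ {tF}).val : ↥(chartAlg N ℓ {tF}) →+* ↥(modularFunctionFieldFull N))).codRestrict
      S (fun a => hsub a a.2)
  have hι : ∀ a : ↥(chartAlg N ℓ {tF}),
      ((ι a : ↥S) : LaurentSeries ℚ) = ((a : ↥(modularFunctionFieldFull N)) : LaurentSeries ℚ) :=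
    fun _ => rfl
  refine ⟨ρ.comp ι, ?_⟩
  intro a ha
  have h1 : ρ (ι a) = 0 := ha
  obtain ⟨s', hs'⟩ := (hg.map_eq_zero_iff (ι a)).mp h1
  have h2 : ((a : ↥(modularFunctionFieldFull N)) : LaurentSeries ℚ) =
      (ℓ : LaurentSeries ℚ) * (s' : LaurentSeries ℚ) := by
    rw [← hι, hs']
    simp
  obtain ⟨m, hm, hmint⟩ := (isIntegral_adjoin_iff N ℓ tF (a : ↥(modularFunctionFieldFull N))).mp a.2
  have h3 : (kerEllEv (tF : LaurentSeries ℚ)).IsIntegralElem
      ((ℓ : LaurentSeries ℚ) * ((m : LaurentSeries ℚ) * (s' : LaurentSeries ℚ))) := by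
    have h : (m : LaurentSeries ℚ) * ((a : ↥(modularFunctionFieldFull N)) : LaurentSeries ℚ) =
        (ℓ : LaurentSeries ℚ) * ((m : LaurentSeries ℚ) * (s' : LaurentSeries ℚ)) := by
      rw [h2]; ring
    rw [← h]
    exact hmint
  have h4 : IsIntegral ↥(R0 ℓ) ((m : LaurentSeries ℚ) * (s' : LaurentSeries ℚ)) :=
    hint _ (S.mul_mem (natCast_mem S m) s'.2)
  have h5 := hB.isIntegralElem ℓ _ h3 h4
  have hℓ0 : (ℓ : ℚ) ≠ 0 := Nat.cast_ne_zero.mpr (Fact.out : ℓ.Prime).ne_zero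
  have hℓF : ((ℓ : ℕ) : ↥(modularFunctionFieldFull N)) ≠ 0 :=
    Nat.cast_ne_zero.mpr (Fact.out : ℓ.Prime).ne_zero
  have hℓΩ : ((ℓ : ℕ) : LaurentSeries ℚ) ≠ 0 := by
    intro h
    apply hℓF
    apply Subtype.ext
    simpa using h
  set y : ↥(modularFunctionFieldFull N) :=
    (a : ↥(modularFunctionFieldFull N)) * ((ℓ : ℕ) : ↥(modularFunctionFieldFull N))⁻¹ with hy
  have hay : (a : ↥(modularFunctionFieldFull N)) = ((ℓ : ℕ) : ↥(modularFunctionFieldFull N)) * y := by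
    rw [hy, mul_comm (a : ↥(modularFunctionFieldFull N)), ← mul_assoc, mul_inv_cancel₀ hℓF, one_mul]
  have hyΩ : (y : LaurentSeries ℚ) = (s' : LaurentSeries ℚ) := by
    have h : (ℓ : LaurentSeries ℚ) * (y : LaurentSeries ℚ) =
        (ℓ : LaurentSeries ℚ) * (s' : LaurentSeries ℚ) := by
      rw [← h2, hay]
      simp
    exact mul_left_cancel₀ hℓΩ h
  have h6 : IsIntegral ↥(Algebra.adjoin ↥(GaloisRep.ratLocalizedAt ℓ)
      ({tF} : Set ↥(modularFunctionFieldFull N))) y :=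
    (isIntegral_adjoin_iff N ℓ tF y).mpr ⟨m, hm, by rw [hyΩ]; exact h5⟩
  refine ⟨⟨y, h6⟩, ?_⟩
  apply Subtype.ext
  rw [hay]
  simp

/-- Assembly of the three reduction maps, given that the three chart algebras lie in `S`. -/
theorem kerEll_rhoCharts {S : Subring (LaurentSeries ℚ)} {ρ : ↥S →+* LaurentSeries (ZMod ℓ)}
    (hg : GoodPair ℓ S ρ) (hint : ∀ s ∈ S, IsIntegral ↥(R0 ℓ) s)
    (hFin : ∀ x : ↥(modularFunctionFieldFull N), x ∈ chartAlgFin N ℓ → (x : LaurentSeries ℚ) ∈ S)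
    (hInf : ∀ x : ↥(modularFunctionFieldFull N), x ∈ chartAlgInf N ℓ → (x : LaurentSeries ℚ) ∈ S)
    (hMid : ∀ x : ↥(modularFunctionFieldFull N), x ∈ chartAlgMid N ℓ → (x : LaurentSeries ℚ) ∈ S) :
    RhoCharts N ℓ := by
  refine ⟨?_, ?_, ?_⟩
  · exact kerEll_kernel N ℓ hg hint (jFull N) (kerEllBase_jq ℓ) hFin
  · have hcoe : (((jFull N)⁻¹ : ↥(modularFunctionFieldFull N)) : LaurentSeries ℚ) = jq⁻¹ := rfl
    exact kerEll_kernel N ℓ hg hint (jFull N)⁻¹ (by rw [hcoe]; exact kerEllBase_jq_inv ℓ) hInf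
  · exact ⟨ρ.comp
      ((((modularFunctionFieldFull N).val : ↥(modularFunctionFieldFull N) →+* LaurentSeries ℚ).comp
        ((chartAlgMid N ℓ).val : ↥(chartAlgMid N ℓ) →+* ↥(modularFunctionFieldFull N))).codRestrict
        S (fun a => hMid a a.2))⟩

end Assembly

/-- END step of the tower block: a tower state containing all `j(q^d)`, `d ∣ N`, yields reduction
maps on the chart algebras whose kernel is generated by `ℓ`. -/
theorem rhoCharts_of_towerState (N : ℕ) [NeZero N] (ℓ : ℕ) [Fact ℓ.Prime]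
    (E : Set (LaurentSeries (ZMod ℓ))) (h : TowerState ℓ {d | d ∣ N} E) : RhoCharts N ℓ := by
  obtain ⟨S, ρ, hg, h0, hint, hj, -⟩ := h
  have hjS : ∀ d : ℕ, d ∣ N → jd ℚ d ∈ S := fun d hd => by
    obtain ⟨hmem, -⟩ := hj d hd
    exact hmem
  exact kerEll_rhoCharts N ℓ hg hint
    (fun x hx => chartAlgFin_subset N ℓ hg h0 hjS x hx)
    (fun x hx => chartAlgInf_subset N ℓ hg h0 hjS x hx)
    (fun x hx => chartAlgMid_subset N ℓ hg h0 hjS x hx)

end Fermat.Agent.S28

end
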