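/-
S28 (Igusa) support library, block [L] (char `ℓ`): descent glue.
Owner: helper93.  Everything lives in `namespace Fermat.Agent.S28`.

* `IrredOver.of_map`         : irreducibility (in the sense of `IrredOver`) descends along an
                               injective ring homomorphism;
* `baseK`, `baseK_*`         : the coefficient extension `𝔽_ℓ((q)) → k((q))` for a field `k` of
                               characteristic `ℓ`, and its compatibility with `jd`, `PhiAt`,
                               `modularFunctionFieldFullC`, `chainField`;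
* `exists_bezout_of_map`     : a Bezout relation `A f + B g = X - y` descends from a splitting
                               field: it is enough that after an (injective) field map the two
                               cofactors of `X - y` are coprime, e.g. products of linear factors
                               without common root.
-/
import Fermat.Agent.S28.Interface

set_option autoImplicit false

noncomputable section

namespace Fermat.Agent.S28

open ModularCurve Polynomial

/-! ### Descent of `IrredOver` -/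

/-- `IrredOver` descends along an injective ring homomorphism mapping `E` into `E'`. -/
theorem IrredOver.of_map {L L' : Type*} [CommRing L] [CommRing L'] (ι : L →+* L')
    (hι : Function.Injective ι) {E : Set L} {E' : Set L'} (hE : ∀ x ∈ E, ι x ∈ E')
    {f : Polynomial L} (h : IrredOver E' (f.map ι)) : IrredOver E f := by
  intro a b ha hb hae hbe hab
  have hmap : a.map ι * b.map ι = f.map ι := by rw [← Polynomial.map_mul, hab]
  rcases h (a.map ι) (b.map ι) (ha.map ι) (hb.map ι)
      (fun i => by rw [Polynomial.coeff_map]; exact hE _ (hae i))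
      (fun i => by rw [Polynomial.coeff_map]; exact hE _ (hbe i)) hmap with h1 | h1
  · left
    exact Polynomial.map_injective ι hι (by rw [h1, Polynomial.map_one])
  · right
    exact Polynomial.map_injective ι hι (by rw [h1, Polynomial.map_one])

/-! ### Extension of the coefficient field -/

section BaseK

variable (ℓ : ℕ) [Fact ℓ.Prime] (k : Type*) [Field k] [Algebra (ZMod ℓ) k]

/-- Coefficient extension `𝔽_ℓ((q)) → k((q))`. -/
def baseK : LaurentSeries (ZMod ℓ) →+* LaurentSeries k := coeffMap (algebraMap (ZMod ℓ) k)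

theorem baseK_coeff (x : LaurentSeries (ZMod ℓ)) (n : ℤ) :
    (baseK ℓ k x).coeff n = algebraMap (ZMod ℓ) k (x.coeff n) := rfl

theorem baseK_injective : Function.Injective (baseK ℓ k) := by
  intro x y h
  ext n
  have := congrArg (fun z : LaurentSeries k => z.coeff n) h
  exact (algebraMap (ZMod ℓ) k).injective this

theorem baseK_jd (d : ℕ) : baseK ℓ k (jd (ZMod ℓ) d) = jd k d := coeffMap_jd _ d

theorem baseK_algebraMap (c : ZMod ℓ) :
    baseK ℓ k (algebraMap (ZMod ℓ) (LaurentSeries (ZMod ℓ)) c) =
      algebraMap k (LaurentSeries k) (algebraMap (ZMod ℓ) k c) := by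
  rw [algebraMap_laurentSeries_eq_single, algebraMap_laurentSeries_eq_single, baseK,
    coeffMap_single]

theorem baseK_PhiAt (Φ : Polynomial (Polynomial ℤ)) (y : LaurentSeries (ZMod ℓ)) :
    (PhiAt Φ y).map (baseK ℓ k) = PhiAt Φ (baseK ℓ k y) := PhiAt_map _ Φ y

theorem baseK_PhiAt_jd (Φ : Polynomial (Polynomial ℤ)) (d : ℕ) :
    (PhiAt Φ (jd (ZMod ℓ) d)).map (baseK ℓ k) = PhiAt Φ (jd k d) := by
  rw [baseK_PhiAt, baseK_jd]

/-- The coefficient extension maps the mod-`ℓ` function field of level `M` into the one with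
coefficients in `k`. -/
theorem baseK_mem_full (M : ℕ) {x : LaurentSeries (ZMod ℓ)}
    (hx : x ∈ modularFunctionFieldFullC (ZMod ℓ) M) :
    baseK ℓ k x ∈ modularFunctionFieldFullC k M := by
  unfold modularFunctionFieldFullC at hx
  induction hx using IntermediateField.adjoin_induction with
  | mem y hy =>
    obtain ⟨d, hne, hd, rfl⟩ := hy
    have := hne
    have h1 : baseK ℓ k (qExpand (ZMod ℓ) d (jqModC (ZMod ℓ))) = qExpand k d (jqModC k) := by
      rw [baseK, coeffMap_qExpand, coeffMap_jqModC]
    rw [h1]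
    exact jqModCd_mem_full k M hd
  | algebraMap c =>
    rw [baseK_algebraMap]
    exact IntermediateField.algebraMap_mem _ _
  | add y z _ _ hy hz => rw [map_add]; exact add_mem hy hz
  | inv y _ hy => rw [map_inv₀]; exact inv_mem hy
  | mul y z _ _ hy hz => rw [map_mul]; exact mul_mem hy hz

/-- The analogue of `chainField` with coefficients in `k`. -/
def chainFieldK (M p a : ℕ) : Subfield (LaurentSeries k) :=
  Subfield.closure ((modularFunctionFieldFullC k M : Set (LaurentSeries k)) ∪
    {x | ∃ c : ℕ, c ≤ a ∧ x = jd k (p ^ c)})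

theorem full_le_chainFieldK (M p a : ℕ) {x : LaurentSeries k}
    (hx : x ∈ modularFunctionFieldFullC k M) : x ∈ chainFieldK k M p a :=
  Subfield.subset_closure (Or.inl hx)

theorem jd_pow_mem_chainFieldK (M p a : ℕ) {c : ℕ} (hc : c ≤ a) :
    jd k (p ^ c) ∈ chainFieldK k M p a :=
  Subfield.subset_closure (Or.inr ⟨c, hc, rfl⟩)

/-- The coefficient extension maps `chainField` into `chainFieldK`. -/
theorem baseK_mem_chainFieldK (M p a : ℕ) {x : LaurentSeries (ZMod ℓ)}
    (hx : x ∈ chainField ℓ M p a) : baseK ℓ k x ∈ chainFieldK k M p a := by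
  have hle : chainField ℓ M p a ≤ (chainFieldK k M p a).comap (baseK ℓ k) := by
    unfold chainField
    rw [Subfield.closure_le]
    rintro y (hy | ⟨c, hc, rfl⟩)
    · exact full_le_chainFieldK k M p a (baseK_mem_full ℓ k M hy)
    · show baseK ℓ k (jd (ZMod ℓ) (p ^ c)) ∈ chainFieldK k M p a
      rw [baseK_jd]
      exact jd_pow_mem_chainFieldK k M p a hc
  exact hle hx

/-- Descent of the first-step irreducibility statement from `k` to `𝔽_ℓ`. -/
theorem irredOver_full_of_baseK (M : ℕ) (Φ : Polynomial (Polynomial ℤ)) (d : ℕ)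
    (h : IrredOver (modularFunctionFieldFullC k M : Set (LaurentSeries k)) (PhiAt Φ (jd k d))) :
    IrredOver (modularFunctionFieldFullC (ZMod ℓ) M : Set (LaurentSeries (ZMod ℓ)))
      (PhiAt Φ (jd (ZMod ℓ) d)) := by
  refine IrredOver.of_map (baseK ℓ k) (baseK_injective ℓ k)
    (fun x hx => baseK_mem_full ℓ k M hx) ?_
  rw [baseK_PhiAt_jd]
  exact h

/-- Descent of the chain-step irreducibility statement from `k` to `𝔽_ℓ`. -/
theorem irredOver_chain_of_baseK (M p a : ℕ) (Φ : Polynomial (Polynomial ℤ)) (d e : ℕ)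
    (h : IrredOver (chainFieldK k M p a : Set (LaurentSeries k))
      (PhiAt Φ (jd k d) /ₘ (X - C (jd k e)))) :
    IrredOver (chainField ℓ M p a : Set (LaurentSeries (ZMod ℓ)))
      (PhiAt Φ (jd (ZMod ℓ) d) /ₘ (X - C (jd (ZMod ℓ) e))) := by
  refine IrredOver.of_map (baseK ℓ k) (baseK_injective ℓ k)
    (fun x hx => baseK_mem_chainFieldK ℓ k M p a hx) ?_
  rw [Polynomial.map_divByMonic _ (Polynomial.monic_X_sub_C _), baseK_PhiAt_jd,
    Polynomial.map_sub, Polynomial.map_X, Polynomial.map_C, baseK_jd]
  exact h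

end BaseK

/-! ### Descent of Bezout relations -/

section Bezout

variable {L T : Type*} [Field L] [Field T]

/-- Products of linear factors without common root are coprime. -/
theorem isCoprime_prod_X_sub_C {ι₁ ι₂ : Type*} (s₁ : Finset ι₁) (s₂ : Finset ι₂) (a : ι₁ → T)
    (b : ι₂ → T) (h : ∀ i ∈ s₁, ∀ j ∈ s₂, a i ≠ b j) :
    IsCoprime (∏ i ∈ s₁, (X - C (a i))) (∏ j ∈ s₂, (X - C (b j))) := by
  refine IsCoprime.prod_left fun i hi => IsCoprime.prod_right fun j hj => ?_
  exact Polynomial.isCoprime_X_sub_C_of_isUnit_sub (sub_ne_zero.mpr (h i hi j hj)).isUnit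

/-- **Bezout descent.** Let `y` be a common root of `f` and `g`.  If after a field map `σ` the
cofactors of `X - y` in `f` and `g` become coprime, then `X - y` is an `L[X]`-combination of
`f` and `g`. -/
theorem exists_bezout_of_map (σ : L →+* T) (f g : Polynomial L) (y : L) (hf : f.eval y = 0)
    (hg : g.eval y = 0)
    (h : IsCoprime ((f /ₘ (X - C y)).map σ) ((g /ₘ (X - C y)).map σ)) :
    ∃ A B : Polynomial L, A * f + B * g = X - C y := by
  have hcop : IsCoprime (f /ₘ (X - C y)) (g /ₘ (X - C y)) := (Polynomial.isCoprime_map σ).mp h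
  obtain ⟨A, B, hAB⟩ := hcop
  refine ⟨A, B, ?_⟩
  have hf' : f = (X - C y) * (f /ₘ (X - C y)) :=
    (Polynomial.mul_divByMonic_eq_iff_isRoot.mpr hf).symm
  have hg' : g = (X - C y) * (g /ₘ (X - C y)) :=
    (Polynomial.mul_divByMonic_eq_iff_isRoot.mpr hg).symm
  calc A * f + B * g
      = A * ((X - C y) * (f /ₘ (X - C y))) + B * ((X - C y) * (g /ₘ (X - C y))) := by
        rw [← hf', ← hg']
    _ = (X - C y) * (A * (f /ₘ (X - C y)) + B * (g /ₘ (X - C y))) := by ring
    _ = X - C y := by rw [hAB, mul_one]

/-- **Bezout descent, root form.**  If after a field map `σ` the polynomials `f` and `g` split as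
`(X - σ y) * ∏ (X - aᵢ)` and `(X - σ y) * ∏ (X - bⱼ)` with `aᵢ ≠ bⱼ` for all `i, j`, then `X - y`
is an `L[X]`-combination of `f` and `g`. -/
theorem exists_bezout_of_map_eq_prod (σ : L →+* T) (f g : Polynomial L) (y : L)
    {ι₁ ι₂ : Type*} (s₁ : Finset ι₁) (s₂ : Finset ι₂) (a : ι₁ → T) (b : ι₂ → T)
    (hf : f.map σ = (X - C (σ y)) * ∏ i ∈ s₁, (X - C (a i)))
    (hg : g.map σ = (X - C (σ y)) * ∏ j ∈ s₂, (X - C (b j)))
    (hab : ∀ i ∈ s₁, ∀ j ∈ s₂, a i ≠ b j) :
    ∃ A B : Polynomial L, A * f + B * g = X - C y := by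
  have hroot : ∀ (u : Polynomial L) (r : Polynomial T), u.map σ = (X - C (σ y)) * r →
      u.eval y = 0 ∧ (u /ₘ (X - C y)).map σ = r := by
    intro u r hu
    have h0 : u.eval y = 0 := by
      apply σ.injective
      rw [map_zero, ← Polynomial.eval_map_apply, hu, Polynomial.eval_mul, Polynomial.eval_sub,
        Polynomial.eval_X, Polynomial.eval_C, sub_self, zero_mul]
    refine ⟨h0, ?_⟩
    have h1 : u = (X - C y) * (u /ₘ (X - C y)) :=
      (Polynomial.mul_divByMonic_eq_iff_isRoot.mpr h0).symm
    have h2 : u.map σ = (X - C (σ y)) * (u /ₘ (X - C y)).map σ := by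
      conv_lhs => rw [h1]
      rw [Polynomial.map_mul, Polynomial.map_sub, Polynomial.map_X, Polynomial.map_C]
    rw [hu] at h2
    exact (mul_left_cancel₀ (Polynomial.X_sub_C_ne_zero _) h2).symm
  obtain ⟨hf0, hf1⟩ := hroot f _ hf
  obtain ⟨hg0, hg1⟩ := hroot g _ hg
  refine exists_bezout_of_map σ f g y hf0 hg0 ?_
  rw [hf1, hg1]
  exact isCoprime_prod_X_sub_C s₁ s₂ a b hab

end Bezout

end Fermat.Agent.S28

end
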