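/-
S28 (Igusa) support library, block [L1] (owner: helper66): the roots of the modular polynomial
`Φ_p(X, j(c q ^ e))` when `p ∣ e`, over any field `k` containing a primitive `p`-th root of unity.

Main exports (namespace `Fermat.Agent.S28`):
* `root_jd`, `root'_jd`        : `Φ_r(j(q^(d r)), j(q^d)) = 0`, `Φ_r(j(q^d), j(q^(d r))) = 0` over any ring
* `PhiAt_J_isRoot_up`, `PhiAt_J_isRoot_down` : the two kinds of roots of `Φ_r(X, J c e)`
* `PhiAt_J`                    : `Φ_r(X, J (c'^r) (r e')) = (X - J (c'^(r^2)) (r^2 e')) ∏_{b<r} (X - J (ζ^b c') e')`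
* `PhiAt_J_eq_prod`            : the same, stated for `e` with `r ∣ e`
* `PhiAt_J_root_cases`         : the roots of `Φ_r(X, φ (J (c'^r) (r e')))` in any field `Ω`
* `sep`                        : `j(q^r)` is a simple root of `Φ_r(X, j(q))` when `r ≠ 0` in `F`
-/
import Fermat.Agent.S28.Twist

set_option autoImplicit false

noncomputable section

namespace Fermat.Agent.S28

open ModularCurve Polynomial

/-! ### A monic polynomial with enough known roots -/

/-- A monic polynomial of degree `p + 1` over a field with `p + 1` distinct known roots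
`x₀, x 0, …, x (p-1)` is the product of the corresponding linear factors. -/
theorem roots_eq_prod_of_isRoot {T : Type*} [Field T] (f : Polynomial T) (p : ℕ) (hmonic : f.Monic)
    (hdeg : f.natDegree = p + 1) (x₀ : T) (x : ℕ → T) (h₀ : f.IsRoot x₀)
    (h : ∀ b < p, f.IsRoot (x b)) (hinj : ∀ b < p, ∀ b' < p, x b = x b' → b = b')
    (hne : ∀ b < p, x b ≠ x₀) :
    f = (X - C x₀) * ∏ b ∈ Finset.range p, (X - C (x b)) := by
  classical
  have hf0 : f ≠ 0 := hmonic.ne_zero
  set s : Multiset T := x₀ ::ₘ (Multiset.range p).map x with hs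
  have hnodup : s.Nodup := by
    rw [hs, Multiset.nodup_cons]
    refine ⟨?_, ?_⟩
    · intro hmem
      obtain ⟨b, hb, hbx⟩ := Multiset.mem_map.mp hmem
      exact hne b (Multiset.mem_range.mp hb) hbx
    · refine Multiset.Nodup.map_on ?_ (Multiset.nodup_range p)
      intro b hb b' hb' hbb'
      exact hinj b (Multiset.mem_range.mp hb) b' (Multiset.mem_range.mp hb') hbb'
  have hsub : s ⊆ f.roots := by
    intro y hy
    rw [hs, Multiset.mem_cons] at hy
    rcases hy with rfl | hy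
    · exact (Polynomial.mem_roots hf0).mpr h₀
    · obtain ⟨b, hb, rfl⟩ := Multiset.mem_map.mp hy
      exact (Polynomial.mem_roots hf0).mpr (h b (Multiset.mem_range.mp hb))
  have hle : s ≤ f.roots := (Multiset.le_iff_subset hnodup).mpr hsub
  have hcard : Multiset.card s = p + 1 := by
    rw [hs, Multiset.card_cons, Multiset.card_map, Multiset.card_range]
  have hroots : f.roots = s := by
    refine (Multiset.eq_of_le_of_card_le hle ?_).symm
    rw [hcard, ← hdeg]
    exact Polynomial.card_roots' f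
  have hprod := Polynomial.prod_multiset_X_sub_C_of_monic_of_roots_card_eq hmonic
    (by rw [hroots, hcard, hdeg])
  rw [hroots, hs, Multiset.map_cons, Multiset.prod_cons, Multiset.map_map] at hprod
  rw [← hprod]
  rfl

/-! ### The two root identities over an arbitrary coefficient ring -/

section anyRing

variable {r : ℕ} (hd : HeckeData r) (R : Type*) [CommRing R]

/-- `Φ_r(j(q^r), j(q)) = 0` over any coefficient ring. -/
theorem roots_root_coeff : (PhiAt hd.Φ (jd R 1)).eval (jd R r) = 0 := by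
  have h := congrArg (coeffMap (Int.castRingHom R)) hd.root
  rwa [map_eval_PhiAt, coeffMap_jd, coeffMap_jd, map_zero] at h

/-- `Φ_r(j(q), j(q^r)) = 0` over any coefficient ring. -/
theorem roots_root'_coeff : (PhiAt hd.Φ (jd R r)).eval (jd R 1) = 0 := by
  have h := congrArg (coeffMap (Int.castRingHom R)) hd.root'
  rwa [map_eval_PhiAt, coeffMap_jd, coeffMap_jd, map_zero] at h

/-- `Φ_r(j(q^(d r)), j(q^d)) = 0` over any coefficient ring. -/
theorem root_jd (hr : r ≠ 0) (d : ℕ) [NeZero d] :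
    (PhiAt hd.Φ (jd R d)).eval (jd R (d * r)) = 0 := by
  have : NeZero r := ⟨hr⟩
  have h := congrArg (qExpand R d) (roots_root_coeff hd R)
  rwa [map_eval_PhiAt, qExpand_jd, qExpand_jd, mul_one, map_zero] at h

/-- `Φ_r(j(q^d), j(q^(d r))) = 0` over any coefficient ring. -/
theorem root'_jd (hr : r ≠ 0) (d : ℕ) [NeZero d] :
    (PhiAt hd.Φ (jd R (d * r))).eval (jd R d) = 0 := by
  have : NeZero r := ⟨hr⟩
  have h := congrArg (qExpand R d) (roots_root'_coeff hd R)
  rwa [map_eval_PhiAt, qExpand_jd, qExpand_jd, mul_one, map_zero] at h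

end anyRing

/-! ### Roots of `Φ_r(X, J c e)` -/

section field

variable {k : Type*} [Field k] {r : ℕ}

/-- The "up" root: `Φ_r(J (c^r) (e r), J c e) = 0`. -/
theorem PhiAt_J_isRoot_up (hr : r ≠ 0) (hd : HeckeData r) {c : k} (hc : c ≠ 0) {e : ℕ}
    (he : e ≠ 0) : (PhiAt hd.Φ (J c e)).IsRoot (J (c ^ r) (e * r)) := by
  have : NeZero r := ⟨hr⟩
  have h := congrArg (subst c e) (roots_root_coeff hd k)
  rw [subst_eval_PhiAt, map_zero, ← J_one, ← J_one, subst_J hc one_ne_zero he one_ne_zero,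
    subst_J hc one_ne_zero he hr, one_mul, one_mul, pow_one, mul_one] at h
  exact h

/-- The "down" roots: `Φ_r(J w e, J (w^r) (e r)) = 0`. -/
theorem PhiAt_J_isRoot_down (hr : r ≠ 0) (hd : HeckeData r) {w : k} (hw : w ≠ 0) {e : ℕ}
    (he : e ≠ 0) : (PhiAt hd.Φ (J (w ^ r) (e * r))).IsRoot (J w e) := by
  have : NeZero r := ⟨hr⟩
  have h := congrArg (subst w e) (roots_root'_coeff hd k)
  rw [subst_eval_PhiAt, map_zero, ← J_one, ← J_one, subst_J hw one_ne_zero he one_ne_zero,
    subst_J hw one_ne_zero he hr, one_mul, one_mul, pow_one, mul_one] at h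
  exact h

/-- **(L1), division-free form.** For a prime `r`, a primitive `r`-th root of unity `ζ ∈ k` and
`c' ≠ 0`, `e' ≠ 0`:
`Φ_r(X, J (c'^r) (r e')) = (X - J (c'^(r^2)) (r^2 e')) * ∏_{b < r} (X - J (ζ^b c') e')`. -/
theorem PhiAt_J (hr : r.Prime) (hd : HeckeData r) {ζ : k} (hζ : IsPrimitiveRoot ζ r) {c' : k}
    (hc' : c' ≠ 0) {e' : ℕ} (he' : e' ≠ 0) :
    PhiAt hd.Φ (J (c' ^ r) (r * e')) =
      (X - C (J (c' ^ r ^ 2) (r ^ 2 * e'))) *
        ∏ b ∈ Finset.range r, (X - C (J (ζ ^ b * c') e')) := by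
  have hr0 : r ≠ 0 := hr.ne_zero
  have hζ0 : ζ ≠ 0 := hζ.ne_zero hr0
  have hcr : c' ^ r ≠ 0 := pow_ne_zero _ hc'
  have hre : r * e' ≠ 0 := Nat.mul_ne_zero hr0 he'
  have hw : ∀ b : ℕ, ζ ^ b * c' ≠ 0 := fun b => mul_ne_zero (pow_ne_zero _ hζ0) hc'
  refine roots_eq_prod_of_isRoot _ r (PhiAt_monic hd.monic _) ?_ _ _ ?_ ?_ ?_ ?_
  · rw [PhiAt_natDegree hd.monic, hd.natDegree_eq]
  · have h := PhiAt_J_isRoot_up hr0 hd hcr hre
    have e1 : (c' ^ r) ^ r = c' ^ r ^ 2 := by rw [← pow_mul, pow_two]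
    have e2 : r * e' * r = r ^ 2 * e' := by ring
    rwa [e1, e2] at h
  · intro b _
    have h := PhiAt_J_isRoot_down hr0 hd (hw b) he'
    have e1 : (ζ ^ b * c') ^ r = c' ^ r := by
      rw [mul_pow, ← pow_mul, mul_comm b r, pow_mul, hζ.pow_eq_one, one_pow, one_mul]
    have e2 : e' * r = r * e' := mul_comm _ _
    rwa [e1, e2] at h
  · intro b hb b' hb' hbb'
    have h1 := J_injective_left (hw b) (hw b') he' hbb'
    have h2 : ζ ^ b = ζ ^ b' := mul_right_cancel₀ hc' h1
    exact hζ.pow_inj hb hb' h2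
  · intro b _ hbb
    have h1 := (J_inj (hw b) (pow_ne_zero _ hc') he'
      (Nat.mul_ne_zero (pow_ne_zero _ hr0) he') hbb).2
    have h2 : 1 < r ^ 2 := Nat.one_lt_pow (by norm_num) hr.one_lt
    have h3 : 1 * e' < r ^ 2 * e' := Nat.mul_lt_mul_of_pos_right h2 (Nat.pos_of_ne_zero he')
    omega

/-- **(L1).** For a prime `p`, a primitive `p`-th root of unity `ζ ∈ k`, `c' ≠ 0` and `p ∣ e`,
`e ≠ 0`: `Φ_p(X, J (c'^p) e) = (X - J (c'^(p p)) (p e)) * ∏_{b < p} (X - J (ζ^b c') (e / p))`. -/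
theorem PhiAt_J_eq_prod {p : ℕ} (hp : p.Prime) (hd : HeckeData p) {ζ : k}
    (hζ : IsPrimitiveRoot ζ p) {c' : k} (hc' : c' ≠ 0) {e : ℕ} (he : e ≠ 0) (hpe : p ∣ e) :
    PhiAt hd.Φ (J (c' ^ p) e) =
      (X - C (J (c' ^ (p * p)) (p * e))) *
        ∏ b ∈ Finset.range p, (X - C (J (ζ ^ b * c') (e / p))) := by
  obtain ⟨e', rfl⟩ := hpe
  have he' : e' ≠ 0 := fun h0 => he (by rw [h0, mul_zero])
  have h := PhiAt_J hp hd hζ hc' he'
  have e1 : p * e' / p = e' := Nat.mul_div_cancel_left e' hp.pos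
  have e2 : p * (p * e') = p ^ 2 * e' := by ring
  have e3 : c' ^ (p * p) = c' ^ p ^ 2 := by rw [pow_two]
  rw [e1, e2, e3]
  exact h

/-- **Root cases.** Every root (in any field `Ω` receiving `LaurentSeries k`) of
`Φ_r(X, φ (J (c'^r) (r e')))` is the image of the "up" root or of one of the "down" roots. -/
theorem PhiAt_J_root_cases {Ω : Type*} [Field Ω] (φ : LaurentSeries k →+* Ω) (hr : r.Prime)
    (hd : HeckeData r) {ζ : k} (hζ : IsPrimitiveRoot ζ r) {c' : k} (hc' : c' ≠ 0) {e' : ℕ}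
    (he' : e' ≠ 0) {x : Ω} (hx : (PhiAt hd.Φ (φ (J (c' ^ r) (r * e')))).eval x = 0) :
    x = φ (J (c' ^ r ^ 2) (r ^ 2 * e')) ∨ ∃ b < r, x = φ (J (ζ ^ b * c') e') := by
  rw [← PhiAt_map φ, PhiAt_J hr hd hζ hc' he', Polynomial.map_mul, Polynomial.map_sub,
    Polynomial.map_X, Polynomial.map_C, Polynomial.map_prod, Polynomial.eval_mul,
    Polynomial.eval_sub, Polynomial.eval_X, Polynomial.eval_C, Polynomial.eval_prod] at hx
  rcases mul_eq_zero.mp hx with h | h
  · left
    exact sub_eq_zero.mp h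
  · right
    obtain ⟨b, hb, hb0⟩ := Finset.prod_eq_zero_iff.mp h
    rw [Polynomial.map_sub, Polynomial.map_X, Polynomial.map_C, Polynomial.eval_sub,
      Polynomial.eval_X, Polynomial.eval_C] at hb0
    exact ⟨b, Finset.mem_range.mp hb, sub_eq_zero.mp hb0⟩

end field

/-! ### Separability: `j(q^r)` is a simple root of `Φ_r(X, j(q))` -/

/-- `coeffMap` of an injective ring homomorphism is injective. -/
theorem roots_coeffMap_injective {R S : Type*} [CommRing R] [CommRing S] (f : R →+* S)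
    (hf : Function.Injective f) : Function.Injective (coeffMap f) := by
  intro x y hxy
  ext n
  apply hf
  have := congrArg (fun z : LaurentSeries S => z.coeff n) hxy
  simpa using this

/-- **Separability.** If `r` is a prime with `r ≠ 0` in the field `F`, then `j(q^r)` is a simple
root of `Φ_r(X, j(q))` over `F((q))`. -/
theorem sep (F : Type*) [Field F] {r : ℕ} (hr : r.Prime) (hrF : (r : F) ≠ 0) (hd : HeckeData r) :
    (PhiAt (derivative hd.Φ) (jd F 1)).eval (jd F r) ≠ 0 := by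
  classical
  have hr0 : r ≠ 0 := hr.ne_zero
  have : NeZero r := ⟨hr0⟩
  set k := AlgebraicClosure F with hk
  have : NeZero (r : k) := ⟨by
    have h := (map_ne_zero (algebraMap F k)).mpr hrF
    rwa [map_natCast] at h⟩
  obtain ⟨ζ, hζ⟩ := HasEnoughRootsOfUnity.exists_primitiveRoot k r
  -- the product formula over `k` for `Φ_r(X, j(q^r))`
  have hprod := PhiAt_J hr hd hζ (one_ne_zero : (1 : k) ≠ 0) (one_ne_zero : (1 : ℕ) ≠ 0)
  rw [one_pow, one_pow, mul_one, mul_one] at hprod
  -- the up root is different from the down roots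
  have hne : ∀ b ∈ Finset.range r, J (1 : k) (r ^ 2) - J (ζ ^ b * 1) 1 ≠ 0 := by
    intro b _ h0
    have h1 := (J_inj (one_ne_zero : (1 : k) ≠ 0)
      (mul_ne_zero (pow_ne_zero _ (hζ.ne_zero hr0)) one_ne_zero) (pow_ne_zero 2 hr0) one_ne_zero
      (sub_eq_zero.mp h0)).2
    have h2 : 1 < r ^ 2 := Nat.one_lt_pow (by norm_num) hr.one_lt
    omega
  -- hence the derivative does not vanish at the up root, over `k`
  have hk1 : (derivative (PhiAt hd.Φ (J (1 : k) r))).eval (J (1 : k) (r ^ 2)) ≠ 0 := by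
    rw [hprod, Polynomial.derivative_mul, Polynomial.eval_add, Polynomial.eval_mul,
      Polynomial.eval_mul, Polynomial.eval_sub, Polynomial.eval_X, Polynomial.eval_C, sub_self,
      zero_mul, add_zero, Polynomial.derivative_sub, Polynomial.derivative_X,
      Polynomial.derivative_C, sub_zero, Polynomial.eval_one, one_mul, Polynomial.eval_prod]
    refine Finset.prod_ne_zero_iff.mpr (fun b hb => ?_)
    rw [Polynomial.eval_sub, Polynomial.eval_X, Polynomial.eval_C]
    exact hne b hb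
  -- transport back to `F`
  intro h0
  apply hk1
  have : NeZero (r ^ 2) := ⟨pow_ne_zero 2 hr0⟩
  rw [← PhiAt_derivative, J_one, J_one]
  have h1 := congrArg (qExpand F r) h0
  rw [map_eval_PhiAt, qExpand_jd, qExpand_jd, mul_one, map_zero] at h1
  have h2 := congrArg (coeffMap (algebraMap F k)) h1
  rw [map_eval_PhiAt, coeffMap_jd, coeffMap_jd, map_zero, ← pow_two] at h2
  exact h2

end Fermat.Agent.S28
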