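/-
S28 (Igusa) support library, block [L5] (owner: helper66): the Bezout relation for mixed divisors,
in the exact shape of `CharLInputs.bezout_mixed`.
-/
import Fermat.Agent.S28.Roots
import Fermat.Agent.S28.Descent

set_option autoImplicit false

noncomputable section

namespace Fermat.Agent.S28

open ModularCurve Polynomial

/-- **(L5).** For distinct primes `p, r` dividing `d` (with `ℓ ∤ d`), `j(q^d)` is the only common
root of `Φ_p(X, j(q^(d/p)))` and `Φ_r(X, j(q^(d/r)))` over `𝔽_ℓ((q))`, and it is simple: Bezout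
form. -/
theorem bezout_mixed (ℓ : ℕ) [Fact ℓ.Prime] (p r d : ℕ) (hp : p.Prime) (hr : r.Prime)
    (hpr : p ≠ r) (hpd : p ∣ d) (hrd : r ∣ d) (hℓd : ¬ ℓ ∣ d) (Hp : HeckeData p)
    (Hr : HeckeData r) :
    ∃ A B : Polynomial (LaurentSeries (ZMod ℓ)),
      A * PhiAt Hp.Φ (jd (ZMod ℓ) (d / p)) + B * PhiAt Hr.Φ (jd (ZMod ℓ) (d / r)) =
        X - C (jd (ZMod ℓ) d) := by
  classical
  have hℓ : ℓ.Prime := Fact.out
  have hd0 : d ≠ 0 := fun h => hℓd (h ▸ dvd_zero ℓ)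
  have hp0 : p ≠ 0 := hp.ne_zero
  have hr0 : r ≠ 0 := hr.ne_zero
  obtain ⟨dp, hdp⟩ := hpd
  obtain ⟨dr, hdr⟩ := hrd
  have hdp0 : dp ≠ 0 := fun h => hd0 (by rw [hdp, h, mul_zero])
  have hdr0 : dr ≠ 0 := fun h => hd0 (by rw [hdr, h, mul_zero])
  have hdivp : d / p = dp := by rw [hdp]; exact Nat.mul_div_cancel_left dp hp.pos
  have hdivr : d / r = dr := by rw [hdr]; exact Nat.mul_div_cancel_left dr hr.pos
  -- the algebraically closed coefficient field
  set k := AlgebraicClosure (ZMod ℓ) with hk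
  have hcast : ∀ n : ℕ, n ∣ d → (n : k) ≠ 0 := by
    intro n hn h0
    have h1 : (ℓ : ℕ) ∣ n := (CharP.cast_eq_zero_iff k ℓ n).mp h0
    exact hℓd (h1.trans hn)
  have : NeZero (p : k) := ⟨hcast p ⟨dp, hdp⟩⟩
  have : NeZero (r : k) := ⟨hcast r ⟨dr, hdr⟩⟩
  obtain ⟨ζp, hζp⟩ := HasEnoughRootsOfUnity.exists_primitiveRoot k p
  obtain ⟨ζr, hζr⟩ := HasEnoughRootsOfUnity.exists_primitiveRoot k r
  have : NeZero (p * r) := ⟨Nat.mul_ne_zero hp0 hr0⟩
  have : NeZero dp := ⟨hdp0⟩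
  have : NeZero dr := ⟨hdr0⟩
  have : NeZero d := ⟨hd0⟩
  have : NeZero (p * r * d) := ⟨Nat.mul_ne_zero (Nat.mul_ne_zero hp0 hr0) hd0⟩
  -- the field map `σ : 𝔽_ℓ((q)) → k((q))`, `f(q) ↦ f(q^(p r))`
  set σ : LaurentSeries (ZMod ℓ) →+* LaurentSeries k := (qExpand k (p * r)).comp (baseK ℓ k)
    with hσ
  have hσjd : ∀ (n : ℕ) [NeZero n], σ (jd (ZMod ℓ) n) = jd k (p * r * n) := by
    intro n _
    rw [hσ, RingHom.comp_apply, baseK_jd, qExpand_jd]
  have hσy : σ (jd (ZMod ℓ) d) = J (1 : k) (p * r * d) := by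
    rw [hσjd d, J_one]
  -- the two factorisations
  have hrd0 : r * d ≠ 0 := Nat.mul_ne_zero hr0 hd0
  have hpd0 : p * d ≠ 0 := Nat.mul_ne_zero hp0 hd0
  have hf : (PhiAt Hp.Φ (jd (ZMod ℓ) (d / p))).map σ =
      (X - C (σ (jd (ZMod ℓ) d))) *
        ∏ b ∈ Finset.range p, (X - C (J (ζp ^ b * 1) (r * d / p))) := by
    have h := PhiAt_J_eq_prod hp Hp hζp (one_ne_zero : (1 : k) ≠ 0) hrd0
      (Dvd.dvd.mul_left ⟨dp, hdp⟩ r)
    rw [one_pow, one_pow] at h
    have e1 : p * r * dp = r * d := by rw [hdp]; ring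
    have e2 : p * (r * d) = p * r * d := by ring
    have : NeZero (r * d) := ⟨hrd0⟩
    rw [PhiAt_map, hdivp, hσjd dp, e1, hσy, ← J_one, h, e2]
  have hg : (PhiAt Hr.Φ (jd (ZMod ℓ) (d / r))).map σ =
      (X - C (σ (jd (ZMod ℓ) d))) *
        ∏ b ∈ Finset.range r, (X - C (J (ζr ^ b * 1) (p * d / r))) := by
    have h := PhiAt_J_eq_prod hr Hr hζr (one_ne_zero : (1 : k) ≠ 0) hpd0
      (Dvd.dvd.mul_left ⟨dr, hdr⟩ p)
    rw [one_pow, one_pow] at h
    have e1 : p * r * dr = p * d := by rw [hdr]; ring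
    have e2 : r * (p * d) = p * r * d := by ring
    have : NeZero (p * d) := ⟨hpd0⟩
    rw [PhiAt_map, hdivr, hσjd dr, e1, hσy, ← J_one, h, e2]
  refine exists_bezout_of_map_eq_prod σ _ _ _ (Finset.range p) (Finset.range r) _ _ hf hg ?_
  -- the "down" roots of the two polynomials are different
  intro b _ b' _ hbb
  have hζp0 : ζp ≠ 0 := hζp.ne_zero hp0
  have hζr0 : ζr ≠ 0 := hζr.ne_zero hr0
  have e1 : r * d / p = r * dp := by
    rw [hdp, ← mul_assoc, mul_comm r p, mul_assoc]; exact Nat.mul_div_cancel_left _ hp.pos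
  have e2 : p * d / r = p * dr := by
    rw [hdr, ← mul_assoc, mul_comm p r, mul_assoc]; exact Nat.mul_div_cancel_left _ hr.pos
  rw [e1, e2] at hbb
  have h1 := (J_inj (mul_ne_zero (pow_ne_zero _ hζp0) one_ne_zero)
    (mul_ne_zero (pow_ne_zero _ hζr0) one_ne_zero) (Nat.mul_ne_zero hr0 hdp0)
    (Nat.mul_ne_zero hp0 hdr0) hbb).2
  -- `r * dp = p * dr` and `p * dp = r * dr` force `p = r`
  have h2 : p * dp = r * dr := hdp.symm.trans hdr
  have h3 : r * r * dp = p * p * dp := by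
    calc r * r * dp = r * (r * dp) := by ring
      _ = r * (p * dr) := by rw [h1]
      _ = p * (r * dr) := by ring
      _ = p * (p * dp) := by rw [h2]
      _ = p * p * dp := by ring
  have h4 : r * r = p * p := Nat.eq_of_mul_eq_mul_right (Nat.pos_of_ne_zero hdp0) h3
  exact hpr ((Nat.mul_self_inj.mp h4).symm)

end Fermat.Agent.S28
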