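/-
S28 (Igusa) support library, block [L] (char `ℓ`): root chasing for an embedding of
`𝔽_ℓ(j(q^d) : d ∣ D)` into a field containing `k((t))`, `k = AlgebraicClosure (ZMod ℓ)`.
Statements by helper69 (deputy of block [L]); owner of this file: helper35.
-/
import Fermat.Agent.S28.Interface
import Fermat.Agent.S28.Twist
import Fermat.Agent.S28.TowerDefs
import Fermat.Agent.S28.Roots

set_option autoImplicit false

noncomputable section

namespace Fermat.Agent.S28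

open ModularCurve Polynomial

namespace ChaseAux

/-- The factorisation of `Φ_r(X, J (c'^r) (r e'))` into the "up" factor and the `r` "down"
factors (this is `PhiAt_J` of `Roots.lean`). -/
def Fac {k : Type*} [Field k] (r : ℕ) (Φ : Polynomial (Polynomial ℤ)) (ζ : k) : Prop :=
  ∀ c' : k, c' ≠ 0 → ∀ e' : ℕ, e' ≠ 0 →
    PhiAt Φ (J (c' ^ r) (r * e')) =
      (X - C (J (c' ^ r ^ 2) (r ^ 2 * e'))) * ∏ b ∈ Finset.range r, (X - C (J (ζ ^ b * c') e'))

/-- Root cases: a root of `Φ_r(X, φ (J (c'^r) (r e')))` is the up root or one of the down roots. -/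
theorem root_cases {k Ω : Type*} [Field k] [Field Ω] (φ : LaurentSeries k →+* Ω) {r : ℕ}
    {Φ : Polynomial (Polynomial ℤ)} {ζ : k} (hfac : Fac r Φ ζ) {c' : k} (hc' : c' ≠ 0) {e' : ℕ}
    (he' : e' ≠ 0) {x : Ω} (hx : (PhiAt Φ (φ (J (c' ^ r) (r * e')))).eval x = 0) :
    x = φ (J (c' ^ r ^ 2) (r ^ 2 * e')) ∨ ∃ b, b < r ∧ x = φ (J (ζ ^ b * c') e') := by
  rw [← PhiAt_map φ, hfac c' hc' e' he', Polynomial.map_mul, Polynomial.map_sub, Polynomial.map_X,
    Polynomial.map_C, Polynomial.map_prod, eval_mul, eval_sub, eval_X, eval_C, eval_prod] at hx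
  rcases mul_eq_zero.mp hx with h | h
  · exact Or.inl (sub_eq_zero.mp h)
  · obtain ⟨b, hb, hb0⟩ := Finset.prod_eq_zero_iff.mp h
    rw [Polynomial.map_sub, Polynomial.map_X, Polynomial.map_C, eval_sub, eval_X, eval_C] at hb0
    exact Or.inr ⟨b, Finset.mem_range.mp hb, sub_eq_zero.mp hb0⟩

/-- A ring hom out of an intermediate field transports root relations. -/
theorem eval_map_eq_zero {F T0 Ω : Type*} [Field F] [Field T0] [Algebra F T0] [CommRing Ω]
    (L : IntermediateField F T0) (Ψ : ↥L →+* Ω) (Φ : Polynomial (Polynomial ℤ)) (y x : ↥L)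
    (h : (PhiAt Φ (y : T0)).eval (x : T0) = 0) : (PhiAt Φ (Ψ y)).eval (Ψ x) = 0 := by
  have h1 : (PhiAt Φ y).eval x = 0 := by
    apply Subtype.val_injective
    have h2 := map_eval_PhiAt (algebraMap ↥L T0) Φ y x
    rw [IntermediateField.algebraMap_apply, IntermediateField.algebraMap_apply,
      IntermediateField.algebraMap_apply] at h2
    rw [h2, h]
    rfl
  rw [← map_eval_PhiAt Ψ, h1, map_zero]

/-- Root chasing, with the factorisation of the `Φ_r` as a hypothesis. -/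
theorem chase_of_fac (ℓ : ℕ) [Fact ℓ.Prime] (Φ : ℕ → Polynomial (Polynomial ℤ))
    {Ω : Type*} [Field Ω] (φ : LaurentSeries (AlgebraicClosure (ZMod ℓ)) →+* Ω)
    (D : ℕ) [NeZero D]
    (hroot : ∀ r : ℕ, r.Prime → r ∣ D → ∀ e : ℕ, e ≠ 0 →
      (PhiAt (Φ r) (jd (ZMod ℓ) e)).eval (jd (ZMod ℓ) (e * r)) = 0)
    (hfac : ∀ r : ℕ, r.Prime → r ∣ D →
      ∃ ζ : AlgebraicClosure (ZMod ℓ), ζ ≠ 0 ∧ Fac r (Φ r) ζ)
    (Ψ : ↥(modularFunctionFieldFullC (ZMod ℓ) D) →+* Ω)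
    (h1 : ∀ x : ↥(modularFunctionFieldFullC (ZMod ℓ) D),
      (x : LaurentSeries (ZMod ℓ)) = jd (ZMod ℓ) 1 → Ψ x = φ (J 1 D)) :
    ∀ d : ℕ, d ∣ D → ∀ x : ↥(modularFunctionFieldFullC (ZMod ℓ) D),
      (x : LaurentSeries (ZMod ℓ)) = jd (ZMod ℓ) d →
      ∃ (c : AlgebraicClosure (ZMod ℓ)) (e : ℕ), c ≠ 0 ∧ e ≠ 0 ∧ (D / d) ∣ e ∧ Ψ x = φ (J c e) := by
  intro d
  induction d using Nat.strong_induction_on with
  | _ d ih =>
    intro hdD x hx
    have hD0 : D ≠ 0 := NeZero.ne D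
    have hd0 : d ≠ 0 := fun h => hD0 (by rw [h] at hdD; exact zero_dvd_iff.mp hdD)
    by_cases hd1 : d = 1
    · subst hd1
      exact ⟨1, D, one_ne_zero, hD0, by rw [Nat.div_one], h1 x hx⟩
    · obtain ⟨r, hr, hrd⟩ := Nat.exists_prime_and_dvd hd1
      obtain ⟨d', rfl⟩ := hrd
      have hd'0 : d' ≠ 0 := fun h => hd0 (by rw [h, mul_zero])
      have hd'D : d' ∣ D := (Dvd.intro_left r rfl).trans hdD
      have hrD : r ∣ D := (Dvd.intro d' rfl).trans hdD
      have hlt : d' < r * d' := by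
        have := hr.two_le
        nlinarith [Nat.pos_of_ne_zero hd'0]
      -- the element `j(q^d')`
      let y : ↥(modularFunctionFieldFullC (ZMod ℓ) D) :=
        ⟨jd (ZMod ℓ) d', jd_mem_full ℓ D d' hd'0 hd'D⟩
      obtain ⟨c', e', hc', he', hdvd, hy⟩ := ih d' hlt hd'D y rfl
      -- `r ∣ D / d'`, hence `r ∣ e'`
      obtain ⟨m, hm⟩ := hdD
      have hDd' : D / d' = r * m := by
        rw [hm, mul_assoc, mul_comm r, mul_assoc, Nat.mul_div_cancel_left _ (Nat.pos_of_ne_zero hd'0),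
          mul_comm]
      have hDd : D / (r * d') = m := by
        rw [hm, Nat.mul_div_cancel_left _ (Nat.pos_of_ne_zero hd0)]
      rw [hDd'] at hdvd
      obtain ⟨e'', he''⟩ := (Dvd.intro m rfl : r ∣ r * m).trans hdvd
      have he''0 : e'' ≠ 0 := fun h => he' (by rw [he'', h, mul_zero])
      have hme'' : m ∣ e'' := by
        rw [he''] at hdvd
        exact (Nat.mul_dvd_mul_iff_left hr.pos).mp hdvd
      obtain ⟨c'', hc''⟩ := IsAlgClosed.exists_pow_nat_eq c' hr.pos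
      have hc''0 : c'' ≠ 0 := fun h => hc' (by rw [← hc'', h, zero_pow hr.ne_zero])
      obtain ⟨ζ, hζ0, hζ⟩ := hfac r hr hrD
      -- the root relation, transported by `Ψ`
      have hrel : (PhiAt (Φ r) (y : LaurentSeries (ZMod ℓ))).eval (x : LaurentSeries (ZMod ℓ)) = 0 := by
        rw [hx, mul_comm r d']
        exact hroot r hr hrD d' hd'0
      have hrel' := eval_map_eq_zero _ Ψ (Φ r) y x hrel
      rw [hy, ← hc'', he''] at hrel'
      rcases root_cases φ hζ hc''0 he''0 hrel' with h | ⟨b, -, h⟩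
      · refine ⟨c'' ^ r ^ 2, r ^ 2 * e'', pow_ne_zero _ hc''0,
          Nat.mul_ne_zero (pow_ne_zero _ hr.ne_zero) he''0, ?_, h⟩
        rw [hDd]
        exact hme''.mul_left _
      · refine ⟨ζ ^ b * c'', e'', mul_ne_zero (pow_ne_zero _ hζ0) hc''0, he''0, ?_, h⟩
        rw [hDd]
        exact hme''

/-- The `p`-chain, with the factorisation of `Φ_p` as a hypothesis. -/
theorem chain_of_fac (ℓ : ℕ) [Fact ℓ.Prime] {p : ℕ} (hp : p.Prime) (Φ : Polynomial (Polynomial ℤ))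
    {Ω : Type*} [Field Ω] (φ : LaurentSeries (AlgebraicClosure (ZMod ℓ)) →+* Ω)
    (M a : ℕ) (hM : M ≠ 0) (ha : 1 ≤ a) (D : ℕ) [NeZero D] (hD : D = M * p ^ a)
    (hroot : ∀ e : ℕ, e ≠ 0 → (PhiAt Φ (jd (ZMod ℓ) e)).eval (jd (ZMod ℓ) (e * p)) = 0)
    {ζ : AlgebraicClosure (ZMod ℓ)} (hζp : ζ ^ p = 1) (hfac : Fac p Φ ζ)
    (Ψ : ↥(modularFunctionFieldFullC (ZMod ℓ) D) →+* Ω)
    (h1 : ∀ x : ↥(modularFunctionFieldFullC (ZMod ℓ) D),
      (x : LaurentSeries (ZMod ℓ)) = jd (ZMod ℓ) 1 → Ψ x = φ (J 1 D))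
    (hp1 : ∀ x : ↥(modularFunctionFieldFullC (ZMod ℓ) D),
      (x : LaurentSeries (ZMod ℓ)) = jd (ZMod ℓ) p → Ψ x = φ (J 1 (D / p))) :
    ∃ γ : ℕ → AlgebraicClosure (ZMod ℓ), (∀ c, γ c ≠ 0) ∧ γ 0 = 1 ∧ γ 1 = 1 ∧
      (∀ c, c < a → γ (c + 1) ^ p = γ c) ∧
      ∀ c, c ≤ a → ∀ x : ↥(modularFunctionFieldFullC (ZMod ℓ) D),
        (x : LaurentSeries (ZMod ℓ)) = jd (ZMod ℓ) (p ^ c) →
        Ψ x = φ (J (γ c) (M * p ^ (a - c))) := by
  have hp0 : p ≠ 0 := hp.ne_zero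
  have hζ0 : ζ ≠ 0 := fun h => by
    rw [h, zero_pow hp0] at hζp
    exact zero_ne_one hζp
  have hmem : ∀ c, c ≤ a → jd (ZMod ℓ) (p ^ c) ∈ modularFunctionFieldFullC (ZMod ℓ) D := by
    intro c hc
    refine jd_mem_full ℓ D (p ^ c) (pow_ne_zero _ hp0) ?_
    rw [hD]
    exact (pow_dvd_pow p hc).trans (Dvd.intro_left M rfl)
  have hΨinj : Function.Injective Ψ := Ψ.injective
  -- the induction
  have key : ∀ n, 1 ≤ n → n ≤ a →
      ∃ γ : ℕ → AlgebraicClosure (ZMod ℓ), (∀ c, γ c ≠ 0) ∧ γ 0 = 1 ∧ γ 1 = 1 ∧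
        (∀ c, c < n → γ (c + 1) ^ p = γ c) ∧
        ∀ c, c ≤ n → ∀ x : ↥(modularFunctionFieldFullC (ZMod ℓ) D),
          (x : LaurentSeries (ZMod ℓ)) = jd (ZMod ℓ) (p ^ c) →
          Ψ x = φ (J (γ c) (M * p ^ (a - c))) := by
    intro n hn
    induction n, hn using Nat.le_induction with
    | base =>
      intro _
      refine ⟨fun _ => 1, fun _ => one_ne_zero, rfl, rfl, fun c _ => one_pow p, ?_⟩
      intro c hc x hx
      interval_cases c
      · rw [pow_zero] at hx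
        rw [h1 x hx, Nat.sub_zero, hD]
      · rw [pow_one] at hx
        rw [hp1 x hx]
        have : D / p = M * p ^ (a - 1) := by
          rw [hD]
          obtain ⟨a', rfl⟩ : ∃ a', a = a' + 1 := ⟨a - 1, by omega⟩
          rw [Nat.add_sub_cancel, pow_succ, ← mul_assoc, Nat.mul_div_cancel _ hp.pos]
        rw [this]
    | succ n hn ih =>
      intro hna
      obtain ⟨γ, hγ0, hγzero, hγone, hγpow, hγΨ⟩ := ih (by omega)
      -- the three elements
      let y : ↥(modularFunctionFieldFullC (ZMod ℓ) D) := ⟨jd (ZMod ℓ) (p ^ n), hmem n (by omega)⟩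
      let x : ↥(modularFunctionFieldFullC (ZMod ℓ) D) :=
        ⟨jd (ZMod ℓ) (p ^ (n + 1)), hmem (n + 1) hna⟩
      let w : ↥(modularFunctionFieldFullC (ZMod ℓ) D) :=
        ⟨jd (ZMod ℓ) (p ^ (n - 1)), hmem (n - 1) (by omega)⟩
      have hy : Ψ y = φ (J (γ n) (M * p ^ (a - n))) := hγΨ n le_rfl y rfl
      have hw : Ψ w = φ (J (γ (n - 1)) (M * p ^ (a - (n - 1)))) := hγΨ (n - 1) (by omega) w rfl
      have hγn : γ n ^ p = γ (n - 1) := by
        have := hγpow (n - 1) (by omega)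
        rwa [Nat.sub_add_cancel hn] at this
      set e'' : ℕ := M * p ^ (a - (n + 1)) with he''
      have he''0 : e'' ≠ 0 := Nat.mul_ne_zero hM (pow_ne_zero _ hp0)
      have hexp : M * p ^ (a - n) = p * e'' := by
        rw [he'', show a - n = (a - (n + 1)) + 1 by omega, pow_succ]
        ring
      have hexp2 : M * p ^ (a - (n - 1)) = p ^ 2 * e'' := by
        rw [he'', show a - (n - 1) = (a - (n + 1)) + 2 by omega, pow_add]
        ring
      obtain ⟨δ, hδ⟩ := IsAlgClosed.exists_pow_nat_eq (γ n) hp.pos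
      have hδ0 : δ ≠ 0 := fun h => hγ0 n (by rw [← hδ, h, zero_pow hp0])
      have hrel : (PhiAt Φ (y : LaurentSeries (ZMod ℓ))).eval (x : LaurentSeries (ZMod ℓ)) = 0 := by
        show (PhiAt Φ (jd (ZMod ℓ) (p ^ n))).eval (jd (ZMod ℓ) (p ^ (n + 1))) = 0
        rw [pow_succ]
        exact hroot (p ^ n) (pow_ne_zero _ hp0)
      have hrel' := eval_map_eq_zero _ Ψ Φ y x hrel
      rw [hy, hexp, ← hδ] at hrel'
      rcases root_cases φ hfac hδ0 he''0 hrel' with h | ⟨b, -, h⟩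
      · -- the up root is the image of `j(q^(p^(n-1)))`: impossible
        exfalso
        have hxw : Ψ x = Ψ w := by
          rw [h, hw, hexp2, ← hγn, ← hδ, ← pow_mul, pow_two]
        have hxw' : x = w := hΨinj hxw
        have hjd : jd (ZMod ℓ) (p ^ (n + 1)) = jd (ZMod ℓ) (p ^ (n - 1)) := congrArg Subtype.val hxw'
        refine jd_ne_jd (ZMod ℓ) (p ^ (n + 1)) (p ^ (n - 1)) (pow_ne_zero _ hp0) (pow_ne_zero _ hp0)
          ?_ hjd
        intro hpow
        have := Nat.pow_right_injective hp.two_le hpow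
        omega
      · -- a down root: extend `γ`
        refine ⟨Function.update γ (n + 1) (ζ ^ b * δ), ?_, ?_, ?_, ?_, ?_⟩
        · intro c
          by_cases hc : c = n + 1
          · subst hc
            rw [Function.update_self]
            exact mul_ne_zero (pow_ne_zero _ hζ0) hδ0
          · rw [Function.update_of_ne hc]
            exact hγ0 c
        · rw [Function.update_of_ne (by omega)]
          exact hγzero
        · rw [Function.update_of_ne (by omega)]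
          exact hγone
        · intro c hc
          by_cases hcn : c = n
          · subst hcn
            rw [Function.update_self, Function.update_of_ne (by omega), mul_pow, ← pow_mul,
              mul_comm b p, pow_mul, hζp, one_pow, one_mul, hδ]
          · rw [Function.update_of_ne (by omega), Function.update_of_ne (by omega)]
            exact hγpow c (by omega)
        · intro c hc x' hx'
          by_cases hcn : c = n + 1
          · subst hcn
            have hx'x : x' = x := Subtype.ext hx'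
            rw [Function.update_self, hx'x, h]
          · rw [Function.update_of_ne hcn]
            exact hγΨ c (by omega) x' hx'
  exact key a ha le_rfl

/-- A primitive `r`-th root of unity in `AlgebraicClosure (ZMod ℓ)` when `ℓ ∤ r`. -/
theorem exists_primitiveRoot (ℓ : ℕ) [Fact ℓ.Prime] (r : ℕ) (hr : ¬ ℓ ∣ r) :
    ∃ ζ : AlgebraicClosure (ZMod ℓ), IsPrimitiveRoot ζ r := by
  have hr' : NeZero ((r : ℕ) : ZMod ℓ) := ⟨(ZMod.natCast_eq_zero_iff r ℓ).not.mpr hr⟩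
  have hr'' : NeZero ((r : ℕ) : AlgebraicClosure (ZMod ℓ)) := by
    refine ⟨fun h => hr'.out ?_⟩
    have h2 : algebraMap (ZMod ℓ) (AlgebraicClosure (ZMod ℓ)) ((r : ℕ) : ZMod ℓ) = 0 := by
      rw [map_natCast]
      exact h
    exact (map_eq_zero_iff _ (algebraMap (ZMod ℓ) (AlgebraicClosure (ZMod ℓ))).injective).mp h2
  exact HasEnoughRootsOfUnity.exists_primitiveRoot (AlgebraicClosure (ZMod ℓ)) r

end ChaseAux

/-- **Root chasing.**  If `Ψ` sends `j` to (the image of) `J 1 D`, then it sends every `j(q^d)`,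
`d ∣ D`, to some `J c e` with `(D / d) ∣ e`.
Induction on `d` along primes `r ∣ d`: `j(q^(d r))` is a root of `Φ_r(X, j(q^d))`
(`HeckeData.root`), all of whose roots over `J c e`, `r ∣ e`, are `J _ (r e)` and `J _ (e / r)`. -/
theorem chase (ℓ : ℕ) [Fact ℓ.Prime] (hE : ∀ r : ℕ, r.Prime → Nonempty (HeckeData r))
    {Ω : Type*} [Field Ω] (φ : LaurentSeries (AlgebraicClosure (ZMod ℓ)) →+* Ω)
    (D : ℕ) [NeZero D] (hℓD : ¬ ℓ ∣ D)
    (Ψ : ↥(modularFunctionFieldFullC (ZMod ℓ) D) →+* Ω)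
    (h1 : ∀ x : ↥(modularFunctionFieldFullC (ZMod ℓ) D),
      (x : LaurentSeries (ZMod ℓ)) = jd (ZMod ℓ) 1 → Ψ x = φ (J 1 D)) :
    ∀ d : ℕ, d ∣ D → ∀ x : ↥(modularFunctionFieldFullC (ZMod ℓ) D),
      (x : LaurentSeries (ZMod ℓ)) = jd (ZMod ℓ) d →
      ∃ (c : AlgebraicClosure (ZMod ℓ)) (e : ℕ), c ≠ 0 ∧ e ≠ 0 ∧ (D / d) ∣ e ∧ Ψ x = φ (J c e) := by
  classical
  refine ChaseAux.chase_of_fac ℓ
    (fun r => if h : r.Prime then (hE r h).some.Φ else 0) φ D ?_ ?_ Ψ h1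
  · intro r hr _ e he
    rw [dif_pos hr]
    exact (hE r hr).some.root_jd (ZMod ℓ) hr.ne_zero e he
  · intro r hr hrD
    obtain ⟨ζ, hζ⟩ := ChaseAux.exists_primitiveRoot ℓ r (fun h => hℓD (h.trans hrD))
    refine ⟨ζ, hζ.ne_zero hr.ne_zero, ?_⟩
    rw [dif_pos hr]
    intro c' hc' e' he'
    exact PhiAt_J hr (hE r hr).some hζ hc' he'

/-- **The `p`-chain is forced.**  If `Ψ j = J 1 D` and `Ψ j(q^p) = J 1 (D / p)` with
`D = M * p ^ a`, then `Ψ j(q^(p^c)) = J γ_c (M * p ^ (a - c))` for all `c ≤ a`, with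
`γ_(c+1) ^ p = γ_c`: `j(q^(p^(c+1)))` is a root of `Φ_p(X, j(q^(p^c)))` different from
`j(q^(p^(c-1)))`, whose image is the "up" root `J (γ_c ^ p) _`; so its image is a "down" root. -/
theorem chain (ℓ : ℕ) [Fact ℓ.Prime] {p : ℕ} (hp : p.Prime) (hpℓ : p ≠ ℓ) (hd : HeckeData p)
    {Ω : Type*} [Field Ω] (φ : LaurentSeries (AlgebraicClosure (ZMod ℓ)) →+* Ω)
    (M a : ℕ) (hM : M ≠ 0) (ha : 1 ≤ a) (D : ℕ) [NeZero D] (hD : D = M * p ^ a)
    (Ψ : ↥(modularFunctionFieldFullC (ZMod ℓ) D) →+* Ω)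
    (h1 : ∀ x : ↥(modularFunctionFieldFullC (ZMod ℓ) D),
      (x : LaurentSeries (ZMod ℓ)) = jd (ZMod ℓ) 1 → Ψ x = φ (J 1 D))
    (hp1 : ∀ x : ↥(modularFunctionFieldFullC (ZMod ℓ) D),
      (x : LaurentSeries (ZMod ℓ)) = jd (ZMod ℓ) p → Ψ x = φ (J 1 (D / p))) :
    ∃ γ : ℕ → AlgebraicClosure (ZMod ℓ), (∀ c, γ c ≠ 0) ∧ γ 0 = 1 ∧ γ 1 = 1 ∧
      (∀ c, c < a → γ (c + 1) ^ p = γ c) ∧
      ∀ c, c ≤ a → ∀ x : ↥(modularFunctionFieldFullC (ZMod ℓ) D),
        (x : LaurentSeries (ZMod ℓ)) = jd (ZMod ℓ) (p ^ c) →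
        Ψ x = φ (J (γ c) (M * p ^ (a - c))) := by
  have hℓp : ¬ ℓ ∣ p := fun h =>
    hpℓ ((Nat.prime_dvd_prime_iff_eq (Fact.out : ℓ.Prime) hp).mp h).symm
  obtain ⟨ζ, hζ⟩ := ChaseAux.exists_primitiveRoot ℓ p hℓp
  exact ChaseAux.chain_of_fac ℓ hp hd.Φ φ M a hM ha D hD
    (fun e he => hd.root_jd (ZMod ℓ) hp.ne_zero e he) hζ.pow_eq_one
    (fun c' hc' e' he' => PhiAt_J hp hd hζ hc' he') Ψ h1 hp1

end Fermat.Agent.S28

end
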