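/-
S28 (Igusa) support library, block [L] (char `ℓ`): the cusp embedding
`Ψ : 𝔽_ℓ(j(q^d) : d ∣ M p^a) → k((t))`, `k = AlgebraicClosure (ZMod ℓ)`, with `Ψ j = J 1 D`,
`Ψ j(q^p) = J 1 (D / p)`.  Owner: helper69.
-/
import Fermat.Agent.S28.Chase
import Fermat.Agent.S28.FieldEmb
import Fermat.Agent.S28.Roots
import Fermat.Agent.S28.Descent

set_option autoImplicit false

noncomputable section

namespace Fermat.Agent.S28

open ModularCurve Polynomial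

namespace CuspEmb

/-- The coefficients of `PhiAt Φ y` lie in every intermediate field containing `y`. -/
theorem PhiAt_coeff_mem {F T0 : Type*} [Field F] [Field T0] [Algebra F T0]
    (K : IntermediateField F T0) (Φ : Polynomial (Polynomial ℤ)) {y : T0} (hy : y ∈ K) (i : ℕ) :
    (PhiAt Φ y).coeff i ∈ K := by
  unfold PhiAt
  rw [Polynomial.coeff_map]
  show Polynomial.eval₂ (Int.castRingHom T0) y (Φ.coeff i) ∈ K
  rw [Polynomial.eval₂_eq_sum_range]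
  refine sum_mem fun n _ => mul_mem ?_ (pow_mem hy n)
  rw [eq_intCast]
  exact intCast_mem K _

/-- If a ring homomorphism defined on `F(s)` maps the generators `s` into a subfield `R`
(the prime field `F = ZMod ℓ` being mapped into `R` automatically), it maps all of `F(s)`
into `R`. -/
theorem mem_subfield_of_adjoin (ℓ : ℕ) [Fact ℓ.Prime] {T0 Ω : Type*} [Field T0]
    [Algebra (ZMod ℓ) T0] [Field Ω] (s : Set T0)
    (Ψ : ↥(IntermediateField.adjoin (ZMod ℓ) s) →+* Ω) (R : Subfield Ω)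
    (hgen : ∀ x : ↥(IntermediateField.adjoin (ZMod ℓ) s), (x : T0) ∈ s → Ψ x ∈ R) :
    ∀ x : ↥(IntermediateField.adjoin (ZMod ℓ) s), Ψ x ∈ R := by
  have : NeZero ℓ := ⟨(Fact.out : ℓ.Prime).ne_zero⟩
  have key : ∀ (x : T0) (hx : x ∈ IntermediateField.adjoin (ZMod ℓ) s), Ψ ⟨x, hx⟩ ∈ R := by
    intro x hx
    refine IntermediateField.adjoin_induction (F := ZMod ℓ) (E := T0) (s := s)
      (p := fun (x : T0) (hx : x ∈ IntermediateField.adjoin (ZMod ℓ) s) =>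
        Ψ (⟨x, hx⟩ : ↥(IntermediateField.adjoin (ZMod ℓ) s)) ∈ R) ?_ ?_ ?_ ?_ ?_ hx
    · intro x hx
      exact hgen ⟨x, _⟩ hx
    · intro c
      have e : (⟨algebraMap (ZMod ℓ) T0 c,
            (IntermediateField.adjoin (ZMod ℓ) s).algebraMap_mem c⟩ :
          ↥(IntermediateField.adjoin (ZMod ℓ) s)) =
          ((c.val : ℕ) : ↥(IntermediateField.adjoin (ZMod ℓ) s)) := by
        apply Subtype.ext
        show algebraMap (ZMod ℓ) T0 c = ((c.val : ℕ) : T0)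
        conv_lhs => rw [← ZMod.natCast_zmod_val c]
        rw [map_natCast]
      rw [e, map_natCast]
      exact natCast_mem _ _
    · intro x y hx hy hx' hy'
      have e : (⟨x + y, add_mem hx hy⟩ : ↥(IntermediateField.adjoin (ZMod ℓ) s)) =
          ⟨x, hx⟩ + ⟨y, hy⟩ := rfl
      rw [e, map_add]
      exact add_mem hx' hy'
    · intro x hx hx'
      have e : (⟨x⁻¹, inv_mem hx⟩ : ↥(IntermediateField.adjoin (ZMod ℓ) s)) =
          (⟨x, hx⟩)⁻¹ := rfl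
      rw [e, map_inv₀]
      exact inv_mem hx'
    · intro x y hx hy hx' hy'
      have e : (⟨x * y, mul_mem hx hy⟩ : ↥(IntermediateField.adjoin (ZMod ℓ) s)) =
          ⟨x, hx⟩ * ⟨y, hy⟩ := rfl
      rw [e, map_mul]
      exact mul_mem hx' hy'
  intro x
  exact key x.1 x.2

/-- Pull a ring homomorphism back along an injective ring homomorphism containing its image. -/
theorem exists_pullback {A T Ω : Type*} [Semiring A] [Field T] [Field Ω] (Ψ₀ : A →+* Ω)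
    (φ : T →+* Ω) (hφ : Function.Injective φ) (hrange : ∀ x, Ψ₀ x ∈ φ.fieldRange) :
    ∃ Ψ : A →+* T, ∀ x, φ (Ψ x) = Ψ₀ x := by
  choose g hg using fun x : A => RingHom.mem_fieldRange.mp (hrange x)
  refine ⟨{ toFun := g
            map_one' := hφ (by rw [hg, map_one, map_one])
            map_mul' := fun x y => hφ (by rw [hg, map_mul, map_mul, hg, hg])
            map_zero' := hφ (by rw [hg, map_zero, map_zero])
            map_add' := fun x y => hφ (by rw [hg, map_add, map_add, hg, hg]) }, hg⟩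

/-- All values of a ring homomorphism on the full modular function field which maps the
generators `j(q^d)` into the image of `φ` lie in the image of `φ`. -/
theorem range_full (ℓ : ℕ) [Fact ℓ.Prime] {T Ω : Type*} [Field T] [Field Ω] (φ : T →+* Ω)
    (D : ℕ) [NeZero D] (Ψ₀ : ↥(modularFunctionFieldFullC (ZMod ℓ) D) →+* Ω)
    (hgen : ∀ d : ℕ, d ∣ D → ∀ x : ↥(modularFunctionFieldFullC (ZMod ℓ) D),
      (x : LaurentSeries (ZMod ℓ)) = jd (ZMod ℓ) d → Ψ₀ x ∈ φ.fieldRange) :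
    ∀ x : ↥(modularFunctionFieldFullC (ZMod ℓ) D), Ψ₀ x ∈ φ.fieldRange := by
  refine mem_subfield_of_adjoin ℓ (divisorExpansionsC (ZMod ℓ) D) Ψ₀ φ.fieldRange ?_
  rintro x ⟨d, hdne, hdD, hx⟩
  exact hgen d hdD x (hx.trans (@jd_eq (ZMod ℓ) _ d hdne).symm)

/-- The embedding into an arbitrary algebraically closed field `Ω ⊇ k((t))`. -/
theorem exists_emb0 (ℓ : ℕ) [Fact ℓ.Prime] (hE : ∀ r : ℕ, r.Prime → Nonempty (HeckeData r))
    {p : ℕ} (hp : p.Prime) (hd : HeckeData p)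
    (hirr : IrredOver (modularFunctionFieldFullC (ZMod ℓ) 1 : Set (LaurentSeries (ZMod ℓ)))
      (PhiAt hd.Φ (jd (ZMod ℓ) 1)))
    (D : ℕ) [NeZero D] (hpD : p ∣ D) (hℓD : ¬ ℓ ∣ D)
    {Ω : Type*} [Field Ω] [IsAlgClosed Ω] (φ : LaurentSeries (AlgebraicClosure (ZMod ℓ)) →+* Ω) :
    ∃ Ψ₀ : ↥(modularFunctionFieldFullC (ZMod ℓ) D) →+* Ω,
      (∀ x : ↥(modularFunctionFieldFullC (ZMod ℓ) D),
        (x : LaurentSeries (ZMod ℓ)) = jd (ZMod ℓ) 1 → Ψ₀ x = φ (J 1 D)) ∧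
      (∀ x : ↥(modularFunctionFieldFullC (ZMod ℓ) D),
        (x : LaurentSeries (ZMod ℓ)) = jd (ZMod ℓ) p → Ψ₀ x = φ (J 1 (D / p))) := by
  classical
  have : NeZero p := ⟨hp.ne_zero⟩
  have hD0 : D ≠ 0 := NeZero.ne D
  have hDp : D / p * p = D := Nat.div_mul_cancel hpD
  have hDp0 : D / p ≠ 0 := fun h => hD0 (by rw [← hDp, h, zero_mul])
  have hKL : modularFunctionFieldFullC (ZMod ℓ) 1 ≤ modularFunctionFieldFullC (ZMod ℓ) D :=
    full_degeneracyC_le (ZMod ℓ) (one_dvd D)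
  obtain ⟨θ, hθ⟩ : ∃ θ : LaurentSeries (ZMod ℓ) →+* Ω, ∀ x, θ x =
      φ (subst (1 : AlgebraicClosure (ZMod ℓ)) D (baseK ℓ (AlgebraicClosure (ZMod ℓ)) x)) :=
    ⟨φ.comp ((subst (1 : AlgebraicClosure (ZMod ℓ)) D).comp
      (baseK ℓ (AlgebraicClosure (ZMod ℓ)))), fun _ => rfl⟩
  have hj1K : jd (ZMod ℓ) 1 ∈ modularFunctionFieldFullC (ZMod ℓ) 1 := by
    rw [jd_one]
    exact jqModC_mem_full (ZMod ℓ) 1
  have hjL : jd (ZMod ℓ) p ∈ modularFunctionFieldFullC (ZMod ℓ) D := by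
    rw [jd_eq]
    exact jqModCd_mem_full (ZMod ℓ) D hpD
  have hθj : θ (jd (ZMod ℓ) 1) = φ (J 1 D) := by
    rw [hθ, baseK_jd, subst_jd one_ne_zero hD0, one_pow, mul_one]
  -- the prescribed root
  have hroot : (PhiAt hd.Φ (jd (ZMod ℓ) 1)).eval (jd (ZMod ℓ) p) = 0 :=
    roots_root_coeff hd (ZMod ℓ)
  have hy : ((PhiAt hd.Φ (jd (ZMod ℓ) 1)).map θ).eval (φ (J 1 (D / p))) = 0 := by
    rw [PhiAt_map, hθj]
    have h := PhiAt_J_isRoot_down hp.ne_zero hd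
      (one_ne_zero : (1 : AlgebraicClosure (ZMod ℓ)) ≠ 0) hDp0
    rw [one_pow, hDp] at h
    have h2 := congrArg φ h.eq_zero
    rw [map_eval_PhiAt, map_zero] at h2
    exact h2
  obtain ⟨Ψ₀, hΨK, hΨp⟩ := exists_ringHom_of_irredOver
    (modularFunctionFieldFullC (ZMod ℓ) 1) (modularFunctionFieldFullC (ZMod ℓ) D) hKL
    (isAlgebraic_full ℓ hE D hℓD) θ (PhiAt hd.Φ (jd (ZMod ℓ) 1)) (PhiAt_monic hd.monic _)
    (fun i => PhiAt_coeff_mem _ hd.Φ hj1K i) hirr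
    (by rw [PhiAt_natDegree hd.monic, hd.natDegree_eq]; omega)
    (jd (ZMod ℓ) p) hjL hroot (φ (J 1 (D / p))) hy
  refine ⟨Ψ₀, fun x hx => ?_, hΨp⟩
  rw [hΨK x (hx ▸ hj1K), hx, hθj]

end CuspEmb

/-- **The cusp embedding.**  For `D = M * p ^ a` (`p ∤ M`, `ℓ ∤ p M`, `a ≥ 1`) there is a ring
homomorphism `Ψ` from `𝔽_ℓ(j(q^d) : d ∣ D)` to `k((t))` such that
* `Ψ j(q^d) = J c e` with `(D / d) ∣ e` for all `d ∣ D`;
* `Ψ j(q^(p^c)) = J γ_c (M p^(a-c))` for `c ≤ a`, with `γ_0 = γ_1 = 1`, `γ_(c+1)^p = γ_c`. -/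
theorem exists_cuspEmb (ℓ : ℕ) [Fact ℓ.Prime] (hE : ∀ r : ℕ, r.Prime → Nonempty (HeckeData r))
    {p : ℕ} (hp : p.Prime) (hd : HeckeData p)
    (hirr : IrredOver (modularFunctionFieldFullC (ZMod ℓ) 1 : Set (LaurentSeries (ZMod ℓ)))
      (PhiAt hd.Φ (jd (ZMod ℓ) 1)))
    (M a : ℕ) [NeZero M] (hpM : ¬ p ∣ M) (hℓ : ¬ ℓ ∣ p * M) (ha : 1 ≤ a)
    (D : ℕ) [NeZero D] (hD : D = M * p ^ a) :
    ∃ Ψ : ↥(modularFunctionFieldFullC (ZMod ℓ) D) →+*
        LaurentSeries (AlgebraicClosure (ZMod ℓ)),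
      (∀ d : ℕ, d ∣ D → ∀ x : ↥(modularFunctionFieldFullC (ZMod ℓ) D),
        (x : LaurentSeries (ZMod ℓ)) = jd (ZMod ℓ) d →
        ∃ (c : AlgebraicClosure (ZMod ℓ)) (e : ℕ), c ≠ 0 ∧ e ≠ 0 ∧ (D / d) ∣ e ∧ Ψ x = J c e) ∧
      ∃ γ : ℕ → AlgebraicClosure (ZMod ℓ), (∀ c, γ c ≠ 0) ∧ γ 0 = 1 ∧ γ 1 = 1 ∧
        (∀ c, c < a → γ (c + 1) ^ p = γ c) ∧
        ∀ c, c ≤ a → ∀ x : ↥(modularFunctionFieldFullC (ZMod ℓ) D),
          (x : LaurentSeries (ZMod ℓ)) = jd (ZMod ℓ) (p ^ c) →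
          Ψ x = J (γ c) (M * p ^ (a - c)) := by
  classical
  have _ := hpM
  have hℓprime : ℓ.Prime := Fact.out
  have hpℓ : p ≠ ℓ := fun h => hℓ (h ▸ dvd_mul_right p M)
  have hpD : p ∣ D := by
    rw [hD]
    exact Dvd.dvd.mul_left (dvd_pow_self p (by omega)) M
  have hℓD : ¬ ℓ ∣ D := by
    rw [hD]
    intro h
    rcases (Nat.Prime.dvd_mul hℓprime).mp h with h1 | h2
    · exact hℓ (h1.mul_left p)
    · exact hℓ ((hℓprime.dvd_of_dvd_pow h2).mul_right M)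
  -- the fields (kept opaque)
  obtain ⟨Ω, _, _, φ, hφ⟩ : ∃ (Ω : Type) (_ : Field Ω) (_ : IsAlgClosed Ω)
      (φ : LaurentSeries (AlgebraicClosure (ZMod ℓ)) →+* Ω), Function.Injective φ :=
    ⟨AlgebraicClosure (LaurentSeries (AlgebraicClosure (ZMod ℓ))), inferInstance, inferInstance,
      algebraMap (LaurentSeries (AlgebraicClosure (ZMod ℓ)))
        (AlgebraicClosure (LaurentSeries (AlgebraicClosure (ZMod ℓ)))),
      RingHom.injective _⟩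
  obtain ⟨Ψ₀, h1, hΨp⟩ := CuspEmb.exists_emb0 ℓ hE hp hd hirr D hpD hℓD φ
  have hchase := chase ℓ hE φ D hℓD Ψ₀ h1
  obtain ⟨γ, hγ0, hγ00, hγ1, hγp, hγ⟩ :=
    chain ℓ hp hpℓ hd φ M a (NeZero.ne M) ha D hD Ψ₀ h1 hΨp
  -- every value of `Ψ₀` lies in the image of `φ`
  have hrange : ∀ x : ↥(modularFunctionFieldFullC (ZMod ℓ) D), Ψ₀ x ∈ φ.fieldRange := by
    refine CuspEmb.range_full ℓ φ D Ψ₀ fun d hdD x hx => ?_
    obtain ⟨c, e, -, -, -, hce⟩ := hchase d hdD x hx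
    rw [hce]
    exact ⟨_, rfl⟩
  obtain ⟨Ψ, hΨ⟩ := CuspEmb.exists_pullback Ψ₀ φ hφ hrange
  refine ⟨Ψ, ?_, γ, hγ0, hγ00, hγ1, hγp, fun c hc x hx => hφ (by rw [hΨ, hγ c hc x hx])⟩
  intro d hdD x hx
  obtain ⟨c, e, hc, he, hdvd, hce⟩ := hchase d hdD x hx
  exact ⟨c, e, hc, he, hdvd, hφ (by rw [hΨ, hce])⟩

end Fermat.Agent.S28

end
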