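/-
S28 (Igusa), block [L]: the abstract twist argument and extension of embeddings.
Owner: helper40.  Imports Mathlib + S28/Defs (for `IrredOver`) only.
-/
import Fermat.Agent.S28.Defs

set_option autoImplicit false

noncomputable section

namespace Fermat.Agent.S28

open Polynomial

section Lift

variable {L : Type*} [Field L]

/-- A monic polynomial with coefficients in a subfield is the image of a monic polynomial over
the subfield. -/
theorem twist_exists_lift (E : Subfield L) {a : Polynomial L} (ha : a.Monic)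
    (hcoeff : ∀ i, a.coeff i ∈ (E : Set L)) :
    ∃ a₀ : Polynomial E, a₀.map E.subtype = a ∧ a₀.Monic ∧ a₀.natDegree = a.natDegree := by
  have hlift : a ∈ Polynomial.lifts E.subtype := by
    rw [Polynomial.lifts_iff_coeff_lifts]
    intro n
    exact ⟨⟨a.coeff n, hcoeff n⟩, rfl⟩
  obtain ⟨q, hq, hdeg, hmon⟩ := Polynomial.lifts_and_natDegree_eq_and_monic hlift ha
  exact ⟨q, hq, hmon, hdeg⟩

end Lift

section Twist

variable {T : Type*} [Field T]

/-- Orbits: if `R = {τ^b r₀ : b < p}` and `τ^p r₀ = r₀`, then `τ` is transitive on `R`. -/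
theorem twist_trans_of_orbit [DecidableEq T] (τ : T → T) (r₀ : T) (p : ℕ) (hp : τ^[p] r₀ = r₀)
    (R : Finset T) (hR : R = (Finset.range p).image (fun b => τ^[b] r₀)) :
    ∀ S : Finset T, S ⊆ R → (∀ r ∈ S, τ r ∈ S) → S = ∅ ∨ S = R := by
  intro S hSR hS
  rcases S.eq_empty_or_nonempty with h | ⟨s, hs⟩
  · exact Or.inl h
  right
  refine Finset.Subset.antisymm hSR ?_
  have hs' := hSR hs
  rw [hR, Finset.mem_image] at hs'
  obtain ⟨b, hb, rfl⟩ := hs'
  have hiter : ∀ n : ℕ, τ^[n + b] r₀ ∈ S := by
    intro n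
    induction n with
    | zero => simpa using hs
    | succ n ih =>
      rw [Nat.succ_add, Function.iterate_succ_apply']
      exact hS _ ih
  have hper : ∀ n m : ℕ, τ^[n + p * m] r₀ = τ^[n] r₀ := by
    intro n m
    induction m with
    | zero => simp
    | succ m ih =>
      rw [Nat.mul_succ, ← Nat.add_assoc, Function.iterate_add_apply, hp, ih]
  intro r hr
  rw [hR, Finset.mem_image] at hr
  obtain ⟨b', hb', rfl⟩ := hr
  have hbp : b < p := Finset.mem_range.mp hb
  have h1 : τ^[b' + p * 1] r₀ = τ^[b'] r₀ := hper b' 1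
  rw [← h1]
  have h2 : b' + p * 1 = (b' + p - b) + b := by omega
  rw [h2]
  exact hiter _

/-- The core of the twist argument: `A * B = ∏_{r ∈ R} (X - r)` with `A` fixed by `τ` and `τ`
transitive on `R`: then `A` has either no root or all roots in `R`. -/
theorem twist_core (τ : T →+* T) {A : Polynomial T} (hA : A.map τ = A)
    (R : Finset T) (hτR : ∀ r ∈ R, τ r ∈ R)
    (htrans : ∀ S : Finset T, S ⊆ R → (∀ r ∈ S, τ r ∈ S) → S = ∅ ∨ S = R) :
    (∀ r ∈ R, ¬ A.IsRoot r) ∨ (∀ r ∈ R, A.IsRoot r) := by
  classical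
  have hS : ∀ r ∈ R.filter (fun r => A.IsRoot r), τ r ∈ R.filter (fun r => A.IsRoot r) := by
    intro r hr
    rw [Finset.mem_filter] at hr ⊢
    refine ⟨hτR r hr.1, ?_⟩
    have h1 : (A.map τ).IsRoot (τ r) := hr.2.map
    rwa [hA] at h1
  rcases htrans _ (Finset.filter_subset _ _) hS with h | h
  · left
    intro r hr hroot
    have : r ∈ R.filter (fun r => A.IsRoot r) := Finset.mem_filter.mpr ⟨hr, hroot⟩
    rw [h] at this
    exact absurd this (Finset.notMem_empty r)
  · right
    intro r hr
    rw [← h] at hr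
    exact (Finset.mem_filter.mp hr).2

/-- A nonzero polynomial vanishing on a finset has degree at least its cardinality. -/
theorem twist_card_le_natDegree {A : Polynomial T} (hA : A ≠ 0) (R : Finset T)
    (h : ∀ r ∈ R, A.IsRoot r) : R.card ≤ A.natDegree := by
  classical
  have hsub : R ⊆ A.roots.toFinset := by
    intro r hr
    rw [Multiset.mem_toFinset, Polynomial.mem_roots hA]
    exact h r hr
  calc R.card ≤ A.roots.toFinset.card := Finset.card_le_card hsub
    _ ≤ Multiset.card A.roots := Multiset.toFinset_card_le _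
    _ ≤ A.natDegree := Polynomial.card_roots' A

end Twist

section Main

variable {L T : Type*} [Field L] [Field T]

/-- **Twist argument, one orbit.** Let `E` be a subfield of `L`, `ι : E →+* T` an embedding whose
image is fixed by a ring endomorphism `τ` of `T`.  If `f ∈ E[X]` splits over `T` (via `ι`) with
distinct roots `R` permuted transitively by `τ`, then `f` has no nontrivial monic factorisation
with coefficients in `E`. -/
theorem irredOver_of_twist (E : Subfield L) (ι : E →+* T) (τ : T →+* T)
    (hτ : ∀ e : E, τ (ι e) = ι e) (f : Polynomial E) (R : Finset T)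
    (hf : f.map ι = ∏ r ∈ R, (X - C r)) (hτR : ∀ r ∈ R, τ r ∈ R)
    (htrans : ∀ S : Finset T, S ⊆ R → (∀ r ∈ S, τ r ∈ S) → S = ∅ ∨ S = R) :
    IrredOver (E : Set L) (f.map E.subtype) := by
  classical
  intro a b ha hb hae hbe hab
  obtain ⟨a₀, rfl, ha₀, -⟩ := twist_exists_lift E ha hae
  obtain ⟨b₀, rfl, hb₀, -⟩ := twist_exists_lift E hb hbe
  have hinj : Function.Injective (Polynomial.map E.subtype) :=
    Polynomial.map_injective _ E.subtype.injective
  have hab₀ : a₀ * b₀ = f := hinj (by rw [Polynomial.map_mul, hab])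
  have hAB : a₀.map ι * b₀.map ι = ∏ r ∈ R, (X - C r) := by
    rw [← Polynomial.map_mul, hab₀, hf]
  have hτι : τ.comp ι = ι := RingHom.ext hτ
  have hAτ : (a₀.map ι).map τ = a₀.map ι := by rw [Polynomial.map_map, hτι]
  have hAmon : (a₀.map ι).Monic := ha₀.map ι
  have hBmon : (b₀.map ι).Monic := hb₀.map ι
  have hdeg : (a₀.map ι).natDegree + (b₀.map ι).natDegree = R.card := by
    rw [← Polynomial.Monic.natDegree_mul hAmon hBmon, hAB,
      Polynomial.natDegree_finsetProd_X_sub_C_eq_card]
  have hroot : ∀ r ∈ R, (a₀.map ι * b₀.map ι).IsRoot r := by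
    intro r hr
    rw [hAB, Polynomial.IsRoot.def, Polynomial.eval_prod]
    exact Finset.prod_eq_zero hr (by simp)
  rcases twist_core τ hAτ R hτR htrans with h | h
  · -- no root of `A` in `R`: all roots belong to `B`, so `a = 1`
    left
    have hB : ∀ r ∈ R, (b₀.map ι).IsRoot r := by
      intro r hr
      have := hroot r hr
      rw [Polynomial.IsRoot.def, Polynomial.eval_mul, mul_eq_zero] at this
      exact this.resolve_left (h r hr)
    have hcard := twist_card_le_natDegree hBmon.ne_zero R hB
    have hA0 : (a₀.map ι).natDegree = 0 := by omega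
    have ha0 : a₀.natDegree = 0 := by rwa [ha₀.natDegree_map] at hA0
    rw [ha₀.natDegree_eq_zero.mp ha0, Polynomial.map_one]
  · right
    have hcard := twist_card_le_natDegree hAmon.ne_zero R h
    have hB0 : (b₀.map ι).natDegree = 0 := by omega
    have hb0 : b₀.natDegree = 0 := by rwa [hb₀.natDegree_map] at hB0
    rw [hb₀.natDegree_eq_zero.mp hb0, Polynomial.map_one]

/-- A monic polynomial of degree one over `E` whose image has the root `ρ` forces
`ρ ∈ range ι`. -/
theorem twist_mem_range_of_natDegree_one (E : Subfield L) (ι : E →+* T) {b₀ : Polynomial E}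
    (hb₀ : b₀.Monic) (hdeg : b₀.natDegree = 1) {ρ : T} (hρ : (b₀.map ι).IsRoot ρ) :
    ρ ∈ Set.range ι := by
  have h1 : b₀ = X + C (b₀.coeff 0) := by
    have := Polynomial.eq_X_add_C_of_natDegree_le_one (p := b₀) (by rw [hdeg])
    rw [this]
    have hlead : b₀.coeff 1 = 1 := by
      have := hb₀.coeff_natDegree
      rwa [hdeg] at this
    rw [hlead]
    simp
  rw [h1, Polynomial.map_add, Polynomial.map_X, Polynomial.map_C, Polynomial.IsRoot.def,
    Polynomial.eval_add, Polynomial.eval_X, Polynomial.eval_C] at hρ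
  refine ⟨-b₀.coeff 0, ?_⟩
  rw [map_neg]
  exact (eq_neg_of_add_eq_zero_left hρ).symm

/-- **Twist argument, one orbit plus a fixed root.** As `irredOver_of_twist`, but `f` has one
more root `ρ₀`, which is not in the image of `ι`. -/
theorem irredOver_of_twist' (E : Subfield L) (ι : E →+* T) (τ : T →+* T)
    (hτ : ∀ e : E, τ (ι e) = ι e) (f : Polynomial E) (R : Finset T) (ρ₀ : T)
    (hρ₀R : ρ₀ ∉ R) (hρ₀ : ρ₀ ∉ Set.range ι)
    (hf : f.map ι = (X - C ρ₀) * ∏ r ∈ R, (X - C r)) (hτR : ∀ r ∈ R, τ r ∈ R)
    (htrans : ∀ S : Finset T, S ⊆ R → (∀ r ∈ S, τ r ∈ S) → S = ∅ ∨ S = R) :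
    IrredOver (E : Set L) (f.map E.subtype) := by
  classical
  intro a b ha hb hae hbe hab
  obtain ⟨a₀, rfl, ha₀, -⟩ := twist_exists_lift E ha hae
  obtain ⟨b₀, rfl, hb₀, -⟩ := twist_exists_lift E hb hbe
  have hinj : Function.Injective (Polynomial.map E.subtype) :=
    Polynomial.map_injective _ E.subtype.injective
  have hab₀ : a₀ * b₀ = f := hinj (by rw [Polynomial.map_mul, hab])
  have hAB : a₀.map ι * b₀.map ι = (X - C ρ₀) * ∏ r ∈ R, (X - C r) := by
    rw [← Polynomial.map_mul, hab₀, hf]
  have hτι : τ.comp ι = ι := RingHom.ext hτ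
  have hAτ : (a₀.map ι).map τ = a₀.map ι := by rw [Polynomial.map_map, hτι]
  have hAmon : (a₀.map ι).Monic := ha₀.map ι
  have hBmon : (b₀.map ι).Monic := hb₀.map ι
  have hdeg : (a₀.map ι).natDegree + (b₀.map ι).natDegree = R.card + 1 := by
    rw [← Polynomial.Monic.natDegree_mul hAmon hBmon, hAB,
      Polynomial.Monic.natDegree_mul (Polynomial.monic_X_sub_C ρ₀)
        (Polynomial.monic_prod_of_monic _ _ fun r _ => Polynomial.monic_X_sub_C r),
      Polynomial.natDegree_finsetProd_X_sub_C_eq_card, Polynomial.natDegree_X_sub_C, add_comm]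
  have hroot : ∀ r ∈ R, (a₀.map ι * b₀.map ι).IsRoot r := by
    intro r hr
    rw [hAB, Polynomial.IsRoot.def, Polynomial.eval_mul, Polynomial.eval_prod]
    rw [Finset.prod_eq_zero hr (by simp), mul_zero]
  have hroot₀ : (a₀.map ι * b₀.map ι).IsRoot ρ₀ := by
    rw [hAB, Polynomial.IsRoot.def, Polynomial.eval_mul]
    simp
  have hρ₀AB : (a₀.map ι).IsRoot ρ₀ ∨ (b₀.map ι).IsRoot ρ₀ := by
    rw [Polynomial.IsRoot.def, Polynomial.eval_mul, mul_eq_zero] at hroot₀
    exact hroot₀
  -- degree of a polynomial vanishing on `insert ρ₀ R`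
  have hins : ∀ P : Polynomial T, P ≠ 0 → (∀ r ∈ R, P.IsRoot r) → P.IsRoot ρ₀ →
      R.card + 1 ≤ P.natDegree := by
    intro P hP hPR hPρ
    have := twist_card_le_natDegree hP (insert ρ₀ R) (by
      intro r hr
      rcases Finset.mem_insert.mp hr with rfl | hr
      · exact hPρ
      · exact hPR r hr)
    rwa [Finset.card_insert_of_notMem hρ₀R] at this
  rcases twist_core τ hAτ R hτR htrans with h | h
  · -- no root of `A` in `R`
    have hB : ∀ r ∈ R, (b₀.map ι).IsRoot r := by
      intro r hr
      have := hroot r hr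
      rw [Polynomial.IsRoot.def, Polynomial.eval_mul, mul_eq_zero] at this
      exact this.resolve_left (h r hr)
    have hcard := twist_card_le_natDegree hBmon.ne_zero R hB
    rcases hρ₀AB with hA | hBρ
    · -- then `A = X - ρ₀`: impossible
      exfalso
      have hA1 : 1 ≤ (a₀.map ι).natDegree := by
        by_contra hlt
        have h0 : (a₀.map ι).natDegree = 0 := by omega
        rw [hAmon.natDegree_eq_zero.mp h0] at hA
        simp at hA
      have hA1' : a₀.natDegree = 1 := by
        rw [← ha₀.natDegree_map ι]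
        omega
      exact hρ₀ (twist_mem_range_of_natDegree_one E ι ha₀ hA1' hA)
    · left
      have := hins _ hBmon.ne_zero hB hBρ
      have hA0 : (a₀.map ι).natDegree = 0 := by omega
      have ha0 : a₀.natDegree = 0 := by rwa [ha₀.natDegree_map] at hA0
      rw [ha₀.natDegree_eq_zero.mp ha0, Polynomial.map_one]
  · have hcard := twist_card_le_natDegree hAmon.ne_zero R h
    rcases hρ₀AB with hA | hBρ
    · right
      have := hins _ hAmon.ne_zero h hA
      have hB0 : (b₀.map ι).natDegree = 0 := by omega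
      have hb0 : b₀.natDegree = 0 := by rwa [hb₀.natDegree_map] at hB0
      rw [hb₀.natDegree_eq_zero.mp hb0, Polynomial.map_one]
    · exfalso
      have hB1 : 1 ≤ (b₀.map ι).natDegree := by
        by_contra hlt
        have h0 : (b₀.map ι).natDegree = 0 := by omega
        rw [hBmon.natDegree_eq_zero.mp h0] at hBρ
        simp at hBρ
      have hB1' : b₀.natDegree = 1 := by
        rw [← hb₀.natDegree_map ι]
        omega
      exact hρ₀ (twist_mem_range_of_natDegree_one E ι hb₀ hB1' hBρ)

end Main

end Fermat.Agent.S28
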