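/-
S28 (Igusa) support library, block [L] (char `ℓ`): irreducibility of the chain step polynomial
`Φ_p(X, j(q^(p^(a-1)))) / (X - j(q^(p^(a-2))))` over `chainField ℓ M p (a - 1)`.
Owner: helper59.
-/
import Fermat.Agent.S28.CuspEmb
import Fermat.Agent.S28.TwistIrred
import Fermat.Agent.S28.Twist
import Fermat.Agent.S28.Roots

set_option autoImplicit false

noncomputable section

namespace Fermat.Agent.S28

open ModularCurve Polynomial

section Aux

variable {k : Type*} [Field k]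

/-- Iterating the twist `q ↦ ξ q` on `J δ M`. -/
theorem IrredChain.iterate_subst_J {ξ δ : k} (hξ : ξ ≠ 0) (hδ : δ ≠ 0) {M : ℕ} (hM : M ≠ 0)
    (b : ℕ) : (subst ξ 1)^[b] (J δ M) = J ((ξ ^ M) ^ b * δ) M := by
  induction b with
  | zero => simp
  | succ b ih =>
    rw [Function.iterate_succ_apply', ih,
      subst_J hξ (mul_ne_zero (pow_ne_zero _ (pow_ne_zero _ hξ)) hδ) one_ne_zero hM, one_mul,
      pow_succ]
    congr 1
    ring

end Aux

/-- The root-chasing clause of the cusp embedding implies that the image of the level `M` field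
consists of series in `q ^ p` (when `D = M * p ^ a`, `a ≥ 1`). -/
theorem IrredChain.range_of_chase (ℓ : ℕ) [Fact ℓ.Prime] (p : ℕ) [NeZero p] (M a : ℕ) [NeZero M]
    (ha : 1 ≤ a) [NeZero (M * p ^ a)]
    (Ψ : ↥(modularFunctionFieldFullC (ZMod ℓ) (M * p ^ a)) →+*
      LaurentSeries (AlgebraicClosure (ZMod ℓ)))
    (hchase : ∀ d : ℕ, d ∣ M * p ^ a →
      ∀ x : ↥(modularFunctionFieldFullC (ZMod ℓ) (M * p ^ a)),
        (x : LaurentSeries (ZMod ℓ)) = jd (ZMod ℓ) d →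
        ∃ (c : AlgebraicClosure (ZMod ℓ)) (e : ℕ), c ≠ 0 ∧ e ≠ 0 ∧ (M * p ^ a / d) ∣ e ∧
          Ψ x = J c e)
    (x : ↥(modularFunctionFieldFullC (ZMod ℓ) (M * p ^ a)))
    (hx : (x : LaurentSeries (ZMod ℓ)) ∈ modularFunctionFieldFullC (ZMod ℓ) M) :
    Ψ x ∈ Set.range (qExpand (AlgebraicClosure (ZMod ℓ)) p) := by
  haveI : NeZero ℓ := ⟨(Fact.out : ℓ.Prime).ne_zero⟩
  have hle : Subfield.closure (Set.range (algebraMap (ZMod ℓ) (LaurentSeries (ZMod ℓ))) ∪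
        divisorExpansionsC (ZMod ℓ) M) ≤
      (((qExpand (AlgebraicClosure (ZMod ℓ)) p).fieldRange.comap Ψ).map
        ((modularFunctionFieldFullC (ZMod ℓ) (M * p ^ a)).val :
          ↥(modularFunctionFieldFullC (ZMod ℓ) (M * p ^ a)) →+* LaurentSeries (ZMod ℓ))) := by
    rw [Subfield.closure_le]
    rintro z (⟨c, rfl⟩ | ⟨d, hdne, hdM, rfl⟩)
    · refine ⟨algebraMap (ZMod ℓ) ↥(modularFunctionFieldFullC (ZMod ℓ) (M * p ^ a)) c, ?_, rfl⟩
      have hc : algebraMap (ZMod ℓ) ↥(modularFunctionFieldFullC (ZMod ℓ) (M * p ^ a)) c =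
          ((c.val : ℕ) : ↥(modularFunctionFieldFullC (ZMod ℓ) (M * p ^ a))) := by
        rw [← map_natCast (algebraMap (ZMod ℓ) ↥(modularFunctionFieldFullC (ZMod ℓ) (M * p ^ a))),
          ZMod.natCast_zmod_val]
      rw [hc]
      exact natCast_mem ((qExpand (AlgebraicClosure (ZMod ℓ)) p).fieldRange.comap Ψ) c.val
    · haveI := hdne
      have hdD : d ∣ M * p ^ a := Dvd.dvd.mul_right hdM _
      have hzL : qExpand (ZMod ℓ) d (jqModC (ZMod ℓ)) ∈
          modularFunctionFieldFullC (ZMod ℓ) (M * p ^ a) := jqModCd_mem_full (ZMod ℓ) _ hdD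
      refine ⟨⟨_, hzL⟩, ?_, rfl⟩
      obtain ⟨c, e, hc, he, hDe, hΨ⟩ := hchase d hdD ⟨_, hzL⟩ (jd_eq (ZMod ℓ) d).symm
      have hpe : p ∣ e := by
        refine Dvd.dvd.trans ?_ hDe
        obtain ⟨m, rfl⟩ := hdM
        rw [mul_assoc, Nat.mul_div_cancel_left _ (Nat.pos_of_ne_zero (NeZero.ne d))]
        exact Dvd.dvd.mul_left (dvd_pow_self p (by omega)) m
      obtain ⟨g, hg⟩ := J_mem_range_qExpand hc he p hpe
      exact ⟨g, by rw [hg, ← hΨ]⟩
  obtain ⟨x', hx', hxx'⟩ := hle hx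
  have hxeq : x' = x := Subtype.ext hxx'
  rw [← hxeq]
  obtain ⟨g, hg⟩ := hx'
  exact ⟨g, hg⟩

/-- Chain step for an abstract cusp embedding `Ψ` (with the properties provided by
`exists_cuspEmb`) and with the root factorisation of `Φ_p(X, J(δ^p, pM))` (block L1) as a
hypothesis. -/
theorem irred_chain_of_emb (ℓ : ℕ) [Fact ℓ.Prime]
    (p M a : ℕ) [NeZero M] (hp : p.Prime) (hpM : ¬ p ∣ M) (hℓ : ¬ ℓ ∣ p * M) (ha : 2 ≤ a)
    (hd : HeckeData p) [NeZero p] [NeZero (M * p ^ a)]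
    (Ψ : ↥(modularFunctionFieldFullC (ZMod ℓ) (M * p ^ a)) →+*
      LaurentSeries (AlgebraicClosure (ZMod ℓ)))
    (hrange : ∀ x : ↥(modularFunctionFieldFullC (ZMod ℓ) (M * p ^ a)),
      (x : LaurentSeries (ZMod ℓ)) ∈ modularFunctionFieldFullC (ZMod ℓ) M →
      Ψ x ∈ Set.range (qExpand (AlgebraicClosure (ZMod ℓ)) p))
    (γ : ℕ → AlgebraicClosure (ZMod ℓ)) (hγ0 : ∀ c, γ c ≠ 0)
    (hγp : ∀ c, c < a → γ (c + 1) ^ p = γ c)
    (hchain : ∀ c, c ≤ a → ∀ x : ↥(modularFunctionFieldFullC (ZMod ℓ) (M * p ^ a)),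
      (x : LaurentSeries (ZMod ℓ)) = jd (ZMod ℓ) (p ^ c) → Ψ x = J (γ c) (M * p ^ (a - c)))
    (hPhi : ∀ ζ δ : AlgebraicClosure (ZMod ℓ), IsPrimitiveRoot ζ p → δ ≠ 0 →
      PhiAt hd.Φ (J (δ ^ p) (p * M)) =
        (X - C (J (δ ^ p ^ 2) (p ^ 2 * M))) *
          ∏ b ∈ Finset.range p, (X - C (J (ζ ^ b * δ) M))) :
    IrredOver (chainField ℓ M p (a - 1) : Set (LaurentSeries (ZMod ℓ)))
      (PhiAt hd.Φ (jd (ZMod ℓ) (p ^ (a - 1))) /ₘ (X - C (jd (ZMod ℓ) (p ^ (a - 2))))) := by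
  classical
  have hM : M ≠ 0 := NeZero.ne M
  have hp0 : p ≠ 0 := hp.ne_zero
  haveI : NeZero ℓ := ⟨(Fact.out : ℓ.Prime).ne_zero⟩
  -- a primitive `p`-th root of unity in `k`
  have hℓp : ¬ ℓ ∣ p := fun h => hℓ (Dvd.dvd.mul_right h M)
  have hpk : (p : AlgebraicClosure (ZMod ℓ)) ≠ 0 := fun h =>
    hℓp ((CharP.cast_eq_zero_iff (AlgebraicClosure (ZMod ℓ)) ℓ p).mp h)
  haveI : NeZero (p : AlgebraicClosure (ZMod ℓ)) := ⟨hpk⟩
  obtain ⟨ξ, hξ⟩ := HasEnoughRootsOfUnity.exists_primitiveRoot (AlgebraicClosure (ZMod ℓ)) p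
  have hξ0 : ξ ≠ 0 := hξ.ne_zero hp0
  have hζ : IsPrimitiveRoot (ξ ^ M) p :=
    hξ.pow_of_coprime M ((Nat.Prime.coprime_iff_not_dvd hp).mpr hpM).symm
  -- the chain field sits inside the big field
  have hjmem : ∀ c, c ≤ a → jd (ZMod ℓ) (p ^ c) ∈ modularFunctionFieldFullC (ZMod ℓ) (M * p ^ a) := by
    intro c hc
    haveI : NeZero (p ^ c) := ⟨pow_ne_zero _ hp0⟩
    rw [jd_eq]
    exact jqModCd_mem_full (ZMod ℓ) (M * p ^ a) (Dvd.dvd.mul_left (pow_dvd_pow p hc) M)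
  have hEL : ∀ x, x ∈ chainField ℓ M p (a - 1) →
      x ∈ modularFunctionFieldFullC (ZMod ℓ) (M * p ^ a) := by
    intro x hx
    have hle : chainField ℓ M p (a - 1) ≤
        (modularFunctionFieldFullC (ZMod ℓ) (M * p ^ a)).toSubfield := by
      unfold chainField
      rw [Subfield.closure_le]
      rintro y (hy | ⟨c, hc, rfl⟩)
      · exact full_degeneracyC_le (ZMod ℓ) (Dvd.intro _ rfl) hy
      · exact hjmem c (by omega)
    exact hle hx
  -- the embedding restricted to the chain field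
  let ιE : ↥(chainField ℓ M p (a - 1)) →+* ↥(modularFunctionFieldFullC (ZMod ℓ) (M * p ^ a)) :=
    { toFun := fun x => ⟨x.1, hEL x.1 x.2⟩
      map_one' := rfl
      map_mul' := fun _ _ => rfl
      map_zero' := rfl
      map_add' := fun _ _ => rfl }
  -- the image of the chain field consists of series in `q ^ p`
  have hfix : ∀ e : ↥(chainField ℓ M p (a - 1)),
      Ψ (ιE e) ∈ (qExpand (AlgebraicClosure (ZMod ℓ)) p).fieldRange := by
    have hle : chainField ℓ M p (a - 1) ≤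
        (((qExpand (AlgebraicClosure (ZMod ℓ)) p).fieldRange.comap Ψ).map
          ((modularFunctionFieldFullC (ZMod ℓ) (M * p ^ a)).val :
            ↥(modularFunctionFieldFullC (ZMod ℓ) (M * p ^ a)) →+* LaurentSeries (ZMod ℓ))) := by
      unfold chainField
      rw [Subfield.closure_le]
      rintro y (hy | ⟨c, hc, rfl⟩)
      · have hyL : y ∈ modularFunctionFieldFullC (ZMod ℓ) (M * p ^ a) :=
          full_degeneracyC_le (ZMod ℓ) (Dvd.intro _ rfl) hy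
        refine ⟨⟨y, hyL⟩, ?_, rfl⟩
        obtain ⟨g, hg⟩ := hrange ⟨y, hyL⟩ hy
        exact ⟨g, hg⟩
      · have hca : c ≤ a := by omega
        refine ⟨⟨_, hjmem c hca⟩, ?_, rfl⟩
        have h1 := hchain c hca ⟨_, hjmem c hca⟩ rfl
        have h2 : p ∣ M * p ^ (a - c) :=
          Dvd.dvd.mul_left (dvd_pow_self p (by omega)) M
        obtain ⟨g, hg⟩ := J_mem_range_qExpand (hγ0 c)
          (Nat.mul_ne_zero hM (pow_ne_zero _ hp0)) p h2
        exact ⟨g, by rw [hg, ← h1]⟩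
    intro e
    obtain ⟨x, hx, hxe⟩ := hle e.2
    have : x = ιE e := Subtype.ext hxe
    rw [← this]
    exact hx
  have hτ : ∀ e : ↥(chainField ℓ M p (a - 1)),
      subst ξ 1 ((Ψ.comp ιE) e) = (Ψ.comp ιE) e := by
    intro e
    obtain ⟨g, hg⟩ := hfix e
    rw [RingHom.comp_apply, ← hg]
    exact subst_root_qExpand hξ.pow_eq_one g
  -- the two relevant elements of the chain field and their images
  have hy1 : jd (ZMod ℓ) (p ^ (a - 1)) ∈ chainField ℓ M p (a - 1) :=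
    Subfield.subset_closure (Or.inr ⟨a - 1, le_rfl, rfl⟩)
  have hy2 : jd (ZMod ℓ) (p ^ (a - 2)) ∈ chainField ℓ M p (a - 1) :=
    Subfield.subset_closure (Or.inr ⟨a - 2, by omega, rfl⟩)
  have hΨ1 : (Ψ.comp ιE) ⟨_, hy1⟩ = J (γ (a - 1)) (M * p) := by
    have h := hchain (a - 1) (by omega) (ιE ⟨_, hy1⟩) rfl
    have h' : a - (a - 1) = 1 := by omega
    rw [h', pow_one] at h
    exact h
  have hΨ2 : (Ψ.comp ιE) ⟨_, hy2⟩ = J (γ (a - 2)) (M * p ^ 2) := by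
    have h := hchain (a - 2) (by omega) (ιE ⟨_, hy2⟩) rfl
    have h' : a - (a - 2) = 2 := by omega
    rw [h'] at h
    exact h
  -- a `p`-th root `δ` of `γ (a - 1)`
  obtain ⟨δ, hδ⟩ := IsAlgClosed.exists_pow_nat_eq (γ (a - 1)) (Nat.pos_of_ne_zero hp0)
  have hδ0 : δ ≠ 0 := by
    rintro rfl
    rw [zero_pow hp0] at hδ
    exact hγ0 (a - 1) hδ.symm
  have hγ12 : γ (a - 1) ^ p = γ (a - 2) := by
    have h := hγp (a - 2) (by omega)
    have h' : a - 2 + 1 = a - 1 := by omega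
    rwa [h'] at h
  have hδ2 : δ ^ p ^ 2 = γ (a - 2) := by
    rw [pow_two, pow_mul, hδ, hγ12]
  have hw : ∀ b : ℕ, (ξ ^ M) ^ b * δ ≠ 0 := fun b =>
    mul_ne_zero (pow_ne_zero _ (pow_ne_zero _ hξ0)) hδ0
  -- the factorisation of the image of the modular polynomial
  have hfact : PhiAt hd.Φ ((Ψ.comp ιE) ⟨_, hy1⟩) =
      (X - C ((Ψ.comp ιE) ⟨_, hy2⟩)) *
        ∏ b ∈ Finset.range p, (X - C (J ((ξ ^ M) ^ b * δ) M)) := by
    rw [hΨ1, hΨ2, ← hδ, ← hδ2, mul_comm M p, mul_comm M (p ^ 2)]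
    exact hPhi (ξ ^ M) δ hζ hδ0
  have hfG : (PhiAt hd.Φ (⟨_, hy1⟩ : ↥(chainField ℓ M p (a - 1))) /ₘ
        (X - C (⟨_, hy2⟩ : ↥(chainField ℓ M p (a - 1))))).map
        (chainField ℓ M p (a - 1)).subtype =
      PhiAt hd.Φ (jd (ZMod ℓ) (p ^ (a - 1))) /ₘ (X - C (jd (ZMod ℓ) (p ^ (a - 2)))) := by
    rw [Polynomial.map_divByMonic _ (monic_X_sub_C _), PhiAt_map, Polynomial.map_sub,
      Polynomial.map_X, Polynomial.map_C]
    rfl
  have hfι : (PhiAt hd.Φ (⟨_, hy1⟩ : ↥(chainField ℓ M p (a - 1))) /ₘ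
        (X - C (⟨_, hy2⟩ : ↥(chainField ℓ M p (a - 1))))).map (Ψ.comp ιE) =
      ∏ b ∈ Finset.range p, (X - C (J ((ξ ^ M) ^ b * δ) M)) := by
    rw [Polynomial.map_divByMonic _ (monic_X_sub_C _), PhiAt_map, Polynomial.map_sub,
      Polynomial.map_X, Polynomial.map_C, hfact]
    exact mul_divByMonic_cancel_left _ (monic_X_sub_C _)
  -- the orbit of `J δ M` under the twist
  have hiter : ∀ b : ℕ, (subst ξ 1)^[b] (J δ M) = J ((ξ ^ M) ^ b * δ) M :=
    fun b => IrredChain.iterate_subst_J hξ0 hδ0 hM b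
  have hper : (subst ξ 1)^[p] (J δ M) = J δ M := by
    rw [hiter, ← pow_mul, mul_comm M p, pow_mul, hξ.pow_eq_one, one_pow, one_mul]
  have hinj : Set.InjOn (fun b => (subst ξ 1)^[b] (J δ M)) (Finset.range p : Set ℕ) := by
    intro b hb b' hb' h
    have h' : J ((ξ ^ M) ^ b * δ) M = J ((ξ ^ M) ^ b' * δ) M := by
      rw [← hiter, ← hiter]
      exact h
    have h1 := J_injective_left (hw b) (hw b') hM h'
    have h2 := mul_right_cancel₀ hδ0 h1
    exact hζ.pow_inj (Finset.mem_range.mp (Finset.mem_coe.mp hb))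
      (Finset.mem_range.mp (Finset.mem_coe.mp hb')) h2
  have hprod : (PhiAt hd.Φ (⟨_, hy1⟩ : ↥(chainField ℓ M p (a - 1))) /ₘ
        (X - C (⟨_, hy2⟩ : ↥(chainField ℓ M p (a - 1))))).map (Ψ.comp ιE) =
      ∏ r ∈ (Finset.range p).image (fun b => (subst ξ 1)^[b] (J δ M)), (X - C r) := by
    rw [hfι, Finset.prod_image hinj]
    refine Finset.prod_congr rfl fun b _ => ?_
    rw [hiter]
  have hτR : ∀ r ∈ (Finset.range p).image (fun b => (subst ξ 1)^[b] (J δ M)),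
      subst ξ 1 r ∈ (Finset.range p).image (fun b => (subst ξ 1)^[b] (J δ M)) := by
    intro r hr
    rw [Finset.mem_image] at hr ⊢
    obtain ⟨b, hb, rfl⟩ := hr
    by_cases hb1 : b + 1 < p
    · exact ⟨b + 1, Finset.mem_range.mpr hb1, Function.iterate_succ_apply' _ _ _⟩
    · have hbp : b + 1 = p := by
        have := Finset.mem_range.mp hb
        omega
      refine ⟨0, Finset.mem_range.mpr (Nat.pos_of_ne_zero hp0), ?_⟩
      show J δ M = subst ξ 1 ((subst ξ 1)^[b] (J δ M))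
      have h3 : (subst ξ 1)^[b + 1] (J δ M) = subst ξ 1 ((subst ξ 1)^[b] (J δ M)) :=
        Function.iterate_succ_apply' _ _ _
      rw [← h3, hbp, hper]
  have key := irredOver_of_twist (chainField ℓ M p (a - 1)) (Ψ.comp ιE) (subst ξ 1) hτ _ _
    hprod hτR (twist_trans_of_orbit (subst ξ 1) (J δ M) p hper _ rfl)
  rw [hfG] at key
  exact key

/-- **Chain step.**  For `a ≥ 2`, `Φ_p(X, j(q^(p^(a-1)))) / (X - j(q^(p^(a-2))))` has no
nontrivial monic factorisation with coefficients in `chainField ℓ M p (a - 1)`. -/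
theorem irred_chain_of (ℓ : ℕ) [Fact ℓ.Prime] (hE : ∀ r : ℕ, r.Prime → Nonempty (HeckeData r))
    (p M a : ℕ) [NeZero M] (hp : p.Prime) (hpM : ¬ p ∣ M) (hℓ : ¬ ℓ ∣ p * M) (ha : 2 ≤ a)
    (hd : HeckeData p)
    (hirr : IrredOver (modularFunctionFieldFullC (ZMod ℓ) 1 : Set (LaurentSeries (ZMod ℓ)))
      (PhiAt hd.Φ (jd (ZMod ℓ) 1))) :
    IrredOver (chainField ℓ M p (a - 1) : Set (LaurentSeries (ZMod ℓ)))
      (PhiAt hd.Φ (jd (ZMod ℓ) (p ^ (a - 1))) /ₘ (X - C (jd (ZMod ℓ) (p ^ (a - 2))))) := by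
  haveI : NeZero p := ⟨hp.ne_zero⟩
  haveI : NeZero (M * p ^ a) := ⟨Nat.mul_ne_zero (NeZero.ne M) (pow_ne_zero _ hp.ne_zero)⟩
  obtain ⟨Ψ, hchase, γ, hγ0, -, -, hγp, hchain⟩ :=
    exists_cuspEmb ℓ hE hp hd hirr M a hpM hℓ (by omega) (M * p ^ a) rfl
  exact irred_chain_of_emb ℓ p M a hp hpM hℓ ha hd Ψ
    (fun x hx => IrredChain.range_of_chase ℓ p M a (by omega) Ψ hchase x hx) γ hγ0 hγp hchain
    (fun _ _ hζ hδ => PhiAt_J hp hd hζ hδ (NeZero.ne M))

end Fermat.Agent.S28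

end
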