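/-
S28 block [L] L2(i) (owner: helper77): CLAIM A.

For a prime `p` invertible in the field `F`, `j(q^p) ∉ F(j(q))` inside `F((q))`, given the
Hecke data (integrality polynomial `W` of `p^12 Δ(q^p)/Δ(q)` and the interpolation polynomial
`H`) and the separability of the root `j(q^p)` of `Φ_p(X, j)`.

Proof: otherwise `v := p^12 Δ(q^p)/Δ(q) ∈ F(j)` by `H_eq`; `v` is integral over `F[j]` by
`W_root`, hence `v = P(j)` with `P ∈ F[Y]` (`F[Y]` is integrally closed); but a nonzero polynomial
in `j` has a nonzero coefficient at `q^(-deg P)`, while `v = p^12 q^(p-1) (1 + …)`.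
-/
import Fermat.Agent.S28.Defs
import Fermat.Prelude.Thm_ModularCurve_coeff_jqModC_pow_self
import Fermat.Prelude.Thm_ModularCurve_coeff_jqModC_pow_of_lt

set_option autoImplicit false

noncomputable section

namespace Fermat.Agent.S28

open ModularCurve Polynomial

namespace ClaimA

section lower

variable {R : Type*} [CommRing R]

/-- Coefficients of a product below the sum of two lower bounds of the supports vanish. -/
theorem coeff_mul_of_lt {x y : LaurentSeries R} {n m : ℤ} (hx : ∀ i < n, x.coeff i = 0)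
    (hy : ∀ j < m, y.coeff j = 0) {k : ℤ} (hk : k < n + m) : (x * y).coeff k = 0 := by
  rw [HahnSeries.coeff_mul]
  refine Finset.sum_eq_zero fun ij hij => ?_
  have hsum : ij.1 + ij.2 = k := (Finset.mem_antidiagonal.mp hij).2.2
  by_cases h1 : ij.1 < n
  · rw [hx _ h1, zero_mul]
  · rw [hy _ (by omega), mul_zero]

/-- The coefficient of a product at the sum of two lower bounds of the supports. -/
theorem coeff_mul_of_eq {x y : LaurentSeries R} {n m : ℤ} (hx : ∀ i < n, x.coeff i = 0)
    (hy : ∀ j < m, y.coeff j = 0) : (x * y).coeff (n + m) = x.coeff n * y.coeff m := by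
  rw [HahnSeries.coeff_mul, Finset.sum_eq_single (n, m)]
  · intro ij hij hne
    have hsum : ij.1 + ij.2 = n + m := (Finset.mem_antidiagonal.mp hij).2.2
    by_cases h1 : ij.1 < n
    · rw [hx _ h1, zero_mul]
    · by_cases h2 : ij.2 < m
      · rw [hy _ h2, mul_zero]
      · exfalso
        apply hne
        have e1 : ij.1 = n := by omega
        have e2 : ij.2 = m := by omega
        exact Prod.ext e1 e2
  · intro hnot
    by_contra hne
    apply hnot
    rw [Finset.mem_antidiagonal]
    refine ⟨?_, ?_, rfl⟩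
    · intro h
      exact hne (by rw [show x.coeff n = 0 from h, zero_mul])
    · intro h
      exact hne (by rw [show y.coeff m = 0 from h, mul_zero])

theorem coeff_single_one_mul_ofPowerSeries_of_lt (a : ℤ) (f : PowerSeries R) {i : ℤ} (hi : i < a) :
    (HahnSeries.single a (1 : R) * HahnSeries.ofPowerSeries ℤ R f).coeff i = 0 := by
  rw [HahnSeries.coeff_single_mul, one_mul]
  exact ofPowerSeries_coeff_of_neg _ (by omega)

theorem coeff_single_one_mul_ofPowerSeries_self (a : ℤ) (f : PowerSeries R) :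
    (HahnSeries.single a (1 : R) * HahnSeries.ofPowerSeries ℤ R f).coeff a =
      PowerSeries.constantCoeff f := by
  rw [HahnSeries.coeff_single_mul, one_mul, sub_self, show (0 : ℤ) = ((0 : ℕ) : ℤ) from rfl,
    HahnSeries.ofPowerSeries_apply_coeff, PowerSeries.coeff_zero_eq_constantCoeff]

theorem qExpand_coeff_of_lt (p : ℕ) [NeZero p] {x : LaurentSeries R} {a : ℤ}
    (hx : ∀ i < a, x.coeff i = 0) {i : ℤ} (hi : i < (p : ℤ) * a) :
    (qExpand R p x).coeff i = 0 := by
  by_cases hdvd : (p : ℤ) ∣ i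
  · obtain ⟨c, rfl⟩ := hdvd
    rw [qExpand_coeff_mul]
    apply hx
    have hp : (0 : ℤ) < p := by exact_mod_cast Nat.pos_of_ne_zero (NeZero.ne p)
    exact lt_of_mul_lt_mul_left hi hp.le
  · exact qExpand_coeff_of_not_dvd p x hdvd

end lower

/-- The modular unit `Δ(q^p)/Δ(q)` over `ℤ` has no terms below `q^(p-1)`. -/
theorem uL_int_coeff_of_lt {p : ℕ} (hp : p ≠ 0) {n : ℤ} (hn : n < (p : ℤ) - 1) :
    (uL ℤ p).coeff n = 0 := by
  have : NeZero p := ⟨hp⟩
  unfold uL
  rw [dif_neg hp]
  have hx : ∀ i < (p : ℤ) * 1, (qExpand ℤ p (DeltaL ℤ)).coeff i = 0 := fun i hi =>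
    qExpand_coeff_of_lt p (fun i hi => coeff_single_one_mul_ofPowerSeries_of_lt 1 _ hi) hi
  have hy : ∀ j < (-1 : ℤ), (DeltaLInv ℤ).coeff j = 0 := fun j hj =>
    coeff_single_one_mul_ofPowerSeries_of_lt (-1) _ hj
  exact coeff_mul_of_lt hx hy (by omega)

/-- The coefficient of `q^(p-1)` in `Δ(q^p)/Δ(q)` is `1`. -/
theorem uL_int_coeff_self {p : ℕ} (hp : p ≠ 0) : (uL ℤ p).coeff ((p : ℤ) - 1) = 1 := by
  have : NeZero p := ⟨hp⟩
  unfold uL
  rw [dif_neg hp]
  have hx : ∀ i < (p : ℤ) * 1, (qExpand ℤ p (DeltaL ℤ)).coeff i = 0 := fun i hi =>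
    qExpand_coeff_of_lt p (fun i hi => coeff_single_one_mul_ofPowerSeries_of_lt 1 _ hi) hi
  have hy : ∀ j < (-1 : ℤ), (DeltaLInv ℤ).coeff j = 0 := fun j hj =>
    coeff_single_one_mul_ofPowerSeries_of_lt (-1) _ hj
  have h := coeff_mul_of_eq hx hy
  have e : (p : ℤ) - 1 = (p : ℤ) * 1 + -1 := by ring
  rw [e, h, qExpand_coeff_mul]
  have h1 : (DeltaL ℤ).coeff 1 = 1 := by
    unfold DeltaL
    rw [coeff_single_one_mul_ofPowerSeries_self, ← PowerSeries.coeff_zero_eq_constantCoeff,
      PowerSeries.coeff_map, PowerSeries.coeff_zero_eq_constantCoeff, constantCoeff_dedekindEtaUnit]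
    rfl
  have h2 : (DeltaLInv ℤ).coeff (-1) = 1 := by
    unfold DeltaLInv
    rw [coeff_single_one_mul_ofPowerSeries_self, ← PowerSeries.coeff_zero_eq_constantCoeff,
      PowerSeries.coeff_map, PowerSeries.coeff_zero_eq_constantCoeff,
      constantCoeff_dedekindEtaUnitInv]
    rfl
  rw [h1, h2, mul_one]

section field

variable (F : Type*) [Field F]

/-- The coefficient of `q^(-deg P)` in `P(j)` is the leading coefficient of `P`. -/
theorem coeff_aeval_jqModC (P : F[X]) :
    (Polynomial.aeval (jqModC F) P).coeff (-(P.natDegree : ℤ)) = P.coeff P.natDegree := by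
  rw [Polynomial.aeval_def, Polynomial.eval₂_eq_sum_range, HahnSeries.coeff_sum,
    Finset.sum_eq_single P.natDegree]
  · rw [algebraMap_laurentSeries_eq_single, HahnSeries.coeff_single_zero_mul,
      ModularCurve.coeff_jqModC_pow_self, mul_one]
  · intro i hi hin
    have hilt : i < P.natDegree :=
      lt_of_le_of_ne (Nat.lt_succ_iff.mp (Finset.mem_range.mp hi)) hin
    rw [algebraMap_laurentSeries_eq_single, HahnSeries.coeff_single_zero_mul,
      ModularCurve.coeff_jqModC_pow_of_lt, mul_zero]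
    omega
  · intro hn'
    exact absurd (Finset.self_mem_range_succ P.natDegree) hn'

theorem aeval_jqModC_injective :
    Function.Injective (Polynomial.aeval (R := F) (jqModC F)) := by
  rw [injective_iff_map_eq_zero]
  intro P hP
  by_contra hP0
  have h := coeff_aeval_jqModC F P
  rw [hP, HahnSeries.coeff_zero] at h
  exact hP0 (Polynomial.leadingCoeff_eq_zero.mp h.symm)

/-- An element of `F(j)` which is integral over `F[j]` is a polynomial in `j`. -/
theorem exists_poly_of_integral (j : LaurentSeries F)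
    (hj : Function.Injective (Polynomial.aeval (R := F) j))
    (v : LaurentSeries F) (hv : v ∈ IntermediateField.adjoin F {j})
    (Wf : Polynomial F[X]) (hW : Wf.Monic)
    (hroot : Polynomial.eval₂ (Polynomial.aeval (R := F) j).toRingHom v Wf = 0) :
    ∃ P : F[X], v = Polynomial.aeval j P := by
  obtain ⟨a, b, hab⟩ := (IntermediateField.mem_adjoin_simple_iff F v).mp hv
  by_cases hb : Polynomial.aeval j b = 0
  · refine ⟨0, ?_⟩
    rw [hab, hb, div_zero, map_zero]
  have hj' : Function.Injective (Polynomial.aeval (R := F) j).toRingHom := hj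
  let ψ : FractionRing F[X] →+* LaurentSeries F := IsFractionRing.lift hj'
  have hψ : ∀ c : F[X], ψ (algebraMap F[X] (FractionRing F[X]) c) = Polynomial.aeval j c :=
    fun c => IsFractionRing.lift_algebraMap hj' c
  set x : FractionRing F[X] :=
    algebraMap F[X] (FractionRing F[X]) a / algebraMap F[X] (FractionRing F[X]) b with hx
  have hψx : ψ x = v := by
    rw [hx, map_div₀, hψ, hψ, hab]
  have hint : IsIntegral F[X] x := by
    refine ⟨Wf, hW, ?_⟩
    apply ψ.injective
    rw [Polynomial.hom_eval₂, map_zero, hψx]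
    have hcomp : ψ.comp (algebraMap F[X] (FractionRing F[X])) =
        (Polynomial.aeval (R := F) j).toRingHom := RingHom.ext hψ
    rw [hcomp]
    exact hroot
  obtain ⟨y, hy⟩ := IsIntegrallyClosed.isIntegral_iff.mp hint
  exact ⟨y, by rw [← hψx, ← hy, hψ]⟩

/-- Evaluations of `PhiAt` stay inside any subfield containing the two arguments. -/
theorem eval_PhiAt_mem (E : IntermediateField F (LaurentSeries F)) {x y : LaurentSeries F}
    (hx : x ∈ E) (hy : y ∈ E) (Ψ : Polynomial (Polynomial ℤ)) : (PhiAt Ψ y).eval x ∈ E := by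
  rw [PhiAt, Polynomial.eval_map, Polynomial.eval₂_eq_sum_range]
  refine sum_mem fun i _ => mul_mem ?_ (pow_mem hx i)
  rw [Polynomial.coe_eval₂RingHom, Polynomial.eval₂_eq_sum_range]
  refine sum_mem fun k _ => mul_mem ?_ (pow_mem hy k)
  rw [eq_intCast]
  exact intCast_mem E _

end field

end ClaimA

open ClaimA in
/-- **CLAIM A.** For a prime `p` invertible in `F`, the series `j(q^p)` does not lie in the
subfield `F(j(q))` of `F((q))`. -/
theorem claimA (F : Type*) [Field F] {p : ℕ} (hp : p.Prime) (hpF : (p : F) ≠ 0)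
    (hd : HeckeData p)
    (hsep : (PhiAt (Polynomial.derivative hd.Φ) (jd F 1)).eval (jd F p) ≠ 0) :
    jd F p ∉ IntermediateField.adjoin F {jd F 1} := by
  intro hmem
  have hp0 : p ≠ 0 := hp.ne_zero
  set ι : ℤ →+* F := Int.castRingHom F with hι
  set E := IntermediateField.adjoin F {jd F 1} with hE
  have hjE : jd F 1 ∈ E := IntermediateField.mem_adjoin_simple_self F _
  -- the reduction of `p^12 Δ(q^p)/Δ(q)`
  set v : LaurentSeries F := coeffMap ι ((p : LaurentSeries ℤ) ^ 12 * uL ℤ p) with hv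
  have hcoeff : ∀ n : ℤ, v.coeff n = (p : F) ^ 12 * ι ((uL ℤ p).coeff n) := by
    intro n
    have h1 : ((p : LaurentSeries ℤ) ^ 12 * uL ℤ p) = ((p : ℤ) ^ 12) • uL ℤ p := by
      rw [← HahnSeries.C_mul_eq_smul, map_pow, map_natCast]
    rw [hv, coeffMap_coeff, h1, HahnSeries.coeff_smul, smul_eq_mul, map_mul, map_pow, hι]
    simp
  -- `H_eq` and `W_root` over `F`
  have hH : (PhiAt hd.H (jd F 1)).eval (jd F p) =
      v * (PhiAt (Polynomial.derivative hd.Φ) (jd F 1)).eval (jd F p) := by
    have h := congrArg (coeffMap ι) hd.H_eq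
    rw [map_mul, map_eval_PhiAt, map_eval_PhiAt, coeffMap_jd, coeffMap_jd] at h
    exact h
  have hWroot : (PhiAt hd.W (jd F 1)).eval v = 0 := by
    have h := congrArg (coeffMap ι) hd.W_root
    rw [map_eval_PhiAt, coeffMap_jd, map_zero] at h
    exact h
  -- `v ∈ F(j)`
  have hvE : v ∈ E := by
    have h1 := eval_PhiAt_mem F E hmem hjE hd.H
    have h2 := eval_PhiAt_mem F E hmem hjE (Polynomial.derivative hd.Φ)
    have : v = (PhiAt hd.H (jd F 1)).eval (jd F p) /
        (PhiAt (Polynomial.derivative hd.Φ) (jd F 1)).eval (jd F p) := by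
      rw [hH, mul_div_assoc, div_self hsep, mul_one]
    rw [this]
    exact div_mem h1 h2
  -- `v` is a polynomial in `j`
  have hj1 : jd F 1 = jqModC F := jd_one F
  have hinj : Function.Injective (Polynomial.aeval (R := F) (jd F 1)) := by
    rw [hj1]; exact aeval_jqModC_injective F
  have hWf : Polynomial.eval₂ (Polynomial.aeval (R := F) (jd F 1)).toRingHom v
      (hd.W.map (Polynomial.mapRingHom ι)) = 0 := by
    rw [Polynomial.eval₂_map]
    have hcomp : ((Polynomial.aeval (R := F) (jd F 1)).toRingHom).comp (Polynomial.mapRingHom ι) =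
        Polynomial.eval₂RingHom (Int.castRingHom (LaurentSeries F)) (jd F 1) := by
      refine Polynomial.ringHom_ext (fun a => ?_) ?_
      · simp [hι]
      · simp
    rw [hcomp]
    rw [PhiAt, Polynomial.eval_map] at hWroot
    exact hWroot
  obtain ⟨P, hP⟩ := exists_poly_of_integral F (jd F 1) hinj v hvE
    (hd.W.map (Polynomial.mapRingHom ι)) (hd.W_monic.map _) hWf
  rw [hj1] at hP
  by_cases hP0 : P = 0
  · -- `v = 0` contradicts the coefficient at `q^(p-1)`
    have h1 := hcoeff ((p : ℤ) - 1)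
    rw [uL_int_coeff_self hp0, map_one, mul_one, hP, hP0, map_zero, HahnSeries.coeff_zero] at h1
    exact pow_ne_zero 12 hpF h1.symm
  · -- the coefficient at `q^(-deg P)`
    have h1 := hcoeff (-(P.natDegree : ℤ))
    have hlt : -(P.natDegree : ℤ) < (p : ℤ) - 1 := by
      have : (2 : ℤ) ≤ p := by exact_mod_cast hp.two_le
      have : (0 : ℤ) ≤ P.natDegree := Int.natCast_nonneg _
      omega
    rw [uL_int_coeff_of_lt hp0 hlt, map_zero, mul_zero, hP, coeff_aeval_jqModC] at h1
    exact hP0 (Polynomial.leadingCoeff_eq_zero.mp h1)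

end Fermat.Agent.S28
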