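/-
S28 (Igusa) support library, block [L] (char `ℓ`): the abstract twist argument.
Owner: helper93.  Everything lives in `namespace Fermat.Agent.S28`.

Let `τ` be an endomorphism of a field `T` and `r ∈ T` such that `r, τ r, …, τ^(p-1) r` are
pairwise distinct.  A factorisation into monic polynomials with `τ`-fixed coefficients of
`∏ i < p, (X - τ^i r)` is trivial (`twist_irred`, `irredOver_of_fixed`), and a factorisation of
`(X - x₀) * ∏ i < p, (X - τ^i r)` with coefficients in a `τ`-fixed set `E` closed under negation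
is trivial as soon as `x₀ ∉ E` (`irredOver_of_fixed_extra`).  Transported versions along an
injective ring homomorphism `Ψ : L →+* T` are `irredOver_of_map_eq_prod` and
`irredOver_of_map_eq_mul_prod`.
-/
import Fermat.Agent.S28.Descent

set_option autoImplicit false

noncomputable section

namespace Fermat.Agent.S28

open Polynomial

section Twist

variable {T : Type*} [Field T] (τ : T →+* T)

/-- The orbit polynomial `∏ i < p, (X - τ^i r)`. -/
def twistProd (r : T) (p : ℕ) : Polynomial T := ∏ i ∈ Finset.range p, (X - C (τ^[i] r))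

theorem twistProd_monic (r : T) (p : ℕ) : (twistProd τ r p).Monic :=
  Polynomial.monic_prod_of_monic _ _ fun _ _ => Polynomial.monic_X_sub_C _

theorem twistProd_natDegree (r : T) (p : ℕ) : (twistProd τ r p).natDegree = p := by
  unfold twistProd
  rw [Polynomial.natDegree_prod_of_monic _ _ fun i _ => Polynomial.monic_X_sub_C _]
  simp

theorem twistProd_eval_eq_zero_iff (r : T) (p : ℕ) (c : T) :
    (twistProd τ r p).eval c = 0 ↔ ∃ i < p, c = τ^[i] r := by
  unfold twistProd
  rw [Polynomial.eval_prod, Finset.prod_eq_zero_iff]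
  constructor
  · rintro ⟨i, hi, h⟩
    refine ⟨i, Finset.mem_range.mp hi, ?_⟩
    rwa [Polynomial.eval_sub, Polynomial.eval_X, Polynomial.eval_C, sub_eq_zero] at h
  · rintro ⟨i, hi, rfl⟩
    exact ⟨i, Finset.mem_range.mpr hi, by simp⟩

variable {τ}

/-- A polynomial with `τ`-fixed coefficients is fixed by `map τ`. -/
theorem twistArg_map_eq_self {a : Polynomial T} (h : ∀ i, τ (a.coeff i) = a.coeff i) :
    a.map τ = a := by
  ext i
  rw [Polynomial.coeff_map, h]

/-- `τ` permutes the roots of a polynomial fixed by `map τ`. -/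
theorem twistArg_eval_apply {a : Polynomial T} (ha : a.map τ = a) {x : T} (hx : a.eval x = 0) :
    a.eval (τ x) = 0 := by
  have h := congrArg τ hx
  rw [map_zero] at h
  rw [← ha, Polynomial.eval_map, Polynomial.eval₂_at_apply, h]

theorem twistArg_eval_iterate {a : Polynomial T} (ha : a.map τ = a) {x : T} (hx : a.eval x = 0)
    (i : ℕ) : a.eval (τ^[i] x) = 0 := by
  induction i with
  | zero => simpa using hx
  | succ i ih =>
    rw [Function.iterate_succ_apply']
    exact twistArg_eval_apply ha ih

/-- A monic polynomial fixed by `map τ` having `r` as a root has degree at least the size of the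
`τ`-orbit of `r`. -/
theorem twistArg_le_natDegree {a : Polynomial T} (ham : a.Monic) (ha : a.map τ = a) {r : T}
    {p : ℕ} (hdist : ∀ i < p, ∀ j < p, τ^[i] r = τ^[j] r → i = j) (hr : a.eval r = 0) :
    p ≤ a.natDegree := by
  classical
  have hinj : Set.InjOn (fun i : ℕ => τ^[i] r) (Finset.range p : Set ℕ) := by
    intro i hi j hj hij
    exact hdist i (Finset.mem_range.mp (Finset.mem_coe.mp hi)) j
      (Finset.mem_range.mp (Finset.mem_coe.mp hj)) hij
  have hcard : ((Finset.range p).image fun i : ℕ => τ^[i] r).card = p := by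
    rw [Finset.card_image_of_injOn hinj, Finset.card_range]
  rw [← hcard]
  refine Polynomial.card_le_degree_of_subset_roots ?_
  intro x hx
  rw [Finset.mem_val, Finset.mem_image] at hx
  obtain ⟨i, -, rfl⟩ := hx
  rw [Polynomial.mem_roots ham.ne_zero]
  exact twistArg_eval_iterate ha hr i

/-- Auxiliary form of the twist argument. -/
theorem twist_aux {a b : Polynomial T} (ham : a.Monic) (hbm : b.Monic) (ha : a.map τ = a)
    {r : T} {p : ℕ} (hdist : ∀ i < p, ∀ j < p, τ^[i] r = τ^[j] r → i = j)
    (hab : a * b = twistProd τ r p) (hr : a.eval r = 0) : b = 1 := by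
  have h1 := twistArg_le_natDegree ham ha hdist hr
  have h2 : a.natDegree + b.natDegree = p := by
    rw [← ham.natDegree_mul hbm, hab, twistProd_natDegree]
  exact hbm.natDegree_eq_zero.mp (by omega)

/-- **Twist argument.**  A factorisation of the orbit polynomial `∏ i < p, (X - τ^i r)` into
monic polynomials fixed by `map τ` is trivial. -/
theorem twist_irred {a b : Polynomial T} (ham : a.Monic) (hbm : b.Monic) (ha : a.map τ = a)
    (hb : b.map τ = b) {r : T} {p : ℕ}
    (hdist : ∀ i < p, ∀ j < p, τ^[i] r = τ^[j] r → i = j)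
    (hab : a * b = twistProd τ r p) : a = 1 ∨ b = 1 := by
  rcases Nat.eq_zero_or_pos p with rfl | hp
  · left
    have h2 : a.natDegree + b.natDegree = 0 := by
      rw [← ham.natDegree_mul hbm, hab, twistProd_natDegree]
    exact ham.natDegree_eq_zero.mp (by omega)
  · have h0 : (twistProd τ r p).eval r = 0 :=
      (twistProd_eval_eq_zero_iff τ r p r).mpr ⟨0, hp, rfl⟩
    rw [← hab, Polynomial.eval_mul] at h0
    rcases mul_eq_zero.mp h0 with h | h
    · exact Or.inr (twist_aux ham hbm ha hdist hab h)
    · exact Or.inl (twist_aux hbm ham hb hdist (by rw [mul_comm, hab]) h)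

/-- The orbit polynomial is irreducible over any set of `τ`-fixed elements. -/
theorem irredOver_of_fixed {E : Set T} (hE : ∀ x ∈ E, τ x = x) {r : T} {p : ℕ}
    (hdist : ∀ i < p, ∀ j < p, τ^[i] r = τ^[j] r → i = j) : IrredOver E (twistProd τ r p) :=
  fun _ _ ham hbm hae hbe hab =>
    twist_irred ham hbm (twistArg_map_eq_self fun i => hE _ (hae i))
      (twistArg_map_eq_self fun i => hE _ (hbe i)) hdist hab

/-- Auxiliary form of the twist argument with one extra root. -/
theorem twist_extra_aux {E : Set T} (hE : ∀ x ∈ E, τ x = x) (hneg : ∀ x ∈ E, -x ∈ E)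
    {a b : Polynomial T} (ham : a.Monic) (hbm : b.Monic) (hae : ∀ i, a.coeff i ∈ E)
    (hbe : ∀ i, b.coeff i ∈ E) {r x₀ : T} {p : ℕ} (hp : 2 ≤ p)
    (hdist : ∀ i < p, ∀ j < p, τ^[i] r = τ^[j] r → i = j) (hx₀ : x₀ ∉ E)
    (hab : a * b = (X - C x₀) * twistProd τ r p) (hr : a.eval r = 0) : b = 1 := by
  have ha : a.map τ = a := twistArg_map_eq_self fun i => hE _ (hae i)
  have h1 := twistArg_le_natDegree ham ha hdist hr
  have h2 : a.natDegree + b.natDegree = p + 1 := by
    rw [← ham.natDegree_mul hbm, hab,
      (Polynomial.monic_X_sub_C x₀).natDegree_mul (twistProd_monic τ r p),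
      Polynomial.natDegree_X_sub_C, twistProd_natDegree, add_comm]
  have h3 : b.natDegree = 0 ∨ b.natDegree = 1 := by omega
  rcases h3 with h3 | h3
  · exact hbm.natDegree_eq_zero.mp h3
  · exfalso
    -- `b = X + C (b.coeff 0)`, so `c := - b.coeff 0 ∈ E` is a root of the product
    have hb1 : b = X + C (b.coeff 0) := hbm.eq_X_add_C h3
    set c : T := -b.coeff 0 with hc
    have hcE : c ∈ E := hneg _ (hbe 0)
    have hbc : b.eval c = 0 := by
      rw [hb1, Polynomial.eval_add, Polynomial.eval_X, Polynomial.eval_C, hc]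
      simp
    have hprod : ((X - C x₀) * twistProd τ r p).eval c = 0 := by
      rw [← hab, Polynomial.eval_mul, hbc, mul_zero]
    rw [Polynomial.eval_mul, Polynomial.eval_sub, Polynomial.eval_X, Polynomial.eval_C] at hprod
    rcases mul_eq_zero.mp hprod with h | h
    · exact hx₀ (by rwa [← sub_eq_zero.mp h])
    · obtain ⟨i, -, hi⟩ := (twistProd_eval_eq_zero_iff τ r p c).mp h
      have hfix : τ (τ^[i] r) = τ^[i] r := by rw [← hi]; exact hE c hcE
      have hfix' : τ^[i] (τ r) = τ^[i] r := by
        rw [← Function.iterate_succ_apply, Function.iterate_succ_apply']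
        exact hfix
      have hτr : τ r = r := (Function.Injective.iterate τ.injective i) hfix'
      have := hdist 1 (by omega) 0 (by omega) (by simpa using hτr)
      exact one_ne_zero this

/-- **Twist argument with an extra root.**  `(X - x₀) * ∏ i < p, (X - τ^i r)` is irreducible over
a set `E` of `τ`-fixed elements closed under negation, as soon as `x₀ ∉ E` (and `p ≥ 2`). -/
theorem irredOver_of_fixed_extra {E : Set T} (hE : ∀ x ∈ E, τ x = x) (hneg : ∀ x ∈ E, -x ∈ E)
    {r x₀ : T} {p : ℕ} (hp : 2 ≤ p)
    (hdist : ∀ i < p, ∀ j < p, τ^[i] r = τ^[j] r → i = j) (hx₀ : x₀ ∉ E) :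
    IrredOver E ((X - C x₀) * twistProd τ r p) := by
  intro a b ham hbm hae hbe hab
  have h0 : ((X - C x₀) * twistProd τ r p).eval r = 0 := by
    rw [Polynomial.eval_mul, (twistProd_eval_eq_zero_iff τ r p r).mpr ⟨0, by omega, rfl⟩,
      mul_zero]
  rw [← hab, Polynomial.eval_mul] at h0
  rcases mul_eq_zero.mp h0 with h | h
  · exact Or.inr (twist_extra_aux hE hneg ham hbm hae hbe hp hdist hx₀ hab h)
  · exact Or.inl (twist_extra_aux hE hneg hbm ham hbe hae hp hdist hx₀
      (by rw [mul_comm, hab]) h)

/-- Auxiliary raw form of the twist argument with one extra root. -/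
theorem twist_extra_raw_aux {a b : Polynomial T} (ham : a.Monic) (hbm : b.Monic)
    (ha : a.map τ = a) (hb : b.map τ = b) {r x₀ : T} {p : ℕ}
    (hdist : ∀ i < p, ∀ j < p, τ^[i] r = τ^[j] r → i = j)
    (hab : a * b = (X - C x₀) * twistProd τ r p) (hr : a.eval r = 0) :
    b = 1 ∨ b = X - C x₀ ∨ a = X - C x₀ := by
  have h1 := twistArg_le_natDegree ham ha hdist hr
  have h2 : a.natDegree + b.natDegree = p + 1 := by
    rw [← ham.natDegree_mul hbm, hab,
      (Polynomial.monic_X_sub_C x₀).natDegree_mul (twistProd_monic τ r p),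
      Polynomial.natDegree_X_sub_C, twistProd_natDegree, add_comm]
  have h3 : b.natDegree = 0 ∨ b.natDegree = 1 := by omega
  rcases h3 with h3 | h3
  · exact Or.inl (hbm.natDegree_eq_zero.mp h3)
  · right
    have hb1 : b = X + C (b.coeff 0) := hbm.eq_X_add_C h3
    set c : T := -b.coeff 0 with hc
    have hb2 : b = X - C c := by
      conv_lhs => rw [hb1]
      rw [hc, Polynomial.C_neg, sub_neg_eq_add]
    have hbc : b.eval c = 0 := by rw [hb2]; simp
    have hprod : ((X - C x₀) * twistProd τ r p).eval c = 0 := by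
      rw [← hab, Polynomial.eval_mul, hbc, mul_zero]
    rw [Polynomial.eval_mul, Polynomial.eval_sub, Polynomial.eval_X, Polynomial.eval_C] at hprod
    rcases mul_eq_zero.mp hprod with h | h
    · left
      rw [hb2, sub_eq_zero.mp h]
    · right
      obtain ⟨i, hi, hci⟩ := (twistProd_eval_eq_zero_iff τ r p c).mp h
      -- `τ c = c` since `c` is the only root of `b`
      have hτc : τ c = c := by
        have h4 := twistArg_eval_apply hb hbc
        rw [hb2, Polynomial.eval_sub, Polynomial.eval_X, Polynomial.eval_C, sub_eq_zero] at h4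
        exact h4
      have hfix' : τ^[i] (τ r) = τ^[i] r := by
        rw [← Function.iterate_succ_apply, Function.iterate_succ_apply', ← hci]
        exact hτc
      have hτr : τ r = r := (Function.Injective.iterate τ.injective i) hfix'
      -- hence the orbit has size one
      have hp1 : p = 1 := by
        by_contra hne
        have := hdist 1 (by omega) 0 (by omega) (by simpa using hτr)
        exact one_ne_zero this
      subst hp1
      have hi0 : i = 0 := by omega
      subst hi0
      have hcr : c = r := by simpa using hci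
      have hprod1 : twistProd τ r 1 = X - C r := by simp [twistProd]
      rw [hprod1, hb2, hcr] at hab
      have hne : (X - C r : Polynomial T) ≠ 0 := Polynomial.X_sub_C_ne_zero r
      exact mul_right_cancel₀ hne hab

/-- **Twist argument with an extra root, raw form.**  A factorisation of
`(X - x₀) * ∏ i < p, (X - τ^i r)` into monic polynomials fixed by `map τ` is trivial or splits
off the factor `X - x₀`. -/
theorem twist_irred_extra {a b : Polynomial T} (ham : a.Monic) (hbm : b.Monic)
    (ha : a.map τ = a) (hb : b.map τ = b) {r x₀ : T} {p : ℕ}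
    (hdist : ∀ i < p, ∀ j < p, τ^[i] r = τ^[j] r → i = j)
    (hab : a * b = (X - C x₀) * twistProd τ r p) :
    a = 1 ∨ b = 1 ∨ a = X - C x₀ ∨ b = X - C x₀ := by
  rcases Nat.eq_zero_or_pos p with rfl | hp
  · -- total degree one
    have h2 : a.natDegree + b.natDegree = 1 := by
      rw [← ham.natDegree_mul hbm, hab,
        (Polynomial.monic_X_sub_C x₀).natDegree_mul (twistProd_monic τ r 0),
        Polynomial.natDegree_X_sub_C, twistProd_natDegree]
    have h3 : a.natDegree = 0 ∨ b.natDegree = 0 := by omega
    rcases h3 with h3 | h3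
    · exact Or.inl (ham.natDegree_eq_zero.mp h3)
    · exact Or.inr (Or.inl (hbm.natDegree_eq_zero.mp h3))
  · have h0 : ((X - C x₀) * twistProd τ r p).eval r = 0 := by
      rw [Polynomial.eval_mul, (twistProd_eval_eq_zero_iff τ r p r).mpr ⟨0, hp, rfl⟩, mul_zero]
    rw [← hab, Polynomial.eval_mul] at h0
    rcases mul_eq_zero.mp h0 with h | h
    · rcases twist_extra_raw_aux ham hbm ha hb hdist hab h with h' | h' | h'
      · exact Or.inr (Or.inl h')
      · exact Or.inr (Or.inr (Or.inr h'))
      · exact Or.inr (Or.inr (Or.inl h'))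
    · rcases twist_extra_raw_aux hbm ham hb ha hdist (by rw [mul_comm, hab]) h with h' | h' | h'
      · exact Or.inl h'
      · exact Or.inr (Or.inr (Or.inl h'))
      · exact Or.inr (Or.inr (Or.inr h'))

/-! ### Transport along an injective ring homomorphism -/

variable {L : Type*} [CommRing L]

/-- If an injective ring homomorphism `Ψ` maps `f` to an orbit polynomial of `τ` and `E` into the
fixed points of `τ`, then `f` is irreducible over `E`. -/
theorem irredOver_of_map_eq_prod (Ψ : L →+* T) (hΨ : Function.Injective Ψ) {E : Set L}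
    (hE : ∀ x ∈ E, τ (Ψ x) = Ψ x) {f : Polynomial L} {r : T} {p : ℕ}
    (hdist : ∀ i < p, ∀ j < p, τ^[i] r = τ^[j] r → i = j)
    (hf : f.map Ψ = twistProd τ r p) : IrredOver E f := by
  refine IrredOver.of_map Ψ hΨ (E' := {y | τ y = y}) hE ?_
  rw [hf]
  exact irredOver_of_fixed (fun x hx => hx) hdist

/-- If an injective ring homomorphism `Ψ` maps `f` to `(X - Ψ x₀) * (orbit polynomial of τ)` and
`E` into the fixed points of `τ`, where `E` is closed under negation and `x₀ ∉ E`, then `f` is
irreducible over `E`. -/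
theorem irredOver_of_map_eq_mul_prod (Ψ : L →+* T) (hΨ : Function.Injective Ψ) {E : Set L}
    (hE : ∀ x ∈ E, τ (Ψ x) = Ψ x) (hneg : ∀ x ∈ E, -x ∈ E) {f : Polynomial L} {x₀ : L}
    (hx₀ : x₀ ∉ E) {r : T} {p : ℕ} (hp : 2 ≤ p)
    (hdist : ∀ i < p, ∀ j < p, τ^[i] r = τ^[j] r → i = j)
    (hf : f.map Ψ = (X - C (Ψ x₀)) * twistProd τ r p) : IrredOver E f := by
  refine IrredOver.of_map Ψ hΨ (E' := Ψ '' E) (fun x hx => ⟨x, hx, rfl⟩) ?_
  rw [hf]
  refine irredOver_of_fixed_extra ?_ ?_ hp hdist ?_
  · rintro _ ⟨x, hx, rfl⟩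
    exact hE x hx
  · rintro _ ⟨x, hx, rfl⟩
    exact ⟨-x, hneg x hx, map_neg Ψ x⟩
  · rintro ⟨x, hx, hxx⟩
    exact hx₀ (hΨ hxx ▸ hx)

end Twist

end Fermat.Agent.S28

end
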