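/-
S28 block [L] (owner: helper77): irreducibility of `Φ_p(X, j)` over sets not containing `j(q^p)`
(twist argument over the algebraic closure of `𝔽_ℓ`), and the base case over `𝔽_ℓ(j)`.
-/
import Fermat.Agent.S28.Twist
import Fermat.Agent.S28.Descent
import Fermat.Agent.S28.TwistArg
import Fermat.Agent.S28.Roots
import Fermat.Agent.S28.ClaimA

set_option autoImplicit false

noncomputable section

namespace Fermat.Agent.S28

open ModularCurve Polynomial

namespace IrredOneCore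

variable {k : Type*} [Field k]

/-- Iterating the twist `q ↦ ξ q` on `j(q)` gives `j(ξ^i q)`. -/
theorem iterate_subst_J {ξ : k} (hξ : ξ ≠ 0) (i : ℕ) :
    (subst ξ 1)^[i] (J (1 : k) 1) = J (ξ ^ i) 1 := by
  induction i with
  | zero => simp
  | succ i ih =>
    rw [Function.iterate_succ_apply', ih, subst_J hξ (pow_ne_zero i hξ) one_ne_zero one_ne_zero,
      pow_one, mul_one, pow_succ]

end IrredOneCore

open IrredOneCore in
/-- **Twist argument for `Φ_p(X, j)`.** Over a set `E ⊆ 𝔽_ℓ((q))` closed under negation and not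
containing `j(q^p)`, the polynomial `Φ_p(X, j(q))` has no nontrivial monic factorisation. -/
theorem irredOver_PhiAt_of_not_mem (ℓ : ℕ) [Fact ℓ.Prime] {p : ℕ} (hp : p.Prime) (hpℓ : p ≠ ℓ)
    (hd : HeckeData p) (E : Set (LaurentSeries (ZMod ℓ))) (hneg : ∀ x ∈ E, -x ∈ E)
    (hx₀ : jd (ZMod ℓ) p ∉ E) : IrredOver E (PhiAt hd.Φ (jd (ZMod ℓ) 1)) := by
  have hp0 : p ≠ 0 := hp.ne_zero
  have : NeZero p := ⟨hp0⟩
  set k := AlgebraicClosure (ZMod ℓ) with hk
  -- `p ≠ 0` in `k`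
  have hpk : (p : k) ≠ 0 := by
    intro h
    have h1 : (ℓ : ℕ) ∣ p := (CharP.cast_eq_zero_iff k ℓ p).mp h
    exact hpℓ ((Nat.prime_dvd_prime_iff_eq Fact.out hp).mp h1).symm
  have : NeZero (p : k) := ⟨hpk⟩
  obtain ⟨ξ, hξ⟩ := HasEnoughRootsOfUnity.exists_primitiveRoot k p
  have hξ0 : ξ ≠ 0 := hξ.ne_zero hp0
  -- the embedding and the twist
  set Ψ : LaurentSeries (ZMod ℓ) →+* LaurentSeries k := (subst (1 : k) p).comp (baseK ℓ k) with hΨ
  have hΨinj : Function.Injective Ψ :=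
    (subst_injective (1 : k) p).comp (baseK_injective ℓ k)
  have hfix : ∀ x : LaurentSeries (ZMod ℓ), subst ξ 1 (Ψ x) = Ψ x := by
    intro x
    rw [hΨ, RingHom.comp_apply, subst_one_left]
    exact subst_root_qExpand hξ.pow_eq_one _
  have hΨjd : ∀ d : ℕ, [NeZero d] → Ψ (jd (ZMod ℓ) d) = J (1 : k) (p * d) := by
    intro d _
    rw [hΨ, RingHom.comp_apply, baseK_jd, subst_jd one_ne_zero hp0, one_pow]
  have hdist : ∀ i < p, ∀ j < p, (subst ξ 1)^[i] (J (1 : k) 1) = (subst ξ 1)^[j] (J (1 : k) 1) →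
      i = j := by
    intro i hi j hj hij
    rw [iterate_subst_J hξ0, iterate_subst_J hξ0] at hij
    exact hξ.pow_inj hi hj
      (J_injective_left (pow_ne_zero i hξ0) (pow_ne_zero j hξ0) one_ne_zero hij)
  refine irredOver_of_map_eq_mul_prod (τ := subst ξ 1) Ψ hΨinj (fun x _ => hfix x) hneg hx₀
    (r := J (1 : k) 1) hp.two_le hdist ?_
  -- the factorisation
  rw [PhiAt_map, hΨjd 1, hΨjd p, mul_one]
  have h := PhiAt_J hp hd hξ (one_ne_zero (α := k)) one_ne_zero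
  rw [one_pow, one_pow, mul_one, mul_one] at h
  rw [h, twistProd, pow_two]
  congr 1
  refine Finset.prod_congr rfl fun b _ => ?_
  rw [iterate_subst_J hξ0, mul_one]

/-- **Base case.** `Φ_p(X, j)` is irreducible over `𝔽_ℓ(j)` for `p ≠ ℓ`. -/
theorem irred_one_base (ℓ : ℕ) [Fact ℓ.Prime] {p : ℕ} (hp : p.Prime) (hpℓ : p ≠ ℓ)
    (hd : HeckeData p) :
    IrredOver (modularFunctionFieldFullC (ZMod ℓ) 1 : Set (LaurentSeries (ZMod ℓ)))
      (PhiAt hd.Φ (jd (ZMod ℓ) 1)) := by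
  have hpF : (p : ZMod ℓ) ≠ 0 := by
    intro h
    have h1 : (ℓ : ℕ) ∣ p := (ZMod.natCast_eq_zero_iff p ℓ).mp h
    exact hpℓ ((Nat.prime_dvd_prime_iff_eq Fact.out hp).mp h1).symm
  have hfield : modularFunctionFieldFullC (ZMod ℓ) 1 =
      IntermediateField.adjoin (ZMod ℓ) {jd (ZMod ℓ) 1} := by
    unfold modularFunctionFieldFullC
    congr 1
    ext x
    simp only [divisorExpansionsC, Set.mem_ofPred_eq, Set.mem_singleton_iff, Nat.dvd_one]
    constructor
    · rintro ⟨d, hne, rfl, rfl⟩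
      rw [jd_one, qExpand_one_apply]
    · rintro rfl
      exact ⟨1, ⟨one_ne_zero⟩, rfl, by rw [jd_one, qExpand_one_apply]⟩
  refine irredOver_PhiAt_of_not_mem ℓ hp hpℓ hd _ (fun x hx => neg_mem hx) ?_
  rw [SetLike.mem_coe, hfield]
  exact claimA (ZMod ℓ) hp hpF hd (sep (ZMod ℓ) hp hpF hd)

end Fermat.Agent.S28
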