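/-
S28 (Igusa), block [L] (char `ℓ`): the range clause follows from the chase clause.
Owner: helper40.
-/
import Fermat.Agent.S28.Interface
import Fermat.Agent.S28.Twist

set_option autoImplicit false

noncomputable section

namespace Fermat.Agent.S28

open ModularCurve Polynomial

/-- The full modular function fields are monotone for divisibility of the level. -/
theorem irredOne_full_mono (K : Type*) [Field K] {M D : ℕ} (h : M ∣ D) :
    modularFunctionFieldFullC K M ≤ modularFunctionFieldFullC K D := by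
  unfold modularFunctionFieldFullC
  refine IntermediateField.adjoin.mono K _ _ ?_
  rintro x ⟨d, hne, hd, rfl⟩
  exact ⟨d, hne, hd.trans h, rfl⟩

/-- **Range clause from the chase clause.**  If `Ψ` sends every `j(q^d)`, `d ∣ D`, to some
`J c e` with `(D / d) ∣ e`, and `p ∣ D / d` for all `d ∣ M`, then `Ψ` maps
`𝔽_ℓ(j(q^d) : d ∣ M)` into the range of `qExpand k p`. -/
theorem irredOne_range_of_chase (ℓ : ℕ) [Fact ℓ.Prime] {k : Type*} [Field k] (p : ℕ) [NeZero p]
    (M D : ℕ) (hMD : M ∣ D) (hpM : ∀ d : ℕ, d ∣ M → p ∣ D / d)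
    (Ψ : ↥(modularFunctionFieldFullC (ZMod ℓ) D) →+* LaurentSeries k)
    (hchase : ∀ d : ℕ, d ∣ D → ∀ x : ↥(modularFunctionFieldFullC (ZMod ℓ) D),
      (x : LaurentSeries (ZMod ℓ)) = jd (ZMod ℓ) d →
      ∃ (c : k) (e : ℕ), c ≠ 0 ∧ e ≠ 0 ∧ (D / d) ∣ e ∧ Ψ x = J c e) :
    ∀ x : ↥(modularFunctionFieldFullC (ZMod ℓ) D),
      (x : LaurentSeries (ZMod ℓ)) ∈ modularFunctionFieldFullC (ZMod ℓ) M →
      Ψ x ∈ Set.range (qExpand k p) := by
  have hle : modularFunctionFieldFullC (ZMod ℓ) M ≤ modularFunctionFieldFullC (ZMod ℓ) D :=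
    irredOne_full_mono (ZMod ℓ) hMD
  have key : ∀ y : LaurentSeries (ZMod ℓ), ∀ hy : y ∈ modularFunctionFieldFullC (ZMod ℓ) M,
      Ψ ⟨y, hle hy⟩ ∈ (qExpand k p).fieldRange := by
    intro y hy
    have hy' := hy
    unfold modularFunctionFieldFullC at hy'
    induction hy' using IntermediateField.adjoin_induction with
    | mem z hz =>
      obtain ⟨d, hne, hd, rfl⟩ := hz
      have := hne
      obtain ⟨c, e, hc, he, hDe, hΨ⟩ :=
        hchase d (hd.trans hMD) ⟨_, hle hy⟩ (jd_eq (ZMod ℓ) d).symm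
      rw [hΨ]
      exact J_mem_range_qExpand hc he p ((hpM d hd).trans hDe)
    | algebraMap c =>
      have h1 : (⟨algebraMap (ZMod ℓ) (LaurentSeries (ZMod ℓ)) c, hle hy⟩ :
          ↥(modularFunctionFieldFullC (ZMod ℓ) D)) =
            ((c.val : ℕ) : ↥(modularFunctionFieldFullC (ZMod ℓ) D)) := by
        apply Subtype.ext
        show algebraMap (ZMod ℓ) (LaurentSeries (ZMod ℓ)) c =
          ((c.val : ℕ) : LaurentSeries (ZMod ℓ))
        conv_lhs => rw [← ZMod.natCast_zmod_val c]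
        rw [map_natCast]
      rw [h1, map_natCast]
      exact natCast_mem _ _
    | add y z hy1 hz1 hy2 hz2 =>
      have h1 : (⟨y + z, hle hy⟩ : ↥(modularFunctionFieldFullC (ZMod ℓ) D)) =
          ⟨y, hle hy1⟩ + ⟨z, hle hz1⟩ := rfl
      rw [h1, map_add]
      exact add_mem (hy2 hy1) (hz2 hz1)
    | inv y hy1 hy2 =>
      have h1 : (⟨y⁻¹, hle hy⟩ : ↥(modularFunctionFieldFullC (ZMod ℓ) D)) =
          (⟨y, hle hy1⟩ : ↥(modularFunctionFieldFullC (ZMod ℓ) D))⁻¹ := rfl
      rw [h1, map_inv₀]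
      exact inv_mem (hy2 hy1)
    | mul y z hy1 hz1 hy2 hz2 =>
      have h1 : (⟨y * z, hle hy⟩ : ↥(modularFunctionFieldFullC (ZMod ℓ) D)) =
          ⟨y, hle hy1⟩ * ⟨z, hle hz1⟩ := rfl
      rw [h1, map_mul]
      exact mul_mem (hy2 hy1) (hz2 hz1)
  intro x hx
  exact key x hx

end Fermat.Agent.S28
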