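/-
S28 (Igusa), block [L] (char `ℓ`): Claim B and `irred_one`.
Owner: helper40.
-/
import Fermat.Agent.S28.CuspEmb
import Fermat.Agent.S28.IrredOneCore
import Fermat.Agent.S28.RangeChase

set_option autoImplicit false

noncomputable section

namespace Fermat.Agent.S28

open ModularCurve Polynomial

/-- **Claim B.** For `p ∤ M`, the series `j(q^p)` does not lie in `𝔽_ℓ(j(q^d) : d ∣ M)`. -/
theorem claimB (ℓ : ℕ) [Fact ℓ.Prime] (hE : ∀ r : ℕ, r.Prime → Nonempty (HeckeData r))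
    {p : ℕ} (hp : p.Prime) (hd : HeckeData p)
    (hirr : IrredOver (modularFunctionFieldFullC (ZMod ℓ) 1 : Set (LaurentSeries (ZMod ℓ)))
      (PhiAt hd.Φ (jd (ZMod ℓ) 1)))
    (M : ℕ) [NeZero M] (hpM : ¬ p ∣ M) (hℓ : ¬ ℓ ∣ p * M) :
    jd (ZMod ℓ) p ∉ modularFunctionFieldFullC (ZMod ℓ) M := by
  intro hmem
  have hp0 : p ≠ 0 := hp.ne_zero
  have : NeZero p := ⟨hp0⟩
  have hM0 : M ≠ 0 := NeZero.ne M
  have : NeZero (M * p) := ⟨Nat.mul_ne_zero hM0 hp0⟩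
  obtain ⟨Ψ, hchase, γ, -, -, hγ1, -, hchain⟩ :=
    exists_cuspEmb ℓ hE hp hd hirr M 1 hpM hℓ le_rfl (M * p) (by rw [pow_one])
  have hMD : M ∣ M * p := Dvd.intro _ rfl
  -- the image of `𝔽_ℓ(j(q^d) : d ∣ M)` consists of series in `q^p`
  have hrange := irredOne_range_of_chase ℓ p M (M * p) hMD (fun d hdM => by
    obtain ⟨m, rfl⟩ := hdM
    have hd0 : 0 < d := Nat.pos_of_ne_zero (fun h => hM0 (by rw [h, zero_mul]))
    rw [mul_assoc, Nat.mul_div_cancel_left _ hd0]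
    exact Dvd.intro_left _ rfl) Ψ hchase
  have hle : modularFunctionFieldFullC (ZMod ℓ) M ≤ modularFunctionFieldFullC (ZMod ℓ) (M * p) :=
    irredOne_full_mono (ZMod ℓ) hMD
  have h1 : Ψ ⟨jd (ZMod ℓ) p, hle hmem⟩ ∈ Set.range (qExpand (AlgebraicClosure (ZMod ℓ)) p) :=
    hrange ⟨jd (ZMod ℓ) p, hle hmem⟩ hmem
  have h2 : Ψ ⟨jd (ZMod ℓ) p, hle hmem⟩ = J (γ 1) (M * p ^ (1 - 1)) :=
    hchain 1 le_rfl ⟨jd (ZMod ℓ) p, hle hmem⟩ (by rw [pow_one])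
  rw [hγ1, Nat.sub_self, pow_zero, mul_one] at h2
  rw [h2] at h1
  exact J_not_mem_range_qExpand one_ne_zero hM0 p hpM h1

/-- **`irred_one`.** For `p ∤ M`, `ℓ ∤ p M`, the polynomial `Φ_p(X, j)` is irreducible over
`𝔽_ℓ(j(q^d) : d ∣ M)`. -/
theorem irred_one_of (ℓ : ℕ) [Fact ℓ.Prime] (hE : ∀ r : ℕ, r.Prime → Nonempty (HeckeData r))
    (p M : ℕ) [NeZero M] (hp : p.Prime) (hpM : ¬ p ∣ M) (hℓ : ¬ ℓ ∣ p * M) (hd : HeckeData p) :
    IrredOver (modularFunctionFieldFullC (ZMod ℓ) M : Set (LaurentSeries (ZMod ℓ)))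
      (PhiAt hd.Φ (jd (ZMod ℓ) 1)) := by
  have hpℓ : p ≠ ℓ := by
    rintro rfl
    exact hℓ (Dvd.intro _ rfl)
  refine irredOver_PhiAt_of_not_mem ℓ hp hpℓ hd _ (fun x hx => neg_mem hx) ?_
  exact claimB ℓ hE hp hd (irred_one_base ℓ hp hpℓ hd) M hpM hℓ

end Fermat.Agent.S28
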