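/-
S28 (Igusa) support library, block [L] (char `ℓ`): assembly of the char-`ℓ` inputs
(`CharLInputs ℓ`) from the irreducibility statements (`IrredOne`, `IrredChain`) and the
Bezout statement (`Bezout`).  Owner: helper69.
-/
import Fermat.Agent.S28.IrredOne
import Fermat.Agent.S28.IrredChain
import Fermat.Agent.S28.IrredOneCore
import Fermat.Agent.S28.Bezout

set_option autoImplicit false

namespace Fermat.Agent.S28

open ModularCurve Polynomial

/-- **The char-`ℓ` block.**  Given Hecke data at every prime, the three inputs of the tower
block hold: irreducibility of the first step and of the chain steps of the `p`-towers over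
`𝔽_ℓ`, and the Bezout statement for mixed divisors. -/
theorem charLInputs (ℓ : ℕ) [Fact ℓ.Prime] (hE : ∀ r : ℕ, r.Prime → Nonempty (HeckeData r)) :
    CharLInputs ℓ where
  irred_one := fun p M _ hp hpM hℓ hd => irred_one_of ℓ hE p M hp hpM hℓ hd
  irred_chain := fun p M a _ hp hpM hℓ ha hd =>
    irred_chain_of ℓ hE p M a hp hpM hℓ ha hd
      (irred_one_base ℓ hp (fun h => hℓ (h ▸ dvd_mul_right p M)) hd)
  bezout_mixed := bezout_mixed ℓ

end Fermat.Agent.S28
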