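/-
S28 (Igusa) -- block [T]: the `p`-chain of the tower induction.
Owner: helper60.  `namespace Fermat.Agent.S28`; private helpers are prefixed `towerChain_`.

EXPORT: `towerState_chain`.
-/
import Fermat.Agent.S28.TowerDefs

set_option autoImplicit false

noncomputable section

namespace Fermat.Agent.S28

open ModularCurve Polynomial

/-! ### Roots of the modular polynomial at all levels -/

/-- `Φ_p(j(q^(e p)), j(q^e)) = 0` over any commutative ring. -/
theorem towerChain_root {p : ℕ} (hd : HeckeData p) (hp : p.Prime) (R : Type*) [CommRing R]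
    (e : ℕ) (he : e ≠ 0) :
    (PhiAt hd.Φ (jd R e)).eval (jd R (e * p)) = 0 := by
  have : NeZero e := ⟨he⟩
  have : NeZero p := ⟨hp.ne_zero⟩
  have h := congrArg (qExpand ℤ e) hd.root
  rw [map_eval_PhiAt, map_zero, qExpand_jd, qExpand_jd, mul_one] at h
  have h2 := congrArg (coeffMap (Int.castRingHom R)) h
  rwa [map_eval_PhiAt, map_zero, coeffMap_jd, coeffMap_jd] at h2

/-- `Φ_p(j(q^e), j(q^(e p))) = 0` over any commutative ring. -/
theorem towerChain_root' {p : ℕ} (hd : HeckeData p) (hp : p.Prime) (R : Type*) [CommRing R]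
    (e : ℕ) (he : e ≠ 0) :
    (PhiAt hd.Φ (jd R (e * p))).eval (jd R e) = 0 := by
  have : NeZero e := ⟨he⟩
  have : NeZero p := ⟨hp.ne_zero⟩
  have h := congrArg (qExpand ℤ e) hd.root'
  rw [map_eval_PhiAt, map_zero, qExpand_jd, qExpand_jd, mul_one] at h
  have h2 := congrArg (coeffMap (Int.castRingHom R)) h
  rwa [map_eval_PhiAt, map_zero, coeffMap_jd, coeffMap_jd] at h2

/-- The coefficient of `q^(-d)` in `j(q^d)` is `1`. -/
theorem towerChain_coeff_jd_self (R : Type*) [CommRing R] (d : ℕ) (hd : d ≠ 0) :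
    (jd R d).coeff (-(d : ℤ)) = 1 := by
  have : NeZero d := ⟨hd⟩
  rw [jd_eq, show (-(d : ℤ)) = (d : ℤ) * (-1) by ring, qExpand_coeff_mul]
  exact coeff_jqModC_neg_one R

/-- The coefficient of `q^(-d')` in `j(q^d)` vanishes for `d < d'`. -/
theorem towerChain_coeff_jd_of_lt (R : Type*) [CommRing R] {d d' : ℕ} (hd : d ≠ 0)
    (h : d < d') : (jd R d).coeff (-(d' : ℤ)) = 0 := by
  have : NeZero d := ⟨hd⟩
  rw [jd_eq]
  by_cases hdvd : (d : ℤ) ∣ -(d' : ℤ)
  · obtain ⟨k, hk⟩ := hdvd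
    rw [hk, qExpand_coeff_mul]
    apply coeff_jqModC_of_lt
    have hdpos : (0 : ℤ) < d := by exact_mod_cast Nat.pos_of_ne_zero hd
    have hlt : (d : ℤ) < d' := by exact_mod_cast h
    by_contra hcon
    have hk1 : -1 ≤ k := by omega
    nlinarith
  · exact qExpand_coeff_of_not_dvd d _ hdvd

/-- `j(q^d) ≠ j(q^d')` for `d ≠ d'`. -/
theorem towerChain_jd_ne (R : Type*) [CommRing R] [Nontrivial R] {d d' : ℕ} (hd : d ≠ 0)
    (hd' : d' ≠ 0) (h : d ≠ d') : jd R d ≠ jd R d' := by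
  intro heq
  rcases Nat.lt_or_gt_of_ne h with hlt | hlt
  · have h1 := towerChain_coeff_jd_of_lt R hd hlt
    rw [heq, towerChain_coeff_jd_self R d' hd'] at h1
    exact one_ne_zero h1
  · have h1 := towerChain_coeff_jd_of_lt R hd' hlt
    rw [← heq, towerChain_coeff_jd_self R d hd] at h1
    exact one_ne_zero h1

/-! ### The generic step -/

section Step

variable {ℓ : ℕ} [Fact ℓ.Prime]

/-- Bridge from `IrredOver` to the irreducibility hypothesis of the step lemma. -/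
theorem towerChain_hirr {E : Set (LaurentSeries (ZMod ℓ))} {S : Subring (LaurentSeries ℚ)}
    {ρ : ↥S →+* LaurentSeries (ZMod ℓ)} (hrange : Set.range ρ ⊆ E) {g : Polynomial ↥S}
    (hirr : IrredOver E (g.map ρ)) :
    ∀ a b : Polynomial ↥S, a.Monic → b.Monic → (a * b).map ρ = g.map ρ →
      a.natDegree = 0 ∨ b.natDegree = 0 := by
  intro a b ha hb hab
  have hcoeff : ∀ (c : Polynomial ↥S) (i : ℕ), (c.map ρ).coeff i ∈ E := fun c i => by
    rw [Polynomial.coeff_map]
    exact hrange ⟨_, rfl⟩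
  rw [Polynomial.map_mul] at hab
  rcases hirr (a.map ρ) (b.map ρ) (ha.map _) (hb.map _) (hcoeff a) (hcoeff b) hab with h | h
  · left
    rw [← ha.natDegree_map ρ, h, Polynomial.natDegree_one]
  · right
    rw [← hb.natDegree_map ρ, h, Polynomial.natDegree_one]

/-- **Generic tower step**: adjoin `j(q^d)`, a root of a monic `g ∈ S[X]` whose reduction is
irreducible over `E` and has the root `jd (ZMod ℓ) d`. -/
theorem towerChain_step {D : Set ℕ} {E : Set (LaurentSeries (ZMod ℓ))}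
    {S : Subring (LaurentSeries ℚ)} {ρ : ↥S →+* LaurentSeries (ZMod ℓ)}
    (hgood : GoodPair ℓ S ρ) (hR0 : R0 ℓ ≤ S) (hint : ∀ s ∈ S, IsIntegral ↥(R0 ℓ) s)
    (hjd : ∀ d ∈ D, ∃ h : jd ℚ d ∈ S, ρ ⟨jd ℚ d, h⟩ = jd (ZMod ℓ) d)
    (hrange : Set.range ρ ⊆ E)
    {g : Polynomial ↥S} (hg : g.Monic) {d : ℕ}
    (hx : g.eval₂ S.subtype (jd ℚ d) = 0)
    (hxbar : g.eval₂ ρ (jd (ZMod ℓ) d) = 0)
    (hirr : IrredOver E (g.map ρ))
    (E' : Subfield (LaurentSeries (ZMod ℓ))) (hE : E ⊆ (E' : Set (LaurentSeries (ZMod ℓ))))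
    (hdE : jd (ZMod ℓ) d ∈ E') :
    TowerState ℓ (insert d D) (E' : Set (LaurentSeries (ZMod ℓ))) := by
  obtain ⟨ρ', h1, h2, h3, h4⟩ := hgood.adjoin_root hg hx hxbar (towerChain_hirr hrange hirr)
  have hxint : IsIntegral ↥S (jd ℚ d) := ⟨g, hg, hx⟩
  refine ⟨adjoinElt S (jd ℚ d), ρ', h4, hR0.trans (le_adjoinElt _ _),
    fun s hs => isIntegral_base_of_mem_adjoinElt hR0 hint hxint hs, ?_, ?_⟩
  · intro d' hd'
    rcases hd' with rfl | hd'
    · exact ⟨mem_adjoinElt_self _ _, h3⟩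
    · obtain ⟨h, hρ⟩ := hjd d' hd'
      refine ⟨le_adjoinElt _ _ h, ?_⟩
      rw [← hρ, ← h2 ⟨jd ℚ d', h⟩]
      rfl
  · rintro _ ⟨⟨y, hy⟩, rfl⟩
    obtain ⟨P, rfl⟩ := exists_eval₂_eq_of_mem_adjoinElt hy
    rw [h1 P, Polynomial.eval₂_eq_sum_range]
    refine Subfield.sum_mem _ fun i _ => Subfield.mul_mem _ (hE (hrange ⟨_, rfl⟩)) ?_
    exact Subfield.pow_mem _ hdE i

end Step

/-! ### The chain -/

section Chain

variable (ℓ : ℕ) [Fact ℓ.Prime]

/-- `chainField` is monotone in the chain length. -/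
theorem towerChain_chainField_mono (M p : ℕ) {a b : ℕ} (hab : a ≤ b) :
    chainField ℓ M p a ≤ chainField ℓ M p b := by
  unfold chainField
  apply Subfield.closure_mono
  rintro x (hx | ⟨c, hc, rfl⟩)
  · exact Or.inl hx
  · exact Or.inr ⟨c, hc.trans hab, rfl⟩

theorem towerChain_full_subset_chainField (M p a : ℕ) :
    (modularFunctionFieldFullC (ZMod ℓ) M : Set (LaurentSeries (ZMod ℓ))) ⊆
      (chainField ℓ M p a : Set (LaurentSeries (ZMod ℓ))) :=
  fun _ hx => Subfield.subset_closure (Or.inl hx)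

theorem towerChain_jd_mem_chainField (M p : ℕ) {a c : ℕ} (hc : c ≤ a) :
    jd (ZMod ℓ) (p ^ c) ∈ chainField ℓ M p a :=
  Subfield.subset_closure (Or.inr ⟨c, hc, rfl⟩)

/-- First step of the chain: adjoin `j(q^p)`. -/
theorem towerChain_one (hL : CharLInputs ℓ) (p M : ℕ) [NeZero M] (hp : p.Prime)
    (hpM : ¬ p ∣ M) (hℓ : ¬ ℓ ∣ p * M) (hd : HeckeData p)
    (h : TowerState ℓ {d | d ∣ M}
      (modularFunctionFieldFullC (ZMod ℓ) M : Set (LaurentSeries (ZMod ℓ)))) :
    TowerState ℓ (insert p {d | d ∣ M})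
      (chainField ℓ M p 1 : Set (LaurentSeries (ZMod ℓ))) := by
  obtain ⟨S, ρ, hgood, hR0, hint, hjd, hrange⟩ := h
  obtain ⟨h1, hρ1⟩ := hjd 1 (one_dvd M)
  set y : ↥S := ⟨jd ℚ 1, h1⟩ with hy
  have hg : (PhiAt hd.Φ y).Monic := PhiAt_monic hd.monic y
  have hx : (PhiAt hd.Φ y).eval₂ S.subtype (jd ℚ p) = 0 := by
    rw [Polynomial.eval₂_eq_eval_map, PhiAt_map]
    have := towerChain_root hd hp ℚ 1 one_ne_zero
    rwa [one_mul] at this
  have hxbar : (PhiAt hd.Φ y).eval₂ ρ (jd (ZMod ℓ) p) = 0 := by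
    rw [Polynomial.eval₂_eq_eval_map, PhiAt_map, hρ1]
    have := towerChain_root hd hp (ZMod ℓ) 1 one_ne_zero
    rwa [one_mul] at this
  have hirr : IrredOver (modularFunctionFieldFullC (ZMod ℓ) M : Set (LaurentSeries (ZMod ℓ)))
      ((PhiAt hd.Φ y).map ρ) := by
    rw [PhiAt_map, hρ1]
    exact hL.irred_one p M hp hpM hℓ hd
  have hmem : jd (ZMod ℓ) p ∈ chainField ℓ M p 1 := by
    have := towerChain_jd_mem_chainField ℓ M p (a := 1) (c := 1) le_rfl
    rwa [pow_one] at this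
  exact towerChain_step hgood hR0 hint hjd hrange hg hx hxbar hirr (chainField ℓ M p 1)
    (towerChain_full_subset_chainField ℓ M p 1) hmem

/-- Later steps of the chain: adjoin `j(q^(p^(a+2)))` given `j(q^(p^(a+1)))`, `j(q^(p^a))`. -/
theorem towerChain_succ (hL : CharLInputs ℓ) (p M : ℕ) [NeZero M] (hp : p.Prime)
    (hpM : ¬ p ∣ M) (hℓ : ¬ ℓ ∣ p * M) (hd : HeckeData p) (a : ℕ) {D : Set ℕ}
    (ha0 : p ^ a ∈ D) (ha1 : p ^ (a + 1) ∈ D)
    (h : TowerState ℓ D (chainField ℓ M p (a + 1) : Set (LaurentSeries (ZMod ℓ)))) :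
    TowerState ℓ (insert (p ^ (a + 2)) D)
      (chainField ℓ M p (a + 2) : Set (LaurentSeries (ZMod ℓ))) := by
  obtain ⟨S, ρ, hgood, hR0, hint, hjd, hrange⟩ := h
  obtain ⟨h0, hρ0⟩ := hjd _ ha0
  obtain ⟨h1, hρ1⟩ := hjd _ ha1
  have hpa : p ^ a ≠ 0 := pow_ne_zero _ hp.ne_zero
  have hpa1 : p ^ (a + 1) ≠ 0 := pow_ne_zero _ hp.ne_zero
  have hpa2 : p ^ (a + 2) ≠ 0 := pow_ne_zero _ hp.ne_zero
  set y : ↥S := ⟨jd ℚ (p ^ (a + 1)), h1⟩ with hy
  set z : ↥S := ⟨jd ℚ (p ^ a), h0⟩ with hz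
  set f : Polynomial ↥S := PhiAt hd.Φ y with hf
  have hfmonic : f.Monic := PhiAt_monic hd.monic y
  -- `z` is a root of `f`
  have hroot : f.IsRoot z := by
    rw [Polynomial.IsRoot.def]
    apply S.subtype_injective
    rw [map_zero, map_eval_PhiAt]
    have := towerChain_root' hd hp ℚ (p ^ a) hpa
    rwa [← pow_succ] at this
  have hfac : (X - C z) * (f /ₘ (X - C z)) = f :=
    Polynomial.mul_divByMonic_eq_iff_isRoot.mpr hroot
  set g : Polynomial ↥S := f /ₘ (X - C z) with hgdef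
  have hg : g.Monic := by
    have hm : ((X - C z) * g).Monic := by rw [hfac]; exact hfmonic
    exact (Polynomial.monic_X_sub_C z).of_mul_monic_left hm
  -- root in characteristic zero
  have hfx : f.eval₂ S.subtype (jd ℚ (p ^ (a + 2))) = 0 := by
    rw [Polynomial.eval₂_eq_eval_map, hf, PhiAt_map]
    have := towerChain_root hd hp ℚ (p ^ (a + 1)) hpa1
    rwa [← pow_succ] at this
  have hx : g.eval₂ S.subtype (jd ℚ (p ^ (a + 2))) = 0 := by
    rw [← hfac, Polynomial.eval₂_mul, Polynomial.eval₂_sub, Polynomial.eval₂_X,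
      Polynomial.eval₂_C] at hfx
    rcases mul_eq_zero.mp hfx with h' | h'
    · exfalso
      have hne : jd ℚ (p ^ (a + 2)) ≠ jd ℚ (p ^ a) :=
        towerChain_jd_ne ℚ hpa2 hpa (fun hh => by
          have := Nat.pow_right_injective hp.two_le hh
          omega)
      exact hne (sub_eq_zero.mp h')
    · exact h'
  -- root in characteristic `ℓ`
  have hfxbar : f.eval₂ ρ (jd (ZMod ℓ) (p ^ (a + 2))) = 0 := by
    rw [Polynomial.eval₂_eq_eval_map, hf, PhiAt_map, hρ1]
    have := towerChain_root hd hp (ZMod ℓ) (p ^ (a + 1)) hpa1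
    rwa [← pow_succ] at this
  have hxbar : g.eval₂ ρ (jd (ZMod ℓ) (p ^ (a + 2))) = 0 := by
    rw [← hfac, Polynomial.eval₂_mul, Polynomial.eval₂_sub, Polynomial.eval₂_X,
      Polynomial.eval₂_C, hρ0] at hfxbar
    rcases mul_eq_zero.mp hfxbar with h' | h'
    · exfalso
      have hne : jd (ZMod ℓ) (p ^ (a + 2)) ≠ jd (ZMod ℓ) (p ^ a) :=
        towerChain_jd_ne (ZMod ℓ) hpa2 hpa (fun hh => by
          have := Nat.pow_right_injective hp.two_le hh
          omega)
      exact hne (sub_eq_zero.mp h')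
    · exact h'
  have hirr : IrredOver (chainField ℓ M p (a + 1) : Set (LaurentSeries (ZMod ℓ)))
      (g.map ρ) := by
    rw [hgdef, Polynomial.map_divByMonic ρ (Polynomial.monic_X_sub_C z), hf, PhiAt_map,
      Polynomial.map_sub, Polynomial.map_X, Polynomial.map_C, hρ1, hρ0]
    have := hL.irred_chain p M (a + 2) hp hpM hℓ (by omega) hd
    simpa using this
  exact towerChain_step hgood hR0 hint hjd hrange hg hx hxbar hirr (chainField ℓ M p (a + 2))
    (fun _ hx => towerChain_chainField_mono ℓ M p (Nat.le_succ _) hx)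
    (towerChain_jd_mem_chainField ℓ M p le_rfl)

/-- **The `p`-chain.**  From the tower state at level `M` (`p ∤ M`) to the state containing
moreover `j(q^(p^c))`, `c ≤ a`, with reductions in `chainField ℓ M p a`. -/
theorem towerState_chain (hL : CharLInputs ℓ) (p M : ℕ) [NeZero M] (hp : p.Prime)
    (hpM : ¬ p ∣ M) (hℓ : ¬ ℓ ∣ p * M) (hd : HeckeData p)
    (h : TowerState ℓ {d | d ∣ M}
      (modularFunctionFieldFullC (ZMod ℓ) M : Set (LaurentSeries (ZMod ℓ)))) (a : ℕ) :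
    TowerState ℓ ({d | d ∣ M} ∪ {d | ∃ c ≤ a, d = p ^ c})
      (chainField ℓ M p a : Set (LaurentSeries (ZMod ℓ))) := by
  -- monotonicity of `TowerState` in the index set
  have mono : ∀ {D D' : Set ℕ} {E : Set (LaurentSeries (ZMod ℓ))}, D' ⊆ D →
      TowerState ℓ D E → TowerState ℓ D' E := by
    rintro D D' E hDD ⟨S, ρ, hgood, hR0, hint, hjd, hrange⟩
    exact ⟨S, ρ, hgood, hR0, hint, fun d hd => hjd d (hDD hd), hrange⟩
  rcases a with _ | a
  · obtain ⟨S, ρ, hgood, hR0, hint, hjd, hrange⟩ := h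
    refine ⟨S, ρ, hgood, hR0, hint, ?_,
      hrange.trans (towerChain_full_subset_chainField ℓ M p 0)⟩
    rintro d (hd | ⟨c, hc, rfl⟩)
    · exact hjd d hd
    · obtain rfl : c = 0 := by omega
      exact hjd _ (by simp)
  · -- strengthened induction for `a + 1`
    have key : ∀ b : ℕ, TowerState ℓ ({d | d ∣ M} ∪ {d | ∃ c ≤ b + 1, d = p ^ c})
        (chainField ℓ M p (b + 1) : Set (LaurentSeries (ZMod ℓ))) := by
      intro b
      induction b with
      | zero =>
        refine mono ?_ (towerChain_one ℓ hL p M hp hpM hℓ hd h)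
        rintro d (hd | ⟨c, hc, rfl⟩)
        · exact Or.inr hd
        · have hc' : c = 0 ∨ c = 1 := by omega
          rcases hc' with rfl | rfl
          · exact Or.inr (by simp)
          · exact Or.inl (by simp)
      | succ b ih =>
        have h0 : p ^ b ∈ ({d | d ∣ M} ∪ {d | ∃ c ≤ b + 1, d = p ^ c} : Set ℕ) :=
          Or.inr ⟨b, by omega, rfl⟩
        have h1 : p ^ (b + 1) ∈ ({d | d ∣ M} ∪ {d | ∃ c ≤ b + 1, d = p ^ c} : Set ℕ) :=
          Or.inr ⟨b + 1, le_rfl, rfl⟩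
        refine mono ?_ (towerChain_succ ℓ hL p M hp hpM hℓ hd b h0 h1 ih)
        rintro d (hd | ⟨c, hc, rfl⟩)
        · exact Or.inr (Or.inl hd)
        · rcases Nat.lt_or_ge c (b + 2) with hlt | hge
          · exact Or.inr (Or.inr ⟨c, by omega, rfl⟩)
          · obtain rfl : c = b + 2 := by omega
            exact Or.inl rfl
    exact key a

end Chain

end Fermat.Agent.S28

end
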