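/-
S28 (Igusa) -- block [T] TowerMixed (owner: helper34): a tower state containing the `j(q^d)` for
`d ∣ M` and `d = p^c` (`c ≤ a`) contains all `j(q^d)`, `d ∣ M p^a` (mixed divisors), via the
MIXED lemma for good pairs (`GoodPair.mem_of_bezout`) and the Bezout statement of the char-`ℓ`
block.
-/
import Fermat.Agent.S28.TowerDefs

set_option autoImplicit false

noncomputable section

namespace Fermat.Agent.S28

open ModularCurve Polynomial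

/-- Arithmetic: a divisor of `M * p ^ a` which neither divides `M` nor is a power of `p` is
divisible by `p` and by a prime `r ≠ p`. -/
theorem TowerMixed_arith {p M a d : ℕ} (hp : p.Prime) (hpM : ¬ p ∣ M)
    (hd : d ∣ M * p ^ a) (h1 : ¬ d ∣ M) (h2 : ¬ ∃ c ≤ a, d = p ^ c) :
    p ∣ d ∧ ∃ r : ℕ, r.Prime ∧ r ≠ p ∧ r ∣ d ∧ r ∣ M := by
  obtain ⟨m, k, hm, hk, rfl⟩ := (Nat.dvd_mul).mp hd
  obtain ⟨c, hc, rfl⟩ := (Nat.dvd_prime_pow hp).mp hk
  have hc0 : c ≠ 0 := by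
    rintro rfl
    exact h1 (by simpa using hm)
  have hm1 : m ≠ 1 := by
    rintro rfl
    exact h2 ⟨c, hc, by simp⟩
  refine ⟨Dvd.dvd.mul_left (dvd_pow_self p hc0) m, m.minFac, Nat.minFac_prime hm1, ?_,
    Dvd.dvd.mul_right (Nat.minFac_dvd m) _, (Nat.minFac_dvd m).trans hm⟩
  rintro hr
  exact hpM (hr ▸ (Nat.minFac_dvd m).trans hm)

theorem towerState_mixed (ℓ : ℕ) [Fact ℓ.Prime] (hL : CharLInputs ℓ) (p M a : ℕ) [NeZero M]
    (hp : p.Prime) (hpM : ¬ p ∣ M) (hℓ : ¬ ℓ ∣ M * p ^ a)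
    (hd : ∀ r : ℕ, r.Prime → r ∣ M * p ^ a → HeckeData r) (E : Set (LaurentSeries (ZMod ℓ)))
    (h : TowerState ℓ ({d | d ∣ M} ∪ {d | ∃ c ≤ a, d = p ^ c}) E) :
    TowerState ℓ {d | d ∣ M * p ^ a} E := by
  obtain ⟨S, ρ, hgood, hR0, hint, hD, hE⟩ := h
  refine ⟨S, ρ, hgood, hR0, hint, ?_, hE⟩
  have hpos : 0 < M * p ^ a := Nat.pos_of_ne_zero
    (Nat.mul_ne_zero (NeZero.ne M) (pow_ne_zero a hp.ne_zero))
  intro d
  induction d using Nat.strong_induction_on with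
  | _ d ih =>
    intro hdd
    have hdd' : d ∣ M * p ^ a := hdd
    by_cases h1 : d ∣ M
    · exact hD d (Or.inl h1)
    by_cases h2 : ∃ c ≤ a, d = p ^ c
    · exact hD d (Or.inr h2)
    obtain ⟨hpd, r, hr, hrp, hrd, hrM⟩ := TowerMixed_arith hp hpM hdd' h1 h2
    have hd0 : 0 < d := Nat.pos_of_dvd_of_pos hdd' hpos
    have hpa : p ∣ M * p ^ a := hpd.trans hdd'
    have hra : r ∣ M * p ^ a := hrd.trans hdd'
    -- the two smaller divisors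
    have hdp_lt : d / p < d := Nat.div_lt_self hd0 hp.one_lt
    have hdr_lt : d / r < d := Nat.div_lt_self hd0 hr.one_lt
    have hdp_dvd : d / p ∣ M * p ^ a := (Nat.div_dvd_of_dvd hpd).trans hdd'
    have hdr_dvd : d / r ∣ M * p ^ a := (Nat.div_dvd_of_dvd hrd).trans hdd'
    obtain ⟨hmp, hρp⟩ := ih (d / p) hdp_lt hdp_dvd
    obtain ⟨hmr, hρr⟩ := ih (d / r) hdr_lt hdr_dvd
    have hdp1 : 1 ≤ d / p := Nat.div_pos (Nat.le_of_dvd hd0 hpd) hp.pos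
    have hdr1 : 1 ≤ d / r := Nat.div_pos (Nat.le_of_dvd hd0 hrd) hr.pos
    have hℓd : ¬ ℓ ∣ d := fun hh => hℓ (hh.trans hdd')
    -- the two polynomials
    have key : ∀ (s : ℕ) (Hs : HeckeData s) (hsd : s ∣ d) (hm : jd ℚ (d / s) ∈ S),
        s ≠ 0 → 1 ≤ d / s →
        (PhiAt Hs.Φ (⟨jd ℚ (d / s), hm⟩ : ↥S)).eval₂ S.subtype (jd ℚ d) = 0 := by
      intro s Hs hsd hm hs0 hs1
      rw [Polynomial.eval₂_eq_eval_map, PhiAt_map]
      have := Hs.root_jd ℚ hs0 (d / s) (Nat.one_le_iff_ne_zero.mp hs1)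
      rwa [Nat.div_mul_cancel hsd] at this
    have hmapρ : ∀ (s : ℕ) (Hs : HeckeData s) (hm : jd ℚ (d / s) ∈ S),
        ρ ⟨jd ℚ (d / s), hm⟩ = jd (ZMod ℓ) (d / s) →
        (PhiAt Hs.Φ (⟨jd ℚ (d / s), hm⟩ : ↥S)).map ρ = PhiAt Hs.Φ (jd (ZMod ℓ) (d / s)) := by
      intro s Hs hm hρs
      rw [PhiAt_map, hρs]
    refine hgood.mem_of_bezout (PhiAt_monic (hd p hp hpa).monic _)
      (PhiAt_monic (hd r hr hra).monic _) (key p (hd p hp hpa) hpd hmp hp.ne_zero hdp1)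
      (key r (hd r hr hra) hrd hmr hr.ne_zero hdr1) ?_
    rw [hmapρ p (hd p hp hpa) hmp hρp, hmapρ r (hd r hr hra) hmr hρr]
    exact hL.bezout_mixed p r d hp hr (Ne.symm hrp) hpd hrd hℓd (hd p hp hpa) (hd r hr hra)

end Fermat.Agent.S28
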