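/-
S28 (Igusa) -- block [T] (tower): outer induction over the level and the final export
`exists_rho_charts`.
Owner: helper53.  Namespace `Fermat.Agent.S28`.
-/
import Fermat.Agent.S28.TowerDefs
import Fermat.Agent.S28.BasePair
import Fermat.Agent.S28.TowerChain
import Fermat.Agent.S28.TowerMixed
import Fermat.Agent.S28.KerEll

set_option autoImplicit false

noncomputable section

namespace Fermat.Agent.S28

open ModularCurve ModularCurve.IgusaScheme Polynomial

/-- The top of the tower: a good pair containing all `j(q^d)`, `d ∣ N`. -/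
theorem towerState_top (ℓ : ℕ) [Fact ℓ.Prime] (hL : CharLInputs ℓ) :
    ∀ N : ℕ, N ≠ 0 → ¬ ℓ ∣ N → (∀ p : ℕ, p.Prime → p ∣ N → HeckeData p) →
      TowerState ℓ {d | d ∣ N}
        (modularFunctionFieldFullC (ZMod ℓ) N : Set (LaurentSeries (ZMod ℓ))) := by
  intro N
  induction N using Nat.strong_induction_on with
  | _ N ih =>
    intro hN hℓN hd
    by_cases hN1 : N = 1
    · subst hN1
      refine (towerState_base ℓ).mono ?_ (subset_refl _)
      intro d hd1
      exact Nat.dvd_one.mp hd1
    · set p := N.minFac with hp_def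
      have hp : p.Prime := Nat.minFac_prime hN1
      have hpN : p ∣ N := Nat.minFac_dvd N
      set a := N.factorization p with ha_def
      set M := N / p ^ a with hM_def
      have hNeq : p ^ a * M = N := Nat.ordProj_mul_ordCompl_eq_self N p
      have hNeq' : M * p ^ a = N := by rw [mul_comm]; exact hNeq
      have hMpos : 0 < M := Nat.ordCompl_pos p hN
      have hM0 : M ≠ 0 := hMpos.ne'
      have hpM : ¬ p ∣ M := Nat.not_dvd_ordCompl hp hN
      have ha : 1 ≤ a := (hp.dvd_iff_one_le_factorization hN).mp hpN
      have hMN : M ∣ N := ⟨p ^ a, hNeq'.symm⟩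
      have hMlt : M < N := by
        have h2 : 2 ≤ p ^ a := le_trans hp.two_le (Nat.le_self_pow (by omega) p)
        calc M < 2 * M := by omega
          _ ≤ p ^ a * M := Nat.mul_le_mul_right M h2
          _ = N := hNeq
      have hpMN : p * M ∣ N := by
        rw [← hNeq]
        exact Nat.mul_dvd_mul_right (dvd_pow_self p (by omega)) M
      haveI : NeZero M := ⟨hM0⟩
      have hIH := ih M hMlt hM0 (fun h => hℓN (h.trans hMN))
        (fun r hr hrM => hd r hr (hrM.trans hMN))
      have hchain := towerState_chain ℓ hL p M hp hpM (fun h => hℓN (h.trans hpMN))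
        (hd p hp hpN) hIH a
      have hmixed := towerState_mixed ℓ hL p M a hp hpM (by rw [hNeq']; exact hℓN)
        (fun r hr hrN => hd r hr (by rw [← hNeq']; exact hrN)) _ hchain
      have htop := hmixed.mono (subset_refl _) (chainField_subset_full ℓ M p a hM0 hp.ne_zero)
      rw [hNeq'] at htop
      exact htop

/-- **Final export of the tower block.** -/
theorem exists_rho_charts (N : ℕ) [NeZero N] (ℓ : ℕ) [Fact ℓ.Prime] (hℓN : ¬ ℓ ∣ N)
    (hd : ∀ p : ℕ, p.Prime → p ∣ N → HeckeData p) (hL : CharLInputs ℓ) : RhoCharts N ℓ :=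
  rhoCharts_of_towerState N ℓ _ (towerState_top ℓ hL N (NeZero.ne N) hℓN hd)

end Fermat.Agent.S28

end
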