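/-
Team S28, block [A] (owner: helper4).  Scheme -> algebra reduction for the Igusa scheme.

If the base changes `A_fin ⊗ K`, `A_inf ⊗ K` of the two charts are domains and the base change of the
overlap chart `A_mid ⊗ K` is a nontrivial ring, then the pullback of the Igusa scheme to `Spec K`
is an integral scheme.
-/
import Mathlib
import Fermat.Prelude.Def_ModularCurve_IgusaScheme

set_option autoImplicit false

open AlgebraicGeometry CategoryTheory CategoryTheory.Limits ModularCurve ModularCurve.IgusaScheme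
open TensorProduct

noncomputable section

namespace Fermat.Agent.S28

/-- A space covered by two irreducible opens with nonempty overlap is irreducible. -/
theorem sred_irreducibleSpace_of_two_opens {Y : Type*} [TopologicalSpace Y] (U₁ U₂ : Set Y)
    (h₁ : IsOpen U₁) (h₂ : IsOpen U₂) (i₁ : IsIrreducible U₁) (i₂ : IsIrreducible U₂)
    (hcov : ∀ y : Y, y ∈ U₁ ∨ y ∈ U₂) (hne : (U₁ ∩ U₂).Nonempty) : IrreducibleSpace Y := by
  have key : ∀ u : Set Y, IsOpen u → u.Nonempty → (U₁ ∩ (u ∩ U₂)).Nonempty := by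
    intro u hu ⟨x, hx⟩
    rcases hcov x with hx1 | hx2
    · exact i₁.2 u U₂ hu h₂ ⟨x, hx1, hx⟩ hne
    · have := i₂.2 u U₁ hu h₁ ⟨x, hx2, hx⟩ (by rwa [Set.inter_comm])
      obtain ⟨y, hy2, hyu, hy1⟩ := this
      exact ⟨y, hy1, hyu, hy2⟩
  have hpre : PreirreducibleSpace Y := by
    refine ⟨?_⟩
    intro u v hu hv ⟨x, _, hx⟩ ⟨y, _, hy⟩
    obtain ⟨a, ha1, hau, _⟩ := key u hu ⟨x, hx⟩
    obtain ⟨b, hb1, hbv, _⟩ := key v hv ⟨y, hy⟩
    obtain ⟨c, _, hc⟩ := i₁.2 u v hu hv ⟨a, ha1, hau⟩ ⟨b, hb1, hbv⟩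
    exact ⟨c, trivial, hc⟩
  obtain ⟨z, _⟩ := hne
  exact { toPreirreducibleSpace := hpre, toNonempty := ⟨z⟩ }

section

variable (N : ℕ) [NeZero N] (ℓ : ℕ) [Fact ℓ.Prime]

/-- The two-chart open cover of the Igusa scheme. -/
def sredCover : (ModularCurve.IgusaScheme N ℓ).OpenCover :=
  Scheme.Cover.mkOfCovers Bool (fun b => if b then XFin N ℓ else XInf N ℓ)
    (fun b => match b with
      | true => ιFin N ℓ
      | false => ιInf N ℓ)
    (by
      intro x
      rcases mem_range_ιFin_or_mem_range_ιInf N ℓ x with ⟨y, hy⟩ | ⟨y, hy⟩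
      · exact ⟨true, y, hy⟩
      · exact ⟨false, y, hy⟩)
    (by
      intro b
      cases b
      · exact isOpenImmersion_ιInf N ℓ
      · exact isOpenImmersion_ιFin N ℓ)

theorem isIntegral_pullback_of_charts
    (K : Type) [Field K] [Algebra ↥(GaloisRep.ratLocalizedAt ℓ) K]
    (hFin : IsDomain (↥(chartAlgFin N ℓ) ⊗[↥(GaloisRep.ratLocalizedAt ℓ)] K))
    (hInf : IsDomain (↥(chartAlgInf N ℓ) ⊗[↥(GaloisRep.ratLocalizedAt ℓ)] K))
    (hMid : Nontrivial (↥(chartAlgMid N ℓ) ⊗[↥(GaloisRep.ratLocalizedAt ℓ)] K)) :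
    IsIntegral ↑(pullback (igusaTo N ℓ)
      (Spec.map (CommRingCat.ofHom (algebraMap ↥(GaloisRep.ratLocalizedAt ℓ) K)))) := by
  set g := Spec.map (CommRingCat.ofHom (algebraMap ↥(GaloisRep.ratLocalizedAt ℓ) K)) with hg
  let 𝒱 := Scheme.Pullback.openCoverOfLeft (sredCover N ℓ) (igusaTo N ℓ) g
  -- the two charts of the pullback are spectra of the tensor products
  let eFin : 𝒱.X true ≅
      Spec (.of (↥(chartAlgFin N ℓ) ⊗[↥(GaloisRep.ratLocalizedAt ℓ)] K)) :=
    pullback.congrHom (ιFin_igusaTo N ℓ) rfl ≪≫ pullbackSpecIso _ _ _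
  let eInf : 𝒱.X false ≅
      Spec (.of (↥(chartAlgInf N ℓ) ⊗[↥(GaloisRep.ratLocalizedAt ℓ)] K)) :=
    pullback.congrHom (ιInf_igusaTo N ℓ) rfl ≪≫ pullbackSpecIso _ _ _
  have intFin : IsIntegral (𝒱.X true) := IsIntegral.of_isIso eFin.inv
  have intInf : IsIntegral (𝒱.X false) := IsIntegral.of_isIso eInf.inv
  have hred : IsReduced (pullback (igusaTo N ℓ) g) := by
    have : ∀ i, IsReduced (𝒱.X i) := by
      intro i
      cases i
      · infer_instance
      · infer_instance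
    exact IsReduced.of_openCover _ 𝒱
  -- a point of the overlap
  have hMidpt : Nonempty ↥(Spec (CommRingCat.of
      (↥(chartAlgMid N ℓ) ⊗[↥(GaloisRep.ratLocalizedAt ℓ)] K))) := by
    change Nonempty (PrimeSpectrum (↥(chartAlgMid N ℓ) ⊗[↥(GaloisRep.ratLocalizedAt ℓ)] K))
    infer_instance
  obtain ⟨z⟩ := hMidpt
  let sM : Spec (CommRingCat.of (↥(chartAlgMid N ℓ) ⊗[↥(GaloisRep.ratLocalizedAt ℓ)] K)) ⟶
      XMid N ℓ :=
    Spec.map (CommRingCat.ofHom (Algebra.TensorProduct.includeLeftRingHom))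
  let tM : Spec (CommRingCat.of (↥(chartAlgMid N ℓ) ⊗[↥(GaloisRep.ratLocalizedAt ℓ)] K)) ⟶
      Spec (CommRingCat.of K) :=
    Spec.map (CommRingCat.ofHom
      (Algebra.TensorProduct.includeRight (R := ↥(GaloisRep.ratLocalizedAt ℓ))
        (A := ↥(chartAlgMid N ℓ)) (B := K)).toRingHom)
  have hcommFin : (sM ≫ fFin N ℓ) ≫ (ιFin N ℓ ≫ igusaTo N ℓ) = tM ≫ g := by
    rw [ιFin_igusaTo, hg]
    simp only [sM, tM, ← Spec.map_comp, ← CommRingCat.ofHom_comp]
    congr 2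
    ext r
    simp only [RingHom.comp_apply, AlgHom.toRingHom_eq_coe, RingHom.coe_coe, AlgHom.commutes,
      Algebra.TensorProduct.includeLeftRingHom_apply]
    rfl
  have hcommInf : (sM ≫ fInf N ℓ) ≫ (ιInf N ℓ ≫ igusaTo N ℓ) = tM ≫ g := by
    rw [ιInf_igusaTo, hg]
    simp only [sM, tM, ← Spec.map_comp, ← CommRingCat.ofHom_comp]
    congr 2
    ext r
    simp only [RingHom.comp_apply, AlgHom.toRingHom_eq_coe, RingHom.coe_coe, AlgHom.commutes,
      Algebra.TensorProduct.includeLeftRingHom_apply]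
    rfl
  let jF : pullback (ιFin N ℓ ≫ igusaTo N ℓ) g ⟶ pullback (igusaTo N ℓ) g :=
    pullback.map (ιFin N ℓ ≫ igusaTo N ℓ) g (igusaTo N ℓ) g (ιFin N ℓ) (𝟙 _) (𝟙 _)
      (by simp) (by simp)
  let jI : pullback (ιInf N ℓ ≫ igusaTo N ℓ) g ⟶ pullback (igusaTo N ℓ) g :=
    pullback.map (ιInf N ℓ ≫ igusaTo N ℓ) g (igusaTo N ℓ) g (ιInf N ℓ) (𝟙 _) (𝟙 _)
      (by simp) (by simp)
  have hjF : 𝒱.f true = jF := rfl
  have hjI : 𝒱.f false = jI := rfl
  let a : Spec (CommRingCat.of (↥(chartAlgMid N ℓ) ⊗[↥(GaloisRep.ratLocalizedAt ℓ)] K)) ⟶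
      pullback (ιFin N ℓ ≫ igusaTo N ℓ) g := pullback.lift (sM ≫ fFin N ℓ) tM hcommFin
  let b : Spec (CommRingCat.of (↥(chartAlgMid N ℓ) ⊗[↥(GaloisRep.ratLocalizedAt ℓ)] K)) ⟶
      pullback (ιInf N ℓ ≫ igusaTo N ℓ) g := pullback.lift (sM ≫ fInf N ℓ) tM hcommInf
  have hab : a ≫ jF = b ≫ jI := by
    apply pullback.hom_ext
    · simp only [a, b, jF, jI, Category.assoc, pullback.map, pullback.lift_fst,
        pullback.lift_fst_assoc]
      rw [glue_condition]
    · simp only [a, b, jF, jI, Category.assoc, pullback.map, pullback.lift_snd,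
        Category.comp_id]
  have hirr : IrreducibleSpace ↥(pullback (igusaTo N ℓ) g) := by
    refine sred_irreducibleSpace_of_two_opens (Set.range (𝒱.f true)) (Set.range (𝒱.f false))
      ?_ ?_ ?_ ?_ ?_ ?_
    · exact (𝒱.f true).isOpenEmbedding.isOpen_range
    · exact (𝒱.f false).isOpenEmbedding.isOpen_range
    · have := IrreducibleSpace.isIrreducible_univ ↥(𝒱.X true)
      have := this.image (𝒱.f true) (𝒱.f true).continuous.continuousOn
      rwa [Set.image_univ] at this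
    · have := IrreducibleSpace.isIrreducible_univ ↥(𝒱.X false)
      have := this.image (𝒱.f false) (𝒱.f false).continuous.continuousOn
      rwa [Set.image_univ] at this
    · intro y
      obtain ⟨i, x, hx⟩ := 𝒱.exists_eq y
      cases i
      · exact Or.inr ⟨x, hx⟩
      · exact Or.inl ⟨x, hx⟩
    · refine ⟨(a ≫ jF) z, ⟨a z, rfl⟩, ?_⟩
      rw [hab]
      exact ⟨b z, rfl⟩
  exact isIntegral_of_irreducibleSpace_of_isReduced _

end

end Fermat.Agent.S28
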