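/-
S28 block [T2] (owner: helper6).

If `ρ : A →+* (ZMod ℓ)((q))` has kernel `ℓ·A`, then for every field `K` of characteristic `ℓ`
the ring `A ⊗_{ℤ_(ℓ)} K` embeds into `K((q))`, hence is a domain (`isDomain_tensor_of_ker`).
Without the kernel hypothesis the same comparison map still shows that `A ⊗ K` is nontrivial
(`nontrivial_tensor_of_ringHom`).
-/
import Mathlib
import Fermat.Prelude.Def_ModularCurve_IgusaScheme

set_option autoImplicit false

namespace Fermat.Agent.S28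

open TensorProduct

/-- Coefficientwise map of Laurent series, as a ring homomorphism. -/
noncomputable def t2MapCoeff {R S : Type*} [Semiring R] [Semiring S] (f : R →+* S) :
    LaurentSeries R →+* LaurentSeries S where
  toFun x := x.map f
  map_one' := by
    have := HahnSeries.map_one (Γ := ℤ) (f.toMonoidWithZeroHom)
    ext n
    exact congrArg (fun y => HahnSeries.coeff y n) this
  map_mul' x y := by
    have := HahnSeries.map_mul (Γ := ℤ) (f.toNonUnitalRingHom) (x := x) (y := y)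
    ext n
    have h2 := congrArg (fun y => HahnSeries.coeff y n) this
    exact h2
  map_zero' := by
    ext n
    simp
  map_add' x y := by
    ext n
    simp

theorem t2MapCoeff_coeff {R S : Type*} [Semiring R] [Semiring S] (f : R →+* S)
    (x : LaurentSeries R) (n : ℤ) : (t2MapCoeff f x).coeff n = f (x.coeff n) := by
  simp [t2MapCoeff]

/-- Natural numbers prime to `ℓ` are units of `ℤ_(ℓ)`. -/
theorem t2_isUnit_natCast (ℓ : ℕ) [Fact ℓ.Prime] (d : ℕ) (hd : d.Coprime ℓ) :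
    IsUnit ((d : ℕ) : ↥(GaloisRep.ratLocalizedAt ℓ)) := by
  have hd0 : d ≠ 0 := by
    rintro rfl
    have := (Fact.out : ℓ.Prime).one_lt
    simp at hd
    omega
  have hmem : ((d : ℚ))⁻¹ ∈ GaloisRep.ratLocalizedAt ℓ := by
    show ((d : ℚ))⁻¹.den.Coprime ℓ
    rw [Rat.inv_natCast_den, if_neg hd0]
    exact hd
  refine IsUnit.of_mul_eq_one ⟨_, hmem⟩ (Subtype.ext ?_)
  have hq : (d : ℚ) ≠ 0 := by exact_mod_cast hd0
  simp [hq]

/-- Two ring homomorphisms out of `ℤ_(ℓ)` agree. -/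
theorem t2_ringHom_ext (ℓ : ℕ) [Fact ℓ.Prime] {S : Type*} [Ring S]
    (φ ψ : ↥(GaloisRep.ratLocalizedAt ℓ) →+* S) : φ = ψ := by
  ext ⟨r, hr⟩
  have hu := t2_isUnit_natCast ℓ r.den hr
  have key : ((r.den : ℕ) : ↥(GaloisRep.ratLocalizedAt ℓ)) * ⟨r, hr⟩
      = ((r.num : ℤ) : ↥(GaloisRep.ratLocalizedAt ℓ)) := by
    apply Subtype.ext
    simp [Rat.den_mul_eq_num]
  have h1 : φ ((r.den : ℕ) : ↥(GaloisRep.ratLocalizedAt ℓ)) * φ ⟨r, hr⟩
      = φ ((r.den : ℕ) : ↥(GaloisRep.ratLocalizedAt ℓ)) * ψ ⟨r, hr⟩ := by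
    rw [← map_mul, key, map_intCast, map_natCast, ← map_natCast ψ, ← map_mul, key, map_intCast]
  exact (hu.map φ).mul_left_cancel h1

section main

variable (ℓ : ℕ) [Fact ℓ.Prime]
    (A : Type) [CommRing A] [Algebra ↥(GaloisRep.ratLocalizedAt ℓ) A]
    (ρ : A →+* LaurentSeries (ZMod ℓ))
    (K : Type) [Field K] [CharP K ℓ] [Algebra ↥(GaloisRep.ratLocalizedAt ℓ) K]

/-- The left leg `A → K((q))`: the coefficientwise base change of `ρ`. -/
noncomputable def t2Left : A →ₐ[↥(GaloisRep.ratLocalizedAt ℓ)] LaurentSeries K :=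
  { (t2MapCoeff (ZMod.castHom (dvd_refl ℓ) K)).comp ρ with
    commutes' := fun r => DFunLike.congr_fun (t2_ringHom_ext ℓ
      (((t2MapCoeff (ZMod.castHom (dvd_refl ℓ) K)).comp ρ).comp
        (algebraMap ↥(GaloisRep.ratLocalizedAt ℓ) A))
      (algebraMap ↥(GaloisRep.ratLocalizedAt ℓ) (LaurentSeries K))) r }

theorem t2Left_coeff (a : A) (n : ℤ) :
    (t2Left ℓ A ρ K a).coeff n = ZMod.castHom (dvd_refl ℓ) K ((ρ a).coeff n) := by
  show (t2MapCoeff (ZMod.castHom (dvd_refl ℓ) K) (ρ a)).coeff n = _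
  rw [t2MapCoeff_coeff]

/-- The right leg `K → K((q))`: constants. -/
noncomputable def t2Right : K →ₐ[↥(GaloisRep.ratLocalizedAt ℓ)] LaurentSeries K :=
  { (HahnSeries.C : K →+* LaurentSeries K) with
    commutes' := fun r => DFunLike.congr_fun (t2_ringHom_ext ℓ
      ((HahnSeries.C : K →+* LaurentSeries K).comp (algebraMap ↥(GaloisRep.ratLocalizedAt ℓ) K))
      (algebraMap ↥(GaloisRep.ratLocalizedAt ℓ) (LaurentSeries K))) r }

omit [CharP K ℓ] in
theorem t2Right_apply (k : K) : t2Right ℓ K k = HahnSeries.C k := rfl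

/-- The comparison map `A ⊗ K → K((q))`. -/
noncomputable def t2Phi :
    A ⊗[↥(GaloisRep.ratLocalizedAt ℓ)] K →ₐ[↥(GaloisRep.ratLocalizedAt ℓ)] LaurentSeries K :=
  Algebra.TensorProduct.productMap (t2Left ℓ A ρ K) (t2Right ℓ K)

theorem t2Phi_tmul_coeff (a : A) (k : K) (n : ℤ) :
    (t2Phi ℓ A ρ K (a ⊗ₜ k)).coeff n = ZMod.castHom (dvd_refl ℓ) K ((ρ a).coeff n) * k := by
  rw [t2Phi, Algebra.TensorProduct.productMap_apply_tmul, t2Right_apply, HahnSeries.C_apply,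
    HahnSeries.coeff_mul_single_zero, t2Left_coeff]

omit [Fact ℓ.Prime] [CharP K ℓ] in
/-- Moving a natural number across the tensor sign. -/
theorem t2_natCast_mul_tmul (n : ℕ) (a : A) (k : K) :
    (((n : ℕ) : A) * a) ⊗ₜ[↥(GaloisRep.ratLocalizedAt ℓ)] k
      = a ⊗ₜ[↥(GaloisRep.ratLocalizedAt ℓ)] (((n : ℕ) : K) * k) := by
  have h1 : ((n : ℕ) : A) * a = ((n : ℕ) : ↥(GaloisRep.ratLocalizedAt ℓ)) • a := by
    rw [Algebra.smul_def, map_natCast]
  have h2 : ((n : ℕ) : K) * k = ((n : ℕ) : ↥(GaloisRep.ratLocalizedAt ℓ)) • k := by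
    rw [Algebra.smul_def, map_natCast]
  rw [h1, h2, TensorProduct.smul_tmul]

omit [Fact ℓ.Prime] [CharP K ℓ] in
/-- Every element of `A ⊗ K` is a finite sum `∑ aᵢ ⊗ bᵢ` along an `𝔽_ℓ`-basis `b` of `K`. -/
theorem t2_exists_repr {ι : Type*} (b : ι → K)
    (hb : ∀ k : K, ∃ c : ι →₀ ℕ, k = c.sum fun i n => ((n : ℕ) : K) * b i)
    (x : A ⊗[↥(GaloisRep.ratLocalizedAt ℓ)] K) :
    ∃ a : ι →₀ A, x = a.sum fun i ai => ai ⊗ₜ[↥(GaloisRep.ratLocalizedAt ℓ)] b i := by
  classical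
  induction x using TensorProduct.induction_on with
  | zero => exact ⟨0, by simp⟩
  | tmul a0 k =>
    obtain ⟨c, hc⟩ := hb k
    refine ⟨c.mapRange (fun n => ((n : ℕ) : A) * a0) (by simp), ?_⟩
    rw [Finsupp.sum_mapRange_index (by intro i; simp)]
    simp only [t2_natCast_mul_tmul]
    rw [hc, Finsupp.sum, Finsupp.sum, TensorProduct.tmul_sum]
  | add x y hx hy =>
    obtain ⟨a1, h1⟩ := hx
    obtain ⟨a2, h2⟩ := hy
    refine ⟨a1 + a2, ?_⟩
    rw [Finsupp.sum_add_index' (by intro i; simp) (by intro i x y; simp [TensorProduct.add_tmul]),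
      ← h1, ← h2]

end main

/-- **Block [T2].** If `ρ : A →+* 𝔽_ℓ((q))` has kernel `ℓ·A`, then `A ⊗_{ℤ_(ℓ)} K` is a domain
for every field `K` of characteristic `ℓ`. -/
theorem isDomain_tensor_of_ker (ℓ : ℕ) [Fact ℓ.Prime]
    (A : Type) [CommRing A] [Algebra ↥(GaloisRep.ratLocalizedAt ℓ) A]
    (ρ : A →+* LaurentSeries (ZMod ℓ))
    (hρ : ∀ a : A, ρ a = 0 → ∃ b : A, a = (ℓ : A) * b)
    (K : Type) [Field K] [CharP K ℓ] [Algebra ↥(GaloisRep.ratLocalizedAt ℓ) K] :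
    IsDomain (TensorProduct ↥(GaloisRep.ratLocalizedAt ℓ) A K) := by
  classical
  let _ : Algebra (ZMod ℓ) K := ZMod.algebra K ℓ
  let b := Module.Basis.ofVectorSpace (ZMod ℓ) K
  have hcast : ∀ c : ZMod ℓ, ∀ k : K, c • k = ZMod.castHom (dvd_refl ℓ) K c * k := by
    intro c k
    rw [Algebra.smul_def]
    rfl
  have hb : ∀ k : K, ∃ c : _ →₀ ℕ, k = c.sum fun i n => ((n : ℕ) : K) * b i := by
    intro k
    refine ⟨(b.repr k).mapRange ZMod.val ZMod.val_zero, ?_⟩
    rw [Finsupp.sum_mapRange_index (by intro i; simp)]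
    conv_lhs => rw [← b.linearCombination_repr k]
    rw [Finsupp.linearCombination_apply]
    refine Finsupp.sum_congr fun i _ => ?_
    rw [hcast, ZMod.natCast_val]
    rfl
  have hinj : Function.Injective (t2Phi ℓ A ρ K) := by
    rw [injective_iff_map_eq_zero]
    intro x hx
    obtain ⟨a, rfl⟩ := t2_exists_repr ℓ A K b hb x
    have hzero : ∀ i ∈ a.support, ρ (a i) = 0 := by
      intro i hi
      ext n
      have hn := congrArg (fun y => HahnSeries.coeff y n) hx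
      simp only [Finsupp.sum, map_sum, HahnSeries.coeff_sum, t2Phi_tmul_coeff,
        HahnSeries.coeff_zero] at hn
      have hli := linearIndependent_iff'.mp b.linearIndependent a.support
        (fun i => (ρ (a i)).coeff n) (by simpa only [hcast] using hn) i hi
      simpa using hli
    rw [Finsupp.sum]
    refine Finset.sum_eq_zero fun i hi => ?_
    obtain ⟨c, hc⟩ := hρ (a i) (hzero i hi)
    rw [hc, t2_natCast_mul_tmul, CharP.cast_eq_zero K ℓ, zero_mul, TensorProduct.tmul_zero]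
  exact hinj.isDomain (t2Phi ℓ A ρ K)

/-- **Block [T2b].** A ring homomorphism `A →+* 𝔽_ℓ((q))` forces `A ⊗_{ℤ_(ℓ)} K ≠ 0`. -/
theorem nontrivial_tensor_of_ringHom (ℓ : ℕ) [Fact ℓ.Prime]
    (A : Type) [CommRing A] [Algebra ↥(GaloisRep.ratLocalizedAt ℓ) A]
    (ρ : A →+* LaurentSeries (ZMod ℓ))
    (K : Type) [Field K] [CharP K ℓ] [Algebra ↥(GaloisRep.ratLocalizedAt ℓ) K] :
    Nontrivial (TensorProduct ↥(GaloisRep.ratLocalizedAt ℓ) A K) :=
  (t2Phi ℓ A ρ K).toRingHom.domain_nontrivial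

end Fermat.Agent.S28
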