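/-
S28 block [E], piece A3 (owner: helper58): generic transfer of two-variable polynomial identities
from functions on `ℍ` to Laurent series through an algebra homomorphism, and the assembly
`AnalyticFun p → AnalyticInput p` from the four `cuspHom`-values.

All declarations live in `Fermat.Agent.S28.AnExpand`.
-/
import Fermat.Agent.S24.AnCusp
import Fermat.Agent.S28.HeckeAnDefs

set_option autoImplicit false

namespace Fermat.Agent.S28.AnExpand

open UpperHalfPlane Polynomial ModularCurve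
open Fermat.Agent.S23 Fermat.Agent.LevelOne Fermat.Agent.S28

/-- `ev2` commutes with algebra homomorphisms. -/
theorem ev2_map {K A B : Type*} [CommRing K] [CommRing A] [CommRing B] [Algebra K A]
    [Algebra K B] (φ : A →ₐ[K] B) (P : Polynomial (Polynomial K)) (x y : A) :
    φ (ev2 P x y) = ev2 P (φ x) (φ y) := by
  unfold ev2
  rw [Polynomial.eval_map, Polynomial.eval_map]
  have h := Polynomial.hom_eval₂ P
    ((Polynomial.aeval y : Polynomial K →ₐ[K] A) : Polynomial K →+* A) (φ : A →+* B) x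
  have hcomp : (φ : A →+* B).comp
        ((Polynomial.aeval y : Polynomial K →ₐ[K] A) : Polynomial K →+* A) =
      ((Polynomial.aeval (φ y) : Polynomial K →ₐ[K] B) : Polynomial K →+* B) := by
    rw [Polynomial.aeval_algHom]
    rfl
  rw [hcomp] at h
  exact h

/-- `ev2` in a function algebra is computed pointwise. -/
theorem ev2_apply {K ι : Type*} [CommRing K] (P : Polynomial (Polynomial K)) (x y : ι → K)
    (z : ι) : ev2 P x y z = ev2 P (x z) (y z) :=
  ev2_map (Pi.evalAlgHom K (fun _ : ι => K) z) P x y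

/-- `ev2` in a subalgebra. -/
theorem ev2_coe {K A : Type*} [CommRing K] [CommRing A] [Algebra K A] (S : Subalgebra K A)
    (P : Polynomial (Polynomial K)) (x y : S) :
    ((ev2 P x y : S) : A) = ev2 P (x : A) (y : A) :=
  ev2_map S.val P x y

/-- Transfer of a pointwise identity `P(x z, y z) = 0` through an algebra hom defined on a
subalgebra of functions. -/
theorem transfer {K ι B : Type*} [CommRing K] [CommRing B] [Algebra K B]
    (S : Subalgebra K (ι → K)) (φ : S →ₐ[K] B) (P : Polynomial (Polynomial K)) (x y : S)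
    (h : ∀ z, ev2 P ((x : ι → K) z) ((y : ι → K) z) = 0) : ev2 P (φ x) (φ y) = 0 := by
  have h0 : ev2 P x y = 0 := by
    apply Subtype.ext
    funext z
    rw [ev2_coe, ev2_apply, h z]
    rfl
  rw [← ev2_map, h0, map_zero]

/-- Transfer of a pointwise identity `H(x z, y z) = w z * Q(x z, y z)`. -/
theorem transfer_mul {K ι B : Type*} [CommRing K] [CommRing B] [Algebra K B]
    (S : Subalgebra K (ι → K)) (φ : S →ₐ[K] B) (H Q : Polynomial (Polynomial K)) (x y w : S)
    (h : ∀ z, ev2 H ((x : ι → K) z) ((y : ι → K) z) =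
      (w : ι → K) z * ev2 Q ((x : ι → K) z) ((y : ι → K) z)) :
    ev2 H (φ x) (φ y) = φ w * ev2 Q (φ x) (φ y) := by
  have h0 : ev2 H x y = w * ev2 Q x y := by
    apply Subtype.ext
    funext z
    rw [ev2_coe, ev2_apply, h z, Subalgebra.coe_mul, Pi.mul_apply, ev2_coe, ev2_apply]
  rw [← ev2_map, h0, map_mul, ev2_map]

/-- `AnalyticFun p → AnalyticInput p`, given the four values of `S24.cuspHom 1`. -/
theorem analyticInput_of_fun_of_img (p : ℕ) [NeZero p]
    (hj : (jFun : ℍ → ℂ) ∈ S24.merSub 1)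
    (hjp : (fun z : ℍ => jFun (mulN p z)) ∈ S24.merSub 1)
    (hW : hkW p ∈ S24.merSub 1) (hV : hkV p ∈ S24.merSub 1)
    (ij : S24.cuspHom 1 ⟨jFun, hj⟩ = jd ℂ 1)
    (ijp : S24.cuspHom 1 ⟨fun z : ℍ => jFun (mulN p z), hjp⟩ = jd ℂ p)
    (iW : S24.cuspHom 1 ⟨hkW p, hW⟩ = wInf ℂ p)
    (iV : S24.cuspHom 1 ⟨hkV p, hV⟩ = invU ℂ p)
    (h : AnalyticFun p) : AnalyticInput p := by
  obtain ⟨Φc, Wc, Hc, hΦm, hΦd, hWm, hWd, hHd, hz⟩ := h
  refine ⟨Φc, Wc, Hc, hΦm, hΦd, hWm, hWd, hHd, ?_, ?_, ?_, ?_, ?_, ?_⟩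
  · rw [← ij, ← ijp]
    exact transfer (S24.merSub 1) (S24.cuspHom 1) Φc _ _ (fun z => (hz z).1)
  · rw [← ij, ← ijp]
    exact transfer (S24.merSub 1) (S24.cuspHom 1) Φc _ _ (fun z => (hz z).2.1)
  · rw [← ij, ← iW]
    exact transfer (S24.merSub 1) (S24.cuspHom 1) Wc _ _ (fun z => (hz z).2.2.1)
  · rw [← ijp, ← iV]
    exact transfer (S24.merSub 1) (S24.cuspHom 1) Wc _ _ (fun z => (hz z).2.2.2.1)
  · rw [← ij, ← ijp, ← iW]
    exact transfer_mul (S24.merSub 1) (S24.cuspHom 1) Hc _ _ _ _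
      (fun z => (hz z).2.2.2.2.1)
  · rw [← ij, ← ijp, ← iV]
    exact transfer_mul (S24.merSub 1) (S24.cuspHom 1) Hc _ _ _ _
      (fun z => (hz z).2.2.2.2.2)

end Fermat.Agent.S28.AnExpand
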