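import Mathlib
import Fermat.Agent.S24.AnBridge
import Fermat.Agent.S24.AnBridgeB
import Fermat.Agent.S24.AnCusp
import Fermat.Agent.S24.JFormalAsm
import Fermat.Agent.S28.Defs
import Fermat.Agent.S28.HeckeDefs
import Fermat.Agent.S28.HeckeAnDefs
import Fermat.Prelude.Def_ModularCurve_JqCoeff

/-!
# S28 team library, block [E] analytic half: Laurent expansions at `∞` of the four basic functions

OWNER: helper16 (only the owner edits this file).

The functions `j`, `j(p·)`, `p^12 Δ(p·)/Δ` and `Δ/Δ(p·)` lie in `S24.merSub 1` and their images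
under the Laurent expansion `S24.cuspHom 1` are `jd ℂ 1`, `jd ℂ p`, `p^12 · uL ℂ p` and
`DeltaL ℂ * qExpand ℂ p (DeltaLInv ℂ)`.
-/

set_option autoImplicit false

namespace Fermat.Agent.S28.AnExpandImg

open UpperHalfPlane ModularForm ModularCurve
open scoped MatrixGroups ModularForm Manifold
open Fermat.Agent

local notation "Δ" => ModularForm.discriminant

/-- `1`-periodicity in the `vadd` form, from periodicity of `F ∘ ofComplex`. -/
theorem vadd_one_of_periodic {F : ℍ → ℂ} (h : Function.Periodic (F ∘ ofComplex) 1) (z : ℍ) :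
    F (((1 : ℕ) : ℝ) +ᵥ z) = F z := by
  have h1 := h (z : ℂ)
  simp only [Function.comp_apply, ofComplex_apply] at h1
  rw [← h1]
  congr 1
  have : ((z : ℂ) + 1) = ((((1 : ℕ) : ℝ) +ᵥ z : ℍ) : ℂ) := by
    rw [UpperHalfPlane.coe_vadd]
    push_cast
    ring
  rw [this, ofComplex_apply]

/-- Nice functions are `1`-periodic, holomorphic and bounded, hence in `merSub 1`. -/
theorem mem_merSub_of_mem_niceSub {F : ℍ → ℂ} (hF : F ∈ S23.niceSub) : F ∈ S24.merSub 1 := by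
  refine ⟨hF.2.1, fun z => vadd_one_of_periodic hF.1 z, 0, ?_⟩
  have : (fun z : ℍ => Δ z ^ 0 * F z) = F := by funext z; simp
  rw [this]
  exact hF.2.2

/-- On nice functions `cuspHom 1` is the `q`-expansion. -/
theorem cuspHom_of_mem_niceSub {F : ℍ → ℂ} (hF : F ∈ S23.niceSub) (h : F ∈ S24.merSub 1) :
    S24.cuspHom 1 ⟨F, h⟩ = HahnSeries.ofPowerSeries ℤ ℂ (qExpansion 1 F) := by
  rw [S24.cuspHom_eq_of_bdd 1 ⟨F, h⟩ hF.2.2]
  simp

/-- The `q`-expansion of `Δ` as a Laurent series is the formal `DeltaL ℂ`. -/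
theorem ofPowerSeries_qExpansion_discriminant :
    HahnSeries.ofPowerSeries ℤ ℂ (qExpansion 1 (Δ : ℍ → ℂ)) = DeltaL ℂ := by
  rw [S24.JFormal.qExpansion_discriminant, map_mul, HahnSeries.ofPowerSeries_X, DeltaL]

theorem DeltaL_mul_DeltaLInv (R : Type*) [CommRing R] : DeltaL R * DeltaLInv R = 1 := by
  have h : dedekindEtaUnit.map (Int.castRingHom R) * dedekindEtaUnitInv.map (Int.castRingHom R)
      = 1 := by
    rw [← map_mul, dedekindEtaUnit_mul_inv, map_one]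
  rw [DeltaL, DeltaLInv, mul_mul_mul_comm, ← map_mul, h,
    map_one (HahnSeries.ofPowerSeries ℤ R), mul_one, HahnSeries.single_mul_single]
  simp

theorem jqModC_mul_DeltaL :
    jqModC ℂ * DeltaL ℂ = HahnSeries.ofPowerSeries ℤ ℂ (qExpansion 1 (E₄ : ℍ → ℂ)) ^ 3 := by
  rw [← ofPowerSeries_qExpansion_discriminant, ← coeffMap_jqModC (algebraMap ℚ ℂ), jqModC_rat]
  exact S24.jq_mul_discriminant

theorem DeltaL_ne_zero : DeltaL ℂ ≠ 0 := by
  intro h
  have := DeltaL_mul_DeltaLInv ℂ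
  rw [h, zero_mul] at this
  exact zero_ne_one this

section Members

variable (p : ℕ) [NeZero p]

theorem uFun_mem : (fun z => Δ (S23.mulN p z)) ∈ S24.merSub 1 :=
  mem_merSub_of_mem_niceSub (S24.AnBridge.scale_mem_niceSub p S24.AnBridge.discriminant_mem_niceSub)

theorem E4At_mem : (fun z => E₄ (S23.mulN p z)) ∈ S24.merSub 1 :=
  mem_merSub_of_mem_niceSub
    (S24.AnBridge.scale_mem_niceSub p (S24.AnBridge.levelOne_mem_niceSub E₄))

theorem discriminant_mem : (Δ : ℍ → ℂ) ∈ S24.merSub 1 :=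
  mem_merSub_of_mem_niceSub S24.AnBridge.discriminant_mem_niceSub

theorem E4_mem : (E₄ : ℍ → ℂ) ∈ S24.merSub 1 :=
  mem_merSub_of_mem_niceSub (S24.AnBridge.levelOne_mem_niceSub E₄)

theorem cuspHom_discriminant : S24.cuspHom 1 ⟨_, discriminant_mem⟩ = DeltaL ℂ := by
  rw [cuspHom_of_mem_niceSub S24.AnBridge.discriminant_mem_niceSub,
    ofPowerSeries_qExpansion_discriminant]

theorem cuspHom_uFun : S24.cuspHom 1 ⟨_, uFun_mem p⟩ = qExpand ℂ p (DeltaL ℂ) := by
  rw [cuspHom_of_mem_niceSub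
      (S24.AnBridge.scale_mem_niceSub p S24.AnBridge.discriminant_mem_niceSub),
    S24.AnBridge.ofPowerSeries_qExpansion_scale p S24.AnBridge.discriminant_mem_niceSub,
    ofPowerSeries_qExpansion_discriminant]

theorem cuspHom_E4 : S24.cuspHom 1 ⟨_, E4_mem⟩ =
    HahnSeries.ofPowerSeries ℤ ℂ (qExpansion 1 (E₄ : ℍ → ℂ)) :=
  cuspHom_of_mem_niceSub (S24.AnBridge.levelOne_mem_niceSub E₄) _

theorem cuspHom_E4At : S24.cuspHom 1 ⟨_, E4At_mem p⟩ =
    qExpand ℂ p (HahnSeries.ofPowerSeries ℤ ℂ (qExpansion 1 (E₄ : ℍ → ℂ))) := by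
  rw [cuspHom_of_mem_niceSub
      (S24.AnBridge.scale_mem_niceSub p (S24.AnBridge.levelOne_mem_niceSub E₄)),
    S24.AnBridge.ofPowerSeries_qExpansion_scale p (S24.AnBridge.levelOne_mem_niceSub E₄)]

/-- A quotient by a nowhere vanishing holomorphic function is holomorphic. -/
theorem mdiff_div {f g : ℍ → ℂ} (hf : MDiff f) (hg : MDiff g) (h0 : ∀ z, g z ≠ 0) :
    MDiff (fun z => f z / g z) := by
  rw [UpperHalfPlane.mdifferentiable_iff] at hf hg ⊢
  exact hf.div hg (fun w _ => h0 _)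

/-! #### `j` -/

theorem jFun_mem : LevelOne.jFun ∈ S24.merSub 1 := by
  refine ⟨LevelOne.jFun_mdifferentiable, fun z => ?_, 1, ?_⟩
  · have h4 := vadd_one_of_periodic (S24.AnBridge.levelOne_mem_niceSub E₄).1 z
    have hΔ := vadd_one_of_periodic S24.AnBridge.discriminant_mem_niceSub.1 z
    rw [LevelOne.jFun_def, LevelOne.jFun_def, h4, hΔ]
  · have : (fun z : ℍ => Δ z ^ 1 * LevelOne.jFun z) = fun z => E₄ z ^ 3 := by
      funext z
      rw [pow_one, mul_comm, LevelOne.jFun_mul_discriminant]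
    rw [this]
    have hb := (S24.AnBridge.levelOne_mem_niceSub E₄).2.2
    have h3 : (fun z : ℍ => E₄ z ^ 3) = (⇑E₄ : ℍ → ℂ) * ⇑E₄ * ⇑E₄ := by
      funext z; simp only [Pi.mul_apply]; ring
    rw [h3]
    exact (hb.mul hb).mul hb

theorem cuspHom_jFun (h : LevelOne.jFun ∈ S24.merSub 1) :
    S24.cuspHom 1 ⟨LevelOne.jFun, h⟩ = jd ℂ 1 := by
  have hrel : (⟨LevelOne.jFun, h⟩ : S24.merSub 1) * ⟨_, discriminant_mem⟩ = ⟨_, E4_mem⟩ ^ 3 := by
    apply Subtype.ext
    funext z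
    exact LevelOne.jFun_mul_discriminant z
  have h2 := congrArg (S24.cuspHom 1) hrel
  rw [map_mul, map_pow, cuspHom_discriminant, cuspHom_E4, ← jqModC_mul_DeltaL] at h2
  rw [jd_one]
  exact mul_right_cancel₀ DeltaL_ne_zero h2

/-! #### `j(p·)` -/

theorem jFunScale_mem : (fun z => LevelOne.jFun (S23.mulN p z)) ∈ S24.merSub 1 := by
  refine ⟨S24.jAt_mdiff p, fun z => ?_, p, ?_⟩
  · have h4 := vadd_one_of_periodic
      (S24.AnBridge.scale_mem_niceSub p (S24.AnBridge.levelOne_mem_niceSub E₄)).1 z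
    have hΔ := vadd_one_of_periodic
      (S24.AnBridge.scale_mem_niceSub p S24.AnBridge.discriminant_mem_niceSub).1 z
    simp only [LevelOne.jFun_def] at h4 hΔ ⊢
    rw [h4, hΔ]
  · exact (S24.bFun_mem_niceSub p).2.2

theorem cuspHom_jFunScale (h : (fun z => LevelOne.jFun (S23.mulN p z)) ∈ S24.merSub 1) :
    S24.cuspHom 1 ⟨_, h⟩ = jd ℂ p := by
  have hrel : (⟨_, h⟩ : S24.merSub 1) * ⟨_, uFun_mem p⟩ = ⟨_, E4At_mem p⟩ ^ 3 := by
    apply Subtype.ext
    funext z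
    exact LevelOne.jFun_mul_discriminant (S23.mulN p z)
  have h2 := congrArg (S24.cuspHom 1) hrel
  rw [map_mul, map_pow, cuspHom_uFun, cuspHom_E4At, ← map_pow, ← jqModC_mul_DeltaL, map_mul] at h2
  rw [jd_eq]
  refine mul_right_cancel₀ ?_ h2
  intro h0
  rw [← map_zero (qExpand ℂ p)] at h0
  exact DeltaL_ne_zero (qExpand_injective p h0)

/-! #### `p^12 Δ(p·)/Δ` -/

theorem ratioW_mem : (fun z => Δ (S23.mulN p z) / Δ z) ∈ S24.merSub 1 := by
  refine ⟨mdiff_div (uFun_mem p).1 discriminant_mem.1 ModularForm.discriminant_ne_zero,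
    fun z => ?_, 1, ?_⟩
  · have hu := (uFun_mem p).2.1 z
    have hΔ := discriminant_mem.2.1 z
    simp only at hu
    beta_reduce
    rw [hu, hΔ]
  · have : (fun z : ℍ => Δ z ^ 1 * (Δ (S23.mulN p z) / Δ z)) = fun z => Δ (S23.mulN p z) := by
      funext z
      rw [pow_one, mul_div_cancel₀ _ (ModularForm.discriminant_ne_zero z)]
    rw [this]
    exact (S24.AnBridge.scale_mem_niceSub p S24.AnBridge.discriminant_mem_niceSub).2.2

theorem cuspHom_ratioW (h : (fun z => Δ (S23.mulN p z) / Δ z) ∈ S24.merSub 1) :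
    S24.cuspHom 1 ⟨_, h⟩ = uL ℂ p := by
  have hrel : (⟨_, h⟩ : S24.merSub 1) * ⟨_, discriminant_mem⟩ = ⟨_, uFun_mem p⟩ := by
    apply Subtype.ext
    funext z
    exact div_mul_cancel₀ _ (ModularForm.discriminant_ne_zero z)
  have h2 := congrArg (S24.cuspHom 1) hrel
  rw [map_mul, cuspHom_discriminant, cuspHom_uFun] at h2
  rw [uL, dif_neg (NeZero.ne p), ← h2, mul_assoc, DeltaL_mul_DeltaLInv, mul_one]

theorem hkW_mem : (fun z => (p : ℂ) ^ 12 * Δ (S23.mulN p z) / Δ z) ∈ S24.merSub 1 := by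
  have h := (S24.merSub 1).smul_mem (ratioW_mem p) ((p : ℂ) ^ 12)
  have e : ((p : ℂ) ^ 12 • fun z : ℍ => Δ (S23.mulN p z) / Δ z) =
      fun z => (p : ℂ) ^ 12 * Δ (S23.mulN p z) / Δ z := by
    funext z
    simp only [Pi.smul_apply, smul_eq_mul]
    ring
  rwa [e] at h

theorem cuspHom_hkW (h : (fun z => (p : ℂ) ^ 12 * Δ (S23.mulN p z) / Δ z) ∈ S24.merSub 1) :
    S24.cuspHom 1 ⟨_, h⟩ = (p : LaurentSeries ℂ) ^ 12 * uL ℂ p := by
  have hrel : (⟨_, h⟩ : S24.merSub 1) =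
      algebraMap ℂ (S24.merSub 1) ((p : ℂ) ^ 12) * ⟨_, ratioW_mem p⟩ := by
    apply Subtype.ext
    funext z
    show (p : ℂ) ^ 12 * Δ (S23.mulN p z) / Δ z = (p : ℂ) ^ 12 * (Δ (S23.mulN p z) / Δ z)
    ring
  rw [hrel, map_mul, AlgHom.commutes, cuspHom_ratioW, map_pow, map_natCast]

/-! #### `Δ/Δ(p·)` -/

theorem hkV_mem : (fun z => Δ z / Δ (S23.mulN p z)) ∈ S24.merSub 1 := by
  refine ⟨mdiff_div discriminant_mem.1 (uFun_mem p).1
    (fun z => ModularForm.discriminant_ne_zero _), fun z => ?_, p, ?_⟩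
  · have hu := (uFun_mem p).2.1 z
    have hΔ := discriminant_mem.2.1 z
    simp only at hu
    beta_reduce
    rw [hu, hΔ]
  · have : (fun z : ℍ => Δ z ^ p * (Δ z / Δ (S23.mulN p z))) =
        (Δ : ℍ → ℂ) * S24.wFun p := by
      funext z
      simp only [Pi.mul_apply, S24.wFun]
      ring
    rw [this]
    exact S24.AnBridge.discriminant_mem_niceSub.2.2.mul (S24.wFun_mem_niceSub p).2.2

theorem cuspHom_hkV (h : (fun z => Δ z / Δ (S23.mulN p z)) ∈ S24.merSub 1) :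
    S24.cuspHom 1 ⟨_, h⟩ = DeltaL ℂ * qExpand ℂ p (DeltaLInv ℂ) := by
  have hrel : (⟨_, h⟩ : S24.merSub 1) * ⟨_, uFun_mem p⟩ = ⟨_, discriminant_mem⟩ := by
    apply Subtype.ext
    funext z
    exact div_mul_cancel₀ _ (ModularForm.discriminant_ne_zero _)
  have h2 := congrArg (S24.cuspHom 1) hrel
  rw [map_mul, cuspHom_discriminant, cuspHom_uFun] at h2
  have h3 : qExpand ℂ p (DeltaL ℂ) * qExpand ℂ p (DeltaLInv ℂ) = 1 := by
    rw [← map_mul, DeltaL_mul_DeltaLInv, map_one]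
  rw [← h2, mul_assoc, h3, mul_one]

end Members

end Fermat.Agent.S28.AnExpandImg

/-! ### Final exports (exact shapes requested by the analytic lead of block [E]) -/

namespace Fermat.Agent.S28

open UpperHalfPlane ModularForm ModularCurve
open scoped MatrixGroups ModularForm Manifold
open Fermat.Agent

theorem jFun_mem : LevelOne.jFun ∈ S24.merSub 1 := AnExpandImg.jFun_mem

theorem jAtp_mem (p : ℕ) [NeZero p] : (fun z => LevelOne.jFun (S23.mulN p z)) ∈ S24.merSub 1 :=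
  AnExpandImg.jFunScale_mem p

theorem hkW_mem (p : ℕ) [NeZero p] : hkW p ∈ S24.merSub 1 := AnExpandImg.hkW_mem p

theorem hkV_mem (p : ℕ) [NeZero p] : hkV p ∈ S24.merSub 1 := AnExpandImg.hkV_mem p

theorem cuspHom_jFun : S24.cuspHom 1 ⟨LevelOne.jFun, jFun_mem⟩ = jd ℂ 1 :=
  AnExpandImg.cuspHom_jFun _

theorem cuspHom_jAtp (p : ℕ) [NeZero p] :
    S24.cuspHom 1 ⟨fun z => LevelOne.jFun (S23.mulN p z), jAtp_mem p⟩ = jd ℂ p :=
  AnExpandImg.cuspHom_jFunScale p _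

theorem cuspHom_hkW (p : ℕ) [NeZero p] : S24.cuspHom 1 ⟨hkW p, hkW_mem p⟩ = wInf ℂ p :=
  AnExpandImg.cuspHom_hkW p _

theorem cuspHom_hkV (p : ℕ) [NeZero p] : S24.cuspHom 1 ⟨hkV p, hkV_mem p⟩ = invU ℂ p :=
  AnExpandImg.cuspHom_hkV p _

end Fermat.Agent.S28
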