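import Fermat.Agent.S28.AnExpand
import Fermat.Agent.S28.AnExpandImg

/-!
# S28 block [E], analytic half: from function identities to identities in `ℂ((q))`

OWNER: helper16.  One-line assembly of `AnExpand.analyticInput_of_fun_of_img` (helper58) with the
eight value facts of `AnExpandImg` (helper16).
-/

set_option autoImplicit false

namespace Fermat.Agent.S28

/-- The function-level interface implies the Laurent-series interface of block [E]. -/
theorem analyticInput_of_fun (p : ℕ) [NeZero p] (h : AnalyticFun p) : AnalyticInput p :=
  AnExpand.analyticInput_of_fun_of_img p jFun_mem (jAtp_mem p) (hkW_mem p) (hkV_mem p)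
    cuspHom_jFun (cuspHom_jAtp p) (cuspHom_hkW p) (cuspHom_hkV p) h

end Fermat.Agent.S28
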