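import Mathlib
import Fermat.Agent.S23.Basic
import Fermat.Agent.S23.Hermite
import Fermat.Agent.S23.Distinct
import Fermat.Agent.S23.LevelN
import Fermat.Agent.LevelOne.JDef
import Fermat.Agent.S24.AnDefs
import Fermat.Agent.S24.AnDistinct
import Fermat.Agent.S24.AnCuspMem
import Fermat.Agent.S24.NormPoly
import Fermat.Agent.S28.HeckeAnDefs

/-!
# S28 block [E], analytic half, item A2 (independent hedge of `EHkW` / `ECosetPts`)

OWNER: helper7 (only the owner edits this file).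

All declarations are in the namespace `Fermat.Agent.S28.AnWFunB`.

* `jAt_mem_goodSub`: `z ↦ j(p z)` lies in `S24.NormPoly.goodSub p`.
* `hkW_mem_goodSub`: `z ↦ p¹² Δ(p z) / Δ(z)` lies in `S24.NormPoly.goodSub p`.
* `trans_S_jAt`, `trans_S_hkW`: the translates by `S`, evaluated at `p z`, are `j(z)` and
  `Δ(z) / Δ(p z)`.
-/

set_option autoImplicit false


namespace Fermat.Agent.S28

open UpperHalfPlane ModularForm Filter Topology
open scoped MatrixGroups ModularForm Manifold Real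
open Fermat.Agent.LevelOne Fermat.Agent.S23 Fermat.Agent.S24

namespace AnWFunB

/-- `z ↦ j(p z)` lies in `goodSub p`. -/
theorem jAt_mem_goodSub (p : ℕ) [NeZero p] : jAt p ∈ NormPoly.goodSub p := by
  refine ⟨?_, fun γ hγ => trans_jAt_of_mem_Gamma0 p p dvd_rfl hγ, fun g =>
    (trans_jAt_mem_merSub_unfolded p p dvd_rfl g).2.2⟩
  have h := (trans_jAt_mem_merSub_unfolded p p dvd_rfl 1).1
  rwa [trans_one] at h

/-- `hkW p = p ^ 12 * Δ(p·) / Δ`. -/
theorem hkW_eq (p : ℕ) [NeZero p] (z : ℍ) :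
    hkW p z = (p : ℂ) ^ 12 * uFun p z / ModularForm.discriminant z := rfl

/-- `Δ(p·)` transforms like a weight 12 form under `Γ₀(p)`. -/
theorem uFun_smul (p : ℕ) [NeZero p] {δ : SL(2, ℤ)} (hδ : δ ∈ CongruenceSubgroup.Gamma0 p)
    (z : ℍ) : uFun p (δ • z) = uFun p z * denom δ z ^ (12 : ℤ) := by
  have h : (uFun p) ∣[(12 : ℤ)] δ = uFun p := by
    have h1 := SlashInvariantFormClass.slash_action_eq (uN p)
      (Matrix.SpecialLinearGroup.mapGL ℝ δ) ⟨δ, hδ, rfl⟩
    rw [coe_uN] at h1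
    exact h1
  have h' := congrFun h z
  rw [SL_slash_apply] at h'
  have hne : denom δ z ≠ 0 := denom_ne_zero _ _
  rw [← h', mul_assoc, ← zpow_add₀ hne]
  simp

theorem mdiff_uFun (p : ℕ) [NeZero p] : MDiff (uFun p) := by
  rw [← coe_uN]
  exact (uN p).holo'

theorem mdiff_hkW (p : ℕ) [NeZero p] : MDiff (hkW p) := by
  have h1 : MDiff (uFun p) := mdiff_uFun p
  have hΔ : MDiff (ModularForm.discriminant) := ModularFormClass.holo CuspForm.discriminant
  rw [UpperHalfPlane.mdifferentiable_iff] at h1 hΔ ⊢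
  have h : DifferentiableOn ℂ
      (fun w : ℂ => (p : ℂ) ^ 12 * (uFun p ∘ ofComplex) w / (ModularForm.discriminant ∘ ofComplex) w)
      {w | 0 < w.im} :=
    ((differentiableOn_const _).mul h1).div hΔ (fun w _ => ModularForm.discriminant_ne_zero _)
  exact h

/-- `hkW p` is invariant under `Γ₀(p)`. -/
theorem hkW_smul (p : ℕ) [NeZero p] {δ : SL(2, ℤ)} (hδ : δ ∈ CongruenceSubgroup.Gamma0 p)
    (z : ℍ) : hkW p (δ • z) = hkW p z := by
  have hne : denom δ z ^ (12 : ℤ) ≠ 0 := zpow_ne_zero _ (denom_ne_zero _ _)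
  have hΔ : ModularForm.discriminant z ≠ 0 := discriminant_ne_zero z
  rw [hkW_eq, hkW_eq, uFun_smul p hδ, discriminant_apply_smul]
  field_simp

/-- All translates of `Δ(p·) / Δ` in terms of the Hermite decomposition. -/
theorem uFun_div_smul_of_hermite (p : ℕ) [NeZero p] (γ γ' : SL(2, ℤ)) (a b d : ℤ)
    (ha : 0 < a) (hd : 0 < d)
    (hmat : !![(p:ℤ), 0; 0, 1] * (γ : Matrix (Fin 2) (Fin 2) ℤ) =
        (γ' : Matrix (Fin 2) (Fin 2) ℤ) * !![a, b; 0, d]) (z : ℍ) :
    uFun p (γ • z) / ModularForm.discriminant (γ • z) =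
      ((d : ℂ) ^ (12 : ℕ))⁻¹ * ModularForm.discriminant (affPt a b d ha hd z)
        / ModularForm.discriminant z := by
  have h := uFun_slash_apply_of_hermite p γ γ' a b d ha hd hmat z
  rw [SL_slash_apply] at h
  have hne : denom γ z ≠ 0 := denom_ne_zero _ _
  have hne12 : denom γ z ^ (12 : ℤ) ≠ 0 := zpow_ne_zero _ hne
  have hΔ : ModularForm.discriminant z ≠ 0 := discriminant_ne_zero z
  have h2 : uFun p (γ • z) = ((d : ℂ) ^ (12 : ℕ))⁻¹ * ModularForm.discriminant (affPt a b d ha hd z)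
      * denom γ z ^ (12 : ℤ) := by
    rw [← h, mul_assoc, ← zpow_add₀ hne]
    simp
  rw [h2, discriminant_apply_smul]
  field_simp

theorem isBoundedAtImInfty_discriminant : IsBoundedAtImInfty (ModularForm.discriminant : ℍ → ℂ) :=
  ModularFormClass.bdd_at_infty CuspForm.discriminant

/-- Every translate of `hkW p` is `Δ`-bounded at `i∞`. -/
theorem hkW_trans_bdd (p : ℕ) [NeZero p] (g : SL(2, ℤ)) :
    IsBoundedAtImInfty (fun z => ModularForm.discriminant z ^ 1 * trans g (hkW p) z) := by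
  obtain ⟨γ', a, b, d, ha, hd, -, -, hmat⟩ := exists_hermite p g⁻¹
  have hΔ : ∀ z : ℍ, ModularForm.discriminant z ≠ 0 := discriminant_ne_zero
  have e : (fun z => ModularForm.discriminant z ^ 1 * trans g (hkW p) z) =
      fun z => ((p : ℂ) ^ 12 * ((d : ℂ) ^ (12 : ℕ))⁻¹) *
        (ModularForm.discriminant ∘ affPt a b d ha hd) z := by
    funext z
    have h := uFun_div_smul_of_hermite p g⁻¹ γ' a b d ha hd hmat z
    simp only [trans_apply, pow_one, Function.comp_apply]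
    rw [hkW_eq, mul_div_assoc, h]
    have := hΔ z
    field_simp
  rw [e]
  have hb : IsBoundedAtImInfty ((ModularForm.discriminant : ℍ → ℂ) ∘ affPt a b d ha hd) :=
    isBoundedAtImInfty_discriminant.comp_tendsto (tendsto_affPt_atImInfty a b d ha hd)
  exact (const_boundedAtFilter atImInfty ((p : ℂ) ^ 12 * ((d : ℂ) ^ (12 : ℕ))⁻¹)).mul hb

/-- The point `w = S⁻¹ (p z)` satisfies `p w = S z`. -/
theorem mulN_S_inv_smul_mulN (p : ℕ) [NeZero p] (z : ℍ) :
    mulN p ((ModularGroup.S)⁻¹ • mulN p z) = ModularGroup.S • z := by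
  set w : ℍ := (ModularGroup.S)⁻¹ • mulN p z with hw
  have h1 : ModularGroup.S • w = mulN p z := by rw [hw, smul_inv_smul]
  have h2 := congrArg (fun u : ℍ => (u : ℂ)) h1
  simp only [UpperHalfPlane.modular_S_smul, coe_mulN] at h2
  have hp : (p : ℂ) ≠ 0 := Nat.cast_ne_zero.mpr (NeZero.ne p)
  have hz : (z : ℂ) ≠ 0 := ne_zero z
  have hw0 : (w : ℂ) ≠ 0 := ne_zero w
  apply UpperHalfPlane.ext
  rw [coe_mulN, UpperHalfPlane.modular_S_smul]
  have h3 : ((-(w : ℂ))⁻¹ : ℂ) = (p : ℂ) * z := h2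
  have h4 : (w : ℂ) = -((p : ℂ) * z)⁻¹ := by
    rw [← h3]
    simp
  show (p : ℂ) * (w : ℂ) = (-(z : ℂ))⁻¹
  rw [h4]
  field_simp

/-- `p ^ 12 Δ(p·) / Δ` lies in `goodSub p`. -/
theorem hkW_mem_goodSub (p : ℕ) [NeZero p] : hkW p ∈ NormPoly.goodSub p := by
  refine ⟨mdiff_hkW p, fun γ hγ => ?_, fun g => ⟨1, hkW_trans_bdd p g⟩⟩
  funext z
  rw [trans_apply]
  exact hkW_smul p (inv_mem hγ) z

theorem trans_S_jAt (p : ℕ) [NeZero p] (z : ℍ) :
    trans ModularGroup.S (jAt p) (mulN p z) = jFun z := by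
  rw [trans_apply, jAt_apply, mulN_S_inv_smul_mulN, jFun_smul]

theorem trans_S_hkW (p : ℕ) [NeZero p] (z : ℍ) :
    trans ModularGroup.S (hkW p) (mulN p z) = hkV p z := by
  set w : ℍ := (ModularGroup.S)⁻¹ • mulN p z with hw
  have h1 : ModularGroup.S • w = mulN p z := by rw [hw, smul_inv_smul]
  have h2 : mulN p w = ModularGroup.S • z := mulN_S_inv_smul_mulN p z
  have hp : (p : ℂ) ≠ 0 := Nat.cast_ne_zero.mpr (NeZero.ne p)
  have hz : (z : ℂ) ≠ 0 := ne_zero z
  have hw0 : (w : ℂ) ≠ 0 := ne_zero w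
  -- Δ(S z) = Δ(z) z^12
  have e1 : ModularForm.discriminant (ModularGroup.S • z) =
      ModularForm.discriminant z * (z : ℂ) ^ (12 : ℕ) := by
    rw [discriminant_apply_smul, ModularGroup.denom_S, zpow_ofNat]
  -- Δ(p z) = Δ(w) w^12
  have e2 : ModularForm.discriminant (mulN p z) =
      ModularForm.discriminant w * (w : ℂ) ^ (12 : ℕ) := by
    rw [← h1, discriminant_apply_smul, ModularGroup.denom_S, zpow_ofNat]
  -- (p z) w = -1
  have e3 : (p : ℂ) * (z : ℂ) * (w : ℂ) = -1 := by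
    have h3 := congrArg (fun u : ℍ => (u : ℂ)) h1
    simp only [UpperHalfPlane.modular_S_smul, coe_mulN] at h3
    have h4 : ((-(w : ℂ))⁻¹ : ℂ) = (p : ℂ) * z := h3
    rw [← h4]
    field_simp
  have e5 : (p : ℂ) ^ 12 * (z : ℂ) ^ 12 * (w : ℂ) ^ 12 = 1 := by
    rw [← mul_pow, ← mul_pow, e3]
    norm_num
  have hΔw : ModularForm.discriminant w ≠ 0 := discriminant_ne_zero w
  have hw12 : (w : ℂ) ^ (12 : ℕ) ≠ 0 := pow_ne_zero _ hw0
  rw [trans_apply]
  show (p : ℂ) ^ 12 * ModularForm.discriminant (mulN p w) / ModularForm.discriminant w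
    = ModularForm.discriminant z / ModularForm.discriminant (mulN p z)
  rw [h2, e1, e2]
  rw [div_eq_div_iff hΔw (mul_ne_zero hΔw hw12)]
  linear_combination (ModularForm.discriminant z * ModularForm.discriminant w) * e5

end AnWFunB

end Fermat.Agent.S28
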