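/-
S28 block [E], analytic half, T3: generic algebra of a finite family of conjugate pairs
`(xᵢ, vᵢ)` in a commutative ring, packaging of coefficient functions into two-variable
polynomials, and the final glue producing `AnalyticFun p` from the product forms.
Owner: helper17.  Imports Mathlib + S28/HeckeAnDefs only.
-/
import Mathlib
import Fermat.Agent.S28.HeckeAnDefs

set_option autoImplicit false

noncomputable section

namespace Fermat.Agent.S28

namespace EAlg

open Polynomial

/-! ### The two polynomials attached to a family of pairs -/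

section generic

variable {A : Type*} [CommRing A] {ι : Type*} [Fintype ι]

/-- `∏ᵢ (X − C xᵢ)`. -/
def prodPoly (x : ι → A) : Polynomial A := ∏ i, (X - C (x i))

/-- `∑ᵢ C vᵢ * ∏_{k ≠ i} (X − C x_k)`. -/
def lagPoly [DecidableEq ι] (x v : ι → A) : Polynomial A :=
  ∑ i, C (v i) * ∏ k ∈ Finset.univ.erase i, (X - C (x k))

theorem prodPoly_eq (x : ι → A) : prodPoly x = ∏ i, (X - C (x i)) := rfl

theorem lagPoly_eq [DecidableEq ι] (x v : ι → A) :
    lagPoly x v = ∑ i, C (v i) * ∏ k ∈ Finset.univ.erase i, (X - C (x k)) := rfl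

theorem prodPoly_eq_nodal (x : ι → A) : prodPoly x = Lagrange.nodal Finset.univ x := rfl

theorem lagPoly_eq_nodal [DecidableEq ι] (x v : ι → A) :
    lagPoly x v = ∑ i, C (v i) * Lagrange.nodal (Finset.univ.erase i) x := rfl

theorem prodPoly_monic (x : ι → A) : (prodPoly x).Monic :=
  monic_prod_of_monic _ _ (fun i _ => monic_X_sub_C (x i))

theorem prodPoly_natDegree [Nontrivial A] (x : ι → A) :
    (prodPoly x).natDegree = Fintype.card ι := by
  rw [prodPoly_eq_nodal, Lagrange.natDegree_nodal, Finset.card_univ]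

theorem prodPoly_natDegree_le (x : ι → A) : (prodPoly x).natDegree ≤ Fintype.card ι := by
  rcases subsingleton_or_nontrivial A with h | h
  · rw [Subsingleton.elim (prodPoly x) 0, natDegree_zero]
    exact Nat.zero_le _
  · exact (prodPoly_natDegree x).le

/-- Each root `xᵢ` kills `∏ (X − C x_k)`. -/
theorem prodPoly_eval (x : ι → A) (i : ι) : (prodPoly x).eval (x i) = 0 := by
  rw [prodPoly_eq_nodal]
  exact Lagrange.eval_nodal_at_node (Finset.mem_univ i)

theorem lagPoly_natDegree_le [DecidableEq ι] (x v : ι → A) :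
    (lagPoly x v).natDegree ≤ Fintype.card ι - 1 := by
  rw [lagPoly_eq]
  refine natDegree_sum_le_of_forall_le _ _ (fun i _ => ?_)
  refine (natDegree_C_mul_le _ _).trans ?_
  refine (natDegree_prod_le _ _).trans ?_
  refine (Finset.sum_le_card_nsmul _ _ 1 (fun k _ => natDegree_X_sub_C_le (x k))).trans ?_
  rw [Finset.card_erase_of_mem (Finset.mem_univ i), Finset.card_univ, smul_eq_mul, mul_one]

theorem lagPoly_natDegree_lt [DecidableEq ι] [Nonempty ι] (x v : ι → A) :
    (lagPoly x v).natDegree < Fintype.card ι :=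
  lt_of_le_of_lt (lagPoly_natDegree_le x v) (Nat.sub_lt Fintype.card_pos Nat.one_pos)

/-- `H(xᵢ) = vᵢ · Φ'(xᵢ)`. -/
theorem lagPoly_eval [DecidableEq ι] (x v : ι → A) (i : ι) :
    (lagPoly x v).eval (x i) = v i * (derivative (prodPoly x)).eval (x i) := by
  rw [lagPoly_eq_nodal, prodPoly_eq_nodal,
    Lagrange.eval_nodal_derivative_eval_node_eq (Finset.mem_univ i), eval_finsetSum,
    Finset.sum_eq_single i]
  · rw [eval_mul, eval_C]
  · intro k _ hki
    rw [eval_mul, Lagrange.eval_nodal_at_node (Finset.mem_erase.mpr ⟨Ne.symm hki, Finset.mem_univ i⟩),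
      mul_zero]
  · intro h
    exact absurd (Finset.mem_univ i) h

/-! ### Functoriality and permutation invariance -/

theorem prodPoly_map {B : Type*} [CommRing B] (g : A →+* B) (x : ι → A) :
    (prodPoly x).map g = prodPoly (fun i => g (x i)) := by
  simp only [prodPoly_eq, Polynomial.map_prod, Polynomial.map_sub, map_X, map_C]

theorem lagPoly_map [DecidableEq ι] {B : Type*} [CommRing B] (g : A →+* B) (x v : ι → A) :
    (lagPoly x v).map g = lagPoly (fun i => g (x i)) (fun i => g (v i)) := by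
  simp only [lagPoly_eq, Polynomial.map_sum, Polynomial.map_mul, Polynomial.map_prod,
    Polynomial.map_sub, map_X, map_C]

theorem prodPoly_comp_perm (x : ι → A) (σ : Equiv.Perm ι) :
    prodPoly (fun i => x (σ i)) = prodPoly x := by
  rw [prodPoly_eq, prodPoly_eq]
  exact Equiv.prod_comp σ (fun i => X - C (x i))

theorem lagPoly_comp_perm [DecidableEq ι] (x v : ι → A) (σ : Equiv.Perm ι) :
    lagPoly (fun i => x (σ i)) (fun i => v (σ i)) = lagPoly x v := by
  rw [lagPoly_eq, lagPoly_eq]
  rw [← Equiv.sum_comp σ (fun i => C (v i) * ∏ k ∈ Finset.univ.erase i, (X - C (x k)))]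
  refine Finset.sum_congr rfl (fun i _ => ?_)
  congr 1
  refine Finset.prod_bij (fun k _ => σ k) ?_ ?_ ?_ ?_
  · intro k hk
    rw [Finset.mem_erase] at hk ⊢
    exact ⟨fun h => hk.1 (σ.injective h), Finset.mem_univ _⟩
  · intro a _ b _ hab
    exact σ.injective hab
  · intro b hb
    rw [Finset.mem_erase] at hb
    refine ⟨σ.symm b, ?_, σ.apply_symm_apply b⟩
    rw [Finset.mem_erase]
    refine ⟨fun h => hb.1 ?_, Finset.mem_univ _⟩
    rw [← h, σ.apply_symm_apply]
  · intro k _
    rfl

/-- The coefficients of `∏ (X − C xᵢ)` lie in any subring containing the `xᵢ`. -/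
theorem prodPoly_coeff_mem {S : Type*} [SetLike S A] [SubringClass S A] (s : S) (x : ι → A)
    (hx : ∀ i, x i ∈ s) (k : ℕ) : (prodPoly x).coeff k ∈ s := by
  have h : prodPoly x = (prodPoly (fun i => (⟨x i, hx i⟩ : s))).map (SubringClass.subtype s) := by
    rw [prodPoly_map]
    rfl
  rw [h, coeff_map]
  exact SetLike.coe_mem _

/-- The coefficients of `∑ C vᵢ ∏_{k≠i} (X − C x_k)` lie in any subring containing the
`xᵢ` and the `vᵢ`. -/
theorem lagPoly_coeff_mem [DecidableEq ι] {S : Type*} [SetLike S A] [SubringClass S A] (s : S)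
    (x v : ι → A) (hx : ∀ i, x i ∈ s) (hv : ∀ i, v i ∈ s) (k : ℕ) :
    (lagPoly x v).coeff k ∈ s := by
  have h : lagPoly x v = (lagPoly (fun i => (⟨x i, hx i⟩ : s))
      (fun i => (⟨v i, hv i⟩ : s))).map (SubringClass.subtype s) := by
    rw [lagPoly_map]
    rfl
  rw [h, coeff_map]
  exact SetLike.coe_mem _

end generic

/-! ### Families of functions: pointwise evaluation and invariance of coefficients -/

section functions

variable {T K : Type*} [CommRing K] {ι : Type*} [Fintype ι]

theorem prodPoly_coeff_apply (x : ι → T → K) (k : ℕ) (z : T) :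
    (prodPoly x).coeff k z = (prodPoly (fun i => x i z)).coeff k := by
  have h := prodPoly_map (Pi.evalRingHom (fun _ : T => K) z) x
  have h2 := congrArg (fun P => P.coeff k) h
  simpa only [coeff_map, Pi.evalRingHom_apply] using h2

theorem lagPoly_coeff_apply [DecidableEq ι] (x v : ι → T → K) (k : ℕ) (z : T) :
    (lagPoly x v).coeff k z = (lagPoly (fun i => x i z) (fun i => v i z)).coeff k := by
  have h := lagPoly_map (Pi.evalRingHom (fun _ : T => K) z) x v
  have h2 := congrArg (fun P => P.coeff k) h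
  simpa only [coeff_map, Pi.evalRingHom_apply] using h2

/-- If `g : T → T` permutes the family `x`, the coefficient functions of `∏ (X − C xᵢ)` are
`g`-invariant. -/
theorem prodPoly_coeff_invariant (x : ι → T → K) (g : T → T) (σ : Equiv.Perm ι)
    (hx : ∀ i z, x i (g z) = x (σ i) z) (k : ℕ) (z : T) :
    (prodPoly x).coeff k (g z) = (prodPoly x).coeff k z := by
  rw [prodPoly_coeff_apply, prodPoly_coeff_apply]
  have h : (fun i => x i (g z)) = fun i => x (σ i) z := funext fun i => hx i z
  rw [h, prodPoly_comp_perm (fun i => x i z) σ]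

/-- If `g : T → T` permutes the pairs `(xᵢ, vᵢ)` simultaneously, the coefficient functions of
`∑ C vᵢ ∏_{k≠i} (X − C x_k)` are `g`-invariant. -/
theorem lagPoly_coeff_invariant [DecidableEq ι] (x v : ι → T → K) (g : T → T)
    (σ : Equiv.Perm ι) (hx : ∀ i z, x i (g z) = x (σ i) z) (hv : ∀ i z, v i (g z) = v (σ i) z)
    (k : ℕ) (z : T) : (lagPoly x v).coeff k (g z) = (lagPoly x v).coeff k z := by
  rw [lagPoly_coeff_apply, lagPoly_coeff_apply]
  have h : (fun i => x i (g z)) = fun i => x (σ i) z := funext fun i => hx i z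
  have h' : (fun i => v i (g z)) = fun i => v (σ i) z := funext fun i => hv i z
  rw [h, h', lagPoly_comp_perm (fun i => x i z) (fun i => v i z) σ]

end functions

/-! ### Packaging coefficient functions into a two-variable polynomial -/

section packaging

variable {T K : Type*} [CommRing K]

/-- A family `P z` of polynomials of degree `≤ n` whose coefficients are polynomials in `J z`
comes from one two-variable polynomial. -/
theorem exists_of_coeff (J : T → K) (P : T → Polynomial K) (n : ℕ)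
    (hdeg : ∀ z, (P z).natDegree ≤ n)
    (h : ∀ k, ∃ Q : Polynomial K, ∀ z, (P z).coeff k = Q.eval (J z)) :
    ∃ H₀ : Polynomial (Polynomial K), H₀.natDegree ≤ n ∧
      ∀ z, H₀.map (evalRingHom (J z)) = P z := by
  choose Q hQ using h
  refine ⟨∑ k ∈ Finset.range (n + 1), C (Q k) * X ^ k, ?_, fun z => ?_⟩
  · refine natDegree_sum_le_of_forall_le _ _ (fun k hk => ?_)
    exact (natDegree_C_mul_X_pow_le _ _).trans (Nat.lt_succ_iff.mp (Finset.mem_range.mp hk))
  · ext k
    simp only [Polynomial.map_sum, Polynomial.map_mul, Polynomial.map_pow, map_X, map_C,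
      coe_evalRingHom, finsetSum_coeff, coeff_C_mul, coeff_X_pow]
    by_cases hk : k ∈ Finset.range (n + 1)
    · rw [Finset.sum_eq_single k]
      · rw [if_pos rfl, mul_one, hQ]
      · intro b _ hbk
        rw [if_neg (Ne.symm hbk), mul_zero]
      · intro h'
        exact absurd hk h'
    · rw [Finset.sum_eq_zero]
      · have hk' : n < k := by
          rw [Finset.mem_range, not_lt] at hk
          exact hk
        exact (coeff_eq_zero_of_natDegree_lt (lt_of_le_of_lt (hdeg z) hk')).symm
      · intro b hb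
        have hbk : k ≠ b := fun hkb => hk (hkb ▸ hb)
        rw [if_neg hbk, mul_zero]

/-- A family `P z` of monic polynomials of degree `n` whose coefficients are polynomials in
`J z` comes from one monic two-variable polynomial of degree `n`. -/
theorem exists_monic_of_coeff [Nontrivial K] (J : T → K) (P : T → Polynomial K) (n : ℕ)
    (hmonic : ∀ z, (P z).Monic) (hdeg : ∀ z, (P z).natDegree = n)
    (h : ∀ k, ∃ Q : Polynomial K, ∀ z, (P z).coeff k = Q.eval (J z)) :
    ∃ Φ₀ : Polynomial (Polynomial K), Φ₀.Monic ∧ Φ₀.natDegree = n ∧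
      ∀ z, Φ₀.map (evalRingHom (J z)) = P z := by
  choose Q hQ using h
  have hlt : (∑ k ∈ Finset.range n, C (Q k) * (X : Polynomial (Polynomial K)) ^ k).degree
      < (n : WithBot ℕ) := by
    rw [degree_lt_iff_coeff_zero]
    intro m hm
    rw [finsetSum_coeff]
    refine Finset.sum_eq_zero (fun k hk => ?_)
    have hk' := Finset.mem_range.mp hk
    rw [coeff_C_mul, coeff_X_pow, if_neg (by omega), mul_zero]
  refine ⟨X ^ n + ∑ k ∈ Finset.range n, C (Q k) * X ^ k, monic_X_pow_add hlt, ?_, fun z => ?_⟩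
  · rw [natDegree_add_eq_left_of_degree_lt (by rw [degree_X_pow]; exact hlt), natDegree_X_pow]
  · have hz := (hmonic z).as_sum
    rw [hdeg z] at hz
    rw [hz]
    simp only [Polynomial.map_add, Polynomial.map_sum, Polynomial.map_mul, Polynomial.map_pow,
      map_X, map_C, coe_evalRingHom]
    congr 1
    refine Finset.sum_congr rfl (fun k _ => ?_)
    rw [← hQ k z]

end packaging

/-! ### The final glue -/

section glue

open UpperHalfPlane
open Fermat.Agent.S23 Fermat.Agent.LevelOne

theorem ev2_complex (Φ : Polynomial (Polynomial ℂ)) (x y : ℂ) :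
    ev2 Φ x y = (Φ.map (evalRingHom y)).eval x := by
  rw [ev2_def, coe_aeval_eq_evalRingHom]

variable {ι : Type*} [Fintype ι] [DecidableEq ι]

/-- **Final glue, coefficient form.**  A family of `p + 1` conjugate pairs `(jc i, uc i)` of
functions on `ℍ`, containing the pair `(j(pz), p¹²Δ(pz)/Δ(z))` at `i∞` and such that the pair
at `i0` evaluated at `pz` is `(j(z), Δ(z)/Δ(pz))`, whose symmetric coefficient functions are
polynomials in `j`, yields `AnalyticFun p`. -/
theorem analyticFun_of_coeff (p : ℕ) [NeZero p] (hcard : Fintype.card ι = p + 1)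
    (jc uc : ι → ℍ → ℂ) (iInf i0 : ι)
    (hjInf : ∀ z, jc iInf z = jFun (mulN p z)) (huInf : ∀ z, uc iInf z = hkW p z)
    (hj0 : ∀ z, jc i0 (mulN p z) = jFun z) (hu0 : ∀ z, uc i0 (mulN p z) = hkV p z)
    (hΦ : ∀ k, ∃ Q : Polynomial ℂ, ∀ z : ℍ,
      (∏ i, (X - C (jc i z))).coeff k = Q.eval (jFun z))
    (hW : ∀ k, ∃ Q : Polynomial ℂ, ∀ z : ℍ,
      (∏ i, (X - C (uc i z))).coeff k = Q.eval (jFun z))
    (hH : ∀ k, ∃ Q : Polynomial ℂ, ∀ z : ℍ,
      (∑ i, C (uc i z) * ∏ k ∈ Finset.univ.erase i, (X - C (jc k z))).coeff k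
        = Q.eval (jFun z)) :
    AnalyticFun p := by
  obtain ⟨Φc, hΦm, hΦd, hΦz⟩ := exists_monic_of_coeff (fun z : ℍ => jFun z)
    (fun z => prodPoly (fun i => jc i z)) (Fintype.card ι)
    (fun z => prodPoly_monic _) (fun z => prodPoly_natDegree _) hΦ
  obtain ⟨Wc, hWm, hWd, hWz⟩ := exists_monic_of_coeff (fun z : ℍ => jFun z)
    (fun z => prodPoly (fun i => uc i z)) (Fintype.card ι)
    (fun z => prodPoly_monic _) (fun z => prodPoly_natDegree _) hW
  obtain ⟨Hc, hHd, hHz⟩ := exists_of_coeff (fun z : ℍ => jFun z)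
    (fun z => lagPoly (fun i => jc i z) (fun i => uc i z)) (Fintype.card ι - 1)
    (fun z => lagPoly_natDegree_le _ _) hH
  refine ⟨Φc, Wc, Hc, hΦm, by rw [hΦd, hcard], hWm, by rw [hWd, hcard], ?_, fun z => ?_⟩
  · rw [hcard] at hHd
    exact hHd
  · have hd : ∀ w : ℍ, (derivative Φc).map (evalRingHom (jFun w))
        = derivative (prodPoly (fun i => jc i w)) := by
      intro w
      rw [← derivative_map, hΦz w]
    refine ⟨?_, ?_, ?_, ?_, ?_, ?_⟩
    · rw [ev2_complex, hΦz z, ← hjInf z]
      exact prodPoly_eval (fun i => jc i z) iInf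
    · rw [ev2_complex, hΦz (mulN p z), ← hj0 z]
      exact prodPoly_eval (fun i => jc i (mulN p z)) i0
    · rw [ev2_complex, hWz z, ← huInf z]
      exact prodPoly_eval (fun i => uc i z) iInf
    · rw [ev2_complex, hWz (mulN p z), ← hu0 z]
      exact prodPoly_eval (fun i => uc i (mulN p z)) i0
    · rw [ev2_complex, ev2_complex, hHz z, hd z, ← hjInf z, ← huInf z]
      exact lagPoly_eval (fun i => jc i z) (fun i => uc i z) iInf
    · rw [ev2_complex, ev2_complex, hHz (mulN p z), hd (mulN p z), ← hj0 z, ← hu0 z]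
      exact lagPoly_eval (fun i => jc i (mulN p z)) (fun i => uc i (mulN p z)) i0

/-- **Final glue, product form.** -/
theorem analyticFun_of_prodForm (p : ℕ) [NeZero p] (hcard : Fintype.card ι = p + 1)
    (jc uc : ι → ℍ → ℂ) (iInf i0 : ι)
    (hjInf : ∀ z, jc iInf z = jFun (mulN p z)) (huInf : ∀ z, uc iInf z = hkW p z)
    (hj0 : ∀ z, jc i0 (mulN p z) = jFun z) (hu0 : ∀ z, uc i0 (mulN p z) = hkV p z)
    (Φ₀ W₀ H₀ : Polynomial (Polynomial ℂ))
    (hΦ : ∀ z : ℍ, Φ₀.map (evalRingHom (jFun z)) = ∏ i, (X - C (jc i z)))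
    (hW : ∀ z : ℍ, W₀.map (evalRingHom (jFun z)) = ∏ i, (X - C (uc i z)))
    (hH : ∀ z : ℍ, H₀.map (evalRingHom (jFun z))
      = ∑ i, C (uc i z) * ∏ k ∈ Finset.univ.erase i, (X - C (jc k z))) :
    AnalyticFun p := by
  refine analyticFun_of_coeff p hcard jc uc iInf i0 hjInf huInf hj0 hu0
    (fun k => ⟨Φ₀.coeff k, fun z => ?_⟩) (fun k => ⟨W₀.coeff k, fun z => ?_⟩)
    (fun k => ⟨H₀.coeff k, fun z => ?_⟩)
  · rw [← hΦ z, coeff_map, coe_evalRingHom]
  · rw [← hW z, coeff_map, coe_evalRingHom]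
  · rw [← hH z, coeff_map, coe_evalRingHom]

/-- **Final glue, function-coefficient form**: the hypotheses are about the coefficients of the
polynomials over the ring of functions `ℍ → ℂ`. -/
theorem analyticFun_of_coeff_fun (p : ℕ) [NeZero p] (hcard : Fintype.card ι = p + 1)
    (jc uc : ι → ℍ → ℂ) (iInf i0 : ι)
    (hjInf : ∀ z, jc iInf z = jFun (mulN p z)) (huInf : ∀ z, uc iInf z = hkW p z)
    (hj0 : ∀ z, jc i0 (mulN p z) = jFun z) (hu0 : ∀ z, uc i0 (mulN p z) = hkV p z)
    (hΦ : ∀ k, ∃ Q : Polynomial ℂ, ∀ z : ℍ,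
      (∏ i, (X - C (jc i))).coeff k z = Q.eval (jFun z))
    (hW : ∀ k, ∃ Q : Polynomial ℂ, ∀ z : ℍ,
      (∏ i, (X - C (uc i))).coeff k z = Q.eval (jFun z))
    (hH : ∀ k, ∃ Q : Polynomial ℂ, ∀ z : ℍ,
      (∑ i, C (uc i) * ∏ k ∈ Finset.univ.erase i, (X - C (jc k))).coeff k z
        = Q.eval (jFun z)) :
    AnalyticFun p := by
  refine analyticFun_of_coeff p hcard jc uc iInf i0 hjInf huInf hj0 hu0
    (fun k => ?_) (fun k => ?_) (fun k => ?_)
  · obtain ⟨Q, hQ⟩ := hΦ k
    exact ⟨Q, fun z => by rw [← hQ z]; exact (prodPoly_coeff_apply jc k z).symm⟩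
  · obtain ⟨Q, hQ⟩ := hW k
    exact ⟨Q, fun z => by rw [← hQ z]; exact (prodPoly_coeff_apply uc k z).symm⟩
  · obtain ⟨Q, hQ⟩ := hH k
    exact ⟨Q, fun z => by rw [← hQ z]; exact (lagPoly_coeff_apply jc uc k z).symm⟩

end glue

end EAlg

end Fermat.Agent.S28
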