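/-
S28 block [E], generic algebra (owner: helper6).  Mathlib only.

* Newton: if the power sums of a finite family `x` lie in a subalgebra `B` over a field of
  characteristic zero, so do the elementary symmetric functions of `x` and the coefficients of
  `∏ (X - C (x α))`  (`newton_esymm_mem`, `newton_prod_coeff_mem`).
* Lagrange numerator `lagNum x v = ∑_α C (v α) * ∏_{β ≠ α} (X - C (x β))`: its coefficients in
  terms of the coefficients of `∏ (X - C (x α))` and the mixed power sums `∑_α v α * x α ^ k`
  (`lagNum_coeff`, `lagNum_coeff_mem`), and its value at a node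
  `(lagNum x v).eval (x α₀) = v α₀ * (derivative (∏ (X - C (x α)))).eval (x α₀)` (`lagNum_eval`).
-/
import Mathlib

set_option autoImplicit false

namespace Fermat.Agent.S28

open Polynomial Finset

section NW

variable {F : Type*} [Field F] [CharZero F] {L : Type*} [CommRing L] [Algebra F L]
  {ι : Type*} [Fintype ι]

/-- Newton: if the power sums `∑_α x_α^n`, `1 ≤ n ≤ card ι`, lie in a `F`-subalgebra (`F` a field of characteristic zero) `B`, then so
do the elementary symmetric functions of the `x_α`. -/
theorem newton_esymm_mem (B : Subalgebra F L) (x : ι → L)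
    (hB : ∀ n : ℕ, 1 ≤ n → n ≤ Fintype.card ι → ∑ α, x α ^ n ∈ B) (k : ℕ) :
    (Finset.univ.val.map x).esymm k ∈ B := by
  classical
  induction k using Nat.strong_induction_on with
  | _ k ih =>
    rcases Nat.eq_zero_or_pos k with rfl | hk
    · have : (Finset.univ.val.map x).esymm 0 = 1 := by simp [Multiset.esymm]
      rw [this]
      exact B.one_mem
    by_cases hkc : Fintype.card ι < k
    · have : (Finset.univ.val.map x).esymm k = 0 := by
        rw [Multiset.esymm, Multiset.powersetCard_eq_empty _ (by simpa using hkc)]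
        simp
      rw [this]
      exact B.zero_mem
    have hkc' : k ≤ Fintype.card ι := not_lt.mp hkc
    have hN := congrArg (MvPolynomial.aeval x) (MvPolynomial.mul_esymm_eq_sum ι F k)
    simp only [map_mul, map_natCast, map_pow, map_neg, map_one, map_sum,
      MvPolynomial.aeval_esymm_eq_multiset_esymm] at hN
    have hps : ∀ n : ℕ, MvPolynomial.aeval x (MvPolynomial.psum ι F n) = ∑ α, x α ^ n := by
      intro n
      simp [MvPolynomial.psum]
    have hmem : (k : L) * (Finset.univ.val.map x).esymm k ∈ B := by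
      rw [hN]
      refine B.mul_mem (B.pow_mem (B.neg_mem B.one_mem) _) (B.sum_mem fun a ha => ?_)
      have ha' := Finset.mem_filter.mp ha
      have hanti : a.1 + a.2 = k := by simpa using ha'.1
      refine B.mul_mem (B.mul_mem (B.pow_mem (B.neg_mem B.one_mem) _) (ih a.1 ha'.2)) ?_
      rw [hps]
      exact hB a.2 (by omega) (by omega)
    have hk0 : (k : F) ≠ 0 := by exact_mod_cast hk.ne'
    have : (Finset.univ.val.map x).esymm k
        = (k : F)⁻¹ • ((k : L) * (Finset.univ.val.map x).esymm k) := by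
      have h1 : algebraMap F L (k : F)⁻¹ * (k : L) = 1 := by
        rw [← map_natCast (algebraMap F L) k, ← map_mul, inv_mul_cancel₀ hk0, map_one]
      rw [Algebra.smul_def, ← mul_assoc, h1, one_mul]
    rw [this]
    exact B.smul_mem hmem _

/-- Newton: the coefficients of `∏ (X - x_α)` lie in every `F`-subalgebra (`F` a field of characteristic zero) containing the power
sums of the `x_α`. -/
theorem newton_prod_coeff_mem (B : Subalgebra F L) (x : ι → L)
    (hB : ∀ n : ℕ, 1 ≤ n → n ≤ Fintype.card ι → ∑ α, x α ^ n ∈ B) (i : ℕ) :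
    (∏ α, (X - C (x α))).coeff i ∈ B := by
  classical
  have hprod : (∏ α, (X - C (x α))) = ((Finset.univ.val.map x).map fun t => X - C t).prod := by
    rw [Multiset.map_map]
    rfl
  by_cases hi : i ≤ Fintype.card ι
  · rw [hprod, Multiset.prod_X_sub_C_coeff _ (by simpa using hi)]
    exact B.mul_mem (B.pow_mem (B.neg_mem B.one_mem) _) (newton_esymm_mem B x hB _)
  · have hdeg : (∏ α, (X - C (x α))).natDegree ≤ Fintype.card ι := by
      have h1 : (∏ β, (X - C (x β))).natDegree ≤ ∑ i : ι, (X - C (x i)).natDegree :=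
        natDegree_prod_le Finset.univ (fun β => X - C (x β))
      have h2 : ∑ i : ι, (X - C (x i)).natDegree ≤ ∑ _i : ι, (1 : ℕ) :=
        Finset.sum_le_sum fun i _ => natDegree_X_sub_C_le (x i)
      have h3 : ∑ _i : ι, (1 : ℕ) = Fintype.card ι := by simp
      omega
    rw [coeff_eq_zero_of_natDegree_lt (by omega)]
    exact B.zero_mem

end NW

section LG1

variable {R : Type*} [CommRing R] {ι : Type*} [Fintype ι] [DecidableEq ι]

/-- The Lagrange-type numerator `∑_α v_α ∏_{β ≠ α} (X - x_β)`. -/
noncomputable def lagNum (x v : ι → R) : R[X] :=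
  ∑ α, C (v α) * ∏ β ∈ univ.erase α, (X - C (x β))

theorem lag_prod_erase_eq_divByMonic (x : ι → R) (α : ι) :
    ∏ β ∈ univ.erase α, (X - C (x β)) = (∏ β, (X - C (x β))) /ₘ (X - C (x α)) := by
  rw [← Finset.mul_prod_erase univ (fun β => X - C (x β)) (Finset.mem_univ α),
    mul_divByMonic_cancel_left _ (monic_X_sub_C (x α))]

omit [DecidableEq ι] in
theorem lag_natDegree_prod_le (x : ι → R) :
    (∏ β, (X - C (x β))).natDegree ≤ Fintype.card ι := by
  have h1 : (∏ β, (X - C (x β))).natDegree ≤ ∑ i : ι, (X - C (x i)).natDegree :=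
    natDegree_prod_le Finset.univ (fun β => X - C (x β))
  have h2 : ∑ i : ι, (X - C (x i)).natDegree ≤ ∑ _i : ι, (1 : ℕ) :=
    Finset.sum_le_sum fun i _ => natDegree_X_sub_C_le (x i)
  have h3 : ∑ _i : ι, (1 : ℕ) = Fintype.card ι := by simp
  omega

/-- Coefficients of the Lagrange numerator in terms of the coefficients of `∏ (X - x_α)` and
the mixed power sums `∑_α v_α x_α^k`. -/
theorem lagNum_coeff (x v : ι → R) (m : ℕ) :
    (lagNum x v).coeff m = ∑ i ∈ Finset.Icc (m + 1) (Fintype.card ι),
      (∏ α, (X - C (x α))).coeff i * ∑ α, v α * x α ^ (i - (m + 1)) := by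
  have hsub : Finset.Icc (m + 1) (∏ α, (X - C (x α))).natDegree ⊆
      Finset.Icc (m + 1) (Fintype.card ι) :=
    Finset.Icc_subset_Icc le_rfl (lag_natDegree_prod_le x)
  have hzero : ∀ i ∈ Finset.Icc (m + 1) (Fintype.card ι),
      i ∉ Finset.Icc (m + 1) (∏ α, (X - C (x α))).natDegree →
      (∏ α, (X - C (x α))).coeff i = 0 := by
    intro i hi hni
    apply coeff_eq_zero_of_natDegree_lt
    simp only [Finset.mem_Icc, not_and, not_le] at hi hni
    exact hni hi.1
  simp only [lagNum, finsetSum_coeff, coeff_C_mul, lag_prod_erase_eq_divByMonic,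
    coeff_divByMonic_X_sub_C, Finset.mul_sum]
  rw [Finset.sum_comm]
  rw [← Finset.sum_subset hsub (fun i hi hni => by
    simp [hzero i hi hni])]
  refine Finset.sum_congr rfl fun i _ => Finset.sum_congr rfl fun α _ => ?_
  ring

/-- The Lagrange numerator at a node: `H(x_α₀) = v_α₀ · Φ'(x_α₀)`. -/
theorem lagNum_eval (x v : ι → R) (α₀ : ι) :
    (lagNum x v).eval (x α₀) = v α₀ * (derivative (∏ α, (X - C (x α)))).eval (x α₀) := by
  have hvan : ∀ α, α ≠ α₀ → (∏ β ∈ univ.erase α, (X - C (x β))).eval (x α₀) = 0 := by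
    intro α hα
    rw [eval_prod]
    exact Finset.prod_eq_zero (i := α₀) (Finset.mem_erase.mpr ⟨hα.symm, Finset.mem_univ _⟩)
      (by simp)
  rw [lagNum, eval_finsetSum, derivative_prod_finset, eval_finsetSum]
  rw [Finset.sum_eq_single α₀ (fun α _ hα => by rw [eval_mul, hvan α hα, mul_zero])
    (fun h => absurd (Finset.mem_univ _) h)]
  rw [Finset.sum_eq_single α₀ (fun α _ hα => by rw [eval_mul, hvan α hα, zero_mul])
    (fun h => absurd (Finset.mem_univ _) h)]
  simp

end LG1

section LGmem

variable {F : Type*} [Field F] [CharZero F] {L : Type*} [CommRing L] [Algebra F L]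
  {ι : Type*} [Fintype ι] [DecidableEq ι]

/-- If the power sums of `x` and the mixed power sums `∑_α v α * x α ^ k` (`k < card ι`) lie in
a subalgebra `B`, then so do the coefficients of the Lagrange numerator. -/
theorem lagNum_coeff_mem (B : Subalgebra F L) (x v : ι → L)
    (hB : ∀ n : ℕ, 1 ≤ n → n ≤ Fintype.card ι → ∑ α, x α ^ n ∈ B)
    (hv : ∀ k : ℕ, k < Fintype.card ι → ∑ α, v α * x α ^ k ∈ B) (m : ℕ) :
    (lagNum x v).coeff m ∈ B := by
  rw [lagNum_coeff]
  refine B.sum_mem fun i hi => B.mul_mem (newton_prod_coeff_mem B x hB i) (hv _ ?_)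
  have := Finset.mem_Icc.mp hi
  omega

end LGmem

end Fermat.Agent.S28
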