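import Mathlib
import Fermat.Agent.S28.ENewtonGen

/-!
# S28 [E], block T4 (owner: helper41): Newton wrapper

From the mixed power sums `∑ᵢ vᵢ ^ a * xᵢ ^ b` lying in a subalgebra `B` (over a field of
characteristic zero), all coefficients of the three polynomials
`∏ᵢ (X - C xᵢ)`, `∏ᵢ (X - C vᵢ)`, `∑ᵢ C vᵢ * ∏_{k ≠ i} (X - C x_k)` lie in `B`.
Thin wrapper around helper6's `ENewtonGen.lean` (`newton_prod_coeff_mem`, `lagNum_coeff_mem`).
-/

set_option autoImplicit false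

namespace Fermat.Agent.S28

open Polynomial Finset

section ENewton

variable {F : Type*} [Field F] [CharZero F] {L : Type*} [CommRing L] [Algebra F L]
  {ι : Type*} [Fintype ι]

/-- (T4) Newton + Lagrange: if all mixed power sums `∑ᵢ vᵢ ^ a * xᵢ ^ b` lie in the subalgebra
`B`, then so do all coefficients of `∏ᵢ (X - C xᵢ)`, of `∏ᵢ (X - C vᵢ)` and of
`∑ᵢ C vᵢ * ∏_{k ≠ i} (X - C x_k)`. -/
theorem eNewton_coeff_mem [DecidableEq ι] (B : Subalgebra F L) (x v : ι → L)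
    (h : ∀ a b : ℕ, ∑ i, v i ^ a * x i ^ b ∈ B) (m : ℕ) :
    (∏ i, (X - C (x i))).coeff m ∈ B ∧ (∏ i, (X - C (v i))).coeff m ∈ B ∧
      (∑ i, C (v i) * ∏ k ∈ univ.erase i, (X - C (x k))).coeff m ∈ B := by
  have hx : ∀ n : ℕ, 1 ≤ n → n ≤ Fintype.card ι → ∑ α, x α ^ n ∈ B := by
    intro n _ _
    have := h 0 n
    simpa using this
  have hv : ∀ n : ℕ, 1 ≤ n → n ≤ Fintype.card ι → ∑ α, v α ^ n ∈ B := by
    intro n _ _
    have := h n 0
    simpa using this
  have hm : ∀ k : ℕ, k < Fintype.card ι → ∑ α, v α * x α ^ k ∈ B := by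
    intro k _
    have := h 1 k
    simpa using this
  exact ⟨newton_prod_coeff_mem B x hx m, newton_prod_coeff_mem B v hv m,
    lagNum_coeff_mem B x v hx hm m⟩

/-- (T4), first product. -/
theorem eNewton_prod_x_coeff_mem (B : Subalgebra F L) (x v : ι → L)
    (h : ∀ a b : ℕ, ∑ i, v i ^ a * x i ^ b ∈ B) (m : ℕ) :
    (∏ i, (X - C (x i))).coeff m ∈ B := by
  classical
  exact (eNewton_coeff_mem B x v h m).1

/-- (T4), second product. -/
theorem eNewton_prod_v_coeff_mem (B : Subalgebra F L) (x v : ι → L)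
    (h : ∀ a b : ℕ, ∑ i, v i ^ a * x i ^ b ∈ B) (m : ℕ) :
    (∏ i, (X - C (v i))).coeff m ∈ B := by
  classical
  exact (eNewton_coeff_mem B x v h m).2.1

/-- (T4), the Lagrange numerator. -/
theorem eNewton_lag_coeff_mem [DecidableEq ι] (B : Subalgebra F L) (x v : ι → L)
    (h : ∀ a b : ℕ, ∑ i, v i ^ a * x i ^ b ∈ B) (m : ℕ) :
    (∑ i, C (v i) * ∏ k ∈ univ.erase i, (X - C (x k))).coeff m ∈ B :=
  (eNewton_coeff_mem B x v h m).2.2

end ENewton

end Fermat.Agent.S28
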