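/-
S28 block [E], analytic half, coset route: final assembly (owner: helper23).

`ECosetAsm.analyticFun : AnalyticFun p` for `p` prime, from
* `EHkW` (`hkW p`, `jAt p` lie in `S24.NormPoly.goodSub p`),
* `ECosetPts` (index `p + 1`, the values at the cosets of `1` and `S`),
* `ENewton` (mixed power sums in a subalgebra give the coefficients of the three polynomials),
* `EAlg` (packaging into two-variable polynomials),
* `LevelOne.exists_polynomial_of_invariant` (holomorphic level one functions are polynomials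
  in `j`).
-/
import Mathlib
import Fermat.Agent.S28.EHkW
import Fermat.Agent.S28.ECosetPts
import Fermat.Agent.S28.ENewton
import Fermat.Agent.S28.EAlg

set_option autoImplicit false

namespace Fermat.Agent.S28.ECosetAsm

open UpperHalfPlane ModularForm Polynomial
open scoped MatrixGroups ModularForm
open Fermat.Agent.S23 Fermat.Agent.LevelOne Fermat.Agent.S24

/-- The sum over all cosets of the translates of a good function is a polynomial in `j`. -/
theorem sum_cjt_eq_poly (N : ℕ) [NeZero N] {ψ : ℍ → ℂ} (hψ : ψ ∈ NormPoly.goodSub N) :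
    letI := Fintype.ofFinite (QN N)
    ∃ Q : Polynomial ℂ, ∀ z : ℍ, ∑ q : QN N, NormPoly.cjt N ψ q z = Q.eval (jFun z) := by
  classical
  letI := Fintype.ofFinite (QN N)
  obtain ⟨hol, hinv, hmer⟩ := hψ
  have hbdd := NormPoly.bdd_esymF (N := N) (φ := ψ) (fun q => hmer (Quotient.out q)) 1
  obtain ⟨m, hm⟩ := hbdd
  obtain ⟨Q, -, hQ⟩ := LevelOne.exists_polynomial_of_invariant
    (NormPoly.mdiff_esymF (N := N) hol 1)
    (fun γ z => NormPoly.esymF_smul (N := N) hinv 1 γ z) m hm
  refine ⟨Q, fun z => ?_⟩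
  rw [← hQ z]
  have e : NormPoly.esymF (N := N) ψ 1 = ∑ q : QN N, NormPoly.cjt N ψ q := by
    unfold NormPoly.esymF
    rw [Finset.powersetCard_one, Finset.sum_map]
    refine Finset.sum_congr rfl fun q _ => ?_
    simp
  rw [e, Finset.sum_apply]

/-- The subalgebra of polynomials in `j`. -/
noncomputable def polyJ : Subalgebra ℂ (ℍ → ℂ) := (Polynomial.aeval (jFun : ℍ → ℂ)).range

theorem mem_polyJ_of {f : ℍ → ℂ} (Q : Polynomial ℂ) (h : ∀ z, f z = Q.eval (jFun z)) :
    f ∈ polyJ := by
  refine ⟨Q, ?_⟩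
  funext z
  rw [h z]
  simp [Polynomial.aeval_fn_apply, Polynomial.coe_aeval_eq_eval]

theorem exists_of_mem_polyJ {f : ℍ → ℂ} (h : f ∈ polyJ) :
    ∃ Q : Polynomial ℂ, ∀ z : ℍ, f z = Q.eval (jFun z) := by
  obtain ⟨Q, rfl⟩ := h
  refine ⟨Q, fun z => ?_⟩
  simp [Polynomial.aeval_fn_apply, Polynomial.coe_aeval_eq_eval]

/-- **The function-level analytic input** of block [E], by the coset route. -/
theorem analyticFun (p : ℕ) [NeZero p] (hp : p.Prime) : AnalyticFun p := by
  classical
  letI : Fintype (QN p) := Fintype.ofFinite (QN p)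
  have hcard : Fintype.card (QN p) = p + 1 := by
    rw [← Nat.card_eq_fintype_card]
    exact ECosetPts.card_QN p hp
  have hmix : ∀ a b : ℕ,
      ∑ q : QN p, NormPoly.cjt p (hkW p) q ^ a * NormPoly.cjt p (jAt p) q ^ b ∈ polyJ := by
    intro a b
    have hψ : hkW p ^ a * jAt p ^ b ∈ NormPoly.goodSub p :=
      (NormPoly.goodSub p).mul_mem ((NormPoly.goodSub p).pow_mem (hkW_mem_goodSub p) a)
        ((NormPoly.goodSub p).pow_mem (jAt_mem_goodSub p) b)
    obtain ⟨Q, hQ⟩ := sum_cjt_eq_poly p hψ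
    refine mem_polyJ_of Q fun z => ?_
    rw [← hQ z, Finset.sum_apply]
    refine Finset.sum_congr ?_ fun q _ => ?_
    · congr
    · rfl
  have key := fun m => eNewton_coeff_mem polyJ (fun q : QN p => NormPoly.cjt p (jAt p) q)
    (fun q : QN p => NormPoly.cjt p (hkW p) q) hmix m
  refine EAlg.analyticFun_of_coeff_fun p hcard
    (fun q : QN p => NormPoly.cjt p (jAt p) q) (fun q : QN p => NormPoly.cjt p (hkW p) q)
    (QuotientGroup.mk (1 : SL(2, ℤ))) (QuotientGroup.mk ModularGroup.S)
    (ECosetPts.cjt_jAt_one p) (ECosetPts.cjt_hkW_one p)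
    (ECosetPts.cjt_jAt_S p) (ECosetPts.cjt_hkW_S p)
    (fun k => exists_of_mem_polyJ (key k).1)
    (fun k => exists_of_mem_polyJ (key k).2.1)
    (fun k => exists_of_mem_polyJ (key k).2.2)

end Fermat.Agent.S28.ECosetAsm
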