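/-
S28 block [E]: the ANALYTIC HALF, final export (owner: helper23).

`analyticInput p hp : AnalyticInput p` for every prime `p`: the modular polynomials over `ℂ`
(`Φ_p`, the norm polynomial of `p¹² Δ(p z) / Δ(z)` and the Lagrange numerator) with their six
identities of formal Laurent series.  Assembly of
* `ECosetAsm.analyticFun` (function-level identities, coset route), and
* `analyticInput_of_fun` (`AnExpandMain`: transport along the `q`-expansion homomorphism).
-/
import Mathlib
import Fermat.Agent.S28.ECosetAsm
import Fermat.Agent.S28.AnExpandMain

set_option autoImplicit false

namespace Fermat.Agent.S28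

/-- **Analytic input of block [E]** for a prime `p`. -/
theorem analyticInput (p : ℕ) [NeZero p] (hp : p.Prime) : AnalyticInput p :=
  analyticInput_of_fun p (ECosetAsm.analyticFun p hp)

end Fermat.Agent.S28
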