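import Mathlib
import Fermat.Agent.S24.AnCusp
import Fermat.Agent.S28.HeckeAnDefs

/-!
# S28 block [E], analytic half, T5 (core): the bridge `AnalyticFun p → AnalyticInput p`

OWNER: helper76 (only the owner edits this file).

Generic transfer of two-variable polynomial identities (`ev2`) from functions on `ℍ` to Laurent
series through the algebra homomorphism `θ = S24.cuspHom 1 : merSub 1 →ₐ[ℂ] LaurentSeries ℂ`,
and the bridge itself, with the eight "value" facts (memberships in `merSub 1` and `θ`-images of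
`jFun`, `jFun ∘ mulN p`, `hkW p`, `hkV p`) as hypotheses.
-/

set_option autoImplicit false

namespace Fermat.Agent.S28

open UpperHalfPlane Polynomial
open Fermat.Agent.S23 Fermat.Agent.LevelOne

namespace EBridge

/-- (G1) `ev2` commutes with algebra homomorphisms. -/
theorem ev2_algHom {K A B : Type*} [CommRing K] [CommRing A] [CommRing B] [Algebra K A]
    [Algebra K B] (φ : A →ₐ[K] B) (P : Polynomial (Polynomial K)) (x y : A) :
    φ (ev2 P x y) = ev2 P (φ x) (φ y) := by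
  have hcomp : ((φ : A →+* B).comp
      ((Polynomial.aeval y : Polynomial K →ₐ[K] A) : Polynomial K →+* A)) =
      ((Polynomial.aeval (φ y) : Polynomial K →ₐ[K] B) : Polynomial K →+* B) := by
    refine Polynomial.ringHom_ext (fun a => ?_) ?_
    · simp
    · simp
  rw [ev2_def, ev2_def, Polynomial.eval_map, Polynomial.eval_map]
  have h := Polynomial.hom_eval₂ P
    ((Polynomial.aeval y : Polynomial K →ₐ[K] A) : Polynomial K →+* A) (φ : A →+* B) x
  rw [hcomp] at h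
  exact h

/-- (G2) pointwise evaluation of `ev2` in a subalgebra of functions. -/
theorem ev2_subalgebra_apply {X : Type*} (S : Subalgebra ℂ (X → ℂ))
    (P : Polynomial (Polynomial ℂ)) (x y : S) (z : X) :
    ((ev2 P x y : S) : X → ℂ) z = ev2 P ((x : X → ℂ) z) ((y : X → ℂ) z) :=
  ev2_algHom ((Pi.evalAlgHom ℂ (fun _ : X => ℂ) z).comp S.val) P x y

/-- (G3) transfer of an identity `P(x, y) = 0`. -/
theorem transfer_eq_zero {X B : Type*} [CommRing B] [Algebra ℂ B] (S : Subalgebra ℂ (X → ℂ))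
    (φ : S →ₐ[ℂ] B) (P : Polynomial (Polynomial ℂ)) (x y : S)
    (h : ∀ z, ev2 P ((x : X → ℂ) z) ((y : X → ℂ) z) = 0) :
    ev2 P (φ x) (φ y) = 0 := by
  have h0 : ev2 P x y = 0 := by
    apply Subtype.ext
    funext z
    rw [ev2_subalgebra_apply, h z]
    rfl
  rw [← ev2_algHom, h0, map_zero]

/-- (G4) transfer of an identity `P(x, y) = w * Q(x, y)`. -/
theorem transfer_eq_mul {X B : Type*} [CommRing B] [Algebra ℂ B] (S : Subalgebra ℂ (X → ℂ))
    (φ : S →ₐ[ℂ] B) (P Q : Polynomial (Polynomial ℂ)) (x y w : S)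
    (h : ∀ z, ev2 P ((x : X → ℂ) z) ((y : X → ℂ) z) =
      (w : X → ℂ) z * ev2 Q ((x : X → ℂ) z) ((y : X → ℂ) z)) :
    ev2 P (φ x) (φ y) = φ w * ev2 Q (φ x) (φ y) := by
  have h0 : ev2 P x y = w * ev2 Q x y := by
    apply Subtype.ext
    funext z
    rw [ev2_subalgebra_apply, h z]
    show _ = (w : X → ℂ) z * ((ev2 Q x y : S) : X → ℂ) z
    rw [ev2_subalgebra_apply]
  rw [← ev2_algHom, h0, map_mul, ev2_algHom]

/-- The bridge, with the `merSub 1` memberships and the `cuspHom 1`-values as hypotheses. -/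
theorem analyticInput_of_fun_of_vals (p : ℕ) [NeZero p]
    (hj : jFun ∈ S24.merSub 1) (hjp : (fun z => jFun (mulN p z)) ∈ S24.merSub 1)
    (hW : hkW p ∈ S24.merSub 1) (hV : hkV p ∈ S24.merSub 1)
    (θj : S24.cuspHom 1 ⟨jFun, hj⟩ = jd ℂ 1)
    (θjp : S24.cuspHom 1 ⟨fun z => jFun (mulN p z), hjp⟩ = jd ℂ p)
    (θW : S24.cuspHom 1 ⟨hkW p, hW⟩ = wInf ℂ p)
    (θV : S24.cuspHom 1 ⟨hkV p, hV⟩ = invU ℂ p)
    (h : AnalyticFun p) : AnalyticInput p := by
  obtain ⟨Φc, Wc, Hc, h1, h2, h3, h4, h5, hz⟩ := h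
  refine ⟨Φc, Wc, Hc, h1, h2, h3, h4, h5, ?_, ?_, ?_, ?_, ?_, ?_⟩
  · have := transfer_eq_zero (S24.merSub 1) (S24.cuspHom 1) Φc
      ⟨fun z => jFun (mulN p z), hjp⟩ ⟨jFun, hj⟩ (fun z => (hz z).1)
    rwa [θjp, θj] at this
  · have := transfer_eq_zero (S24.merSub 1) (S24.cuspHom 1) Φc
      ⟨jFun, hj⟩ ⟨fun z => jFun (mulN p z), hjp⟩ (fun z => (hz z).2.1)
    rwa [θjp, θj] at this
  · have := transfer_eq_zero (S24.merSub 1) (S24.cuspHom 1) Wc
      ⟨hkW p, hW⟩ ⟨jFun, hj⟩ (fun z => (hz z).2.2.1)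
    rwa [θW, θj] at this
  · have := transfer_eq_zero (S24.merSub 1) (S24.cuspHom 1) Wc
      ⟨hkV p, hV⟩ ⟨fun z => jFun (mulN p z), hjp⟩ (fun z => (hz z).2.2.2.1)
    rwa [θV, θjp] at this
  · have := transfer_eq_mul (S24.merSub 1) (S24.cuspHom 1) Hc (Polynomial.derivative Φc)
      ⟨fun z => jFun (mulN p z), hjp⟩ ⟨jFun, hj⟩ ⟨hkW p, hW⟩ (fun z => (hz z).2.2.2.2.1)
    rwa [θjp, θj, θW] at this
  · have := transfer_eq_mul (S24.merSub 1) (S24.cuspHom 1) Hc (Polynomial.derivative Φc)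
      ⟨jFun, hj⟩ ⟨fun z => jFun (mulN p z), hjp⟩ ⟨hkV p, hV⟩ (fun z => (hz z).2.2.2.2.2)
    rwa [θjp, θj, θV] at this

end EBridge

end Fermat.Agent.S28
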