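/-
S28 block [E], analytic half, T5 values (HEDGE file, owner helper22).

`θ := S24.cuspHom 1 : S24.merSub 1 →ₐ[ℂ] LaurentSeries ℂ` (the `q`-Laurent expansion at `i∞`).
Values of `θ` on the functions entering `AnalyticFun p`:

* (V1) `θ Δ = DeltaL ℂ`, `θ Δ⁻¹ = DeltaLInv ℂ`;
* (V2) `θ j = jd ℂ 1`;
* (V3, instances) `θ (Δ(p·)) = qExpand ℂ p (DeltaL ℂ)`, `θ (Δ(p·)⁻¹) = qExpand ℂ p (DeltaLInv ℂ)`,
  `θ (j(p·)) = jd ℂ p`;
* (V4) `θ (hkW p) = wInf ℂ p`, `θ (hkV p) = invU ℂ p`.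

Every statement is for an arbitrary membership proof, so it can be rewritten with whatever
proof the consumer has.
-/
import Mathlib
import Fermat.Agent.S24.AnCusp
import Fermat.Agent.S24.AnCuspOrder
import Fermat.Agent.S24.JFormalAsm
import Fermat.Agent.S24.AnBridge
import Fermat.Agent.S24.AnBridgeB
import Fermat.Agent.S28.HeckeAnDefs

set_option autoImplicit false

noncomputable section

namespace Fermat.Agent.S28

open UpperHalfPlane ModularForm ModularCurve Filter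
open scoped MatrixGroups ModularForm Manifold
open Fermat.Agent.S23 Fermat.Agent.LevelOne

local notation "Δ" => ModularForm.discriminant

/-! ### Formal preliminaries -/

theorem valsB_DeltaL_mul_DeltaLInv (R : Type*) [CommRing R] : DeltaL R * DeltaLInv R = 1 := by
  have h1 : HahnSeries.single (1 : ℤ) (1 : R) * HahnSeries.single (-1 : ℤ) (1 : R) = 1 := by
    rw [HahnSeries.single_mul_single]
    simp
  have h2 : HahnSeries.ofPowerSeries ℤ R (dedekindEtaUnit.map (Int.castRingHom R)) *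
      HahnSeries.ofPowerSeries ℤ R (dedekindEtaUnitInv.map (Int.castRingHom R)) = 1 := by
    rw [← map_mul, ← map_mul, dedekindEtaUnit_mul_inv, map_one, map_one]
  calc DeltaL R * DeltaLInv R
      = (HahnSeries.single (1 : ℤ) (1 : R) * HahnSeries.single (-1 : ℤ) (1 : R)) *
        (HahnSeries.ofPowerSeries ℤ R (dedekindEtaUnit.map (Int.castRingHom R)) *
          HahnSeries.ofPowerSeries ℤ R (dedekindEtaUnitInv.map (Int.castRingHom R))) := by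
        unfold DeltaL DeltaLInv; ring
    _ = 1 := by rw [h1, h2, one_mul]

theorem valsB_jd_one_mul_DeltaL :
    jd ℂ 1 * DeltaL ℂ =
      HahnSeries.ofPowerSeries ℤ ℂ (qExpansion 1 (⇑ModularForm.E₄ : ℍ → ℂ)) ^ 3 := by
  have h := S24.jq_mul_discriminant
  rw [S24.JFormal.qExpansion_discriminant, map_mul, HahnSeries.ofPowerSeries_X] at h
  have hj : coeffMap (algebraMap ℚ ℂ) jq = jd ℂ 1 := by
    rw [jd_one, ← jqModC_rat, coeffMap_jqModC]
  rw [hj] at h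
  exact h

/-! ### Nice functions are in `bddSub 1` -/

theorem valsB_bddSub_of_niceSub {F : ℍ → ℂ} (hF : F ∈ niceSub) : F ∈ S24.bddSub 1 := by
  refine ⟨hF.2.1, fun z => ?_, hF.2.2⟩
  have h := hF.1 (z : ℂ)
  simp only [Function.comp_apply] at h
  rw [ofComplex_apply] at h
  rw [← h]
  congr 1
  have him : 0 < ((z : ℂ) + 1).im := by simpa using z.im_pos
  rw [ofComplex_apply_of_im_pos him]
  apply UpperHalfPlane.ext
  simp [add_comm]

/-- On nice functions `θ` is the `q`-expansion. -/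
theorem valsB_cuspHom_of_niceSub {F : ℍ → ℂ} (hF : F ∈ niceSub) (h : F ∈ S24.merSub 1) :
    S24.cuspHom 1 ⟨F, h⟩ = HahnSeries.ofPowerSeries ℤ ℂ (qExpansion 1 F) := by
  have := S24.cuspHom_eq_of_bdd 1 ⟨F, h⟩ hF.2.2
  simpa using this

/-! ### (V1) `Δ` and `Δ⁻¹` -/

theorem valsB_discriminant_mem : (Δ : ℍ → ℂ) ∈ S24.merSub 1 := S24.discriminant_mem_merSub 1

theorem valsB_cuspHom_discriminant (h : (Δ : ℍ → ℂ) ∈ S24.merSub 1) :
    S24.cuspHom 1 ⟨Δ, h⟩ = DeltaL ℂ := by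
  rw [valsB_cuspHom_of_niceSub S24.BridgeB.discriminant_mem_niceSub h,
    S24.JFormal.qExpansion_discriminant, map_mul, HahnSeries.ofPowerSeries_X]
  rfl

theorem valsB_inv_discriminant_mem : (fun z : ℍ => (Δ z)⁻¹) ∈ S24.merSub 1 := by
  refine ⟨?_, fun z => ?_, 1, ?_⟩
  · have h1 : MDiff (Δ : ℍ → ℂ) := S24.mdiff_discriminant
    rw [UpperHalfPlane.mdifferentiable_iff] at h1 ⊢
    exact h1.inv (fun w _ => discriminant_ne_zero _)
  · show (Δ (((1 : ℕ) : ℝ) +ᵥ z))⁻¹ = (Δ z)⁻¹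
    rw [S24.discriminant_vadd_nat]
  · have : (fun z : ℍ => Δ z ^ 1 * (Δ z)⁻¹) = fun _ => (1 : ℂ) := by
      funext z
      rw [pow_one, mul_inv_cancel₀ (discriminant_ne_zero z)]
    rw [this]
    exact Filter.const_boundedAtFilter _ _

theorem valsB_cuspHom_inv_discriminant (h : (fun z : ℍ => (Δ z)⁻¹) ∈ S24.merSub 1) :
    S24.cuspHom 1 ⟨fun z : ℍ => (Δ z)⁻¹, h⟩ = DeltaLInv ℂ := by
  have hmul : (⟨Δ, valsB_discriminant_mem⟩ : S24.merSub 1) * ⟨fun z : ℍ => (Δ z)⁻¹, h⟩ = 1 := by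
    apply Subtype.ext
    funext z
    exact mul_inv_cancel₀ (discriminant_ne_zero z)
  have h1 := congrArg (S24.cuspHom 1) hmul
  rw [map_mul, map_one, valsB_cuspHom_discriminant] at h1
  calc S24.cuspHom 1 ⟨fun z : ℍ => (Δ z)⁻¹, h⟩
      = (DeltaL ℂ * DeltaLInv ℂ) * S24.cuspHom 1 ⟨fun z : ℍ => (Δ z)⁻¹, h⟩ := by
        rw [valsB_DeltaL_mul_DeltaLInv, one_mul]
    _ = DeltaLInv ℂ * (DeltaL ℂ * S24.cuspHom 1 ⟨fun z : ℍ => (Δ z)⁻¹, h⟩) := by ring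
    _ = DeltaLInv ℂ := by rw [h1, mul_one]

/-! ### (V2) `j` -/

theorem valsB_jFun_mem : jFun ∈ S24.merSub 1 := S24.jFun_mem_merSub 1

theorem valsB_cuspHom_E4 (h : (⇑E₄ : ℍ → ℂ) ∈ S24.merSub 1) :
    S24.cuspHom 1 ⟨⇑E₄, h⟩ = HahnSeries.ofPowerSeries ℤ ℂ (qExpansion 1 (⇑E₄ : ℍ → ℂ)) :=
  valsB_cuspHom_of_niceSub S24.BridgeB.E4_mem_niceSub h

theorem valsB_cuspHom_jFun (h : jFun ∈ S24.merSub 1) : S24.cuspHom 1 ⟨jFun, h⟩ = jd ℂ 1 := by
  have h1 := S24.cuspHom_jFun_mul_discriminant 1 h valsB_discriminant_mem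
    (S24.anCuspOrder_E4_mem_merSub 1)
  rw [valsB_cuspHom_discriminant] at h1
  have h2 : S24.cuspHom 1 ⟨fun z : ℍ => E₄ z, S24.anCuspOrder_E4_mem_merSub 1⟩ =
      HahnSeries.ofPowerSeries ℤ ℂ (qExpansion 1 (⇑E₄ : ℍ → ℂ)) :=
    valsB_cuspHom_E4 (S24.anCuspOrder_E4_mem_merSub 1)
  rw [h2, ← valsB_jd_one_mul_DeltaL] at h1
  calc S24.cuspHom 1 ⟨jFun, h⟩
      = (S24.cuspHom 1 ⟨jFun, h⟩ * DeltaL ℂ) * DeltaLInv ℂ := by
        rw [mul_assoc, valsB_DeltaL_mul_DeltaLInv, mul_one]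
    _ = jd ℂ 1 := by rw [h1, mul_assoc, valsB_DeltaL_mul_DeltaLInv, mul_one]

/-! ### (V3, instances) scaling `z ↦ p z` -/

section scale

variable (p : ℕ) [NeZero p]

theorem valsB_uFun_mem : (fun z : ℍ => Δ (mulN p z)) ∈ S24.merSub 1 :=
  S24.bddSub_le_merSub 1 (valsB_bddSub_of_niceSub (S24.uFun_mem_niceSub p))

theorem valsB_cuspHom_uFun (h : (fun z : ℍ => Δ (mulN p z)) ∈ S24.merSub 1) :
    S24.cuspHom 1 ⟨fun z : ℍ => Δ (mulN p z), h⟩ = qExpand ℂ p (DeltaL ℂ) := by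
  rw [valsB_cuspHom_of_niceSub (F := fun z : ℍ => Δ (mulN p z)) (S24.uFun_mem_niceSub p) h,
    S24.AnBridge.ofPowerSeries_qExpansion_scale p S24.BridgeB.discriminant_mem_niceSub,
    S24.JFormal.qExpansion_discriminant, map_mul, HahnSeries.ofPowerSeries_X]
  rfl

theorem valsB_inv_uFun_mem : (fun z : ℍ => (Δ (mulN p z))⁻¹) ∈ S24.merSub 1 := by
  have hu := valsB_uFun_mem p
  refine ⟨?_, fun z => ?_, p, ?_⟩
  · have h1 := hu.1
    rw [UpperHalfPlane.mdifferentiable_iff] at h1 ⊢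
    exact h1.inv (fun w _ => discriminant_ne_zero _)
  · have h2 := hu.2.1 z
    show (Δ (mulN p (((1 : ℕ) : ℝ) +ᵥ z)))⁻¹ = (Δ (mulN p z))⁻¹
    exact congrArg (fun x => x⁻¹) h2
  · have hw := (S24.wFun_mem_niceSub p).2.2
    have : (fun z : ℍ => Δ z ^ p * (Δ (mulN p z))⁻¹) = S24.wFun p := by
      funext z
      rw [S24.wFun, div_eq_mul_inv]
    rw [this]
    exact hw

theorem valsB_cuspHom_inv_uFun (h : (fun z : ℍ => (Δ (mulN p z))⁻¹) ∈ S24.merSub 1) :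
    S24.cuspHom 1 ⟨fun z : ℍ => (Δ (mulN p z))⁻¹, h⟩ = qExpand ℂ p (DeltaLInv ℂ) := by
  have hmul : (⟨fun z : ℍ => Δ (mulN p z), valsB_uFun_mem p⟩ : S24.merSub 1) *
      ⟨fun z : ℍ => (Δ (mulN p z))⁻¹, h⟩ = 1 := by
    apply Subtype.ext
    funext z
    exact mul_inv_cancel₀ (discriminant_ne_zero _)
  have h1 := congrArg (S24.cuspHom 1) hmul
  rw [map_mul, map_one, valsB_cuspHom_uFun] at h1
  have h2 : qExpand ℂ p (DeltaL ℂ) * qExpand ℂ p (DeltaLInv ℂ) = 1 := by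
    rw [← map_mul, valsB_DeltaL_mul_DeltaLInv, map_one]
  calc S24.cuspHom 1 ⟨fun z : ℍ => (Δ (mulN p z))⁻¹, h⟩
      = (qExpand ℂ p (DeltaL ℂ) * qExpand ℂ p (DeltaLInv ℂ)) *
          S24.cuspHom 1 ⟨fun z : ℍ => (Δ (mulN p z))⁻¹, h⟩ := by rw [h2, one_mul]
    _ = qExpand ℂ p (DeltaLInv ℂ) * (qExpand ℂ p (DeltaL ℂ) *
          S24.cuspHom 1 ⟨fun z : ℍ => (Δ (mulN p z))⁻¹, h⟩) := by ring
    _ = qExpand ℂ p (DeltaLInv ℂ) := by rw [h1, mul_one]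

theorem valsB_E4At_mem : (fun z : ℍ => E₄ (mulN p z)) ∈ S24.merSub 1 :=
  S24.bddSub_le_merSub 1 (valsB_bddSub_of_niceSub (S24.E4At_mem_niceSub p))

theorem valsB_cuspHom_E4At (h : (fun z : ℍ => E₄ (mulN p z)) ∈ S24.merSub 1) :
    S24.cuspHom 1 ⟨fun z : ℍ => E₄ (mulN p z), h⟩ =
      qExpand ℂ p (HahnSeries.ofPowerSeries ℤ ℂ (qExpansion 1 (⇑E₄ : ℍ → ℂ))) := by
  rw [valsB_cuspHom_of_niceSub (F := fun z : ℍ => E₄ (mulN p z)) (S24.E4At_mem_niceSub p) h]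
  exact S24.AnBridge.ofPowerSeries_qExpansion_scale p S24.BridgeB.E4_mem_niceSub

theorem valsB_jAt_mem : (fun z : ℍ => jFun (mulN p z)) ∈ S24.merSub 1 := by
  have h := (S24.merSub 1).mul_mem ((S24.merSub 1).pow_mem (valsB_E4At_mem p) 3)
    (valsB_inv_uFun_mem p)
  have he : (fun z : ℍ => jFun (mulN p z)) =
      (fun z : ℍ => E₄ (mulN p z)) ^ 3 * (fun z : ℍ => (Δ (mulN p z))⁻¹) := by
    funext z
    simp only [Pi.mul_apply, Pi.pow_apply, jFun, div_eq_mul_inv]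
  rw [he]
  exact h

theorem valsB_cuspHom_jAt (h : (fun z : ℍ => jFun (mulN p z)) ∈ S24.merSub 1) :
    S24.cuspHom 1 ⟨fun z : ℍ => jFun (mulN p z), h⟩ = jd ℂ p := by
  have he : (⟨fun z : ℍ => jFun (mulN p z), h⟩ : S24.merSub 1) =
      ⟨fun z : ℍ => E₄ (mulN p z), valsB_E4At_mem p⟩ ^ 3 *
        ⟨fun z : ℍ => (Δ (mulN p z))⁻¹, valsB_inv_uFun_mem p⟩ := by
    apply Subtype.ext
    funext z
    simp only [MulMemClass.coe_mul, SubmonoidClass.coe_pow, Pi.mul_apply, Pi.pow_apply, jFun,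
      div_eq_mul_inv]
  rw [he, map_mul, map_pow, valsB_cuspHom_E4At, valsB_cuspHom_inv_uFun, ← map_pow, ← map_mul,
    ← valsB_jd_one_mul_DeltaL, mul_assoc, valsB_DeltaL_mul_DeltaLInv, mul_one, jd_one, jd_eq]

/-! ### (V4) `hkW p` and `hkV p` -/

theorem valsB_hkW_mem : hkW p ∈ S24.merSub 1 := by
  have h := (S24.merSub 1).mul_mem ((S24.merSub 1).mul_mem
    ((S24.merSub 1).algebraMap_mem ((p : ℂ) ^ 12)) (valsB_uFun_mem p)) valsB_inv_discriminant_mem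
  have he : hkW p = algebraMap ℂ (ℍ → ℂ) ((p : ℂ) ^ 12) * (fun z : ℍ => Δ (mulN p z)) *
      (fun z : ℍ => (Δ z)⁻¹) := by
    funext z
    simp only [Pi.mul_apply, hkW, div_eq_mul_inv]
    rfl
  rw [he]
  exact h

theorem valsB_cuspHom_hkW (h : hkW p ∈ S24.merSub 1) :
    S24.cuspHom 1 ⟨hkW p, h⟩ = wInf ℂ p := by
  have he : (⟨hkW p, h⟩ : S24.merSub 1) =
      algebraMap ℂ (S24.merSub 1) ((p : ℂ) ^ 12) *
        ⟨fun z : ℍ => Δ (mulN p z), valsB_uFun_mem p⟩ *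
        ⟨fun z : ℍ => (Δ z)⁻¹, valsB_inv_discriminant_mem⟩ := by
    apply Subtype.ext
    funext z
    simp only [MulMemClass.coe_mul, Pi.mul_apply, hkW, div_eq_mul_inv]
    rfl
  rw [he, map_mul, map_mul, AlgHom.commutes, valsB_cuspHom_uFun, valsB_cuspHom_inv_discriminant,
    map_pow, map_natCast, wInf, uL, dif_neg (NeZero.ne p), mul_assoc]

theorem valsB_hkV_mem : hkV p ∈ S24.merSub 1 := by
  have h := (S24.merSub 1).mul_mem valsB_discriminant_mem (valsB_inv_uFun_mem p)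
  have he : hkV p = (Δ : ℍ → ℂ) * (fun z : ℍ => (Δ (mulN p z))⁻¹) := by
    funext z
    simp only [Pi.mul_apply, hkV, div_eq_mul_inv]
  rw [he]
  exact h

theorem valsB_cuspHom_hkV (h : hkV p ∈ S24.merSub 1) :
    S24.cuspHom 1 ⟨hkV p, h⟩ = invU ℂ p := by
  have he : (⟨hkV p, h⟩ : S24.merSub 1) =
      ⟨Δ, valsB_discriminant_mem⟩ *
        ⟨fun z : ℍ => (Δ (mulN p z))⁻¹, valsB_inv_uFun_mem p⟩ := by
    apply Subtype.ext
    funext z
    simp only [MulMemClass.coe_mul, Pi.mul_apply, hkV, div_eq_mul_inv]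
  rw [he, map_mul, valsB_cuspHom_discriminant, valsB_cuspHom_inv_uFun, invU]

end scale

end Fermat.Agent.S28
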