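/-
S28 block [E], analytic half, coset route (T2), assembly hedge.  Owner: helper2.

`ECosetB.analyticFun_cosetB (p) [NeZero p] (hp : p.Prime) : AnalyticFun p`,
assembled from

* `ECosetProd.analyticFun_of_goodSub` (product forms of the conjugate polynomials),
* `ECosetPts.card_QN` (`[SL(2, ℤ) : Γ₀(p)] = p + 1`),
* `jAt_mem_goodSub`, `hkW_mem_goodSub` (`EHkW`),
* `ECosetPts.trans_S_jAt`, `ECosetPts.trans_S_hkW` (the `S`-translates at `p z`).

Also `ECosetB.analyticInput_cosetB` and `ECosetB.exists_heckeData_cosetB`, the two consequences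
via `analyticInput_of_fun` and `heckeData_of_analyticInput`.
-/
import Mathlib
import Fermat.Agent.S28.ECosetProd
import Fermat.Agent.S28.ECosetPts
import Fermat.Agent.S28.EHkW
import Fermat.Agent.S28.AnExpandMain
import Fermat.Agent.S28.HeckeFormal

set_option autoImplicit false

namespace Fermat.Agent.S28.ECosetB

/-- The function-level analytic interface, via the coset route. -/
theorem analyticFun_cosetB (p : ℕ) [NeZero p] (hp : p.Prime) : AnalyticFun p :=
  ECosetProd.analyticFun_of_goodSub p (ECosetPts.card_QN p hp) (jAt_mem_goodSub p)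
    (hkW_mem_goodSub p) (ECosetPts.trans_S_jAt p) (ECosetPts.trans_S_hkW p)

/-- The formal analytic input, via the coset route. -/
theorem analyticInput_cosetB (p : ℕ) [NeZero p] (hp : p.Prime) : AnalyticInput p :=
  analyticInput_of_fun p (analyticFun_cosetB p hp)

/-- Hecke data at every prime, via the coset route. -/
theorem exists_heckeData_cosetB (p : ℕ) (hp : p.Prime) : Nonempty (HeckeData p) :=
  have : NeZero p := ⟨hp.ne_zero⟩
  heckeData_of_analyticInput p hp (analyticInput_cosetB p hp)

end Fermat.Agent.S28.ECosetB
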