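/-
S28 block [E], analytic half (owner: helper49): `AnalyticFun p` by the coset route.

Assembly of `ECosetProd.analyticFun_of_goodSub` (product forms of the conjugate polynomials,
no Newton identities) with the `goodSub` memberships and `S`-translates of `AnWFunB.lean`
(helper7) and the index computation of `ECosetPts.lean` (helper94).
-/
import Mathlib
import Fermat.Agent.S28.ECosetProd
import Fermat.Agent.S28.AnWFunB
import Fermat.Agent.S28.ECosetPts
import Fermat.Agent.S28.AnExpandMain

set_option autoImplicit false

namespace Fermat.Agent.S28.ECosetFun

/-- The function-level interface of block [E] holds for every prime `p`. -/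
theorem analyticFun (p : ℕ) [NeZero p] (hp : p.Prime) : AnalyticFun p :=
  ECosetProd.analyticFun_of_goodSub p (ECosetPts.card_QN p hp) (AnWFunB.jAt_mem_goodSub p)
    (AnWFunB.hkW_mem_goodSub p) (AnWFunB.trans_S_jAt p) (AnWFunB.trans_S_hkW p)

/-- The pinned interface `AnalyticInput p` of block [E] holds for every prime `p`
(`AnExpandMain.analyticInput_of_fun` applied to `analyticFun`). -/
theorem analyticInput (p : ℕ) [NeZero p] (hp : p.Prime) : AnalyticInput p :=
  analyticInput_of_fun p (analyticFun p hp)

end Fermat.Agent.S28.ECosetFun
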