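/-
S28 block [E], analytic half, T1: the explicit conjugate family on the upper half plane and the
function-level interface `AnalyticFun p`.  Owner: helper79.

Index set `OnePoint (ZMod p)`, representatives `γ_x = heckeRep p x` (prelude): `γ_∞ z = p z`,
`γ_b z = (z + b) / p`.  `jx p x z = j (γ_x z)`, `ux p x z = c_x Δ (γ_x z) / Δ z` (`c_∞ = p ^ 12`,
`c_b = 1`).  `SL(2, ℤ)` permutes both families simultaneously, so the coefficients of
`∏ (X - jx)`, `∏ (X - ux)` and of the Lagrange numerator are holomorphic invariant functions with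
at most a pole at `i∞`, hence polynomials in `j`.
-/
import Mathlib
import Fermat.Agent.LevelOne.JDef
import Fermat.Agent.LevelOne.PolyInJ
import Fermat.Agent.LevelOne.JSurj
import Fermat.Agent.S28.HeckeAnDefs
import Fermat.Agent.S28.ENewtonGen
import Fermat.Prelude.Sol.S_ModularForm_heckeT_slash_eq_self_of_mem_Gamma0

set_option autoImplicit false

namespace Fermat.Agent.S28.EPoly

open UpperHalfPlane Filter Topology Polynomial OnePoint ModularForm EisensteinSeries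
open scoped MatrixGroups ModularForm Manifold
open Matrix.SpecialLinearGroup
open Fermat.Agent.LevelOne Fermat.Agent.S23
open P2MW.S_ModularForm_heckeT_slash_eq_self_of_mem_Gamma0.ModularForm.HeckeSlashInvariance

local notation "Δ" => ModularForm.discriminant

variable {p : ℕ} [Fact p.Prime]

theorem prime_ne_zero : p ≠ 0 := (Fact.out : p.Prime).ne_zero

theorem natCast_ne_zero : (p : ℂ) ≠ 0 := by exact_mod_cast (Fact.out : p.Prime).ne_zero

/-- The translates of a weight `12` function by the Hecke representatives. -/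
noncomputable def trs (p : ℕ) (F : ℍ → ℂ) (x : OnePoint (ZMod p)) : ℍ → ℂ :=
  F ∣[(12 : ℤ)] heckeRep p x

/-- The translates of a weight `k` invariant function are permuted by `SL(2, ℤ)`. -/
theorem trs_slash {F : ℍ → ℂ} (hF : ∀ γ : SL(2, ℤ), F ∣[(12 : ℤ)] γ = F)
    (g : SL(2, ℤ)) (x : OnePoint (ZMod p)) :
    (trs p F x) ∣[(12 : ℤ)] g = trs p F (redMatrix p g • x) := by
  obtain ⟨g', -, hmul⟩ := heckeRep_mul (p := p) (N := 1) (by
    intro h
    exact (Fact.out : p.Prime).one_lt.ne' (Nat.dvd_one.mp h)) g (by simp) x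
  have hF' : ∀ γ : SL(2, ℤ), F ∣[(12 : ℤ)] (mapGL ℝ γ : GL (Fin 2) ℝ) = F := fun γ => hF γ
  change (F ∣[(12 : ℤ)] heckeRep p x) ∣[(12 : ℤ)] (mapGL ℝ g : GL (Fin 2) ℝ) = _
  rw [← SlashAction.slash_mul, hmul, SlashAction.slash_mul, hF' g']
  rfl

theorem trs_smul {F : ℍ → ℂ} (hF : ∀ γ : SL(2, ℤ), F ∣[(12 : ℤ)] γ = F)
    (g : SL(2, ℤ)) (x : OnePoint (ZMod p)) (z : ℍ) :
    trs p F x (g • z) = trs p F (redMatrix p g • x) z * denom g z ^ (12 : ℕ) := by
  have h := congrFun (trs_slash hF g x) z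
  rw [ModularForm.SL_slash_apply] at h
  have hd : denom g z ≠ 0 := denom_ne_zero g z
  rw [← h, mul_assoc, ← zpow_natCast, ← zpow_add₀ hd]
  simp

omit [Fact p.Prime] in
theorem trs_mdiff {F : ℍ → ℂ} (hF : MDiff F) (x : OnePoint (ZMod p)) : MDiff (trs p F x) :=
  hF.slash _ _

theorem heckeRep_one_zero (x : OnePoint (ZMod p)) :
    ((heckeRep p x : GL (Fin 2) ℝ) : Matrix (Fin 2) (Fin 2) ℝ) 1 0 = 0 := by
  have hp : p ≠ 0 := prime_ne_zero
  induction x using OnePoint.rec with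
  | infty => rw [heckeRep_infty, ModularForm.val_heckeDiagMatrix hp]; rfl
  | coe j => rw [heckeRep_coe, ModularForm.val_heckeMatrix hp]; rfl

theorem trs_bdd {F : ℍ → ℂ} (hF : IsBoundedAtImInfty F) (x : OnePoint (ZMod p)) :
    IsBoundedAtImInfty (trs p F x) :=
  hF.slash _ (heckeRep_one_zero x)

theorem trs_infty (F : ℍ → ℂ) (z : ℍ) :
    trs p F ∞ z = (p : ℂ) ^ (11 : ℕ) * F (ModularForm.heckeDiagMatrix p • z) := by
  have h := ModularForm.slash_heckeDiagMatrix_apply 12 (prime_ne_zero (p := p)) F z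
  rw [trs, heckeRep_infty, h]
  norm_num

theorem trs_coe (F : ℍ → ℂ) (b : ZMod p) (z : ℍ) :
    trs p F (b : OnePoint (ZMod p)) z = (p : ℂ)⁻¹ * F (ModularForm.heckeMatrix p b.val • z) := by
  rw [trs, heckeRep_coe, ModularForm.slash_heckeMatrix_apply 12 (prime_ne_zero (p := p))]

/-! ### General closure lemmas -/

omit [Fact p.Prime] in
theorem mdiff_div {f g : ℍ → ℂ} (hf : MDiff f) (hg : MDiff g) (hne : ∀ z, g z ≠ 0) :
    MDiff (fun z => f z / g z) := by
  rw [UpperHalfPlane.mdifferentiable_iff] at hf hg ⊢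
  exact hf.div hg (fun w _ => hne _)

omit [Fact p.Prime] in
theorem mdiff_prod {ι : Type*} (s : Finset ι) (F : ι → ℍ → ℂ) (hF : ∀ i ∈ s, MDiff (F i)) :
    MDiff (∏ i ∈ s, F i) :=
  Finset.prod_induction F (fun f : ℍ → ℂ => MDiff f) (fun _ _ ha hb => ha.mul hb)
    mdifferentiable_const hF

omit [Fact p.Prime] in
theorem bdd_prod {ι : Type*} (s : Finset ι) (F : ι → ℍ → ℂ)
    (hF : ∀ i ∈ s, IsBoundedAtImInfty (F i)) : IsBoundedAtImInfty (∏ i ∈ s, F i) :=
  Finset.prod_induction F (fun f : ℍ → ℂ => IsBoundedAtImInfty f) (fun _ _ ha hb => ha.mul hb)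
    (Filter.const_boundedAtFilter _ (1 : ℂ)) hF

/-! ### The two basic families -/

/-- `E₄ ^ 3` as a function on the upper half plane. -/
noncomputable def Afun : ℍ → ℂ := fun z => E₄ z ^ 3

theorem Afun_slash (γ : SL(2, ℤ)) : Afun ∣[(12 : ℤ)] γ = Afun := by
  ext z
  rw [ModularForm.SL_slash_apply, Afun, modularForm_apply_smul 4 E₄ γ z]
  have hd : denom γ z ≠ 0 := denom_ne_zero γ z
  rw [mul_pow, mul_assoc, ← zpow_natCast (denom γ z ^ (4 : ℤ)) 3, ← zpow_mul, ← zpow_add₀ hd]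
  simp [Afun]

theorem disc_slash (γ : SL(2, ℤ)) : (Δ : ℍ → ℂ) ∣[(12 : ℤ)] γ = Δ := by
  ext z
  rw [ModularForm.SL_slash_apply, discriminant_apply_smul, mul_assoc,
    ← zpow_add₀ (denom_ne_zero γ z)]
  simp

theorem Afun_mdiff : MDiff Afun := (ModularFormClass.holo E₄).pow 3

theorem disc_mdiff : MDiff (Δ : ℍ → ℂ) := ModularFormClass.holo CuspForm.discriminant

theorem disc_bdd : IsBoundedAtImInfty (Δ : ℍ → ℂ) :=
  ModularForm.discriminant_isZeroAtImInfty.isBoundedAtImInfty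

theorem Afun_bdd : IsBoundedAtImInfty Afun := by
  have h : IsBoundedAtImInfty (⇑E₄ : ℍ → ℂ) := ModularFormClass.bdd_at_infty E₄
  have h3 := (h.mul h).mul h
  have e : Afun = (⇑E₄ * ⇑E₄) * ⇑E₄ := by
    funext z; simp [Afun]; ring
  rw [e]; exact h3

/-- The translates of `E₄ ^ 3`. -/
noncomputable def Ax (p : ℕ) (x : OnePoint (ZMod p)) : ℍ → ℂ := trs p Afun x

/-- The translates of `Δ`. -/
noncomputable def Ux (p : ℕ) (x : OnePoint (ZMod p)) : ℍ → ℂ := trs p Δ x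

theorem Ux_ne_zero (x : OnePoint (ZMod p)) (z : ℍ) : Ux p x z ≠ 0 := by
  induction x using OnePoint.rec with
  | infty =>
    rw [Ux, trs_infty]
    exact mul_ne_zero (pow_ne_zero _ natCast_ne_zero) (ModularForm.discriminant_ne_zero _)
  | coe b =>
    rw [Ux, trs_coe]
    exact mul_ne_zero (inv_ne_zero natCast_ne_zero) (ModularForm.discriminant_ne_zero _)

theorem card_index : Fintype.card (OnePoint (ZMod p)) = p + 1 :=
  (Fintype.card_option (α := ZMod p)).trans (by rw [ZMod.card])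

/-- The product of all translates of `Δ`. -/
noncomputable def Dtot (p : ℕ) [Fact p.Prime] : ℍ → ℂ := ∏ x : OnePoint (ZMod p), Ux p x

theorem Dtot_apply (z : ℍ) : Dtot p z = ∏ x : OnePoint (ZMod p), Ux p x z := by
  rw [Dtot, Finset.prod_apply]

theorem Dtot_ne_zero (z : ℍ) : Dtot p z ≠ 0 := by
  rw [Dtot_apply]
  exact Finset.prod_ne_zero_iff.mpr (fun x _ => Ux_ne_zero x z)

theorem Dtot_mdiff : MDiff (Dtot p) :=
  mdiff_prod _ _ (fun x _ => trs_mdiff disc_mdiff x)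

theorem Dtot_bdd : IsBoundedAtImInfty (Dtot p) :=
  bdd_prod _ _ (fun x _ => trs_bdd disc_bdd x)

theorem Dtot_smul (g : SL(2, ℤ)) (z : ℍ) :
    Dtot p (g • z) = Dtot p z * (denom g z ^ (12 : ℕ)) ^ (p + 1) := by
  rw [Dtot_apply, Dtot_apply]
  simp only [Ux, trs_smul disc_slash]
  rw [Finset.prod_mul_distrib, Finset.prod_const, Finset.card_univ, card_index]
  congr 1
  exact Equiv.prod_comp (MulAction.toPerm (redMatrix p g)) (fun x => trs p Δ x z)

/-- The product of all translates of `Δ` is a nonzero multiple of `Δ ^ (p + 1)`. -/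
theorem Dtot_eq : ∃ c : ℂ, c ≠ 0 ∧ ∀ z : ℍ, Dtot p z = c * Δ z ^ (p + 1) := by
  have hΔ : ∀ z : ℍ, Δ z ^ (p + 1) ≠ 0 := fun z =>
    pow_ne_zero _ (ModularForm.discriminant_ne_zero z)
  have hm : MDiff (fun z => Dtot p z / Δ z ^ (p + 1)) :=
    mdiff_div Dtot_mdiff (disc_mdiff.pow (p + 1)) hΔ
  have hinv : ∀ (γ : SL(2, ℤ)) (z : ℍ),
      Dtot p (γ • z) / Δ (γ • z) ^ (p + 1) = Dtot p z / Δ z ^ (p + 1) := by
    intro γ z
    have hd : denom γ z ≠ 0 := denom_ne_zero γ z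
    rw [Dtot_smul, discriminant_apply_smul, mul_pow]
    have e : (denom γ z ^ (12 : ℤ)) = denom γ z ^ (12 : ℕ) := by norm_cast
    rw [e]
    have h1 : (denom γ z ^ (12 : ℕ)) ^ (p + 1) ≠ 0 := pow_ne_zero _ (pow_ne_zero _ hd)
    field_simp
  have hbdd : IsBoundedAtImInfty (fun z => Δ z ^ (p + 1) * (Dtot p z / Δ z ^ (p + 1))) := by
    have e : (fun z => Δ z ^ (p + 1) * (Dtot p z / Δ z ^ (p + 1))) = Dtot p := by
      funext z
      rw [mul_div_cancel₀ _ (hΔ z)]
    rw [e]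
    exact Dtot_bdd
  obtain ⟨P, -, hP⟩ := exists_polynomial_of_invariant hm hinv (p + 1) hbdd
  have hnr : ∀ y : ℂ, P.eval y ≠ 0 := by
    intro y
    obtain ⟨z, rfl⟩ := jFun_surjective y
    rw [← hP z]
    exact div_ne_zero (Dtot_ne_zero z) (hΔ z)
  have hdeg : P.degree = 0 := by
    by_contra hne
    obtain ⟨y, hy⟩ := IsAlgClosed.exists_root P hne
    exact hnr y hy
  have hPc : P = C (P.coeff 0) := Polynomial.eq_C_of_degree_eq_zero hdeg
  refine ⟨P.coeff 0, ?_, fun z => ?_⟩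
  · intro h0
    apply hnr 0
    rw [hPc, h0]
    simp
  · have h := hP z
    rw [hPc, eval_C] at h
    rw [← h, div_mul_cancel₀ _ (hΔ z)]

/-! ### The conjugate families -/

/-- Decidable equality on the index set. -/
local instance idxDecEq (p : ℕ) : DecidableEq (OnePoint (ZMod p)) :=
  inferInstanceAs (DecidableEq (Option (ZMod p)))

/-- The conjugates of `j`: `jx p x z = j (γ_x z)`. -/
noncomputable def jx (p : ℕ) (x : OnePoint (ZMod p)) : ℍ → ℂ := fun z => Ax p x z / Ux p x z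

/-- The conjugates of `p ^ 12 Δ (p z) / Δ z`. -/
noncomputable def ux (p : ℕ) (x : OnePoint (ZMod p)) : ℍ → ℂ :=
  fun z => (p : ℂ) * Ux p x z / Δ z

theorem jx_smul (g : SL(2, ℤ)) (x : OnePoint (ZMod p)) (z : ℍ) :
    jx p x (g • z) = jx p (redMatrix p g • x) z := by
  have hd : denom g z ^ (12 : ℕ) ≠ 0 := pow_ne_zero _ (denom_ne_zero g z)
  simp only [jx, Ax, Ux]
  rw [trs_smul Afun_slash, trs_smul disc_slash, mul_div_mul_right _ _ hd]

theorem ux_smul (g : SL(2, ℤ)) (x : OnePoint (ZMod p)) (z : ℍ) :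
    ux p x (g • z) = ux p (redMatrix p g • x) z := by
  have hd : denom g z ^ (12 : ℕ) ≠ 0 := pow_ne_zero _ (denom_ne_zero g z)
  have e : (denom g z ^ (12 : ℤ)) = denom g z ^ (12 : ℕ) := by norm_cast
  simp only [ux, Ux]
  rw [trs_smul disc_slash, discriminant_apply_smul, e, ← mul_assoc, mul_div_mul_right _ _ hd]

theorem heckeDiag_smul [NeZero p] (z : ℍ) : ModularForm.heckeDiagMatrix p • z = mulN p z := by
  apply UpperHalfPlane.ext
  rw [ModularForm.coe_heckeDiagMatrix_smul prime_ne_zero, coe_mulN]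

theorem heckeZero_smul [NeZero p] (z : ℍ) :
    ModularForm.heckeMatrix p (0 : ZMod p).val • mulN p z = z := by
  apply UpperHalfPlane.ext
  rw [ModularForm.coe_heckeMatrix_smul prime_ne_zero, coe_mulN, ZMod.val_zero]
  have hp : (p : ℂ) ≠ 0 := natCast_ne_zero
  field_simp
  simp

theorem jx_infty [NeZero p] (z : ℍ) : jx p ∞ z = jFun (mulN p z) := by
  have hp : (p : ℂ) ^ (11 : ℕ) ≠ 0 := pow_ne_zero _ natCast_ne_zero
  simp only [jx, Ax, Ux]
  rw [trs_infty, trs_infty, mul_div_mul_left _ _ hp, heckeDiag_smul]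
  rfl

theorem ux_infty [NeZero p] (z : ℍ) : ux p ∞ z = hkW p z := by
  simp only [ux, Ux]
  rw [trs_infty, heckeDiag_smul, hkW_apply]
  ring

theorem jx_zero [NeZero p] (z : ℍ) : jx p ((0 : ZMod p) : OnePoint (ZMod p)) (mulN p z) = jFun z := by
  have hp : (p : ℂ)⁻¹ ≠ 0 := inv_ne_zero natCast_ne_zero
  simp only [jx, Ax, Ux]
  rw [trs_coe, trs_coe, mul_div_mul_left _ _ hp, heckeZero_smul]
  rfl

theorem ux_zero [NeZero p] (z : ℍ) : ux p ((0 : ZMod p) : OnePoint (ZMod p)) (mulN p z) = hkV p z := by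
  have hp : (p : ℂ) ≠ 0 := natCast_ne_zero
  simp only [ux, Ux]
  rw [trs_coe, heckeZero_smul, hkV_apply, ← mul_assoc, mul_inv_cancel₀ hp, one_mul]

theorem jx_mdiff (x : OnePoint (ZMod p)) : MDiff (jx p x) :=
  mdiff_div (trs_mdiff Afun_mdiff x) (trs_mdiff disc_mdiff x) (Ux_ne_zero x)

omit [Fact p.Prime] in
theorem ux_mdiff (x : OnePoint (ZMod p)) : MDiff (ux p x) :=
  mdiff_div (f := fun z => (p : ℂ) * Ux p x z) (mdifferentiable_const.mul (trs_mdiff disc_mdiff x))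
    disc_mdiff ModularForm.discriminant_ne_zero

theorem ux_bdd (x : OnePoint (ZMod p)) :
    IsBoundedAtImInfty (fun z => Δ z ^ 1 * ux p x z) := by
  have e : (fun z => Δ z ^ 1 * ux p x z) = (fun _ => (p : ℂ)) * Ux p x := by
    funext z
    have h := ModularForm.discriminant_ne_zero z
    simp only [ux, Pi.mul_apply, pow_one]
    field_simp
  rw [e]
  exact (Filter.const_boundedAtFilter _ (p : ℂ)).mul (trs_bdd disc_bdd x)

theorem jx_bdd (x : OnePoint (ZMod p)) :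
    IsBoundedAtImInfty (fun z => Δ z ^ (p + 1) * jx p x z) := by
  obtain ⟨c, hc, hD⟩ := Dtot_eq (p := p)
  have e : (fun z => Δ z ^ (p + 1) * jx p x z) =
      (fun _ => c⁻¹) * (Ax p x * ∏ y ∈ Finset.univ.erase x, Ux p y) := by
    funext z
    have h1 := hD z
    rw [Dtot_apply, ← Finset.mul_prod_erase Finset.univ (fun y => Ux p y z) (Finset.mem_univ x)]
      at h1
    have hU := Ux_ne_zero x z
    simp only [jx, Pi.mul_apply, Finset.prod_apply]
    have h2 : Δ z ^ (p + 1) = c⁻¹ * (Ux p x z * ∏ y ∈ Finset.univ.erase x, Ux p y z) := by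
      rw [h1, ← mul_assoc, inv_mul_cancel₀ hc, one_mul]
    rw [h2]
    field_simp
  rw [e]
  exact (Filter.const_boundedAtFilter _ c⁻¹).mul
    ((trs_bdd Afun_bdd x).mul (bdd_prod _ _ (fun y _ => trs_bdd disc_bdd y)))

/-! ### Holomorphic functions with at most a pole at `i∞` -/

theorem bdd_disc_pow (k : ℕ) : IsBoundedAtImInfty (fun z : ℍ => Δ z ^ k) := by
  induction k with
  | zero =>
    have e : (fun z : ℍ => Δ z ^ 0) = fun _ => (1 : ℂ) := by
      funext z
      simp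
    rw [e]
    exact Filter.const_boundedAtFilter atImInfty (1 : ℂ)
  | succ k ih =>
    have e : (fun z : ℍ => Δ z ^ (k + 1)) = (fun z : ℍ => Δ z ^ k) * (Δ : ℍ → ℂ) := by
      funext z
      simp [pow_succ]
    rw [e]
    exact ih.mul disc_bdd

/-- Holomorphic functions on the upper half plane with at most a pole at `i∞`. -/
def modSub : Subalgebra ℂ (ℍ → ℂ) where
  carrier := {f | MDiff f ∧ ∃ m : ℕ, IsBoundedAtImInfty (fun z => Δ z ^ m * f z)}
  mul_mem' := by
    rintro f g ⟨hf, m, hm⟩ ⟨hg, n, hn⟩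
    refine ⟨hf.mul hg, m + n, ?_⟩
    have e : (fun z => Δ z ^ (m + n) * (f * g) z) =
        (fun z => Δ z ^ m * f z) * (fun z => Δ z ^ n * g z) := by
      funext z
      simp only [Pi.mul_apply]
      ring
    rw [e]
    exact hm.mul hn
  add_mem' := by
    rintro f g ⟨hf, m, hm⟩ ⟨hg, n, hn⟩
    refine ⟨hf.add hg, m + n, ?_⟩
    have e : (fun z => Δ z ^ (m + n) * (f + g) z) =
        (fun z => Δ z ^ n) * (fun z => Δ z ^ m * f z) +
          (fun z => Δ z ^ m) * (fun z => Δ z ^ n * g z) := by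
      funext z
      simp only [Pi.mul_apply, Pi.add_apply]
      ring
    rw [e]
    exact ((bdd_disc_pow n).mul hm).add ((bdd_disc_pow m).mul hn)
  algebraMap_mem' := by
    intro c
    have e : (algebraMap ℂ (ℍ → ℂ) c) = fun _ => c := rfl
    rw [e]
    refine ⟨mdifferentiable_const, 0, ?_⟩
    have e2 : (fun z : ℍ => Δ z ^ 0 * (fun _ : ℍ => c) z) = fun _ => c := by
      funext z
      simp
    rw [e2]
    exact Filter.const_boundedAtFilter atImInfty c

theorem mem_modSub {f : ℍ → ℂ} :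
    f ∈ modSub ↔ MDiff f ∧ ∃ m : ℕ, IsBoundedAtImInfty (fun z => Δ z ^ m * f z) := Iff.rfl

/-- The algebra of polynomials in `j`. -/
noncomputable def jRange : Subalgebra ℂ (ℍ → ℂ) := (Polynomial.aeval (jFun : ℍ → ℂ)).range

theorem aeval_jFun_apply (Q : ℂ[X]) (z : ℍ) :
    Polynomial.aeval (jFun : ℍ → ℂ) Q z = Q.eval (jFun z) := by
  have h := Polynomial.aeval_algHom_apply (Pi.evalAlgHom ℂ (fun _ : ℍ => ℂ) z) (jFun : ℍ → ℂ) Q
  rw [Polynomial.coe_aeval_eq_eval] at h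
  exact h.symm

theorem mem_jRange_of_invariant {f : ℍ → ℂ} (hf : f ∈ modSub)
    (hinv : ∀ (γ : SL(2, ℤ)) (z : ℍ), f (γ • z) = f z) : f ∈ jRange := by
  obtain ⟨hm, m, hb⟩ := hf
  obtain ⟨Q, -, hQ⟩ := exists_polynomial_of_invariant hm hinv m hb
  exact (AlgHom.mem_range _).mpr ⟨Q, funext fun z => by rw [aeval_jFun_apply, hQ z]⟩

theorem jx_mem (x : OnePoint (ZMod p)) : jx p x ∈ modSub := ⟨jx_mdiff x, p + 1, jx_bdd x⟩

theorem ux_mem (x : OnePoint (ZMod p)) : ux p x ∈ modSub := ⟨ux_mdiff x, 1, ux_bdd x⟩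

/-- The mixed power sums of the two families are polynomials in `j`. -/
theorem powerSum_mem (a b : ℕ) :
    ∑ x : OnePoint (ZMod p), ux p x ^ a * jx p x ^ b ∈ jRange := by
  apply mem_jRange_of_invariant
  · exact modSub.sum_mem fun x _ =>
      modSub.mul_mem (modSub.pow_mem (ux_mem x) a) (modSub.pow_mem (jx_mem x) b)
  · intro g z
    simp only [Finset.sum_apply, Pi.mul_apply, Pi.pow_apply, ux_smul, jx_smul]
    exact Equiv.sum_comp (MulAction.toPerm (redMatrix p g))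
      (fun x => ux p x z ^ a * jx p x z ^ b)

theorem jx_powerSum_mem (n : ℕ) : ∑ x : OnePoint (ZMod p), jx p x ^ n ∈ jRange := by
  have h := powerSum_mem (p := p) 0 n
  simpa using h

theorem ux_powerSum_mem (n : ℕ) : ∑ x : OnePoint (ZMod p), ux p x ^ n ∈ jRange := by
  have h := powerSum_mem (p := p) n 0
  simpa using h

theorem mixed_powerSum_mem (k : ℕ) : ∑ x : OnePoint (ZMod p), ux p x * jx p x ^ k ∈ jRange := by
  have h := powerSum_mem (p := p) 1 k
  simpa using h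

/-! ### The three polynomials over the functions and their descent to `ℂ[j]` -/

/-- The ring hom `ℂ[j] → (ℍ → ℂ)`, `Q ↦ Q ∘ j`. -/
noncomputable def jHom : ℂ[X] →+* (ℍ → ℂ) :=
  ((Polynomial.aeval (jFun : ℍ → ℂ) : ℂ[X] →ₐ[ℂ] (ℍ → ℂ)) : ℂ[X] →+* (ℍ → ℂ))

theorem mem_lifts_of_coeff_mem {P : (ℍ → ℂ)[X]} (hc : ∀ i, P.coeff i ∈ jRange) :
    P ∈ Polynomial.lifts jHom := by
  rw [Polynomial.lifts_iff_coeff_lifts]
  intro i
  obtain ⟨Q, hQ⟩ := (AlgHom.mem_range _).mp (hc i)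
  exact ⟨Q, hQ⟩

/-- Evaluation at a point turns `jHom` into evaluation of polynomials at `j z`. -/
theorem map_jHom_point (P₀ : ℂ[X][X]) (z : ℍ) :
    P₀.map ((Polynomial.aeval (jFun z) : ℂ[X] →ₐ[ℂ] ℂ) : ℂ[X] →+* ℂ) =
      (P₀.map jHom).map (Pi.evalRingHom (fun _ : ℍ => ℂ) z) := by
  rw [Polynomial.map_map]
  congr 1
  refine RingHom.ext fun Q => ?_
  change Polynomial.aeval (jFun z) Q = Polynomial.aeval (jFun : ℍ → ℂ) Q z
  rw [aeval_jFun_apply, Polynomial.coe_aeval_eq_eval]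

theorem map_point_prod (x : OnePoint (ZMod p) → ℍ → ℂ) (z : ℍ) :
    (∏ i, (X - C (x i))).map (Pi.evalRingHom (fun _ : ℍ => ℂ) z) = ∏ i, (X - C (x i z)) := by
  simp [Polynomial.map_prod]

theorem map_point_lagNum (x v : OnePoint (ZMod p) → ℍ → ℂ) (z : ℍ) :
    (lagNum x v).map (Pi.evalRingHom (fun _ : ℍ => ℂ) z) =
      lagNum (fun i => x i z) (fun i => v i z) := by
  simp [lagNum, Polynomial.map_sum, Polynomial.map_prod]

theorem exists_PhiPoly : ∃ Φ₀ : ℂ[X][X], Φ₀.Monic ∧ Φ₀.natDegree = p + 1 ∧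
    Φ₀.map jHom = ∏ x : OnePoint (ZMod p), (X - C (jx p x)) := by
  have hl : (∏ x : OnePoint (ZMod p), (X - C (jx p x))) ∈ Polynomial.lifts jHom :=
    mem_lifts_of_coeff_mem fun i =>
      newton_prod_coeff_mem jRange (jx p) (fun n _ _ => jx_powerSum_mem n) i
  obtain ⟨Φ₀, h1, h2, h3⟩ := Polynomial.lifts_and_degree_eq_and_monic hl
    (Polynomial.monic_prod_X_sub_C _ _)
  refine ⟨Φ₀, h3, ?_, h1⟩
  rw [Polynomial.natDegree_eq_of_degree_eq h2,
    Polynomial.natDegree_finsetProd_X_sub_C_eq_card, Finset.card_univ, card_index]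

theorem exists_WPoly : ∃ W₀ : ℂ[X][X], W₀.Monic ∧ W₀.natDegree = p + 1 ∧
    W₀.map jHom = ∏ x : OnePoint (ZMod p), (X - C (ux p x)) := by
  have hl : (∏ x : OnePoint (ZMod p), (X - C (ux p x))) ∈ Polynomial.lifts jHom :=
    mem_lifts_of_coeff_mem fun i =>
      newton_prod_coeff_mem jRange (ux p) (fun n _ _ => ux_powerSum_mem n) i
  obtain ⟨W₀, h1, h2, h3⟩ := Polynomial.lifts_and_degree_eq_and_monic hl
    (Polynomial.monic_prod_X_sub_C _ _)
  refine ⟨W₀, h3, ?_, h1⟩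
  rw [Polynomial.natDegree_eq_of_degree_eq h2,
    Polynomial.natDegree_finsetProd_X_sub_C_eq_card, Finset.card_univ, card_index]

theorem lagNum_natDegree_le (x v : OnePoint (ZMod p) → ℍ → ℂ) : (lagNum x v).natDegree ≤ p := by
  refine Polynomial.natDegree_sum_le_of_forall_le _ _ fun α _ => ?_
  refine (Polynomial.natDegree_C_mul_le _ _).trans ?_
  rw [Polynomial.natDegree_finsetProd_X_sub_C_eq_card, Finset.card_erase_of_mem (Finset.mem_univ α),
    Finset.card_univ, card_index]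
  simp

theorem exists_HPoly : ∃ H₀ : ℂ[X][X], H₀.natDegree ≤ p ∧
    H₀.map jHom = lagNum (jx p) (ux p) := by
  have hl : lagNum (jx p) (ux p) ∈ Polynomial.lifts jHom :=
    mem_lifts_of_coeff_mem fun i =>
      lagNum_coeff_mem jRange (jx p) (ux p) (fun n _ _ => jx_powerSum_mem n)
        (fun k _ => mixed_powerSum_mem k) i
  obtain ⟨H₀, h1, h2⟩ := Polynomial.exists_degree_eq_of_mem_lifts hl
  refine ⟨H₀, ?_, h1⟩
  rw [Polynomial.natDegree_eq_of_degree_eq h2]
  exact lagNum_natDegree_le _ _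

/-! ### Pointwise identities -/

theorem ev2_Phi {Φ₀ : ℂ[X][X]} (hΦ : Φ₀.map jHom = ∏ x : OnePoint (ZMod p), (X - C (jx p x)))
    (x₀ : OnePoint (ZMod p)) (w : ℍ) : ev2 Φ₀ (jx p x₀ w) (jFun w) = 0 := by
  rw [ev2_def, map_jHom_point, hΦ, map_point_prod, Polynomial.eval_prod]
  exact Finset.prod_eq_zero (Finset.mem_univ x₀) (by simp)

theorem ev2_W {W₀ : ℂ[X][X]} (hW : W₀.map jHom = ∏ x : OnePoint (ZMod p), (X - C (ux p x)))
    (x₀ : OnePoint (ZMod p)) (w : ℍ) : ev2 W₀ (ux p x₀ w) (jFun w) = 0 := by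
  rw [ev2_def, map_jHom_point, hW, map_point_prod, Polynomial.eval_prod]
  exact Finset.prod_eq_zero (Finset.mem_univ x₀) (by simp)

theorem ev2_H {Φ₀ H₀ : ℂ[X][X]}
    (hΦ : Φ₀.map jHom = ∏ x : OnePoint (ZMod p), (X - C (jx p x)))
    (hH : H₀.map jHom = lagNum (jx p) (ux p)) (x₀ : OnePoint (ZMod p)) (w : ℍ) :
    ev2 H₀ (jx p x₀ w) (jFun w) =
      ux p x₀ w * ev2 (Polynomial.derivative Φ₀) (jx p x₀ w) (jFun w) := by
  rw [ev2_def, ev2_def, map_jHom_point, hH, map_point_lagNum, ← Polynomial.derivative_map,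
    map_jHom_point, hΦ, map_point_prod]
  exact lagNum_eval (fun i => jx p i w) (fun i => ux p i w) x₀

end Fermat.Agent.S28.EPoly

namespace Fermat.Agent.S28

open UpperHalfPlane Polynomial OnePoint
open Fermat.Agent.LevelOne Fermat.Agent.S23

/-- Block [E], analytic half, function level: the modular polynomials over `ℂ[j]` and the six
identities as identities of functions on the upper half plane. -/
theorem analyticFun (p : ℕ) [NeZero p] (hp : p.Prime) : AnalyticFun p := by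
  have : Fact p.Prime := ⟨hp⟩
  obtain ⟨Φ₀, hΦm, hΦd, hΦ⟩ := EPoly.exists_PhiPoly (p := p)
  obtain ⟨W₀, hWm, hWd, hW⟩ := EPoly.exists_WPoly (p := p)
  obtain ⟨H₀, hHd, hH⟩ := EPoly.exists_HPoly (p := p)
  refine ⟨Φ₀, W₀, H₀, hΦm, hΦd, hWm, hWd, hHd, fun z => ⟨?_, ?_, ?_, ?_, ?_, ?_⟩⟩
  · have h := EPoly.ev2_Phi hΦ ∞ z
    rwa [EPoly.jx_infty] at h
  · have h := EPoly.ev2_Phi hΦ ((0 : ZMod p) : OnePoint (ZMod p)) (mulN p z)
    rwa [EPoly.jx_zero] at h
  · have h := EPoly.ev2_W hW ∞ z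
    rwa [EPoly.ux_infty] at h
  · have h := EPoly.ev2_W hW ((0 : ZMod p) : OnePoint (ZMod p)) (mulN p z)
    rwa [EPoly.ux_zero] at h
  · have h := EPoly.ev2_H hΦ hH ∞ z
    rwa [EPoly.jx_infty, EPoly.ux_infty] at h
  · have h := EPoly.ev2_H hΦ hH ((0 : ZMod p) : OnePoint (ZMod p)) (mulN p z)
    rwa [EPoly.jx_zero, EPoly.ux_zero] at h

end Fermat.Agent.S28
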