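import Mathlib
import Fermat.Prelude.Def_ModularCurve_X0

/-!
# S28 support: the formal norm / characteristic polynomial for `R((t)) / R((t^p))`

`LaurentSeries R` is free of rank `p` over itself via `qExpand R p` (`q ↦ q^p`), with basis
`1, q, …, q^(p-1)`.  Cayley–Hamilton then gives, for every `f`, a monic polynomial `χ` of
degree `p` with coefficients in `LaurentSeries R` such that `∑ (qExpand R p χ_k) * f^k = 0`.

OWNER: helper80.
-/

set_option autoImplicit false

noncomputable section

namespace Fermat.Agent.S28.FCharpoly

open ModularCurve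

variable (R : Type*) [CommRing R] (p : ℕ) [NeZero p]

/-- Coefficients of `qExpand`. -/
theorem coeff_qExpand (a : LaurentSeries R) (n : ℤ) :
    (qExpand R p a).coeff n = if (p : ℤ) ∣ n then a.coeff (n / p) else 0 := by
  split_ifs with h
  · obtain ⟨k, rfl⟩ := h
    rw [qExpand_coeff_mul, Int.mul_ediv_cancel_left _ (by exact_mod_cast NeZero.ne p)]
  · exact qExpand_coeff_of_not_dvd p a h

/-- Decimation: the series whose `k`-th coefficient is the `(p * k + i)`-th coefficient of `x`. -/
def dec (i : ℤ) (x : LaurentSeries R) : LaurentSeries R :=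
  HahnSeries.ofSuppBddBelow (fun k : ℤ => x.coeff ((p : ℤ) * k + i))
    ⟨(x.order - i) / p, fun m hm => by
      by_contra hlt
      rw [not_le] at hlt
      refine hm ?_
      have hp : (0 : ℤ) < p := by exact_mod_cast Nat.pos_of_ne_zero (NeZero.ne p)
      apply HahnSeries.coeff_eq_zero_of_lt_order
      have h1 : (p : ℤ) * ((x.order - i) / p) ≤ x.order - i := Int.mul_ediv_self_le hp.ne'
      have h2 : (p : ℤ) * m + p ≤ (p : ℤ) * ((x.order - i) / p) := by nlinarith
      linarith⟩

theorem coeff_dec (i : ℤ) (x : LaurentSeries R) (k : ℤ) :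
    (dec R p i x).coeff k = x.coeff ((p : ℤ) * k + i) := by
  simp [dec]

/-- The `i`-th component map `a ↦ q^i * a(q^p)`. -/
def comp (i : ℕ) (a : LaurentSeries R) : LaurentSeries R :=
  HahnSeries.single (i : ℤ) (1 : R) * qExpand R p a

theorem coeff_comp (i : ℕ) (a : LaurentSeries R) (n : ℤ) :
    (comp R p i a).coeff n = if (p : ℤ) ∣ n - i then a.coeff ((n - i) / p) else 0 := by
  rw [comp, HahnSeries.coeff_single_mul, one_mul, coeff_qExpand]

theorem coeff_comp_mul_add {i j : ℕ} (hi : i < p) (hj : j < p) (a : LaurentSeries R) (k : ℤ) :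
    (comp R p i a).coeff ((p : ℤ) * k + j) = if i = j then a.coeff k else 0 := by
  have hp : (0 : ℤ) < p := by exact_mod_cast Nat.pos_of_ne_zero (NeZero.ne p)
  rw [coeff_comp]
  by_cases hij : i = j
  · subst hij
    rw [if_pos rfl, add_sub_cancel_right, if_pos (dvd_mul_right _ _),
      Int.mul_ediv_cancel_left _ hp.ne']
  · rw [if_neg hij, if_neg]
    rintro ⟨c, hc⟩
    have h1 : ((j : ℤ) - i) = (p : ℤ) * (c - k) := by linarith
    have h2 : (p : ℤ) ∣ (j : ℤ) - i := ⟨c - k, h1⟩
    have hj' : (j : ℤ) < p := by exact_mod_cast hj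
    have hi' : (i : ℤ) < p := by exact_mod_cast hi
    have h3 : (j : ℤ) - i = 0 := by
      apply Int.eq_zero_of_abs_lt_dvd h2
      rw [abs_lt]
      constructor <;> linarith [Int.natCast_nonneg i, Int.natCast_nonneg j]
    exact hij (by exact_mod_cast (sub_eq_zero.mp h3).symm)

/-- Every Laurent series is the sum of its `p` components. -/
theorem sum_comp_dec (x : LaurentSeries R) :
    ∑ i ∈ Finset.range p, comp R p i (dec R p i x) = x := by
  have hp : (0 : ℤ) < p := by exact_mod_cast Nat.pos_of_ne_zero (NeZero.ne p)
  ext n
  rw [HahnSeries.coeff_sum]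
  obtain ⟨k, j, hj, rfl⟩ : ∃ (k : ℤ) (j : ℕ), j < p ∧ n = (p : ℤ) * k + j := by
    refine ⟨n / p, (n % p).toNat, ?_, ?_⟩
    · have := Int.emod_lt_of_pos n hp
      have h0 := Int.emod_nonneg n hp.ne'
      omega
    · rw [Int.toNat_of_nonneg (Int.emod_nonneg n hp.ne')]
      exact (Int.mul_ediv_add_emod n p).symm
  rw [Finset.sum_eq_single j]
  · rw [coeff_comp_mul_add R p hj hj, if_pos rfl, coeff_dec]
  · intro i hi hij
    rw [coeff_comp_mul_add R p (Finset.mem_range.mp hi) hj, if_neg hij]
  · intro h
    exact absurd (Finset.mem_range.mpr hj) h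

/-- `LaurentSeries R` viewed as a module over itself through `qExpand R p`. -/
def TMod (R : Type*) [CommRing R] (_p : ℕ) : Type _ := LaurentSeries R

instance instAddCommGroupTMod : AddCommGroup (TMod R p) :=
  inferInstanceAs (AddCommGroup (LaurentSeries R))

/-- The identity map `LaurentSeries R → TMod R p`. -/
def toT (x : LaurentSeries R) : TMod R p := x

/-- The identity map `TMod R p → LaurentSeries R`. -/
def ofT (x : TMod R p) : LaurentSeries R := x

instance instModuleTMod : Module (LaurentSeries R) (TMod R p) where
  smul a m := toT R p (qExpand R p a * ofT R p m)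
  one_smul m := by
    show (qExpand R p 1 * ofT R p m : LaurentSeries R) = ofT R p m
    rw [map_one, one_mul]
  mul_smul a b m := by
    show (qExpand R p (a * b) * ofT R p m : LaurentSeries R) =
      qExpand R p a * (qExpand R p b * ofT R p m)
    rw [map_mul, mul_assoc]
  smul_zero a := by
    show (qExpand R p a * (0 : LaurentSeries R) : LaurentSeries R) = (0 : LaurentSeries R)
    exact mul_zero _
  smul_add a m n := by
    show (qExpand R p a * (ofT R p m + ofT R p n) : LaurentSeries R) =
      qExpand R p a * ofT R p m + qExpand R p a * ofT R p n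
    exact mul_add _ _ _
  add_smul a b m := by
    show (qExpand R p (a + b) * ofT R p m : LaurentSeries R) =
      qExpand R p a * ofT R p m + qExpand R p b * ofT R p m
    rw [map_add]
    exact add_mul _ _ _
  zero_smul m := by
    show (qExpand R p 0 * ofT R p m : LaurentSeries R) = (0 : LaurentSeries R)
    rw [map_zero]
    exact zero_mul _

theorem smul_def (a : LaurentSeries R) (m : TMod R p) :
    a • m = toT R p (qExpand R p a * ofT R p m) := rfl

/-- Multiplication by `f` as a linear endomorphism of `TMod R p`. -/
def mulT (f : LaurentSeries R) : TMod R p →ₗ[LaurentSeries R] TMod R p where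
  toFun m := toT R p (f * ofT R p m)
  map_add' m n := by
    show (f * (ofT R p m + ofT R p n) : LaurentSeries R) =
      f * ofT R p m + f * ofT R p n
    exact mul_add _ _ _
  map_smul' a m := by
    show (f * (qExpand R p a * ofT R p m) : LaurentSeries R) =
      qExpand R p a * (f * ofT R p m)
    ring

theorem mulT_apply (f : LaurentSeries R) (m : TMod R p) :
    mulT R p f m = toT R p (f * ofT R p m) := rfl

/-- The coordinate map `(Fin p → LaurentSeries R) → TMod R p`. -/
def coordMap : (Fin p → LaurentSeries R) →ₗ[LaurentSeries R] TMod R p where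
  toFun a := toT R p (∑ i : Fin p, comp R p i (a i))
  map_add' a b := by
    show (∑ i : Fin p, comp R p i ((a + b) i)) =
      (∑ i : Fin p, comp R p i (a i)) + ∑ i : Fin p, comp R p i (b i)
    rw [← Finset.sum_add_distrib]
    refine Finset.sum_congr rfl fun i _ => ?_
    simp only [comp, Pi.add_apply, map_add, mul_add]
  map_smul' c a := by
    show (∑ i : Fin p, comp R p i ((c • a) i)) =
      qExpand R p c * ∑ i : Fin p, comp R p i (a i)
    rw [Finset.mul_sum]
    refine Finset.sum_congr rfl fun i _ => ?_
    simp only [comp, Pi.smul_apply, smul_eq_mul, map_mul]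
    ring

theorem coordMap_bijective : Function.Bijective (coordMap R p) := by
  constructor
  · rw [← LinearMap.ker_eq_bot, LinearMap.ker_eq_bot']
    intro a ha
    have ha' : (∑ i : Fin p, comp R p i (a i)) = 0 := ha
    funext j
    ext k
    have h := congrArg (fun x : LaurentSeries R => x.coeff ((p : ℤ) * k + (j : ℕ))) ha'
    simp only [HahnSeries.coeff_sum, HahnSeries.coeff_zero] at h
    rw [Finset.sum_eq_single j] at h
    · rw [coeff_comp_mul_add R p j.2 j.2, if_pos rfl] at h
      simpa using h
    · intro i _ hij
      rw [coeff_comp_mul_add R p i.2 j.2, if_neg (fun h => hij (Fin.ext h))]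
    · intro h
      exact absurd (Finset.mem_univ j) h
  · intro x
    refine ⟨fun i => dec R p (i : ℕ) (ofT R p x), ?_⟩
    show (∑ i : Fin p, comp R p i (dec R p (i : ℕ) (ofT R p x))) = x
    rw [Fin.sum_univ_eq_sum_range (fun i => comp R p i (dec R p (i : ℕ) (ofT R p x))) p]
    exact sum_comp_dec R p (ofT R p x)

/-- The coordinate equivalence. -/
def coordEquiv : (Fin p → LaurentSeries R) ≃ₗ[LaurentSeries R] TMod R p :=
  LinearEquiv.ofBijective (coordMap R p) (coordMap_bijective R p)

instance instFreeTMod : Module.Free (LaurentSeries R) (TMod R p) :=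
  Module.Free.of_equiv (coordEquiv R p)

instance instFiniteTMod : Module.Finite (LaurentSeries R) (TMod R p) :=
  Module.Finite.equiv (coordEquiv R p)

theorem finrank_TMod [Nontrivial R] : Module.finrank (LaurentSeries R) (TMod R p) = p := by
  rw [← (coordEquiv R p).finrank_eq, Module.finrank_fin_fun]

/-- Evaluating a polynomial at `mulT f` is multiplication by its `qExpand`-twisted value at `f`. -/
theorem aeval_mulT_apply (f : LaurentSeries R) (P : Polynomial (LaurentSeries R)) (m : TMod R p) :
    (Polynomial.aeval (mulT R p f) P) m =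
      toT R p (Polynomial.eval₂ (qExpand R p) f P * ofT R p m) := by
  induction P using Polynomial.induction_on' with
  | add P Q hP hQ =>
    rw [map_add, LinearMap.add_apply, hP, hQ, Polynomial.eval₂_add]
    show (Polynomial.eval₂ (qExpand R p) f P * ofT R p m +
      Polynomial.eval₂ (qExpand R p) f Q * ofT R p m : LaurentSeries R) =
      (Polynomial.eval₂ (qExpand R p) f P + Polynomial.eval₂ (qExpand R p) f Q) *
        ofT R p m
    exact (add_mul _ _ _).symm
  | monomial n a =>
    rw [Polynomial.aeval_monomial, Polynomial.eval₂_monomial]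
    have hpow : ∀ (n : ℕ) (m : TMod R p), ((mulT R p f) ^ n) m = toT R p (f ^ n * ofT R p m) := by
      intro n
      induction n with
      | zero =>
        intro m
        show ofT R p m = (f ^ 0 * ofT R p m : LaurentSeries R)
        rw [pow_zero, one_mul]
      | succ n ih =>
        intro m
        rw [pow_succ, Module.End.mul_apply, ih, mulT_apply, pow_succ]
        show (f ^ n * (f * ofT R p m) : LaurentSeries R) =
          f ^ n * f * ofT R p m
        ring
    rw [Module.End.mul_apply, Module.algebraMap_end_apply, hpow, smul_def]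
    show (qExpand R p a * (f ^ n * ofT R p m) : LaurentSeries R) =
      qExpand R p a * f ^ n * ofT R p m
    ring

/-- **Formal norm**: every Laurent series `f` is annihilated by a monic polynomial of degree `p`
with coefficients in `R((q^p))`. -/
theorem exists_monic_annihilator [Nontrivial R] (f : LaurentSeries R) :
    ∃ χ : Polynomial (LaurentSeries R), χ.Monic ∧ χ.natDegree = p ∧
      Polynomial.eval₂ (qExpand R p) f χ = 0 := by
  refine ⟨(mulT R p f).charpoly, LinearMap.charpoly_monic _, ?_, ?_⟩
  · rw [LinearMap.charpoly_natDegree, finrank_TMod]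
  · have h := aeval_mulT_apply R p f (mulT R p f).charpoly (toT R p 1)
    rw [LinearMap.aeval_self_charpoly, LinearMap.zero_apply] at h
    have h' : Polynomial.eval₂ (qExpand R p) f (mulT R p f).charpoly * 1 = 0 := h.symm
    rwa [mul_one] at h'

end Fermat.Agent.S28.FCharpoly
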