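/-
Team S28, block [E] F3-Jacobi (owner: helper4).

Jacobi's formula for the characteristic matrix: the trace of the adjugate of `X • 1 - M` is the
derivative of the characteristic polynomial of `M`.
-/
import Mathlib

set_option autoImplicit false

namespace Fermat.Agent.S28

open Matrix Polynomial

variable {n : Type*} [Fintype n] [DecidableEq n] {R : Type*} [CommRing R]

/-- Entrywise derivative of the characteristic matrix: the identity matrix. -/
theorem fjac_derivative_charmatrix_apply (M : Matrix n n R) (i j : n) :
    derivative (charmatrix M i j) = if i = j then 1 else 0 := by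
  by_cases h : i = j
  · subst h
    rw [charmatrix_apply_eq, if_pos rfl, derivative_sub, derivative_X, derivative_C, sub_zero]
  · rw [charmatrix_apply_ne _ _ _ h, if_neg h, derivative_neg, derivative_C, neg_zero]

/-- Derivative of a determinant over a polynomial ring: sum over the columns of the determinants
with one column differentiated. -/
theorem fjac_derivative_det (A : Matrix n n R[X]) :
    derivative A.det = ∑ j, (A.updateCol j (fun k => derivative (A k j))).det := by
  classical
  simp only [det_apply']
  rw [map_sum, Finset.sum_comm]
  refine Finset.sum_congr rfl fun σ _ => ?_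
  rw [derivative_mul]
  have h0 : derivative ((((Equiv.Perm.sign σ : ℤˣ) : ℤ) : R[X])) = 0 := by
    rw [← Polynomial.C_eq_intCast, derivative_C]
  rw [h0, zero_mul, zero_add, derivative_prod_finset, Finset.mul_sum]
  refine Finset.sum_congr rfl fun j _ => ?_
  congr 1
  rw [← Finset.mul_prod_erase Finset.univ _ (Finset.mem_univ j), updateCol_self, mul_comm]
  congr 1
  refine Finset.prod_congr rfl fun i hi => ?_
  rw [updateCol_ne (Finset.ne_of_mem_erase hi)]

/-- The diagonal entries of the adjugate as determinants with one column replaced. -/
theorem fjac_adjugate_diag (A : Matrix n n R[X]) (j : n) :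
    adjugate A j j = (A.updateCol j (Pi.single j 1)).det := by
  have h : adjugate A j j = adjugate Aᵀ j j := by
    rw [← adjugate_transpose, transpose_apply]
  rw [h, adjugate_def, of_apply, cramer_apply, transpose_transpose]

/-- **Jacobi's formula** for the characteristic matrix. -/
theorem trace_adjugate_charmatrix (M : Matrix n n R) :
    Matrix.trace (Matrix.adjugate (Matrix.charmatrix M)) = Polynomial.derivative M.charpoly := by
  classical
  rw [Matrix.charpoly, fjac_derivative_det, Matrix.trace]
  refine Finset.sum_congr rfl fun j _ => ?_
  rw [Matrix.diag_apply, fjac_adjugate_diag]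
  congr 1
  congr 1
  ext k
  rw [fjac_derivative_charmatrix_apply, Pi.single_apply]

end Fermat.Agent.S28
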