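/-
S28 block [E], formal half: the pure matrix core of the Euler / Lagrange identity (E2).
Owner: helper27.  Mathlib + `FormalJacobi` only.

For a square matrix `F` over a commutative ring `A` and `Y = g(F)` a polynomial in `F`,
  `Θ_Y(F) = Y * χ_F'(F)`  where  `Θ_Y := Tr (Y · adj (X - F)) ∈ A[X]`.
-/
import Mathlib
import Fermat.Agent.S28.FormalJacobi

set_option autoImplicit false

namespace Fermat.Agent.S28

open Matrix Polynomial

section EulerMat

variable {n : Type*} [Fintype n] [DecidableEq n] {A : Type*} [CommRing A]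

/-- The Euler / Lagrange polynomial `Tr (Y · adj (X - F))`. -/
noncomputable def eulerMat (F Y : Matrix n n A) : A[X] :=
  Matrix.trace (Y.map Polynomial.C * (Matrix.charmatrix F).adjugate)

theorem eulerMat_def (F Y : Matrix n n A) :
    eulerMat F Y = Matrix.trace (Y.map Polynomial.C * (Matrix.charmatrix F).adjugate) := rfl

theorem eulerMat_add (F Y Y' : Matrix n n A) :
    eulerMat F (Y + Y') = eulerMat F Y + eulerMat F Y' := by
  unfold eulerMat
  rw [Matrix.map_add (Polynomial.C : A → A[X]) (fun a b => Polynomial.C_add), add_mul,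
    Matrix.trace_add]

theorem eulerMat_smul (F : Matrix n n A) (a : A) (Y : Matrix n n A) :
    eulerMat F (a • Y) = Polynomial.C a * eulerMat F Y := by
  unfold eulerMat
  have h : (a • Y).map (Polynomial.C : A → A[X]) = Polynomial.C a • Y.map Polynomial.C := by
    ext i j
    simp [Matrix.map_apply, Matrix.smul_apply]
  rw [h, Matrix.smul_mul, Matrix.trace_smul, smul_eq_mul]

/-- `Tr (adj (X - F)) = χ_F'` (Jacobi). -/
theorem eulerMat_one (F : Matrix n n A) :
    eulerMat F 1 = Polynomial.derivative F.charpoly := by
  unfold eulerMat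
  have h : (1 : Matrix n n A).map (Polynomial.C : A → A[X]) = 1 := by
    ext i j
    by_cases hij : i = j
    · subst hij; simp
    · simp [Matrix.one_apply_ne hij]
  rw [h, one_mul, trace_adjugate_charmatrix]

/-- `adj (X - F) · F = X · adj (X - F) - χ_F · 1`. -/
theorem feul_adjugate_mul_map_C (F : Matrix n n A) :
    (Matrix.charmatrix F).adjugate * F.map Polynomial.C =
      (Polynomial.X : A[X]) • (Matrix.charmatrix F).adjugate -
        F.charpoly • (1 : Matrix n n A[X]) := by
  have h : F.map (Polynomial.C : A → A[X]) =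
      Matrix.scalar n (Polynomial.X : A[X]) - Matrix.charmatrix F := by
    rw [Matrix.charmatrix]
    simp [RingHom.mapMatrix_apply]
  rw [h, mul_sub, Matrix.adjugate_mul, Matrix.charpoly]
  congr 1
  ext i j
  simp [Matrix.mul_apply, Matrix.scalar_apply, Matrix.diagonal_apply, mul_comm]

/-- `Θ_{F·Y} = X · Θ_Y - χ_F · Tr Y`. -/
theorem eulerMat_mul_left (F Y : Matrix n n A) :
    eulerMat F (F * Y) =
      Polynomial.X * eulerMat F Y - F.charpoly * Polynomial.C (Matrix.trace Y) := by
  unfold eulerMat
  have hmap : (F * Y).map (Polynomial.C : A → A[X]) = F.map Polynomial.C * Y.map Polynomial.C := by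
    rw [Matrix.map_mul]
  have htr : Matrix.trace (Y.map (Polynomial.C : A → A[X])) = Polynomial.C (Matrix.trace Y) := by
    simp [Matrix.trace, map_sum]
  rw [hmap, Matrix.mul_assoc, Matrix.trace_mul_comm, Matrix.mul_assoc, feul_adjugate_mul_map_C,
    Matrix.mul_sub, Matrix.trace_sub, Matrix.mul_smul, Matrix.trace_smul, Matrix.mul_smul,
    Matrix.trace_smul, Matrix.mul_one, htr, smul_eq_mul, smul_eq_mul]

/-- Inductive step: if `Θ_Y(F) = Y · χ_F'(F)` then the same holds for `F · Y`. -/
theorem feul_step (F Y : Matrix n n A)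
    (h : Polynomial.aeval F (eulerMat F Y) =
      Y * Polynomial.aeval F (Polynomial.derivative F.charpoly)) :
    Polynomial.aeval F (eulerMat F (F * Y)) =
      F * Y * Polynomial.aeval F (Polynomial.derivative F.charpoly) := by
  rw [eulerMat_mul_left, map_sub, map_mul, Polynomial.aeval_X, h,
    map_mul (Polynomial.aeval F) F.charpoly, Matrix.aeval_self_charpoly, zero_mul, sub_zero,
    mul_assoc]

/-- **Matrix core of (E2)**, in terms of `eulerMat`.  For `Y = g(F)`: `Θ_Y(F) = Y · χ_F'(F)`. -/
theorem aeval_eulerMat_aeval (F : Matrix n n A) (g : Polynomial A) :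
    Polynomial.aeval F (eulerMat F (Polynomial.aeval F g)) =
      Polynomial.aeval F g * Polynomial.aeval F (Polynomial.derivative F.charpoly) := by
  induction g using Polynomial.induction_on with
  | C a =>
    rw [Polynomial.aeval_C, Algebra.algebraMap_eq_smul_one, eulerMat_smul, eulerMat_one, map_mul,
      Polynomial.aeval_C, Algebra.algebraMap_eq_smul_one]
  | add g₁ g₂ h₁ h₂ =>
    rw [map_add, eulerMat_add, map_add, h₁, h₂, add_mul]
  | monomial k a h =>
    have hc : Commute (Polynomial.aeval F (Polynomial.C a * Polynomial.X ^ k)) F := by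
      have h0 := (Polynomial.commute_X (Polynomial.C a * Polynomial.X ^ k)).map (Polynomial.aeval F)
      rw [Polynomial.aeval_X] at h0
      exact h0.symm
    have hcomm : Polynomial.aeval F (Polynomial.C a * Polynomial.X ^ (k + 1)) =
        F * Polynomial.aeval F (Polynomial.C a * Polynomial.X ^ k) := by
      rw [pow_succ, ← mul_assoc, map_mul, Polynomial.aeval_X]
      exact hc.eq
    rw [hcomm]
    exact feul_step F _ h

/-- **Matrix core of (E2).**  For `Y = g(F)`: `Θ_Y(F) = Y · χ_F'(F)`. -/
theorem aeval_trace_mul_adjugate_charmatrix (F : Matrix n n A) (g : Polynomial A) :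
    Polynomial.aeval F (Matrix.trace (((Polynomial.aeval F g).map Polynomial.C) *
        (Matrix.charmatrix F).adjugate)) =
      Polynomial.aeval F g * Polynomial.aeval F (Polynomial.derivative F.charpoly) :=
  aeval_eulerMat_aeval F g

end EulerMat

end Fermat.Agent.S28
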