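/-
S28 block [E], formal half: uniqueness lemmas (independent HEDGE of F2 `FormalUnique.lean`).
Owner: helper47.

`LaurentSeries K` is a field extension of degree `p` of the image of `σ = qExpand K p`
(`q ↦ q^p`).  If the order of `f` is prime to `p`, then `1, f, …, f^(p-1)` are linearly
independent over `σ (K((q)))`:

* `poly_eq_zero_of_eval` (U1): a polynomial `g` of degree `< p` with `σ(g)(f) = 0` is zero.
* `eq_of_monic_of_eval` : two monic polynomials of degree `p` with `σ(·)(f) = 0` are equal.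
* `eq_linear_mul_of_monic` (U2, abstract form): a monic `Ψ` of degree `p + 1` with
  `Ψ(a) = 0`, `σ(Ψ)(f) = 0`, `f ≠ σ a` equals `(X - C a) * χ` for every monic `χ` of degree `p`
  with `σ(χ)(f) = 0`.
-/
import Mathlib
import Fermat.Agent.S28.Defs

set_option autoImplicit false

noncomputable section

namespace Fermat.Agent.S28.FormalUniqueB

open ModularCurve Polynomial

variable (K : Type*) [Field K] (p : ℕ) [NeZero p]

/-- The order of `a(q^p)` is `p` times the order of `a`. -/
theorem order_qExpand {a : LaurentSeries K} (ha : a ≠ 0) :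
    (qExpand K p a).order = (p : ℤ) * a.order := by
  have hσa : qExpand K p a ≠ 0 := fun h => ha (qExpand_injective (R := K) p (by rw [h, map_zero]))
  have hp : (0 : ℤ) < p := by exact_mod_cast Nat.pos_of_ne_zero (NeZero.ne p)
  refine le_antisymm ?_ ?_
  · refine HahnSeries.order_le_of_coeff_ne_zero ?_
    rw [qExpand_coeff_mul]
    rw [← HahnSeries.leadingCoeff_eq]
    exact HahnSeries.leadingCoeff_ne_zero.2 ha
  · by_contra hlt
    rw [not_le] at hlt
    have hne : (qExpand K p a).coeff (qExpand K p a).order ≠ 0 := by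
      rw [← HahnSeries.leadingCoeff_eq]
      exact HahnSeries.leadingCoeff_ne_zero.2 hσa
    by_cases hdvd : (p : ℤ) ∣ (qExpand K p a).order
    · obtain ⟨k, hk⟩ := hdvd
      rw [hk, qExpand_coeff_mul] at hne
      have h1 : a.order ≤ k := HahnSeries.order_le_of_coeff_ne_zero hne
      rw [hk] at hlt
      have := (mul_lt_mul_iff_of_pos_left hp).1 hlt
      omega
    · exact hne (qExpand_coeff_of_not_dvd p a hdvd)

/-- (U1) `1, f, …, f^(p-1)` are linearly independent over the image of `qExpand K p` when the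
order of `f` is prime to `p`. -/
theorem poly_eq_zero_of_eval (f : LaurentSeries K) (hf : f ≠ 0)
    (hord : IsCoprime f.order (p : ℤ)) (g : Polynomial (LaurentSeries K))
    (hg : g.natDegree < p) (h : (g.map (qExpand K p)).eval f = 0) : g = 0 := by
  classical
  by_contra hg0
  have hp : (0 : ℤ) < p := by exact_mod_cast Nat.pos_of_ne_zero (NeZero.ne p)
  -- the terms
  set t : ℕ → LaurentSeries K := fun k => qExpand K p (g.coeff k) * f ^ k with ht
  have hsum : ∑ k ∈ g.support, t k = 0 := by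
    rw [Polynomial.eval_map, Polynomial.eval₂_eq_sum, Polynomial.sum_def] at h
    exact h
  have hsupp : g.support.Nonempty := Polynomial.nonempty_support_iff.2 hg0
  have hlt : ∀ k ∈ g.support, k < p := fun k hk =>
    lt_of_le_of_lt (Polynomial.le_natDegree_of_mem_supp k hk) hg
  have htne : ∀ k ∈ g.support, t k ≠ 0 := by
    intro k hk
    have hck : g.coeff k ≠ 0 := Polynomial.mem_support_iff.1 hk
    have h1 : qExpand K p (g.coeff k) ≠ 0 := fun h0 =>
      hck (qExpand_injective (R := K) p (by rw [h0, map_zero]))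
    exact mul_ne_zero h1 (pow_ne_zero k hf)
  have hord_t : ∀ k ∈ g.support,
      (t k).order = (p : ℤ) * (g.coeff k).order + (k : ℤ) * f.order := by
    intro k hk
    have hck : g.coeff k ≠ 0 := Polynomial.mem_support_iff.1 hk
    have h1 : qExpand K p (g.coeff k) ≠ 0 := fun h0 =>
      hck (qExpand_injective (R := K) p (by rw [h0, map_zero]))
    rw [ht]
    simp only
    rw [HahnSeries.order_mul h1 (pow_ne_zero k hf), order_qExpand K p hck, HahnSeries.order_pow,
      nsmul_eq_mul]
  -- orders are pairwise distinct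
  have hinj : ∀ k₁ ∈ g.support, ∀ k₂ ∈ g.support, (t k₁).order = (t k₂).order → k₁ = k₂ := by
    intro k₁ hk₁ k₂ hk₂ heq
    rw [hord_t k₁ hk₁, hord_t k₂ hk₂] at heq
    have hdvd : (p : ℤ) ∣ ((k₁ : ℤ) - k₂) * f.order :=
      ⟨(g.coeff k₂).order - (g.coeff k₁).order, by linear_combination heq⟩
    have hdvd' : (p : ℤ) ∣ (k₁ : ℤ) - k₂ := hord.symm.dvd_of_dvd_mul_right hdvd
    have h1 := hlt k₁ hk₁
    have h2 := hlt k₂ hk₂
    obtain ⟨c, hc⟩ := hdvd'
    have hc0 : c = 0 := by
      by_contra hc0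
      rcases lt_or_gt_of_ne hc0 with hneg | hpos
      · have : (p : ℤ) * c ≤ (p : ℤ) * (-1) := mul_le_mul_of_nonneg_left (by omega) hp.le
        have h1' : (k₁ : ℤ) < p := by exact_mod_cast h1
        have h2' : (k₂ : ℤ) < p := by exact_mod_cast h2
        have hk1 : (0 : ℤ) ≤ k₁ := Int.natCast_nonneg _
        linarith
      · have : (p : ℤ) * 1 ≤ (p : ℤ) * c := mul_le_mul_of_nonneg_left (by omega) hp.le
        have h1' : (k₁ : ℤ) < p := by exact_mod_cast h1
        have hk2 : (0 : ℤ) ≤ k₂ := Int.natCast_nonneg _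
        linarith
    rw [hc0, mul_zero, sub_eq_zero] at hc
    exact_mod_cast hc
  -- the term of minimal order
  obtain ⟨k₀, hk₀, hmin⟩ := Finset.exists_min_image g.support (fun k => (t k).order) hsupp
  have hcoeff : (∑ k ∈ g.support, t k).coeff (t k₀).order = (t k₀).coeff (t k₀).order := by
    rw [HahnSeries.coeff_sum]
    refine Finset.sum_eq_single k₀ ?_ ?_
    · intro k hk hkne
      refine HahnSeries.coeff_eq_zero_of_lt_order ?_
      refine lt_of_le_of_ne (hmin k hk) ?_
      intro heq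
      exact hkne (hinj k hk k₀ hk₀ heq.symm)
    · intro hk
      exact absurd hk₀ hk
  rw [hsum, HahnSeries.coeff_zero] at hcoeff
  have hne : (t k₀).coeff (t k₀).order ≠ 0 := by
    rw [← HahnSeries.leadingCoeff_eq]
    exact HahnSeries.leadingCoeff_ne_zero.2 (htne k₀ hk₀)
  exact hne hcoeff.symm

/-- Two monic polynomials of degree `p` annihilating `f` (after `qExpand`) coincide. -/
theorem eq_of_monic_of_eval (f : LaurentSeries K) (hf : f ≠ 0)
    (hord : IsCoprime f.order (p : ℤ)) (χ₁ χ₂ : Polynomial (LaurentSeries K))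
    (h₁ : χ₁.Monic) (h₂ : χ₂.Monic) (hd₁ : χ₁.natDegree = p) (hd₂ : χ₂.natDegree = p)
    (he₁ : (χ₁.map (qExpand K p)).eval f = 0) (he₂ : (χ₂.map (qExpand K p)).eval f = 0) :
    χ₁ = χ₂ := by
  have hp : 0 < p := Nat.pos_of_ne_zero (NeZero.ne p)
  have hdeg : (χ₁ - χ₂).natDegree < p := by
    have hdd : χ₁.degree = χ₂.degree := by
      rw [Polynomial.degree_eq_natDegree h₁.ne_zero, Polynomial.degree_eq_natDegree h₂.ne_zero,
        hd₁, hd₂]
    have hlt := Polynomial.degree_sub_lt_left hdd h₁.ne_zero (by rw [h₁.leadingCoeff, h₂.leadingCoeff])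
    rw [Polynomial.degree_eq_natDegree h₁.ne_zero, hd₁] at hlt
    by_cases h0 : χ₁ - χ₂ = 0
    · rw [h0, Polynomial.natDegree_zero]; exact hp
    · rw [Polynomial.degree_eq_natDegree h0] at hlt
      exact_mod_cast hlt
  have hev : ((χ₁ - χ₂).map (qExpand K p)).eval f = 0 := by
    rw [Polynomial.map_sub, Polynomial.eval_sub, he₁, he₂, sub_zero]
  exact sub_eq_zero.1 (poly_eq_zero_of_eval K p f hf hord _ hdeg hev)

/-- (U2), abstract form: a monic `Ψ` of degree `p + 1` with root `a` such that `σ(Ψ)(f) = 0`,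
`f ≠ σ a`, is `(X - C a) * χ` for any monic `χ` of degree `p` with `σ(χ)(f) = 0`. -/
theorem eq_linear_mul_of_monic (f a : LaurentSeries K) (hf : f ≠ 0)
    (hord : IsCoprime f.order (p : ℤ)) (hne : f ≠ qExpand K p a)
    (χ : Polynomial (LaurentSeries K)) (hχ : χ.Monic) (hχd : χ.natDegree = p)
    (hχe : (χ.map (qExpand K p)).eval f = 0)
    (Ψ : Polynomial (LaurentSeries K)) (hΨ : Ψ.Monic) (hdeg : Ψ.natDegree = p + 1)
    (h1 : Ψ.eval a = 0) (h2 : (Ψ.map (qExpand K p)).eval f = 0) :
    Ψ = (X - C a) * χ := by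
  have hdvd : (X - C a) ∣ Ψ := Polynomial.dvd_iff_isRoot.2 h1
  obtain ⟨Ψ₁, hΨ₁⟩ := hdvd
  have hΨ₁m : Ψ₁.Monic := by
    have h := hΨ
    rw [hΨ₁] at h
    exact (Polynomial.monic_X_sub_C a).of_mul_monic_left h
  have hΨ₁d : Ψ₁.natDegree = p := by
    have h := hdeg
    rw [hΨ₁, (Polynomial.monic_X_sub_C a).natDegree_mul hΨ₁m, Polynomial.natDegree_X_sub_C] at h
    omega
  have hΨ₁e : (Ψ₁.map (qExpand K p)).eval f = 0 := by
    rw [hΨ₁, Polynomial.map_mul, Polynomial.eval_mul, Polynomial.map_sub, Polynomial.map_X,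
      Polynomial.map_C, Polynomial.eval_sub, Polynomial.eval_X, Polynomial.eval_C] at h2
    rcases mul_eq_zero.1 h2 with h0 | h0
    · exact absurd (sub_eq_zero.1 h0) hne
    · exact h0
  rw [hΨ₁, eq_of_monic_of_eval K p f hf hord Ψ₁ χ hΨ₁m hχ hΨ₁d hχd hΨ₁e hχe]

end Fermat.Agent.S28.FormalUniqueB
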