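/-
S28 [E], HK/PS hedge route: the analytic input.
Owner: helper91.  Namespace `Fermat.Agent.S28.HK`.

`hecke_formal`: for `A = E₄³`, `B = Δ` (as formal power series over `ℂ`, the prelude's
`eisenstein4 ^ 3` and `X * dedekindEtaUnit`), the formal Hecke image
`p·U_p(A^a B^b) + p^(12 n)·V_p(A^a B^b)`, `n = a + b`, is a `ℂ`-linear combination of the
`A^i B^(n-i)`, `i ≤ n`.

Proof: `E₄^(3a) Δ^b` is a level-one modular form of weight `12 n`; so is its image under the
prelude Hecke operator `heckeT` (level `Γ₀(1) = SL(2, ℤ)`), whose `q`-coefficients are given by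
the prelude lemma `ModularFormClass.qCoeff_heckeT`.  A level-one form of weight `12 n` is `Δ^n`
times a polynomial of degree `≤ n` in `j = E₄³/Δ` (`LevelOne.PolyInJ.core`), and `q`-expansion is
an algebra map on nice functions (`S23.qHom`).
-/
import Mathlib
import Fermat.Prelude.Def_ModularCurve_X0
import Fermat.Prelude.Def_ModularForm_HeckeOperatorForms
import Fermat.Prelude.Thm_ModularFormClass_qCoeff_heckeT
import Fermat.Agent.S28.Defs
import Fermat.Agent.S23.Basic
import Fermat.Agent.LevelOne.PolyInJ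
import Fermat.Agent.S24.JFormal
import Fermat.Agent.S24.JFormalE4

set_option autoImplicit false

noncomputable section

namespace Fermat.Agent.S28.HK

open UpperHalfPlane ModularForm EisensteinSeries
open scoped MatrixGroups ModularForm Manifold

/-- The formal `E₄³ ∈ ℂ⟦q⟧`. -/
def psA : PowerSeries ℂ := (ModularCurve.eisenstein4 ^ 3).map (Int.castRingHom ℂ)

/-- The formal `Δ ∈ ℂ⟦q⟧`. -/
def psB : PowerSeries ℂ :=
  PowerSeries.X * ModularCurve.dedekindEtaUnit.map (Int.castRingHom ℂ)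

/-- `psB` is the Laurent series `Δ(q)` of `S28/Defs`. -/
theorem ofPowerSeries_psB : HahnSeries.ofPowerSeries ℤ ℂ psB = DeltaL ℂ := by
  unfold psB DeltaL
  rw [map_mul, HahnSeries.ofPowerSeries_X]

/-- `j · Δ = E₄³` as Laurent series over `ℂ`. -/
theorem jd_mul_DeltaL : jd ℂ 1 * DeltaL ℂ = HahnSeries.ofPowerSeries ℤ ℂ psA := by
  have h1 : HahnSeries.single (-1 : ℤ) (1 : ℂ) * HahnSeries.single (1 : ℤ) (1 : ℂ) = 1 := by
    rw [HahnSeries.single_mul_single]
    simp
  have h2 : ModularCurve.jNum.map (Int.castRingHom ℂ) *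
      ModularCurve.dedekindEtaUnit.map (Int.castRingHom ℂ) = psA := by
    rw [psA, ← map_mul, ModularCurve.jNum, mul_assoc, mul_comm ModularCurve.dedekindEtaUnitInv,
      ModularCurve.dedekindEtaUnit_mul_inv, mul_one]
  rw [jd_one, ModularCurve.jqModC, DeltaL]
  calc HahnSeries.single (-1 : ℤ) (1 : ℂ) *
        HahnSeries.ofPowerSeries ℤ ℂ (ModularCurve.jNum.map (Int.castRingHom ℂ)) *
        (HahnSeries.single (1 : ℤ) 1 *
          HahnSeries.ofPowerSeries ℤ ℂ (ModularCurve.dedekindEtaUnit.map (Int.castRingHom ℂ)))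
      = (HahnSeries.single (-1 : ℤ) (1 : ℂ) * HahnSeries.single (1 : ℤ) (1 : ℂ)) *
        (HahnSeries.ofPowerSeries ℤ ℂ (ModularCurve.jNum.map (Int.castRingHom ℂ)) *
          HahnSeries.ofPowerSeries ℤ ℂ
            (ModularCurve.dedekindEtaUnit.map (Int.castRingHom ℂ))) := by ring
    _ = HahnSeries.ofPowerSeries ℤ ℂ psA := by rw [h1, one_mul, ← map_mul, h2]

/-- A level-one modular form is a nice function. -/
theorem levelOne_mem_niceSub {k : ℤ} (f : ModularForm 𝒮ℒ k) : (f : ℍ → ℂ) ∈ S23.niceSub := by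
  refine ⟨?_, ModularFormClass.holo f, ModularFormClass.bdd_at_infty f⟩
  have := SlashInvariantFormClass.periodic_comp_ofComplex f one_mem_strictPeriods_SL
  simpa using this

theorem discriminant_mem_niceSub : (ModularForm.discriminant : ℍ → ℂ) ∈ S23.niceSub := by
  refine ⟨?_, CuspForm.discriminant.holo', ModularFormClass.bdd_at_infty CuspForm.discriminant⟩
  have := SlashInvariantFormClass.periodic_comp_ofComplex CuspForm.discriminant
    one_mem_strictPeriods_SL
  simpa using this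

/-- `E₄` as a nice function. -/
def nE : S23.niceSub := ⟨⇑E₄, levelOne_mem_niceSub E₄⟩

/-- `Δ` as a nice function. -/
def nD : S23.niceSub := ⟨ModularForm.discriminant, discriminant_mem_niceSub⟩

theorem qHom_nE : S23.qHom nE = ModularCurve.eisenstein4.map (Int.castRingHom ℂ) :=
  Fermat.Agent.S24.JFormalE4.qExpansion_E₄

theorem qHom_nD : S23.qHom nD = psB :=
  Fermat.Agent.S24.JFormal.qExpansion_discriminant

theorem qHom_nE_cube : S23.qHom (nE ^ 3) = psA := by
  rw [map_pow, qHom_nE, psA, map_pow]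

/-- The membership `Γ₀(1) = SL(2, ℤ)` inside `GL(2, ℝ)`. -/
theorem mem_Gamma0_one_iff (γ : GL (Fin 2) ℝ) :
    γ ∈ ((CongruenceSubgroup.Gamma0 1 : Subgroup SL(2, ℤ)) : Subgroup (GL (Fin 2) ℝ)) ↔
      γ ∈ 𝒮ℒ := by
  constructor
  · rintro ⟨x, -, rfl⟩
    exact ⟨x, rfl⟩
  · rintro ⟨x, rfl⟩
    refine ⟨x, ?_, rfl⟩
    rw [SetLike.mem_coe, CongruenceSubgroup.Gamma0_mem]
    exact Subsingleton.elim _ _

/-- The Hecke image of a level-one modular form, as a level-one modular form. -/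
def heckeForm {p : ℕ} (hp : p.Prime) {k : ℤ} (g : ModularForm 𝒮ℒ k) : ModularForm 𝒮ℒ k where
  toFun := heckeT k p ⇑g
  slash_action_eq' := fun γ hγ =>
    heckeT_slash_eq_self_of_mem_Gamma0 (N := 1) k hp hp.not_dvd_one
      (fun γ hγ => SlashInvariantFormClass.slash_action_eq g γ ((mem_Gamma0_one_iff γ).mp hγ))
      γ ((mem_Gamma0_one_iff γ).mpr hγ)
  holo' := mdifferentiable_heckeT (ModularFormClass.holo g) k p
  bdd_at_cusps' := fun hc => ModularFormClass.isBoundedAt_heckeT g p hc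

theorem heckeForm_coe {p : ℕ} (hp : p.Prime) {k : ℤ} (g : ModularForm 𝒮ℒ k) :
    (⇑(heckeForm hp g) : ℍ → ℂ) = heckeT k p ⇑g := rfl

/-- The Discriminant as a level-one modular form of weight `12`. -/
def Dform : ModularForm 𝒮ℒ 12 := CuspForm.toModularFormₗ CuspForm.discriminant

theorem Dform_apply (z : ℍ) : Dform z = ModularForm.discriminant z := rfl

/-- `E₄^(3a) Δ^b` as a level-one modular form of weight `12 (a + b)`. -/
def Gform (a b : ℕ) : ModularForm 𝒮ℒ (12 * ((a + b : ℕ) : ℤ)) :=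
  ModularForm.mcast (by push_cast; ring) ((E₄.pow (3 * a)).mul (Dform.pow b))

theorem Gform_coe (a b : ℕ) :
    (⇑(Gform a b) : ℍ → ℂ) = ((nE ^ (3 * a) * nD ^ b : S23.niceSub) : ℍ → ℂ) := by
  rw [Gform, ModularForm.coe_mcast, ModularForm.coe_mul, ModularForm.coe_pow,
    ModularForm.coe_pow]
  rfl

theorem qExpansion_Gform (a b : ℕ) : qExpansion 1 (⇑(Gform a b) : ℍ → ℂ) = psA ^ a * psB ^ b := by
  rw [Gform_coe, ← S23.qHom_apply, map_mul, map_pow, map_pow, qHom_nD, pow_mul, ← map_pow,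
    qHom_nE_cube]

/-- **Analytic input of the HK/PS route.** -/
theorem hecke_formal (p : ℕ) (hp : p.Prime) (a b : ℕ) (hab : 0 < a + b) :
    ∃ c : ℕ → ℂ, ∀ m : ℕ,
      (p : ℂ) * PowerSeries.coeff (m * p) (psA ^ a * psB ^ b) +
        (if p ∣ m then (p : ℂ) ^ (12 * (a + b)) * PowerSeries.coeff (m / p) (psA ^ a * psB ^ b)
          else 0)
      = PowerSeries.coeff m
          (∑ i ∈ Finset.range (a + b + 1), c i • (psA ^ i * psB ^ (a + b - i))) := by
  obtain ⟨P, hPdeg, hP⟩ := LevelOne.PolyInJ.core (a + b) (12 * ((a + b : ℕ) : ℤ)) rfl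
    (heckeForm hp (Gform a b))
  have hTmem : (⇑(heckeForm hp (Gform a b)) : ℍ → ℂ) ∈ S23.niceSub := levelOne_mem_niceSub _
  -- the key identity among nice functions
  have hkey : (⟨⇑(heckeForm hp (Gform a b)), hTmem⟩ : S23.niceSub) =
      ∑ i ∈ Finset.range (a + b + 1), P.coeff i • ((nE ^ 3) ^ i * nD ^ (a + b - i)) := by
    apply Subtype.ext
    funext z
    rw [show ((⟨⇑(heckeForm hp (Gform a b)), hTmem⟩ : S23.niceSub) : ℍ → ℂ) z =
      heckeForm hp (Gform a b) z from rfl, hP z]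
    simp only [AddSubmonoidClass.coe_finsetSum, Subalgebra.coe_smul, Subalgebra.coe_mul,
      Subalgebra.coe_pow, Finset.sum_apply, Pi.smul_apply, Pi.mul_apply, Pi.pow_apply,
      smul_eq_mul]
    rw [Polynomial.eval_eq_sum_range' (Nat.lt_succ_of_le hPdeg), Finset.mul_sum]
    refine Finset.sum_congr rfl fun i hi => ?_
    have hi' : i ≤ a + b := Nat.lt_succ_iff.mp (Finset.mem_range.mp hi)
    have hpow : ModularForm.discriminant z ^ (a + b) =
        ModularForm.discriminant z ^ i * ModularForm.discriminant z ^ (a + b - i) := by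
      rw [← pow_add]
      congr 1
      omega
    show _ = P.coeff i * ((E₄ z ^ 3) ^ i * ModularForm.discriminant z ^ (a + b - i))
    rw [← LevelOne.jFun_mul_discriminant z, mul_pow, hpow]
    ring
  have hq : qExpansion 1 (⇑(heckeForm hp (Gform a b)) : ℍ → ℂ) =
      ∑ i ∈ Finset.range (a + b + 1), P.coeff i • (psA ^ i * psB ^ (a + b - i)) := by
    have h := congrArg S23.qHom hkey
    rw [S23.qHom_apply, map_sum] at h
    rw [h]
    refine Finset.sum_congr rfl fun i _ => ?_
    rw [map_smul, map_mul, map_pow, qHom_nE_cube, map_pow, qHom_nD]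
  have hcoef : ∀ m : ℕ, PowerSeries.coeff m (qExpansion 1 (⇑(heckeForm hp (Gform a b)) : ℍ → ℂ)) =
      PowerSeries.coeff (m * p) (psA ^ a * psB ^ b) +
        if p ∣ m then (p : ℂ) ^ ((12 * ((a + b : ℕ) : ℤ)) - 1) *
          PowerSeries.coeff (m / p) (psA ^ a * psB ^ b) else 0 := by
    intro m
    have h := ModularFormClass.qCoeff_heckeT (Gform a b) one_mem_strictPeriods_SL hp.ne_zero m
    rw [ModularForm.coeffHeckeT_apply] at h
    simp only [ModularFormClass.qCoeff] at h
    rw [qExpansion_Gform] at h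
    exact h
  refine ⟨fun i => (p : ℂ) * P.coeff i, fun m => ?_⟩
  have hsum : (∑ i ∈ Finset.range (a + b + 1),
      ((p : ℂ) * P.coeff i) • (psA ^ i * psB ^ (a + b - i))) =
      (p : ℂ) • ∑ i ∈ Finset.range (a + b + 1), P.coeff i • (psA ^ i * psB ^ (a + b - i)) := by
    rw [Finset.smul_sum]
    refine Finset.sum_congr rfl fun i _ => ?_
    rw [mul_smul]
  have hp0 : (p : ℂ) ≠ 0 := Nat.cast_ne_zero.mpr hp.ne_zero
  have hpp : (p : ℂ) * (p : ℂ) ^ ((12 * ((a + b : ℕ) : ℤ)) - 1) = (p : ℂ) ^ (12 * (a + b)) := by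
    rw [← zpow_one_add₀ hp0, ← zpow_natCast]
    congr 1
    push_cast
    ring
  rw [hsum, PowerSeries.coeff_smul, smul_eq_mul, ← hq, hcoef m]
  split_ifs with hdvd
  · rw [← hpp]
    ring
  · ring

end Fermat.Agent.S28.HK

end
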