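/-
S28 block [E], POWER-SUM (HK/PS) hedge route to `AnalyticInput p`: shared definitions of the
formal half.  Owner: helper60.  Namespace `Fermat.Agent.S28.PS`.

Variable `t` with `q = t^p`: `σ = qExpand ℂ p`, `τ_b = twist (ζ^b)` (`ζ` a primitive `p`-th root
of unity in `ℂ`).  Formal conjugates (index type `Option (Fin p)`, `none` = the cusp `∞`):
* `xfam`: `x_∞ = σ (j(q^p)) = j(t^(p²))`, `x_b = τ_b (j) = j(ζ^b t)`;
* `yfam`: `y_∞ = σ (p¹² Δ(q^p)/Δ(q))`, `y_b = τ_b (Δ(q)/Δ(q^p)) = Δ(ζ^b t)/Δ(t^p)`.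
`Sj = ℂ[j(t^p)]`.
-/
import Fermat.Agent.S28.HeckeDefs
import Fermat.Agent.S28.Twist

set_option autoImplicit false

noncomputable section

namespace Fermat.Agent.S28.PS

open ModularCurve Polynomial

variable (p : ℕ) [NeZero p] (ζ : ℂˣ)

/-- The formal conjugates of `j`. -/
def xfam : Option (Fin p) → LaurentSeries ℂ
  | none => qExpand ℂ p (jd ℂ p)
  | some b => twist (ζ ^ (b : ℕ)) (jd ℂ 1)

/-- The formal conjugates of the modular unit. -/
def yfam : Option (Fin p) → LaurentSeries ℂ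
  | none => qExpand ℂ p (wInf ℂ p)
  | some b => twist (ζ ^ (b : ℕ)) (invU ℂ p)

@[simp] theorem xfam_none : xfam p ζ none = qExpand ℂ p (jd ℂ p) := rfl

@[simp] theorem xfam_some (b : Fin p) : xfam p ζ (some b) = twist (ζ ^ (b : ℕ)) (jd ℂ 1) := rfl

@[simp] theorem yfam_none : yfam p ζ none = qExpand ℂ p (wInf ℂ p) := rfl

@[simp] theorem yfam_some (b : Fin p) : yfam p ζ (some b) = twist (ζ ^ (b : ℕ)) (invU ℂ p) := rfl

/-- The subalgebra `ℂ[j(t^p)]` of `ℂ((t))`. -/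
def Sj : Subalgebra ℂ (LaurentSeries ℂ) := (Polynomial.aeval (jd ℂ p)).range

omit [NeZero p] in
theorem mem_Sj {f : LaurentSeries ℂ} :
    f ∈ Sj p ↔ ∃ Q : Polynomial ℂ, Polynomial.aeval (jd ℂ p) Q = f := by
  rw [Sj, AlgHom.mem_range]

end Fermat.Agent.S28.PS

end
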