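/-
S28 block [E], POWER-SUM (HK/PS) hedge route, block [G] (glue).  Owner: helper34.

From the three "conjugate" polynomials over `ℂ((t))` with coefficients in `ℂ[j(t^p)]` — the two
root polynomials `∏ (X - x_i)`, `∏ (X - y_i)` and the Lagrange polynomial `H` — produce the pinned
interface `AnalyticInput p`.
-/
import Fermat.Agent.S28.PSDefs

set_option autoImplicit false

noncomputable section

namespace Fermat.Agent.S28.PS

open ModularCurve Polynomial

/-- `ev2` commutes with algebra homomorphisms (local copy, to keep the closure small). -/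
theorem asm_ev2_algHom {K A B : Type*} [CommRing K] [CommRing A] [CommRing B] [Algebra K A]
    [Algebra K B] (φ : A →ₐ[K] B) (P : Polynomial (Polynomial K)) (x y : A) :
    φ (ev2 P x y) = ev2 P (φ x) (φ y) := by
  unfold ev2
  rw [Polynomial.eval_map, Polynomial.eval_map]
  have h := Polynomial.hom_eval₂ P
    ((Polynomial.aeval y : Polynomial K →ₐ[K] A) : Polynomial K →+* A) (φ : A →+* B) x
  have hcomp : (φ : A →+* B).comp
        ((Polynomial.aeval y : Polynomial K →ₐ[K] A) : Polynomial K →+* A) =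
      ((Polynomial.aeval (φ y) : Polynomial K →ₐ[K] B) : Polynomial K →+* B) := by
    rw [Polynomial.aeval_algHom]
    rfl
  rw [hcomp] at h
  exact h

/-- The coefficient homomorphism `Q ↦ Q(j(t^p))`. -/
def asmCoeffHom (p : ℕ) : Polynomial ℂ →+* LaurentSeries ℂ :=
  ((Polynomial.aeval (jd ℂ p) : Polynomial ℂ →ₐ[ℂ] LaurentSeries ℂ) :
    Polynomial ℂ →+* LaurentSeries ℂ)

theorem asm_ev2_jd (p : ℕ) (P : Polynomial (Polynomial ℂ)) (x : LaurentSeries ℂ) :
    ev2 P x (jd ℂ p) = (P.map (asmCoeffHom p)).eval x := rfl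

theorem asm_ev2_derivative_jd (p : ℕ) (P : Polynomial (Polynomial ℂ)) (x : LaurentSeries ℂ) :
    ev2 (derivative P) x (jd ℂ p) = (derivative (P.map (asmCoeffHom p))).eval x := by
  rw [asm_ev2_jd, Polynomial.derivative_map]

theorem asm_mem_lifts (p : ℕ) (P : Polynomial (LaurentSeries ℂ)) (h : ∀ k, P.coeff k ∈ Sj p) :
    P ∈ Polynomial.lifts (asmCoeffHom p) := by
  rw [Polynomial.lifts_iff_coeff_lifts]
  intro k
  obtain ⟨Q, hQ⟩ := (mem_Sj p).1 (h k)
  exact ⟨Q, hQ⟩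

/-- Lifting of a monic product `∏ (X - C (x i))` with coefficients in `ℂ[j(t^p)]`. -/
theorem asm_exists_monic_lift (p : ℕ) {ι : Type*} [Fintype ι] (x : ι → LaurentSeries ℂ)
    (h : ∀ k, (∏ i, (X - C (x i))).coeff k ∈ Sj p) :
    ∃ Q : Polynomial (Polynomial ℂ), Q.map (asmCoeffHom p) = ∏ i, (X - C (x i)) ∧
      Q.Monic ∧ Q.natDegree = Fintype.card ι := by
  have hmonic : (∏ i, (X - C (x i))).Monic := Polynomial.monic_prod_X_sub_C x Finset.univ
  obtain ⟨Q, hQ, hdeg, hQm⟩ :=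
    Polynomial.lifts_and_natDegree_eq_and_monic (asm_mem_lifts p _ h) hmonic
  refine ⟨Q, hQ, hQm, ?_⟩
  rw [hdeg, Polynomial.natDegree_finsetProd_X_sub_C_eq_card]
  rfl

theorem asm_eval_prod_self {ι : Type*} [Fintype ι] (x : ι → LaurentSeries ℂ) (i : ι) :
    (∏ i, (X - C (x i))).eval (x i) = 0 := by
  rw [Polynomial.eval_prod]
  exact Finset.prod_eq_zero (Finset.mem_univ i) (by simp)

variable (p : ℕ) [NeZero p] (ζ : ℂˣ)

theorem asm_qExpand_jd_one : qExpand ℂ p (jd ℂ 1) = jd ℂ p := by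
  rw [qExpand_jd, mul_one]

/-- The index of the trivial twist. -/
def asmIdx : Option (Fin p) := some ⟨0, Nat.pos_of_ne_zero (NeZero.ne p)⟩

theorem xfam_asmIdx : xfam p ζ (asmIdx p) = jd ℂ 1 := by
  simp [asmIdx, xfam, twist_one]

theorem yfam_asmIdx : yfam p ζ (asmIdx p) = invU ℂ p := by
  simp [asmIdx, yfam, twist_one]

theorem ps_assemble (p : ℕ) [NeZero p] (ζ : ℂˣ)
    (hΦ : ∀ k, (∏ i, (X - C (xfam p ζ i))).coeff k ∈ Sj p)
    (hW : ∀ k, (∏ i, (X - C (yfam p ζ i))).coeff k ∈ Sj p)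
    (H : Polynomial (LaurentSeries ℂ)) (hH : ∀ k, H.coeff k ∈ Sj p)
    (hdeg : H.degree < Fintype.card (Option (Fin p)))
    (hev : ∀ i, H.eval (xfam p ζ i) =
      yfam p ζ i * (derivative (∏ i, (X - C (xfam p ζ i)))).eval (xfam p ζ i)) :
    AnalyticInput p := by
  have hcard : Fintype.card (Option (Fin p)) = p + 1 := by simp
  obtain ⟨Φc, hΦc, hΦm, hΦd⟩ := asm_exists_monic_lift p (xfam p ζ) hΦ
  obtain ⟨Wc, hWc, hWm, hWd⟩ := asm_exists_monic_lift p (yfam p ζ) hW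
  obtain ⟨Hc, hHc, hHd⟩ := Polynomial.exists_degree_eq_of_mem_lifts (asm_mem_lifts p H hH)
  -- the injective algebra hom `σ`
  have hσinj : Function.Injective (qExpandAlgHomC ℂ p) := fun a b hab =>
    qExpand_injective p (by simpa using hab)
  have hσj1 : qExpandAlgHomC ℂ p (jd ℂ 1) = jd ℂ p := by
    rw [qExpandAlgHomC_apply, asm_qExpand_jd_one]
  have hσjp : qExpandAlgHomC ℂ p (jd ℂ p) = xfam p ζ none := rfl
  have hσw : qExpandAlgHomC ℂ p (wInf ℂ p) = yfam p ζ none := rfl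
  refine ⟨Φc, Wc, Hc, hΦm, by rw [hΦd, hcard], hWm, by rw [hWd, hcard], ?_, ?_, ?_, ?_, ?_, ?_, ?_⟩
  · -- natDegree Hc ≤ p
    have h1 : Hc.degree < ((p + 1 : ℕ) : WithBot ℕ) := by
      rw [hHd]
      rw [hcard] at hdeg
      exact_mod_cast hdeg
    by_cases h0 : Hc = 0
    · rw [h0, Polynomial.natDegree_zero]
      exact Nat.zero_le _
    · have h2 := (Polynomial.natDegree_lt_iff_degree_lt h0).2 h1
      omega
  · -- Φ(j(q^p), j(q)) = 0
    apply hσinj
    rw [asm_ev2_algHom, hσj1, hσjp, map_zero, asm_ev2_jd, hΦc]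
    exact asm_eval_prod_self _ _
  · -- Φ(j(q), j(q^p)) = 0
    rw [asm_ev2_jd, hΦc, ← xfam_asmIdx p ζ]
    exact asm_eval_prod_self _ _
  · -- W(wInf, j(q)) = 0
    apply hσinj
    rw [asm_ev2_algHom, hσj1, hσw, map_zero, asm_ev2_jd, hWc]
    exact asm_eval_prod_self _ _
  · -- W(invU, j(q^p)) = 0
    rw [asm_ev2_jd, hWc, ← yfam_asmIdx p ζ]
    exact asm_eval_prod_self _ _
  · -- H(j(q^p), j(q)) = wInf * Φ'(j(q^p), j(q))
    apply hσinj
    rw [map_mul, asm_ev2_algHom, asm_ev2_algHom, hσj1, hσjp, hσw, asm_ev2_jd, hHc, asm_ev2_derivative_jd, hΦc]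
    exact hev none
  · -- H(j(q), j(q^p)) = invU * Φ'(j(q), j(q^p))
    rw [asm_ev2_jd, hHc, asm_ev2_derivative_jd, hΦc, ← xfam_asmIdx p ζ, ← yfam_asmIdx p ζ]
    exact hev (asmIdx p)

end Fermat.Agent.S28.PS

end
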