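/-
S28 block [E], POWER-SUM (HK/PS) hedge route, block [N] (owner: helper34): abstract Newton step.
Namespace `Fermat.Agent.S28.PS`.  Wrapper around helper6's generic `newton_prod_coeff_mem`
(`S28/ENewtonGen.lean`, Mathlib only).
-/
import Fermat.Agent.S28.ENewtonGen

set_option autoImplicit false

namespace Fermat.Agent.S28.PS

/-- **Newton step**: if all power sums `∑ i, z i ^ k` (`k > 0`) lie in a `ℂ`-subalgebra `S`, then
so do all coefficients of `∏ i, (X - C (z i))`. -/
theorem ps_prod_coeff_mem {T : Type*} [CommRing T] [Algebra ℂ T] (S : Subalgebra ℂ T)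
    {ι : Type*} [Fintype ι] (z : ι → T) (h : ∀ k : ℕ, 0 < k → ∑ i, z i ^ k ∈ S) :
    ∀ k : ℕ, (∏ i, (Polynomial.X - Polynomial.C (z i))).coeff k ∈ S :=
  fun k => newton_prod_coeff_mem S z (fun n hn _ => h n hn) k

end Fermat.Agent.S28.PS
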