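/-
S28 block [E], POWER-SUM (HK/PS) hedge route, block [C] (owner: helper34): the abstract core.
Namespace `Fermat.Agent.S28.PS`.

Given finite families `x y : ι → T` in a field `T ⊇ ℂ` with `y i ≠ 0`, such that all mixed power
sums `∑ i, (x i * y i) ^ a * y i ^ b` lie in a `ℂ`-subalgebra `S` in which `∏ y i` is invertible
as soon as it belongs to it, the polynomials `∏ (X - C (x i))`, `∏ (X - C (y i))` and the
Lagrange numerator `H` with `H (x i) = y i * Φ' (x i)` have coefficients in `S`.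
-/
import Fermat.Agent.S28.PSNewton

set_option autoImplicit false

namespace Fermat.Agent.S28.PS

open Polynomial

/-- Mixed sums against a polynomial with coefficients in `S`. -/
theorem PSCore_sum_mem {T : Type*} [Field T] [Algebra ℂ T] (S : Subalgebra ℂ T) {ι : Type*}
    [Fintype ι] (x y : ι → T) (hps : ∀ a b : ℕ, ∑ i, (x i * y i) ^ a * y i ^ b ∈ S)
    (Q : Polynomial ↥S) (a : ℕ) :
    ∑ i, (x i * y i) ^ a * (Q.map (algebraMap ↥S T)).eval (y i) ∈ S := by
  have h1 : ∀ i, (x i * y i) ^ a * (Q.map (algebraMap ↥S T)).eval (y i) =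
      ∑ m ∈ Finset.range (Q.natDegree + 1),
        (Q.coeff m : T) * ((x i * y i) ^ a * y i ^ m) := by
    intro i
    rw [Polynomial.eval_map, Polynomial.eval₂_eq_sum_range, Finset.mul_sum]
    refine Finset.sum_congr rfl fun m _ => ?_
    have : algebraMap ↥S T (Q.coeff m) = (Q.coeff m : T) := rfl
    rw [this]
    ring
  simp_rw [h1]
  rw [Finset.sum_comm]
  refine S.sum_mem fun m _ => ?_
  rw [← Finset.mul_sum]
  exact S.mul_mem (Q.coeff m).2 (hps a m)

theorem ps_core {T : Type*} [Field T] [Algebra ℂ T] (S : Subalgebra ℂ T) {ι : Type*} [Fintype ι]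
    [DecidableEq ι] (x y : ι → T) (hy : ∀ i, y i ≠ 0) (hx : Function.Injective x)
    (hps : ∀ a b : ℕ, ∑ i, (x i * y i) ^ a * y i ^ b ∈ S)
    (hprod : ∏ i, y i ∈ S → (∏ i, y i)⁻¹ ∈ S) :
    (∀ k, (∏ i, (X - C (x i))).coeff k ∈ S) ∧ (∀ k, (∏ i, (X - C (y i))).coeff k ∈ S) ∧
      ∃ H : Polynomial T, (∀ k, H.coeff k ∈ S) ∧ H.degree < Fintype.card ι ∧
        ∀ i, H.eval (x i) = y i * (Polynomial.derivative (∏ i, (X - C (x i)))).eval (x i) := by
  classical
  have _ := hx
  -- (1) `W := ∏ (X - C (y i))` has coefficients in `S`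
  have hW : ∀ k, (∏ i, (X - C (y i))).coeff k ∈ S :=
    ps_prod_coeff_mem S y (fun k _ => by simpa using hps 0 k)
  -- (2) the product of the `y i` and its inverse lie in `S`
  have hW0 : (∏ i, (X - C (y i))).coeff 0 = (-1) ^ Fintype.card ι * ∏ i, y i := by
    rw [Polynomial.coeff_zero_eq_eval_zero, Polynomial.eval_prod]
    simp only [eval_sub, eval_X, eval_C, zero_sub]
    rw [Finset.prod_neg]
    simp
  have hP : ∏ i, y i ∈ S := by
    have h1 : ∏ i, y i = (-1) ^ Fintype.card ι * (∏ i, (X - C (y i))).coeff 0 := by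
      rw [hW0, ← mul_assoc, ← pow_add, ← two_mul, pow_mul]
      simp
    rw [h1]
    exact S.mul_mem (S.pow_mem (S.neg_mem S.one_mem) _) (hW 0)
  have hPinv : (∏ i, y i)⁻¹ ∈ S := hprod hP
  have hPne : ∏ i, y i ≠ 0 := Finset.prod_ne_zero_iff.mpr fun i _ => hy i
  -- the polynomial `R` with `R (y i) = (y i)⁻¹`
  obtain ⟨R₀, hR₀⟩ : ∃ R₀ : Polynomial ↥S, R₀.map (algebraMap ↥S T) =
      C ((-1) ^ (Fintype.card ι + 1) * (∏ i, y i)⁻¹) * (∏ i, (X - C (y i))).divX := by
    have hmem : C ((-1) ^ (Fintype.card ι + 1) * (∏ i, y i)⁻¹) * (∏ i, (X - C (y i))).divX ∈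
        Polynomial.lifts (algebraMap ↥S T) := by
      rw [Polynomial.lifts_iff_coeff_lifts]
      intro k
      rw [Polynomial.coeff_C_mul, Polynomial.coeff_divX]
      exact ⟨⟨_, S.mul_mem (S.mul_mem (S.pow_mem (S.neg_mem S.one_mem) _) hPinv) (hW (k + 1))⟩,
        rfl⟩
    exact hmem
  have hR : ∀ i, (R₀.map (algebraMap ↥S T)).eval (y i) = (y i)⁻¹ := by
    intro i
    have hroot : (∏ j, (X - C (y j))).eval (y i) = 0 := by
      rw [Polynomial.eval_prod]
      exact Finset.prod_eq_zero (Finset.mem_univ i) (by simp)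
    have hdiv := congrArg (Polynomial.eval (y i))
      (Polynomial.divX_mul_X_add (∏ j, (X - C (y j))))
    rw [hroot, eval_add, eval_mul, eval_X, eval_C, hW0] at hdiv
    rw [hR₀, eval_mul, eval_C]
    have h2 : (∏ j, (X - C (y j))).divX.eval (y i) =
        -((-1) ^ Fintype.card ι * ∏ i, y i) / y i := by
      rw [eq_div_iff (hy i)]
      linear_combination hdiv
    have h3 : ((-1 : T) ^ Fintype.card ι) * (-1) ^ Fintype.card ι = 1 := by
      rw [← pow_add, ← two_mul, pow_mul]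
      simp
    have h5 : (∏ i, y i)⁻¹ * ∏ i, y i = 1 := inv_mul_cancel₀ hPne
    rw [h2, pow_succ]
    calc (-1 : T) ^ Fintype.card ι * -1 * (∏ i, y i)⁻¹ *
          (-((-1) ^ Fintype.card ι * ∏ i, y i) / y i)
        = ((-1 : T) ^ Fintype.card ι * (-1) ^ Fintype.card ι) *
            ((∏ i, y i)⁻¹ * ∏ i, y i) / y i := by ring
      _ = (y i)⁻¹ := by rw [h3, h5]; simp
  -- (3) power sums of `x` and mixed power sums
  have hxk : ∀ k : ℕ, ∑ i, x i ^ k ∈ S := by
    intro k
    have h := PSCore_sum_mem S x y hps (R₀ ^ k) k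
    have h4 : ∀ i, (x i * y i) ^ k * ((R₀ ^ k).map (algebraMap ↥S T)).eval (y i) = x i ^ k := by
      intro i
      rw [Polynomial.map_pow, eval_pow, hR i, mul_pow, inv_pow, mul_assoc,
        mul_inv_cancel₀ (pow_ne_zero k (hy i)), mul_one]
    rw [Finset.sum_congr rfl (fun i _ => h4 i)] at h
    exact h
  have hyxk : ∀ k : ℕ, ∑ i, y i * x i ^ k ∈ S := by
    intro k
    have h := PSCore_sum_mem S x y hps (X * R₀ ^ k) k
    have h4 : ∀ i, (x i * y i) ^ k * ((X * R₀ ^ k).map (algebraMap ↥S T)).eval (y i) =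
        y i * x i ^ k := by
      intro i
      rw [Polynomial.map_mul, Polynomial.map_pow, Polynomial.map_X, eval_mul, eval_X, eval_pow,
        hR i, mul_pow, inv_pow]
      have := pow_ne_zero k (hy i)
      field_simp
    rw [Finset.sum_congr rfl (fun i _ => h4 i)] at h
    exact h
  -- (4), (5)
  refine ⟨ps_prod_coeff_mem S x (fun k _ => hxk k), hW, lagNum x y,
    lagNum_coeff_mem S x y (fun n _ _ => hxk n) (fun k _ => hyxk k), ?_, lagNum_eval x y⟩
  rw [Polynomial.degree_lt_iff_coeff_zero]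
  intro m hm
  rw [lagNum_coeff, Finset.Icc_eq_empty (by omega), Finset.sum_empty]

end Fermat.Agent.S28.PS
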