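/-
S28 block [E], POWER-SUM (HK/PS) hedge route, block [D] (owner: helper77): decimation.
Sum of the twists by the `p`-th roots of unity, twist-invariance of series in `t^p`, and the
power series shapes of `secL` and `qExpand`.
-/
import Fermat.Agent.S28.PSDefs

set_option autoImplicit false

noncomputable section

namespace Fermat.Agent.S28.PS

open ModularCurve Polynomial

/-- Coefficient of a natural number multiple of a Laurent series. -/
theorem PSDecim.coeff_natCast_mul (p : ℕ) (g : LaurentSeries ℂ) (m : ℤ) :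
    ((p : LaurentSeries ℂ) * g).coeff m = (p : ℂ) * g.coeff m := by
  rw [← nsmul_eq_mul, HahnSeries.coeff_nsmul, Pi.smul_apply, nsmul_eq_mul]

/-- **Decimation.** The sum of the twists of `f` by the `p`-th roots of unity is
`p · (∑ₙ f_{pn} t^{pn})`. -/
theorem ps_sum_twist (p : ℕ) [NeZero p] (ζ : ℂˣ) (hζ : IsPrimitiveRoot (ζ : ℂ) p)
    (f : LaurentSeries ℂ) :
    ∑ b : Fin p, twist (ζ ^ (b : ℕ)) f = qExpand ℂ p ((p : LaurentSeries ℂ) * secL ℂ p 0 f) := by
  ext n
  rw [HahnSeries.coeff_sum]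
  have hterm : ∀ b : Fin p, (twist (ζ ^ (b : ℕ)) f).coeff n =
      ((ζ : ℂ) ^ n) ^ (b : ℕ) * f.coeff n := by
    intro b
    rw [twist_coeff]
    congr 1
    rw [Units.val_zpow_eq_zpow_val, Units.val_pow_eq_pow_val, ← zpow_natCast (ζ : ℂ) (b : ℕ),
      ← zpow_mul, ← zpow_natCast ((ζ : ℂ) ^ n) (b : ℕ), ← zpow_mul, mul_comm]
  rw [Finset.sum_congr rfl fun b _ => hterm b, ← Finset.sum_mul,
    Fin.sum_univ_eq_sum_range (fun b => ((ζ : ℂ) ^ n) ^ b) p]
  by_cases hn : (p : ℤ) ∣ n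
  · obtain ⟨m, rfl⟩ := hn
    rw [qExpand_coeff_mul, PSDecim.coeff_natCast_mul, secL_coeff, add_zero]
    have h1 : (ζ : ℂ) ^ ((p : ℤ) * m) = 1 := by
      rw [zpow_mul, zpow_natCast, hζ.pow_eq_one, one_zpow]
    rw [h1]
    simp
  · rw [qExpand_coeff_of_not_dvd p _ hn]
    have h1 : (ζ : ℂ) ^ n ≠ 1 := fun h => hn ((hζ.zpow_eq_one_iff_dvd n).mp h)
    have h2 : ((ζ : ℂ) ^ n) ^ p = 1 := by
      rw [← zpow_natCast, ← zpow_mul, mul_comm, zpow_mul, zpow_natCast, hζ.pow_eq_one, one_zpow]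
    have h3 : (∑ i ∈ Finset.range p, ((ζ : ℂ) ^ n) ^ i) * ((ζ : ℂ) ^ n - 1) = 0 := by
      rw [geom_sum_mul, h2, sub_self]
    rcases mul_eq_zero.mp h3 with h4 | h4
    · rw [h4, zero_mul]
    · exact absurd (sub_eq_zero.mp h4) h1

/-- Series in `t^p` are fixed by the twists by `p`-th roots of unity. -/
theorem ps_twist_qExpand (p : ℕ) [NeZero p] (ζ : ℂˣ) (hζ : IsPrimitiveRoot (ζ : ℂ) p) (b : ℕ)
    (f : LaurentSeries ℂ) : twist (ζ ^ b) (qExpand ℂ p f) = qExpand ℂ p f := by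
  have h1 : (ζ ^ b) ^ p = 1 := by
    apply Units.ext
    rw [Units.val_pow_eq_pow_val, Units.val_pow_eq_pow_val, Units.val_one, ← pow_mul, mul_comm,
      pow_mul, hζ.pow_eq_one, one_pow]
  rw [twist_qExpand, h1, twist_one, RingHom.id_apply]

/-- The `0`-th section of a power series. -/
theorem ps_secL_ofPowerSeries (p : ℕ) [NeZero p] (g : PowerSeries ℂ) :
    secL ℂ p 0 (HahnSeries.ofPowerSeries ℤ ℂ g) =
      HahnSeries.ofPowerSeries ℤ ℂ (PowerSeries.mk fun m => PowerSeries.coeff (m * p) g) := by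
  ext n
  rw [secL_coeff, add_zero]
  rcases le_or_gt 0 n with hn | hn
  · lift n to ℕ using hn
    rw [HahnSeries.ofPowerSeries_apply_coeff, PowerSeries.coeff_mk,
      show ((p : ℤ) * (n : ℤ)) = ((n * p : ℕ) : ℤ) by push_cast; ring,
      HahnSeries.ofPowerSeries_apply_coeff]
  · have hp : (0 : ℤ) < (p : ℤ) := by exact_mod_cast Nat.pos_of_ne_zero (NeZero.ne p)
    rw [ofPowerSeries_coeff_of_neg _ hn, ofPowerSeries_coeff_of_neg _ (by nlinarith)]

/-- `qExpand` of a power series. -/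
theorem ps_qExpand_ofPowerSeries (p : ℕ) [NeZero p] (g : PowerSeries ℂ) :
    qExpand ℂ p (HahnSeries.ofPowerSeries ℤ ℂ g) =
      HahnSeries.ofPowerSeries ℤ ℂ
        (PowerSeries.mk fun m => if p ∣ m then PowerSeries.coeff (m / p) g else 0) := by
  have hp0 : p ≠ 0 := NeZero.ne p
  have hp : (0 : ℤ) < (p : ℤ) := by exact_mod_cast Nat.pos_of_ne_zero hp0
  ext n
  by_cases hdvd : (p : ℤ) ∣ n
  · obtain ⟨m, rfl⟩ := hdvd
    rw [qExpand_coeff_mul]
    rcases le_or_gt 0 m with hm | hm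
    · lift m to ℕ using hm
      rw [HahnSeries.ofPowerSeries_apply_coeff,
        show ((p : ℤ) * (m : ℤ)) = ((p * m : ℕ) : ℤ) by push_cast; ring,
        HahnSeries.ofPowerSeries_apply_coeff, PowerSeries.coeff_mk, if_pos (Dvd.intro m rfl),
        Nat.mul_div_cancel_left m (Nat.pos_of_ne_zero hp0)]
    · rw [ofPowerSeries_coeff_of_neg _ hm, ofPowerSeries_coeff_of_neg _ (by nlinarith)]
  · rw [qExpand_coeff_of_not_dvd p _ hdvd]
    rcases le_or_gt 0 n with hn | hn
    · lift n to ℕ using hn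
      rw [HahnSeries.ofPowerSeries_apply_coeff, PowerSeries.coeff_mk,
        if_neg fun h => hdvd (Int.natCast_dvd_natCast.mpr h)]
    · rw [ofPowerSeries_coeff_of_neg _ hn]

end Fermat.Agent.S28.PS

end
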