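/-
S28 block [E], POWER-SUM (HK/PS) hedge route, block [O] (owner: helper77): orders.
The formal conjugates `xfam` are pairwise distinct, the `yfam` are nonzero, and the product of
the `yfam` is invertible inside `ℂ[j(t^p)]` as soon as it lies in it.
-/
import Fermat.Agent.S28.PSDefs
import Fermat.Agent.S28.PSDecim
import Fermat.Agent.S28.ClaimA

set_option autoImplicit false
set_option linter.unusedVariables false

noncomputable section

namespace Fermat.Agent.S28.PS

open ModularCurve Polynomial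

namespace PSOrders

/-- Lower bound for the support of a finite product of Laurent series. -/
theorem coeff_prod_of_lt {ι : Type*} (s : Finset ι) (f : ι → LaurentSeries ℂ) (a : ι → ℤ)
    (h : ∀ i ∈ s, ∀ n < a i, (f i).coeff n = 0) :
    ∀ n < ∑ i ∈ s, a i, (∏ i ∈ s, f i).coeff n = 0 := by
  classical
  induction s using Finset.induction_on with
  | empty =>
    intro n hn
    rw [Finset.sum_empty] at hn
    rw [Finset.prod_empty, HahnSeries.coeff_one, if_neg (ne_of_lt hn)]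
  | insert i s hi ih =>
    intro n hn
    rw [Finset.sum_insert hi] at hn
    rw [Finset.prod_insert hi]
    exact ClaimA.coeff_mul_of_lt (h i (Finset.mem_insert_self i s))
      (ih fun j hj => h j (Finset.mem_insert_of_mem hj)) hn

theorem DeltaL_coeff_of_lt {n : ℤ} (hn : n < 1) : (DeltaL ℂ).coeff n = 0 :=
  ClaimA.coeff_single_one_mul_ofPowerSeries_of_lt 1 _ hn

theorem DeltaL_coeff_one : (DeltaL ℂ).coeff 1 = 1 := by
  unfold DeltaL
  rw [ClaimA.coeff_single_one_mul_ofPowerSeries_self, ← PowerSeries.coeff_zero_eq_constantCoeff,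
    PowerSeries.coeff_map, PowerSeries.coeff_zero_eq_constantCoeff, constantCoeff_dedekindEtaUnit,
    map_one]

theorem DeltaLInv_coeff_of_lt {n : ℤ} (hn : n < -1) : (DeltaLInv ℂ).coeff n = 0 :=
  ClaimA.coeff_single_one_mul_ofPowerSeries_of_lt (-1) _ hn

theorem DeltaLInv_coeff_neg_one : (DeltaLInv ℂ).coeff (-1) = 1 := by
  unfold DeltaLInv
  rw [ClaimA.coeff_single_one_mul_ofPowerSeries_self, ← PowerSeries.coeff_zero_eq_constantCoeff,
    PowerSeries.coeff_map, PowerSeries.coeff_zero_eq_constantCoeff,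
    constantCoeff_dedekindEtaUnitInv, map_one]

theorem DeltaL_ne_zero : DeltaL ℂ ≠ 0 := by
  refine HahnSeries.ne_zero_of_coeff_ne_zero (g := 1) ?_
  rw [DeltaL_coeff_one]
  exact one_ne_zero

theorem DeltaLInv_ne_zero : DeltaLInv ℂ ≠ 0 := by
  refine HahnSeries.ne_zero_of_coeff_ne_zero (g := -1) ?_
  rw [DeltaLInv_coeff_neg_one]
  exact one_ne_zero

variable (p : ℕ) [NeZero p]

theorem uL_eq : uL ℂ p = qExpand ℂ p (DeltaL ℂ) * DeltaLInv ℂ := by
  unfold uL
  rw [dif_neg (NeZero.ne p)]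

theorem natCast_ne_zero : (p : LaurentSeries ℂ) ≠ 0 := by
  rw [← map_natCast (algebraMap ℂ (LaurentSeries ℂ)) p]
  exact (_root_.map_ne_zero _).mpr (Nat.cast_ne_zero.mpr (NeZero.ne p))

theorem qExpand_ne_zero {f : LaurentSeries ℂ} (hf : f ≠ 0) : qExpand ℂ p f ≠ 0 := fun h =>
  hf (qExpand_injective (R := ℂ) p (by rw [h, map_zero]))

theorem wInf_ne_zero : wInf ℂ p ≠ 0 := by
  unfold wInf
  rw [uL_eq]
  exact mul_ne_zero (pow_ne_zero 12 (natCast_ne_zero p))
    (mul_ne_zero (qExpand_ne_zero p DeltaL_ne_zero) DeltaLInv_ne_zero)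

theorem invU_ne_zero : invU ℂ p ≠ 0 := by
  unfold invU
  exact mul_ne_zero DeltaL_ne_zero (qExpand_ne_zero p DeltaLInv_ne_zero)

theorem wInf_coeff_of_lt {n : ℤ} (hn : n < (p : ℤ) * 1 + -1) : (wInf ℂ p).coeff n = 0 := by
  unfold wInf
  rw [← Nat.cast_pow, PSDecim.coeff_natCast_mul, uL_eq]
  have hx : ∀ i < (p : ℤ) * 1, (qExpand ℂ p (DeltaL ℂ)).coeff i = 0 := fun i hi =>
    ClaimA.qExpand_coeff_of_lt p (fun i hi => DeltaL_coeff_of_lt hi) hi
  have hy : ∀ j < (-1 : ℤ), (DeltaLInv ℂ).coeff j = 0 := fun j hj => DeltaLInv_coeff_of_lt hj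
  rw [ClaimA.coeff_mul_of_lt hx hy hn, mul_zero]

theorem invU_coeff_of_lt {n : ℤ} (hn : n < 1 + (p : ℤ) * (-1)) : (invU ℂ p).coeff n = 0 := by
  unfold invU
  have hx : ∀ i < (1 : ℤ), (DeltaL ℂ).coeff i = 0 := fun i hi => DeltaL_coeff_of_lt hi
  have hy : ∀ j < (p : ℤ) * (-1), (qExpand ℂ p (DeltaLInv ℂ)).coeff j = 0 := fun j hj =>
    ClaimA.qExpand_coeff_of_lt p (fun i hi => DeltaLInv_coeff_of_lt hi) hj
  exact ClaimA.coeff_mul_of_lt hx hy hn

/-- The product of the `yfam` has no terms of negative degree. -/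
theorem prod_yfam_coeff_of_neg (ζ : ℂˣ) {n : ℤ} (hn : n < 0) :
    (∏ i, yfam p ζ i).coeff n = 0 := by
  rw [Fintype.prod_option]
  have h1 : ∀ i < (p : ℤ) * ((p : ℤ) * 1 + -1), (yfam p ζ none).coeff i = 0 := by
    intro i hi
    rw [yfam_none]
    exact ClaimA.qExpand_coeff_of_lt p (fun i hi => wInf_coeff_of_lt p hi) hi
  have h2 : ∀ i < ∑ _b : Fin p, (1 + (p : ℤ) * (-1)),
      (∏ b : Fin p, yfam p ζ (some b)).coeff i = 0 :=
    coeff_prod_of_lt Finset.univ (fun b => yfam p ζ (some b)) (fun _ => 1 + (p : ℤ) * (-1))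
      (fun b _ n hn => by rw [yfam_some, twist_coeff, invU_coeff_of_lt p hn, mul_zero])
  refine ClaimA.coeff_mul_of_lt h1 h2 ?_
  rw [Finset.sum_const, Finset.card_univ, Fintype.card_fin, nsmul_eq_mul]
  have h3 : (p : ℤ) * ((p : ℤ) * 1 + -1) + (p : ℤ) * (1 + (p : ℤ) * (-1)) = 0 := by ring
  rw [h3]
  exact hn

end PSOrders

/-- The formal conjugates of `j` are pairwise distinct. -/
theorem ps_xfam_injective (p : ℕ) [NeZero p] (hp : p.Prime) (ζ : ℂˣ)
    (hζ : IsPrimitiveRoot (ζ : ℂ) p) : Function.Injective (xfam p ζ) := by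
  have hp2 : (2 : ℤ) ≤ (p : ℤ) := by exact_mod_cast hp.two_le
  have hnone : (xfam p ζ none).coeff (-((p : ℤ) * (p : ℤ))) = 1 := by
    rw [xfam_none, jd_eq, show -((p : ℤ) * (p : ℤ)) = (p : ℤ) * ((p : ℤ) * (-1)) by ring,
      qExpand_coeff_mul, qExpand_coeff_mul, coeff_jqModC_neg_one]
  have hsome : ∀ b : Fin p, (xfam p ζ (some b)).coeff (-((p : ℤ) * (p : ℤ))) = 0 := by
    intro b
    rw [xfam_some, twist_coeff, jd_one, coeff_jqModC_of_lt ℂ (by nlinarith), mul_zero]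
  have hsome1 : ∀ b : Fin p,
      (xfam p ζ (some b)).coeff (-1) = (((ζ ^ (b : ℕ))⁻¹ : ℂˣ) : ℂ) := by
    intro b
    rw [xfam_some, twist_coeff, jd_one, coeff_jqModC_neg_one, mul_one, zpow_neg_one]
  intro i i' h
  cases i with
  | none =>
    cases i' with
    | none => rfl
    | some b' =>
      exfalso
      have h1 := hnone
      rw [h, hsome b'] at h1
      exact zero_ne_one h1
  | some b =>
    cases i' with
    | none =>
      exfalso
      have h1 := hnone
      rw [← h, hsome b] at h1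
      exact zero_ne_one h1
    | some b' =>
      have h1 := hsome1 b
      rw [h, hsome1 b'] at h1
      have h2 : ζ ^ (b : ℕ) = ζ ^ (b' : ℕ) := (inv_injective (Units.ext h1)).symm
      have h3 : (ζ : ℂ) ^ (b : ℕ) = (ζ : ℂ) ^ (b' : ℕ) := by
        rw [← Units.val_pow_eq_pow_val, ← Units.val_pow_eq_pow_val, h2]
      exact congrArg some (Fin.ext (hζ.pow_inj b.2 b'.2 h3))

/-- The formal conjugates of the modular unit are nonzero. -/
theorem ps_yfam_ne_zero (p : ℕ) [NeZero p] (hp : p.Prime) (ζ : ℂˣ) (i : Option (Fin p)) :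
    yfam p ζ i ≠ 0 := by
  cases i with
  | none =>
    rw [yfam_none]
    exact PSOrders.qExpand_ne_zero p (PSOrders.wInf_ne_zero p)
  | some b =>
    rw [yfam_some]
    intro h
    exact PSOrders.invU_ne_zero p (twist_injective (ζ ^ (b : ℕ)) (by rw [h, map_zero]))

/-- If the product of the `yfam` is a polynomial in `j(t^p)`, it is a nonzero constant, so its
inverse is a polynomial in `j(t^p)` as well. -/
theorem ps_prod_yfam_inv_mem (p : ℕ) [NeZero p] (hp : p.Prime) (ζ : ℂˣ) :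
    ∏ i, yfam p ζ i ∈ Sj p → (∏ i, yfam p ζ i)⁻¹ ∈ Sj p := by
  intro hmem
  rw [mem_Sj] at hmem ⊢
  obtain ⟨Q, hQ⟩ := hmem
  have hY0 : ∏ i, yfam p ζ i ≠ 0 :=
    Finset.prod_ne_zero_iff.mpr fun i _ => ps_yfam_ne_zero p hp ζ i
  have hQ' : Polynomial.aeval (jd ℂ p) Q = qExpand ℂ p (Polynomial.aeval (jqModC ℂ) Q) := by
    rw [jd_eq]
    exact Polynomial.aeval_algHom_apply (qExpandAlgHomC ℂ p) (jqModC ℂ) Q
  have hp0 : (0 : ℤ) < (p : ℤ) := by exact_mod_cast Nat.pos_of_ne_zero (NeZero.ne p)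
  have hdeg : Q.natDegree = 0 := by
    by_contra hne
    have h1 : (∏ i, yfam p ζ i).coeff ((p : ℤ) * (-(Q.natDegree : ℤ))) = Q.coeff Q.natDegree := by
      rw [← hQ, hQ', qExpand_coeff_mul, ClaimA.coeff_aeval_jqModC]
    have hpos : (0 : ℤ) < (Q.natDegree : ℤ) := by exact_mod_cast Nat.pos_of_ne_zero hne
    have hlt : (p : ℤ) * (-(Q.natDegree : ℤ)) < 0 := by nlinarith
    rw [PSOrders.prod_yfam_coeff_of_neg p ζ hlt] at h1
    have hQ0 : Q ≠ 0 := by
      rintro rfl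
      exact hne Polynomial.natDegree_zero
    exact (Polynomial.leadingCoeff_ne_zero.mpr hQ0) h1.symm
  have hc : Q = C (Q.coeff 0) := Polynomial.eq_C_of_natDegree_eq_zero hdeg
  rw [hc, Polynomial.aeval_C] at hQ
  have hc0 : Q.coeff 0 ≠ 0 := by
    intro h0
    rw [h0, map_zero] at hQ
    exact hY0 hQ.symm
  refine ⟨C (Q.coeff 0)⁻¹, ?_⟩
  rw [Polynomial.aeval_C, ← hQ, map_inv₀]

end Fermat.Agent.S28.PS

end
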