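/-
S28 block [E], power-sum hedge: the mixed power sums of the formal conjugates lie in `ℂ[j(t^p)]`.
Owner: helper60.  Namespace `Fermat.Agent.S28.PS`.
-/
import Fermat.Agent.S28.PSDecim
import Fermat.Agent.S28.HKInput

set_option autoImplicit false

noncomputable section

namespace Fermat.Agent.S28.PS

open ModularCurve Polynomial

/-! ### Three ring identities -/

theorem psP_alg1 {T : Type*} [CommRing T] (x u v w P : T) (a b : ℕ) (h : u * v = 1) :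
    (x * u * (P ^ 12 * (v * w))) ^ a * (P ^ 12 * (v * w)) ^ b
      = P ^ (12 * (a + b)) * (x ^ a * v ^ b) * w ^ (a + b) := by
  calc (x * u * (P ^ 12 * (v * w))) ^ a * (P ^ 12 * (v * w)) ^ b
      = (u * v) ^ a * (P ^ (12 * (a + b)) * (x ^ a * v ^ b) * w ^ (a + b)) := by ring
    _ = P ^ (12 * (a + b)) * (x ^ a * v ^ b) * w ^ (a + b) := by rw [h, one_pow, one_mul]

theorem psP_alg2 {T : Type*} [CommRing T] (x u v w : T) (a b : ℕ) (h : u * v = 1) :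
    (x * u * (v * w)) ^ a * (v * w) ^ b = x ^ a * v ^ b * w ^ (a + b) := by
  calc (x * u * (v * w)) ^ a * (v * w) ^ b
      = (u * v) ^ a * (x ^ a * v ^ b * w ^ (a + b)) := by ring
    _ = x ^ a * v ^ b * w ^ (a + b) := by rw [h, one_pow, one_mul]

theorem psP_alg3 {T : Type*} [CommRing T] (c A B Bi : T) (i m : ℕ) (h : B * Bi = 1) :
    c * (A ^ i * B ^ m) * (Bi ^ i * Bi ^ m) = c * (A * Bi) ^ i := by
  calc c * (A ^ i * B ^ m) * (Bi ^ i * Bi ^ m)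
      = c * (A * Bi) ^ i * (B * Bi) ^ m := by ring
    _ = c * (A * Bi) ^ i := by rw [h, one_pow, mul_one]

/-- `Δ(q) · Δ(q)⁻¹ = 1` as Laurent series. -/
theorem psP_DeltaL_mul_inv (R : Type*) [CommRing R] : DeltaL R * DeltaLInv R = 1 := by
  unfold DeltaL DeltaLInv
  rw [mul_mul_mul_comm, HahnSeries.single_mul_single, ← map_mul, ← map_mul,
    dedekindEtaUnit_mul_inv, map_one, map_one, mul_one, mul_one]
  rfl

/-- `HahnSeries.C c ∈ ℂ[j(t^p)]`. -/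
theorem psP_C_mem_Sj (p : ℕ) (c : ℂ) : (HahnSeries.C c : LaurentSeries ℂ) ∈ Sj p := by
  have h : (HahnSeries.C c : LaurentSeries ℂ) = algebraMap ℂ (LaurentSeries ℂ) c := by
    rw [algebraMap_laurentSeries_eq_single]
    rfl
  rw [h]
  exact Subalgebra.algebraMap_mem _ c

theorem psP_jd_mem_Sj (p : ℕ) : jd ℂ p ∈ Sj p :=
  (mem_Sj p).mpr ⟨Polynomial.X, Polynomial.aeval_X _⟩

/-- The Hecke identity `p^(12n) V_p F + p U_p F = G` transported to Laurent series. -/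
theorem psP_hecke_laurent (p : ℕ) [NeZero p] (g G : PowerSeries ℂ) (n : ℕ)
    (h : ∀ m : ℕ, (p : ℂ) * PowerSeries.coeff (m * p) g +
        (if p ∣ m then (p : ℂ) ^ (12 * n) * PowerSeries.coeff (m / p) g else 0)
        = PowerSeries.coeff m G) :
    (p : LaurentSeries ℂ) ^ (12 * n) * qExpand ℂ p (HahnSeries.ofPowerSeries ℤ ℂ g) +
      (p : LaurentSeries ℂ) * secL ℂ p 0 (HahnSeries.ofPowerSeries ℤ ℂ g) =
    HahnSeries.ofPowerSeries ℤ ℂ G := by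
  rw [ps_qExpand_ofPowerSeries, ps_secL_ofPowerSeries]
  have hp : (p : LaurentSeries ℂ) = HahnSeries.ofPowerSeries ℤ ℂ (PowerSeries.C (p : ℂ)) := by
    rw [HahnSeries.ofPowerSeries_C, map_natCast]
  rw [hp, ← map_pow, ← map_mul, ← map_mul, ← map_add]
  congr 1
  ext m
  rw [map_add, ← map_pow, PowerSeries.coeff_C_mul, PowerSeries.coeff_C_mul, PowerSeries.coeff_mk,
    PowerSeries.coeff_mk, ← h m, mul_ite, mul_zero, add_comm]

/-- The term at `∞`. -/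
theorem psP_inf (p : ℕ) [NeZero p] (A B Bi P : LaurentSeries ℂ) (a b : ℕ)
    (hBiB : Bi * B = 1) (hσP : qExpand ℂ p P = P) :
    (qExpand ℂ p (qExpand ℂ p (A * Bi)) * qExpand ℂ p (P ^ 12 * (qExpand ℂ p B * Bi))) ^ a *
        qExpand ℂ p (P ^ 12 * (qExpand ℂ p B * Bi)) ^ b
      = qExpand ℂ p (P ^ (12 * (a + b)) * qExpand ℂ p (A ^ a * B ^ b) * Bi ^ (a + b)) := by
  have h1 : qExpand ℂ p (qExpand ℂ p Bi) * qExpand ℂ p (qExpand ℂ p B) = 1 := by
    rw [← map_mul, ← map_mul, hBiB, map_one, map_one]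
  simp only [map_mul, map_pow, hσP]
  generalize qExpand ℂ p (qExpand ℂ p A) = x at *
  generalize qExpand ℂ p (qExpand ℂ p Bi) = u at *
  generalize qExpand ℂ p (qExpand ℂ p B) = v at *
  generalize qExpand ℂ p Bi = w at *
  calc (x * u * (P ^ 12 * (v * w))) ^ a * (P ^ 12 * (v * w)) ^ b
      = (u * v) ^ a * (P ^ (12 * (a + b)) * (x ^ a * v ^ b) * w ^ (a + b)) := by ring
    _ = P ^ (12 * (a + b)) * (x ^ a * v ^ b) * w ^ (a + b) := by rw [h1, one_pow, one_mul]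

/-- The finite terms. -/
theorem psP_fin (p : ℕ) [NeZero p] (τ : LaurentSeries ℂ →+* LaurentSeries ℂ)
    (A B Bi : LaurentSeries ℂ) (a b : ℕ)
    (hBiB : Bi * B = 1) (hτE : τ (qExpand ℂ p Bi) = qExpand ℂ p Bi) :
    (τ (A * Bi) * τ (B * qExpand ℂ p Bi)) ^ a * τ (B * qExpand ℂ p Bi) ^ b
      = τ (A ^ a * B ^ b) * qExpand ℂ p (Bi ^ (a + b)) := by
  have h1 : τ Bi * τ B = 1 := by
    rw [← map_mul, hBiB, map_one]
  simp only [map_mul, map_pow, hτE]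
  generalize τ A = x at *
  generalize τ Bi = u at *
  generalize τ B = v at *
  generalize qExpand ℂ p Bi = w at *
  calc (x * u * (v * w)) ^ a * (v * w) ^ b
      = (u * v) ^ a * (x ^ a * v ^ b * w ^ (a + b)) := by ring
    _ = x ^ a * v ^ b * w ^ (a + b) := by rw [h1, one_pow, one_mul]

/-- **Mixed power sums.** -/
theorem ps_powersum_mem (p : ℕ) [NeZero p] (hp : p.Prime) (ζ : ℂˣ)
    (hζ : IsPrimitiveRoot (ζ : ℂ) p) (a b : ℕ) :
    ∑ i, (xfam p ζ i * yfam p ζ i) ^ a * yfam p ζ i ^ b ∈ Sj p := by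
  rcases Nat.eq_zero_or_pos (a + b) with h0 | hpos
  · obtain ⟨rfl, rfl⟩ : a = 0 ∧ b = 0 := by omega
    simp only [pow_zero, mul_one, Finset.sum_const, nsmul_eq_mul]
    exact Subalgebra.natCast_mem _ _
  obtain ⟨A, hA⟩ : ∃ A : LaurentSeries ℂ, A = HahnSeries.ofPowerSeries ℤ ℂ HK.psA := ⟨_, rfl⟩
  obtain ⟨B, hB⟩ : ∃ B : LaurentSeries ℂ, B = DeltaL ℂ := ⟨_, rfl⟩
  obtain ⟨Bi, hBi⟩ : ∃ Bi : LaurentSeries ℂ, Bi = DeltaLInv ℂ := ⟨_, rfl⟩
  obtain ⟨P, hP⟩ : ∃ P : LaurentSeries ℂ, P = (p : LaurentSeries ℂ) := ⟨_, rfl⟩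
  have hBBi : B * Bi = 1 := by rw [hB, hBi]; exact psP_DeltaL_mul_inv ℂ
  have hBiB : Bi * B = 1 := by rw [mul_comm]; exact hBBi
  have hj : jd ℂ 1 = A * Bi := by
    calc jd ℂ 1 = (jd ℂ 1 * B) * Bi := by rw [mul_assoc, hBBi, mul_one]
      _ = A * Bi := by rw [hB, HK.jd_mul_DeltaL, hA]
  have hjp : jd ℂ p = qExpand ℂ p (jd ℂ 1) := by rw [jd_eq, jd_one]
  have hw : wInf ℂ p = P ^ 12 * (qExpand ℂ p B * Bi) := by
    rw [hP, hB, hBi]
    unfold wInf uL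
    rw [dif_neg (NeZero.ne p)]
  have hu : invU ℂ p = B * qExpand ℂ p Bi := by rw [hB, hBi]; rfl
  have hσP : qExpand ℂ p P = P := by rw [hP]; exact map_natCast (qExpand ℂ p) p
  -- the term at `∞`
  have hinf : (xfam p ζ none * yfam p ζ none) ^ a * yfam p ζ none ^ b
      = qExpand ℂ p (P ^ (12 * (a + b)) * qExpand ℂ p (A ^ a * B ^ b) * Bi ^ (a + b)) := by
    rw [xfam_none, yfam_none, hjp, hw, hj]
    exact psP_inf p A B Bi P a b hBiB hσP
  -- the finite terms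
  have hfin : ∀ c : Fin p, (xfam p ζ (some c) * yfam p ζ (some c)) ^ a * yfam p ζ (some c) ^ b
      = twist (ζ ^ (c : ℕ)) (A ^ a * B ^ b) * qExpand ℂ p (Bi ^ (a + b)) := by
    intro c
    have h2 : twist (ζ ^ (c : ℕ)) (qExpand ℂ p Bi) = qExpand ℂ p Bi :=
      ps_twist_qExpand p ζ hζ c Bi
    rw [xfam_some, yfam_some, hj, hu]
    exact psP_fin p (twist (ζ ^ (c : ℕ))) A B Bi a b hBiB h2
  -- the Hecke identity
  obtain ⟨c, hc⟩ := HK.hecke_formal p hp a b hpos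
  obtain ⟨g, hg⟩ : ∃ g : PowerSeries ℂ, g = HK.psA ^ a * HK.psB ^ b := ⟨_, rfl⟩
  obtain ⟨G, hG⟩ : ∃ G : PowerSeries ℂ,
      G = ∑ i ∈ Finset.range (a + b + 1), c i • (HK.psA ^ i * HK.psB ^ (a + b - i)) := ⟨_, rfl⟩
  rw [← hg, ← hG] at hc
  have hF : A ^ a * B ^ b = HahnSeries.ofPowerSeries ℤ ℂ g := by
    rw [hg, map_mul, map_pow, map_pow, HK.ofPowerSeries_psB, hA, hB]
  have hkey : P ^ (12 * (a + b)) * qExpand ℂ p (A ^ a * B ^ b)
      + P * secL ℂ p 0 (A ^ a * B ^ b) = HahnSeries.ofPowerSeries ℤ ℂ G := by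
    rw [hF, hP]
    exact psP_hecke_laurent p g G (a + b) hc
  -- `Bi^n * G = ∑ c_i j^i`
  have hGj : HahnSeries.ofPowerSeries ℤ ℂ G * Bi ^ (a + b)
      = ∑ i ∈ Finset.range (a + b + 1), HahnSeries.C (c i) * jd ℂ 1 ^ i := by
    rw [hG, map_sum, Finset.sum_mul]
    refine Finset.sum_congr rfl fun i hi => ?_
    have hi' : i ≤ a + b := Nat.lt_succ_iff.mp (Finset.mem_range.mp hi)
    rw [PowerSeries.smul_eq_C_mul, map_mul, HahnSeries.ofPowerSeries_C, map_mul, map_pow, map_pow,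
      HK.ofPowerSeries_psB, ← hA, ← hB, hj]
    have hsplit : Bi ^ (a + b) = Bi ^ i * Bi ^ (a + b - i) := by
      rw [← pow_add, Nat.add_sub_cancel' hi']
    rw [hsplit]
    exact psP_alg3 _ _ _ _ _ _ hBBi
  -- assemble
  have htotal : ∑ i, (xfam p ζ i * yfam p ζ i) ^ a * yfam p ζ i ^ b
      = ∑ i ∈ Finset.range (a + b + 1), HahnSeries.C (c i) * jd ℂ p ^ i := by
    rw [Fintype.sum_option, hinf]
    simp only [hfin]
    rw [← Finset.sum_mul, ps_sum_twist p ζ hζ, ← map_mul, ← map_add, ← hP]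
    have : P ^ (12 * (a + b)) * qExpand ℂ p (A ^ a * B ^ b) * Bi ^ (a + b)
        + P * secL ℂ p 0 (A ^ a * B ^ b) * Bi ^ (a + b)
        = ∑ i ∈ Finset.range (a + b + 1), HahnSeries.C (c i) * jd ℂ 1 ^ i := by
      rw [← add_mul, hkey, hGj]
    rw [this, map_sum]
    refine Finset.sum_congr rfl fun i _ => ?_
    rw [map_mul, map_pow, qExpand_C, hjp]
  rw [htotal]
  refine Subalgebra.sum_mem _ fun i _ => ?_
  exact Subalgebra.mul_mem _ (psP_C_mem_Sj p _) (Subalgebra.pow_mem _ (psP_jd_mem_Sj p) i)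

end Fermat.Agent.S28.PS

end
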