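/-
S28 block [E], power-sum (HK/PS) hedge: `AnalyticInput p` from the formal Hecke identity
`HK.hecke_formal`, by Newton's identities on the formal conjugates.
Owner: helper60.  Namespace `Fermat.Agent.S28.PS`.
-/
import Fermat.Agent.S28.PSPowerSums
import Fermat.Agent.S28.PSOrders
import Fermat.Agent.S28.PSCore
import Fermat.Agent.S28.PSAssemble

set_option autoImplicit false

noncomputable section

namespace Fermat.Agent.S28.PS

open ModularCurve Polynomial

/-- **The analytic input, via power sums.** -/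
theorem analyticInput_ps (p : ℕ) [NeZero p] (hp : p.Prime) : AnalyticInput p := by
  have hp0 : p ≠ 0 := NeZero.ne p
  obtain ⟨ζ, hζu⟩ : ∃ ζ : ℂˣ, (ζ : ℂ) = Complex.exp (2 * Real.pi * Complex.I / p) :=
    ⟨Units.mk0 _ (Complex.exp_ne_zero _), rfl⟩
  have hζ : IsPrimitiveRoot (ζ : ℂ) p := by
    rw [hζu]
    exact Complex.isPrimitiveRoot_exp p hp0
  obtain ⟨hΦ, hW, H, hH, hdeg, hev⟩ :=
    ps_core (Sj p) (xfam p ζ) (yfam p ζ) (ps_yfam_ne_zero p hp ζ) (ps_xfam_injective p hp ζ hζ)
      (ps_powersum_mem p hp ζ hζ) (ps_prod_yfam_inv_mem p hp ζ)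
  exact ps_assemble p ζ hΦ hW H hH hdeg hev

end Fermat.Agent.S28.PS

end
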